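import Fermat.Agent.S28.H98_UnramDVR

/-!
# Integral closure of a DVR in an unramified simple extension (helper98, S28/W3 support)

`O` a DVR with fraction field `K`, `L ⊇ K` a field, `θ : L` a root of a monic `f : O[X]` with
irreducible reduction. Then `O[θ] ≅ O[X]/(f)` (so `O[θ]` is a DVR with the uniformizer of `O`), and
every element of `K[θ]` integral over `O` lies in `O[θ]`.
-/

set_option autoImplicit false

open Polynomial IsLocalRing

namespace Fermat.Agent.S28.H98

variable {O : Type*} [CommRing O] [IsDomain O] [IsDiscreteValuationRing O]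
variable {L : Type*} [Field L] [Algebra O L]

/-- The evaluation map `O[X]/(f) → L`, `root ↦ θ`. -/
noncomputable def evalRoot (f : O[X]) (θ : L) (hθ : aeval θ f = 0) : AdjoinRoot f →ₐ[O] L :=
  AdjoinRoot.liftAlgHom f (Algebra.ofId O L) θ hθ

@[simp] theorem evalRoot_mk (f : O[X]) (θ : L) (hθ : aeval θ f = 0) (g : O[X]) :
    evalRoot f θ hθ (AdjoinRoot.mk f g) = aeval θ g := rfl

@[simp] theorem evalRoot_of (f : O[X]) (θ : L) (hθ : aeval θ f = 0) (r : O) :
    evalRoot f θ hθ (AdjoinRoot.of f r) = algebraMap O L r :=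
  AdjoinRoot.liftAlgHom_of f (Algebra.ofId O L) θ hθ r

theorem evalRoot_root (f : O[X]) (θ : L) (hθ : aeval θ f = 0) :
    evalRoot f θ hθ (AdjoinRoot.root f) = θ :=
  AdjoinRoot.liftAlgHom_root f (Algebra.ofId O L) θ hθ

theorem range_evalRoot (f : O[X]) (θ : L) (hθ : aeval θ f = 0) :
    (evalRoot f θ hθ).range = Algebra.adjoin O {θ} := by
  rw [Algebra.adjoin_singleton_eq_range_aeval]
  ext x
  constructor
  · rintro ⟨b, rfl⟩
    obtain ⟨g, rfl⟩ := AdjoinRoot.mk_surjective b
    exact ⟨g, rfl⟩
  · rintro ⟨g, rfl⟩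
    exact ⟨AdjoinRoot.mk f g, rfl⟩

/-- `O[X]/(f) → L` is injective as soon as `O → L` is. -/
theorem evalRoot_injective {f : O[X]} (hf : f.Monic)
    (hirr : Irreducible (f.map (residue O))) (hOL : Function.Injective (algebraMap O L))
    (θ : L) (hθ : aeval θ f = 0) : Function.Injective (evalRoot f θ hθ) := by
  letI := isDomain_adjoinRoot hf hirr
  letI := isLocalRing_adjoinRoot hf hirr
  have hdvr := isDiscreteValuationRing_adjoinRoot hf hirr
  rw [injective_iff_map_eq_zero]
  intro b hb
  by_contra hb0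
  -- the kernel is a nonzero prime, hence the maximal ideal, which contains a uniformizer of `O`
  have hprime : (RingHom.ker (evalRoot f θ hθ).toRingHom).IsPrime := RingHom.ker_isPrime _
  have hne : RingHom.ker (evalRoot f θ hθ).toRingHom ≠ ⊥ := by
    intro h
    have : b ∈ RingHom.ker (evalRoot f θ hθ).toRingHom := hb
    rw [h, Ideal.mem_bot] at this
    exact hb0 this
  have hmaxk : (RingHom.ker (evalRoot f θ hθ).toRingHom).IsMaximal :=
    hprime.isMaximal hne
  have hker : RingHom.ker (evalRoot f θ hθ).toRingHom = maximalIdeal (AdjoinRoot f) :=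
    IsLocalRing.eq_maximalIdeal hmaxk
  obtain ⟨ϖ, hϖ⟩ := IsDiscreteValuationRing.exists_irreducible O
  have hmem : AdjoinRoot.of f ϖ ∈ maximalIdeal (AdjoinRoot f) := by
    rw [maximalIdeal_adjoinRoot hf hirr]
    exact Ideal.mem_map_of_mem _ hϖ.not_isUnit
  rw [← hker] at hmem
  have h0 : algebraMap O L ϖ = 0 := by
    have : evalRoot f θ hθ (AdjoinRoot.of f ϖ) = 0 := hmem
    rwa [evalRoot_of] at this
  exact hϖ.ne_zero (hOL (by rw [h0, map_zero]))

/-- `O[X]/(f) ≃ O[θ]`. -/
noncomputable def adjoinEquiv {f : O[X]} (hf : f.Monic)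
    (hirr : Irreducible (f.map (residue O))) (hOL : Function.Injective (algebraMap O L))
    (θ : L) (hθ : aeval θ f = 0) : AdjoinRoot f ≃ₐ[O] Algebra.adjoin O {θ} :=
  (AlgEquiv.ofInjective (evalRoot f θ hθ) (evalRoot_injective hf hirr hOL θ hθ)).trans
    (Subalgebra.equivOfEq _ _ (range_evalRoot f θ hθ))

@[simp] theorem coe_adjoinEquiv {f : O[X]} (hf : f.Monic)
    (hirr : Irreducible (f.map (residue O))) (hOL : Function.Injective (algebraMap O L))
    (θ : L) (hθ : aeval θ f = 0) (b : AdjoinRoot f) :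
    (adjoinEquiv hf hirr hOL θ hθ b : L) = evalRoot f θ hθ b := rfl

theorem algebraMap_injective_of_tower {O : Type*} [CommRing O] (K : Type*) [Field K]
    [Algebra O K] [IsFractionRing O K] {L : Type*} [Field L] [Algebra O L] [Algebra K L]
    [IsScalarTower O K L] : Function.Injective (algebraMap O L) := by
  rw [IsScalarTower.algebraMap_eq O K L]
  exact (algebraMap K L).injective.comp (IsFractionRing.injective O K)

variable {K : Type*} [Field K] [Algebra O K] [IsFractionRing O K] [Algebra K L]
  [IsScalarTower O K L]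

omit [IsDiscreteValuationRing O] in
/-- Clearing denominators: every element of `K[θ]` is `b / s` with `b ∈ O[θ]`, `s ∈ O ∖ 0`. -/
theorem exists_smul_mem_adjoin (θ : L) {x : L} (hx : x ∈ Algebra.adjoin K {θ}) :
    ∃ s : O, s ≠ 0 ∧ ∃ g : O[X], algebraMap O L s * x = aeval θ g := by
  rw [Algebra.adjoin_singleton_eq_range_aeval] at hx
  obtain ⟨p, rfl⟩ := hx
  obtain ⟨b, hb₁, hb₂⟩ := IsLocalization.integerNormalization_spec (nonZeroDivisors O) p
  refine ⟨b, nonZeroDivisors.ne_zero hb₁, IsLocalization.integerNormalization (nonZeroDivisors O) p, ?_⟩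
  have h1 : aeval θ (IsLocalization.integerNormalization (nonZeroDivisors O) p)
      = aeval θ ((IsLocalization.integerNormalization (nonZeroDivisors O) p).map
          (algebraMap O K)) := (aeval_map_algebraMap K θ _).symm
  have h2 : (b • p : K[X]) = (algebraMap O K b) • p := (algebraMap_smul K b p).symm
  rw [h1, hb₂, h2, map_smul, Algebra.smul_def, ← IsScalarTower.algebraMap_apply]
  rfl

/-- **Integral closure**: an element of `K[θ]` that is integral over `O` lies in `O[θ]`. -/
theorem mem_adjoin_of_isIntegral {f : O[X]} (hf : f.Monic)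
    (hirr : Irreducible (f.map (residue O))) (θ : L) (hθ : aeval θ f = 0) {x : L}
    (hxint : IsIntegral O x) (hx : x ∈ Algebra.adjoin K {θ}) : x ∈ Algebra.adjoin O {θ} := by
  letI := isDomain_adjoinRoot hf hirr
  have hdvr := isDiscreteValuationRing_adjoinRoot hf hirr
  have hOL : Function.Injective (algebraMap O L) := algebraMap_injective_of_tower K
  have hinj := evalRoot_injective hf hirr hOL θ hθ
  set φ := evalRoot f θ hθ with hφ
  letI : Algebra (AdjoinRoot f) L := φ.toRingHom.toAlgebra
  haveI : IsScalarTower O (AdjoinRoot f) L :=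
    IsScalarTower.of_algebraMap_eq fun r => (φ.commutes r).symm
  have hxB : IsIntegral (AdjoinRoot f) x := hxint.tower_top
  obtain ⟨s, hs0, g, hsg⟩ := exists_smul_mem_adjoin (O := O) (K := K) θ hx
  -- the fraction field of `B = O[X]/(f)` and its embedding into `L`
  let M := FractionRing (AdjoinRoot f)
  have hinj' : Function.Injective (Algebra.ofId (AdjoinRoot f) L) := hinj
  let ψ : M →ₐ[AdjoinRoot f] L := IsFractionRing.liftAlgHom (g := Algebra.ofId (AdjoinRoot f) L) hinj'
  have hψinj : Function.Injective ψ := ψ.toRingHom.injective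
  have hsB : AdjoinRoot.of f s ≠ 0 := by
    intro h
    have : algebraMap O L s = 0 := by rw [← evalRoot_of f θ hθ, h, map_zero]
    exact hs0 (hOL (by rw [this, map_zero]))
  have hsM : algebraMap (AdjoinRoot f) M (AdjoinRoot.of f s) ≠ 0 := by
    intro h
    exact hsB (IsFractionRing.injective (AdjoinRoot f) M (by rw [h, map_zero]))
  let z : M := algebraMap (AdjoinRoot f) M (AdjoinRoot.mk f g) /
    algebraMap (AdjoinRoot f) M (AdjoinRoot.of f s)
  have hsL : algebraMap O L s ≠ 0 := fun h => hs0 (hOL (by rw [h, map_zero]))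
  have hψz : ψ z = x := by
    have h1 : ψ (algebraMap (AdjoinRoot f) M (AdjoinRoot.mk f g)) = aeval θ g := by
      rw [ψ.commutes]; rfl
    have h2 : ψ (algebraMap (AdjoinRoot f) M (AdjoinRoot.of f s)) = algebraMap O L s := by
      rw [ψ.commutes]; exact evalRoot_of f θ hθ s
    rw [show ψ z = ψ (algebraMap (AdjoinRoot f) M (AdjoinRoot.mk f g)) /
      ψ (algebraMap (AdjoinRoot f) M (AdjoinRoot.of f s)) from map_div₀ ψ _ _, h1, h2, ← hsg,
      mul_div_cancel_left₀ _ hsL]
  have hzint : IsIntegral (AdjoinRoot f) z := by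
    rw [← isIntegral_algHom_iff ψ hψinj, hψz]
    exact hxB
  obtain ⟨y, hy⟩ := IsIntegrallyClosed.algebraMap_eq_of_integral hzint
  have : x = φ y := by
    rw [← hψz, ← hy, ψ.commutes]; rfl
  rw [this, ← range_evalRoot f θ hθ]
  exact ⟨y, rfl⟩

end Fermat.Agent.S28.H98
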