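import Fermat.Agent.S28.Defs

/-!
S28 / W2a (helper39): the Laurent-series toolkit on top of `Fermat.Agent.S28.Defs`.

* (T) `twist`: `twist_one`, `twist_mul`, `twist_qExpand`, `twist_single`, `twist_C`, `coeffMap_twist`
* (S) `subst`: `subst_subst`, `twist_subst`, `subst_twist`, `twist_Jconj`, `Jconj_mem_range_qExpand`
* (F) fixed series of `t ↦ ξ t`
* (D) `thetaDer`: `thetaOp` as a derivation
* (O) orders
* (J) distinctness of the `Jconj`
-/

set_option autoImplicit false

noncomputable section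

namespace Fermat.Agent.S28.H39

open ModularCurve HahnSeries Fermat.Agent.S28

variable {R : Type*} [CommRing R]

/-! ### (T) twists -/

@[simp]
theorem twist_one_apply (x : LaurentSeries R) : twist (1 : Rˣ) x = x := by
  ext n
  simp

theorem twist_one : twist (1 : Rˣ) = RingHom.id (LaurentSeries R) :=
  RingHom.ext twist_one_apply

theorem twist_mul_apply (ξ η : Rˣ) (x : LaurentSeries R) :
    twist (ξ * η) x = twist ξ (twist η x) := by
  ext n
  simp only [twist_coeff, mul_zpow, Units.val_mul, mul_assoc]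

theorem twist_mul (ξ η : Rˣ) : twist (ξ * η) = (twist ξ).comp (twist η) :=
  RingHom.ext (twist_mul_apply ξ η)

theorem twist_comm (ξ η : Rˣ) (x : LaurentSeries R) :
    twist ξ (twist η x) = twist η (twist ξ x) := by
  rw [← twist_mul_apply, ← twist_mul_apply, mul_comm]

@[simp]
theorem twist_inv_twist (ξ : Rˣ) (x : LaurentSeries R) : twist ξ⁻¹ (twist ξ x) = x := by
  rw [← twist_mul_apply, inv_mul_cancel, twist_one_apply]

@[simp]
theorem twist_twist_inv (ξ : Rˣ) (x : LaurentSeries R) : twist ξ (twist ξ⁻¹ x) = x := by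
  rw [← twist_mul_apply, mul_inv_cancel, twist_one_apply]

theorem twist_injective (ξ : Rˣ) : Function.Injective (twist ξ : LaurentSeries R → _) :=
  Function.LeftInverse.injective (twist_inv_twist ξ)

theorem twist_surjective (ξ : Rˣ) : Function.Surjective (twist ξ : LaurentSeries R → _) :=
  Function.RightInverse.surjective (twist_twist_inv ξ)

/-- `t ↦ ξ t` as a ring automorphism of `R((t))`. -/
def twistEquiv (ξ : Rˣ) : LaurentSeries R ≃+* LaurentSeries R :=
  { twist ξ with
    invFun := twist ξ⁻¹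
    left_inv := twist_inv_twist ξ
    right_inv := twist_twist_inv ξ }

@[simp]
theorem twistEquiv_apply (ξ : Rˣ) (x : LaurentSeries R) : twistEquiv ξ x = twist ξ x := rfl

@[simp]
theorem twistEquiv_symm_apply (ξ : Rˣ) (x : LaurentSeries R) :
    (twistEquiv ξ).symm x = twist ξ⁻¹ x := rfl

@[simp]
theorem twist_single (ξ : Rˣ) (n : ℤ) (r : R) :
    twist ξ (HahnSeries.single n r) = HahnSeries.single n (((ξ ^ n : Rˣ) : R) * r) := by
  ext m
  rw [twist_coeff, HahnSeries.coeff_single, HahnSeries.coeff_single]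
  split_ifs with h
  · rw [h]
  · rw [mul_zero]

@[simp]
theorem twist_C (ξ : Rˣ) (r : R) : twist ξ (HahnSeries.C r) = HahnSeries.C r := by
  show twist ξ (HahnSeries.single 0 r) = HahnSeries.single 0 r
  rw [twist_single, zpow_zero, Units.val_one, one_mul]

theorem twist_pow (ξ : Rˣ) (n : ℕ) (x : LaurentSeries R) :
    twist (ξ ^ n) x = (twist ξ)^[n] x := by
  induction n with
  | zero => simp
  | succ n ih => rw [pow_succ', twist_mul_apply, ih, Function.iterate_succ_apply']

theorem twist_qExpand (ξ : Rˣ) (e : ℕ) [NeZero e] (x : LaurentSeries R) :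
    twist ξ (qExpand R e x) = qExpand R e (twist (ξ ^ e) x) := by
  ext n
  rw [twist_coeff]
  by_cases hn : (e : ℤ) ∣ n
  · obtain ⟨m, rfl⟩ := hn
    rw [qExpand_coeff_mul, qExpand_coeff_mul, twist_coeff, zpow_mul, zpow_natCast]
  · rw [qExpand_coeff_of_not_dvd e _ hn, qExpand_coeff_of_not_dvd e _ hn, mul_zero]

theorem coeffMap_twist {S : Type*} [CommRing S] (f : R →+* S) (ξ : Rˣ) (x : LaurentSeries R) :
    coeffMap f (twist ξ x) = twist (Units.map (f : R →* S) ξ) (coeffMap f x) := by
  ext n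
  rw [coeffMap_coeff, twist_coeff, twist_coeff, coeffMap_coeff, map_mul, ← map_zpow,
    Units.coe_map]
  rfl

/-! ### (S) substitutions -/

theorem subst_one_one (x : LaurentSeries R) : subst (1 : Rˣ) 1 x = x := by
  rw [subst_apply, twist_one_apply, qExpand_one_apply]

theorem subst_one (e : ℕ) [NeZero e] (x : LaurentSeries R) :
    subst (1 : Rˣ) e x = qExpand R e x := by
  rw [subst_apply, twist_one_apply]

theorem subst_eq_twist (ξ : Rˣ) (x : LaurentSeries R) : subst ξ 1 x = twist ξ x := by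
  rw [subst_apply, qExpand_one_apply]

@[simp]
theorem subst_C (ξ : Rˣ) (e : ℕ) [NeZero e] (r : R) :
    subst ξ e (HahnSeries.C r) = HahnSeries.C r := by
  rw [subst_apply, twist_C, qExpand_C]

@[simp]
theorem subst_single (ξ : Rˣ) (e : ℕ) [NeZero e] (n : ℤ) (r : R) :
    subst ξ e (HahnSeries.single n r) =
      HahnSeries.single ((e : ℤ) * n) (((ξ ^ n : Rˣ) : R) * r) := by
  rw [subst_apply, twist_single, qExpand_single]

/-- `f(η t^f)` followed by `t ↦ ξ t^e` is `f(η ξ^f t^(e f))`. -/
theorem subst_subst (ξ η : Rˣ) (e f : ℕ) [NeZero e] [NeZero f] (x : LaurentSeries R) :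
    subst ξ e (subst η f x) = subst (η * ξ ^ f) (e * f) x := by
  rw [subst_apply, subst_apply, subst_apply, twist_qExpand, qExpand_qExpand, ← twist_mul_apply,
    mul_comm (ξ ^ f) η]

/-- `f(ξ t^e)` followed by `t ↦ η t` is `f(ξ η^e t^e)`. -/
theorem twist_subst (ξ η : Rˣ) (e : ℕ) [NeZero e] (x : LaurentSeries R) :
    twist η (subst ξ e x) = subst (ξ * η ^ e) e x := by
  rw [subst_apply, subst_apply, twist_qExpand, ← twist_mul_apply, mul_comm (η ^ e) ξ]

/-- `f(η t)` followed by `t ↦ ξ t^e` is `f(η ξ t^e)`. -/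
theorem subst_twist (ξ η : Rˣ) (e : ℕ) [NeZero e] (x : LaurentSeries R) :
    subst ξ e (twist η x) = subst (ξ * η) e x := by
  rw [subst_apply, subst_apply, ← twist_mul_apply]

theorem qExpand_subst (ξ : Rˣ) (e f : ℕ) [NeZero e] [NeZero f] (x : LaurentSeries R) :
    qExpand R e (subst ξ f x) = subst ξ (e * f) x := by
  rw [subst_apply, subst_apply, qExpand_qExpand]

theorem subst_qExpand (ξ : Rˣ) (e f : ℕ) [NeZero e] [NeZero f] (x : LaurentSeries R) :
    subst ξ e (qExpand R f x) = subst (ξ ^ f) (e * f) x := by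
  rw [subst_apply, subst_apply, twist_qExpand, qExpand_qExpand]

theorem subst_congr {ξ ξ' : Rˣ} {e e' : ℕ} [NeZero e] [NeZero e'] (hξ : ξ = ξ') (he : e = e')
    (x : LaurentSeries R) : subst ξ e x = subst ξ' e' x := by
  subst hξ; subst he; rfl

theorem subst_injective (ξ : Rˣ) (e : ℕ) [NeZero e] :
    Function.Injective (subst ξ e : LaurentSeries R → _) := fun x y h => by
  rw [subst_apply, subst_apply] at h
  exact twist_injective ξ (qExpand_injective e h)

theorem coeffMap_subst {S : Type*} [CommRing S] (f : R →+* S) (ξ : Rˣ) (e : ℕ) [NeZero e]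
    (x : LaurentSeries R) :
    coeffMap f (subst ξ e x) = subst (Units.map (f : R →* S) ξ) e (coeffMap f x) := by
  rw [subst_apply, subst_apply, coeffMap_qExpand, coeffMap_twist]

theorem subst_mem_range_qExpand (ξ : Rˣ) (e : ℕ) [NeZero e] (x : LaurentSeries R) :
    subst ξ e x ∈ (qExpand R e).range :=
  ⟨twist ξ x, rfl⟩

/-! ### the conjugates `J(ξ t^e)` -/

theorem twist_Jconj (ξ η : Rˣ) (e : ℕ) [NeZero e] :
    twist η (Jconj R ξ e) = Jconj R (ξ * η ^ e) e := by
  rw [Jconj, Jconj, twist_subst]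

theorem subst_Jconj (ξ η : Rˣ) (e f : ℕ) [NeZero e] [NeZero f] :
    subst ξ e (Jconj R η f) = Jconj R (η * ξ ^ f) (e * f) := by
  rw [Jconj, Jconj, subst_subst]

theorem qExpand_Jconj (ξ : Rˣ) (e f : ℕ) [NeZero e] [NeZero f] :
    qExpand R e (Jconj R ξ f) = Jconj R ξ (e * f) := by
  rw [Jconj, Jconj, qExpand_subst]

theorem Jconj_mem_range_qExpand (ξ : Rˣ) (e : ℕ) [NeZero e] :
    Jconj R ξ e ∈ (qExpand R e).range :=
  subst_mem_range_qExpand ξ e _

theorem Jconj_one_one : Jconj R 1 1 = jqModC R := by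
  rw [Jconj, subst_one_one]

theorem Jconj_congr {ξ ξ' : Rˣ} {e e' : ℕ} [NeZero e] [NeZero e'] (hξ : ξ = ξ') (he : e = e') :
    Jconj R ξ e = Jconj R ξ' e' := by
  subst hξ; subst he; rfl

theorem coeffMap_Jconj {S : Type*} [CommRing S] (f : R →+* S) (ξ : Rˣ) (e : ℕ) [NeZero e] :
    coeffMap f (Jconj R ξ e) = Jconj S (Units.map (f : R →* S) ξ) e := by
  rw [Jconj, Jconj, coeffMap_subst, coeffMap_jqModC]

theorem Jconj_coeff_mul (ξ : Rˣ) (e : ℕ) [NeZero e] (n : ℤ) :
    (Jconj R ξ e).coeff ((e : ℤ) * n) = ((ξ ^ n : Rˣ) : R) * (jqModC R).coeff n := by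
  rw [Jconj, subst_coeff_mul]

theorem Jconj_coeff_of_not_dvd (ξ : Rˣ) (e : ℕ) [NeZero e] {n : ℤ} (hn : ¬ (e : ℤ) ∣ n) :
    (Jconj R ξ e).coeff n = 0 :=
  subst_coeff_of_not_dvd ξ e _ hn

theorem Jconj_coeff_neg (ξ : Rˣ) (e : ℕ) [NeZero e] :
    (Jconj R ξ e).coeff (-(e : ℤ)) = ((ξ⁻¹ : Rˣ) : R) := by
  have h := Jconj_coeff_mul ξ e (-1)
  rw [coeff_jqModC_neg_one, mul_one, zpow_neg_one, mul_neg_one] at h
  exact h

theorem Jconj_coeff_of_lt (ξ : Rˣ) (e : ℕ) [NeZero e] {n : ℤ} (hn : n < -(e : ℤ)) :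
    (Jconj R ξ e).coeff n = 0 := by
  by_cases hd : (e : ℤ) ∣ n
  · obtain ⟨m, rfl⟩ := hd
    rw [Jconj_coeff_mul, coeff_jqModC_of_lt, mul_zero]
    have he : (0 : ℤ) < e := by exact_mod_cast Nat.pos_of_ne_zero (NeZero.ne e)
    by_contra hm
    rw [not_lt] at hm
    nlinarith
  · exact Jconj_coeff_of_not_dvd ξ e hd


/-! ### (F) series fixed by `t ↦ ξ t` -/

theorem twist_qExpand_of_pow_eq_one {ξ : Rˣ} {e : ℕ} [NeZero e] (h : ξ ^ e = 1)
    (x : LaurentSeries R) : twist ξ (qExpand R e x) = qExpand R e x := by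
  rw [twist_qExpand, h, twist_one_apply]

theorem twist_subst_of_pow_eq_one {η : Rˣ} {e : ℕ} [NeZero e] (h : η ^ e = 1) (ξ : Rˣ)
    (x : LaurentSeries R) : twist η (subst ξ e x) = subst ξ e x := by
  rw [twist_subst, h, mul_one]

theorem twist_Jconj_of_pow_eq_one {η : Rˣ} {e : ℕ} [NeZero e] (h : η ^ e = 1) (ξ : Rˣ) :
    twist η (Jconj R ξ e) = Jconj R ξ e :=
  twist_subst_of_pow_eq_one h ξ _

/-- The series in `t^e` are exactly those whose coefficients vanish off the multiples of `e`. -/
theorem mem_range_qExpand_iff (e : ℕ) [NeZero e] (x : LaurentSeries R) :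
    x ∈ (qExpand R e).range ↔ ∀ n : ℤ, ¬ (e : ℤ) ∣ n → x.coeff n = 0 := by
  constructor
  · rintro ⟨y, rfl⟩ n hn
    exact qExpand_coeff_of_not_dvd e y hn
  · intro h
    have he : (1 : ℤ) ≤ e := by exact_mod_cast Nat.pos_of_ne_zero (NeZero.ne e)
    have hb : BddBelow (Function.support fun m : ℤ => x.coeff ((e : ℤ) * m)) := by
      refine ⟨min x.order 0, fun m hm => ?_⟩
      by_contra hlt
      rw [not_le] at hlt
      refine hm (HahnSeries.coeff_eq_zero_of_lt_order ?_)
      have h1 : m < x.order := lt_of_lt_of_le hlt (min_le_left _ _)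
      have h2 : m < 0 := lt_of_lt_of_le hlt (min_le_right _ _)
      nlinarith
    refine ⟨HahnSeries.ofSuppBddBelow _ hb, ?_⟩
    ext n
    by_cases hn : (e : ℤ) ∣ n
    · obtain ⟨m, rfl⟩ := hn
      rw [qExpand_coeff_mul]
      rfl
    · rw [qExpand_coeff_of_not_dvd e _ hn, h n hn]

/-- If `ξ ^ n ≠ 1` off the multiples of `e` (e.g. `ξ` a primitive `e`-th root of unity in a
domain), then the series fixed by `t ↦ ξ t` are series in `t^e`. -/
theorem mem_range_qExpand_of_twist_eq [IsDomain R] {ξ : Rˣ} {e : ℕ} [NeZero e]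
    (hξ : ∀ n : ℤ, ξ ^ n = 1 → (e : ℤ) ∣ n) {x : LaurentSeries R} (hx : twist ξ x = x) :
    x ∈ (qExpand R e).range := by
  rw [mem_range_qExpand_iff]
  intro n hn
  have h1 : ((ξ ^ n : Rˣ) : R) * x.coeff n = x.coeff n := by
    conv_rhs => rw [← hx]
    rw [twist_coeff]
  have h2 : (((ξ ^ n : Rˣ) : R) - 1) * x.coeff n = 0 := by rw [sub_mul, h1, one_mul, sub_self]
  rcases mul_eq_zero.mp h2 with h3 | h3
  · exact absurd (hξ n (Units.ext (by rw [Units.val_one]; exact sub_eq_zero.mp h3))) hn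
  · exact h3

theorem mem_range_qExpand_of_twist_eq_of_isPrimitiveRoot [IsDomain R] {ξ : Rˣ} {e : ℕ} [NeZero e]
    (hξ : IsPrimitiveRoot ξ e) {x : LaurentSeries R} (hx : twist ξ x = x) :
    x ∈ (qExpand R e).range :=
  mem_range_qExpand_of_twist_eq (fun n hn => (hξ.zpow_eq_one_iff_dvd n).mp hn) hx

theorem twist_eq_iff_mem_range_qExpand [IsDomain R] {ξ : Rˣ} {e : ℕ} [NeZero e]
    (hξ : IsPrimitiveRoot ξ e) (x : LaurentSeries R) :
    twist ξ x = x ↔ x ∈ (qExpand R e).range :=
  ⟨mem_range_qExpand_of_twist_eq_of_isPrimitiveRoot hξ, by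
    rintro ⟨y, rfl⟩
    exact twist_qExpand_of_pow_eq_one hξ.pow_eq_one y⟩

/-! ### (D) `θ = t d/dt` as a derivation -/

@[simp]
theorem thetaOp_single (n : ℤ) (r : R) :
    thetaOp (HahnSeries.single n r) = HahnSeries.single n ((n : R) * r) := by
  ext m
  rw [thetaOp_coeff, HahnSeries.coeff_single, HahnSeries.coeff_single]
  split_ifs with h
  · rw [h]
  · rw [mul_zero]

@[simp]
theorem thetaOp_C (r : R) : thetaOp (HahnSeries.C r) = 0 := by
  show thetaOp (HahnSeries.single 0 r) = 0
  rw [thetaOp_single, Int.cast_zero, zero_mul, HahnSeries.single_eq_zero]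

@[simp]
theorem thetaOp_one : thetaOp (1 : LaurentSeries R) = 0 := by
  rw [← map_one (HahnSeries.C : R →+* LaurentSeries R), thetaOp_C]

theorem thetaOp_smul (r : R) (x : LaurentSeries R) : thetaOp (r • x) = r • thetaOp x := by
  ext n
  simp only [thetaOp_coeff, HahnSeries.coeff_smul, smul_eq_mul]
  ring

/-- The structure map of the (ambient) `R`-algebra `R((t))` is `HahnSeries.C`. -/
theorem algebraMap_eq_C (r : R) : algebraMap R (LaurentSeries R) r = HahnSeries.C r := by
  have h1 : algebraMap R (PowerSeries R) r = PowerSeries.C r := by simp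
  rw [HahnSeries.algebraMap_apply', h1, HahnSeries.ofPowerSeries_C]

theorem algebraMap_eq_single (r : R) :
    algebraMap R (LaurentSeries R) r = HahnSeries.single 0 r := by
  rw [algebraMap_eq_C]
  rfl

@[simp]
theorem thetaOp_algebraMap (r : R) : thetaOp (algebraMap R (LaurentSeries R) r) = 0 := by
  rw [algebraMap_eq_C, thetaOp_C]

theorem thetaOp_C_mul (r : R) (x : LaurentSeries R) :
    thetaOp (HahnSeries.C r * x) = HahnSeries.C r * thetaOp x := by
  rw [thetaOp_mul, thetaOp_C, zero_mul, zero_add]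

/-- `θ = t d/dt` as an `R`-derivation of `R((t))`, where BOTH the domain and the codomain carry
the module structure coming from the ambient `R`-algebra structure of `R((t))` (the one
`IntermediateField R (LaurentSeries R)` and `Polynomial.aeval` use). This is the type that
unifies with `Derivation K L L` for an abstract `K`-algebra `L`. -/
def thetaDer :
    @Derivation R (LaurentSeries R) (LaurentSeries R) _ _ _ _ _ Algebra.toModule :=
  letI : Module R (LaurentSeries R) := Algebra.toModule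
  { toFun := thetaOp
    map_add' := map_add thetaOp
    map_smul' := fun r x => by
      rw [RingHom.id_apply, Algebra.smul_def, Algebra.smul_def, algebraMap_eq_C, thetaOp_C_mul]
    map_one_eq_zero' := thetaOp_one
    leibniz' := fun a b => by
      show thetaOp (a * b) = a • thetaOp b + b • thetaOp a
      rw [thetaOp_mul, smul_eq_mul, smul_eq_mul]
      ring }

@[simp]
theorem thetaDer_apply (x : LaurentSeries R) : thetaDer x = thetaOp x := rfl

/-- `θ` as a derivation with the type `Derivation R (LaurentSeries R) (LaurentSeries R)` as Lean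
elaborates it by default (codomain with the coefficientwise module structure). -/
def thetaDer' : Derivation R (LaurentSeries R) (LaurentSeries R) where
  toFun := thetaOp
  map_add' := map_add thetaOp
  map_smul' r x := by
    rw [RingHom.id_apply, Algebra.smul_def, algebraMap_eq_C, thetaOp_C_mul,
      HahnSeries.C_mul_eq_smul]
  map_one_eq_zero' := thetaOp_one
  leibniz' a b := by
    show thetaOp (a * b) = a • thetaOp b + b • thetaOp a
    rw [thetaOp_mul, smul_eq_mul, smul_eq_mul]
    ring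

@[simp]
theorem thetaDer'_apply (x : LaurentSeries R) : thetaDer' x = thetaOp x := rfl

theorem thetaOp_pow (x : LaurentSeries R) (n : ℕ) :
    thetaOp (x ^ n) = (n : LaurentSeries R) * x ^ (n - 1) * thetaOp x := by
  induction n with
  | zero => simp
  | succ n ih =>
    rw [pow_succ, thetaOp_mul, ih]
    rcases n with _ | n
    · simp
    · simp only [Nat.add_sub_cancel, Nat.cast_add, Nat.cast_one]
      ring

theorem thetaOp_natCast (n : ℕ) : thetaOp (n : LaurentSeries R) = 0 := by
  rw [← map_natCast (HahnSeries.C : R →+* LaurentSeries R), thetaOp_C]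

theorem thetaOp_natCast_mul (n : ℕ) (x : LaurentSeries R) :
    thetaOp ((n : LaurentSeries R) * x) = (n : LaurentSeries R) * thetaOp x := by
  rw [thetaOp_mul, thetaOp_natCast, zero_mul, zero_add]

/-- Chain rule: `θ (P(x)) = P'(x) θ x`. -/
theorem thetaOp_aeval (x : LaurentSeries R) (P : Polynomial R) :
    thetaOp (Polynomial.aeval x P) = Polynomial.aeval x (Polynomial.derivative P) * thetaOp x := by
  induction P using Polynomial.induction_on' with
  | add p q hp hq => rw [map_add, map_add, Polynomial.derivative_add, map_add, hp, hq, add_mul]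
  | monomial n a =>
    rw [Polynomial.aeval_monomial, thetaOp_mul, thetaOp_algebraMap, zero_mul, zero_add,
      thetaOp_pow, Polynomial.derivative_monomial, Polynomial.aeval_monomial, map_mul,
      map_natCast]
    ring

theorem thetaOp_eq_zero_iff (x : LaurentSeries R) :
    thetaOp x = 0 ↔ ∀ n : ℤ, (n : R) * x.coeff n = 0 := by
  rw [HahnSeries.ext_iff, funext_iff]
  rfl

theorem coeffMap_thetaOp {S : Type*} [CommRing S] (f : R →+* S) (x : LaurentSeries R) :
    coeffMap f (thetaOp x) = thetaOp (coeffMap f x) := by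
  ext n
  rw [coeffMap_coeff, thetaOp_coeff, thetaOp_coeff, coeffMap_coeff, map_mul, map_intCast]

/-- In characteristic `p`, the kernel of `θ` consists of the series in `t^p`. -/
theorem thetaOp_eq_zero_iff_of_charP [IsDomain R] (p : ℕ) [NeZero p] [CharP R p]
    (x : LaurentSeries R) : thetaOp x = 0 ↔ x ∈ (qExpand R p).range := by
  rw [thetaOp_eq_zero_iff, mem_range_qExpand_iff]
  constructor
  · intro h n hn
    rcases mul_eq_zero.mp (h n) with h1 | h1
    · exact absurd ((CharP.intCast_eq_zero_iff R p n).mp h1) hn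
    · exact h1
  · intro h n
    by_cases hn : (p : ℤ) ∣ n
    · rw [(CharP.intCast_eq_zero_iff R p n).mpr hn, zero_mul]
    · rw [h n hn, mul_zero]

theorem thetaOp_Jconj_coeff_neg (ξ : Rˣ) (e : ℕ) [NeZero e] :
    (thetaOp (Jconj R ξ e)).coeff (-(e : ℤ)) = -((e : R) * ((ξ⁻¹ : Rˣ) : R)) := by
  rw [thetaOp_coeff, Jconj_coeff_neg]
  push_cast
  ring

theorem thetaOp_Jconj_ne_zero (ξ : Rˣ) (e : ℕ) [NeZero e] (he : (e : R) ≠ 0) :
    thetaOp (Jconj R ξ e) ≠ 0 := by
  intro h
  have h1 := thetaOp_Jconj_coeff_neg ξ e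
  rw [h, HahnSeries.coeff_zero, eq_comm, neg_eq_zero] at h1
  exact he ((Units.mul_left_eq_zero _).mp h1)

theorem thetaOp_Jconj (ξ : Rˣ) (e : ℕ) [NeZero e] :
    thetaOp (Jconj R ξ e) = (e : LaurentSeries R) * subst ξ e (thetaOp (jqModC R)) := by
  rw [Jconj, thetaOp_subst]


/-! ### (O) orders -/

theorem orderTop_eq_coe_of {x : LaurentSeries R} {g : ℤ} (hg : x.coeff g ≠ 0)
    (h : ∀ j < g, x.coeff j = 0) : x.orderTop = (g : WithTop ℤ) :=
  HahnSeries.orderTop_eq_of_le hg fun g' hg' => by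
    by_contra hlt
    exact hg' (h g' (not_le.mp hlt))

theorem order_eq_of {x : LaurentSeries R} {g : ℤ} (hg : x.coeff g ≠ 0)
    (h : ∀ j < g, x.coeff j = 0) : x.order = g := by
  have hx : x ≠ 0 := fun h0 => hg (by rw [h0, HahnSeries.coeff_zero])
  have h1 := orderTop_eq_coe_of hg h
  rw [← HahnSeries.order_eq_orderTop_of_ne_zero hx] at h1
  exact WithTop.coe_injective h1

theorem twist_eq_zero_iff (ξ : Rˣ) (x : LaurentSeries R) : twist ξ x = 0 ↔ x = 0 :=
  map_eq_zero_iff _ (twist_injective ξ)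

theorem twist_support (ξ : Rˣ) (x : LaurentSeries R) : (twist ξ x).support = x.support :=
  twistFun_support ξ x

theorem orderTop_twist (ξ : Rˣ) (x : LaurentSeries R) : (twist ξ x).orderTop = x.orderTop := by
  by_cases hx : x = 0
  · rw [hx, map_zero]
  · have h1 : x.orderTop = (x.order : WithTop ℤ) :=
      (HahnSeries.order_eq_orderTop_of_ne_zero hx).symm
    rw [h1]
    refine orderTop_eq_coe_of ?_ ?_
    · rw [twist_coeff]
      exact fun h => HahnSeries.coeff_order_eq_zero.not.mpr hx ((Units.mul_right_eq_zero _).mp h)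
    · intro j hj
      rw [twist_coeff, HahnSeries.coeff_eq_zero_of_lt_order hj, mul_zero]

theorem order_twist (ξ : Rˣ) (x : LaurentSeries R) : (twist ξ x).order = x.order := by
  by_cases hx : x = 0
  · rw [hx, map_zero]
  · have h := orderTop_twist ξ x
    rw [← HahnSeries.order_eq_orderTop_of_ne_zero hx,
      ← HahnSeries.order_eq_orderTop_of_ne_zero ((twist_eq_zero_iff ξ x).not.mpr hx)] at h
    exact WithTop.coe_injective h

theorem qExpand_eq_zero_iff (e : ℕ) [NeZero e] (x : LaurentSeries R) :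
    qExpand R e x = 0 ↔ x = 0 :=
  map_eq_zero_iff _ (qExpand_injective e)

theorem order_qExpand (e : ℕ) [NeZero e] (x : LaurentSeries R) :
    (qExpand R e x).order = (e : ℤ) * x.order := by
  by_cases hx : x = 0
  · rw [hx, map_zero, HahnSeries.order_zero, mul_zero]
  · have he : (0 : ℤ) < e := by exact_mod_cast Nat.pos_of_ne_zero (NeZero.ne e)
    refine order_eq_of ?_ ?_
    · rw [qExpand_coeff_mul]
      exact HahnSeries.coeff_order_eq_zero.not.mpr hx
    · intro j hj
      by_cases hd : (e : ℤ) ∣ j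
      · obtain ⟨m, rfl⟩ := hd
        rw [qExpand_coeff_mul]
        exact HahnSeries.coeff_eq_zero_of_lt_order (lt_of_mul_lt_mul_left hj he.le)
      · exact qExpand_coeff_of_not_dvd e x hd

theorem orderTop_qExpand (e : ℕ) [NeZero e] (x : LaurentSeries R) :
    (qExpand R e x).orderTop = WithTop.map (fun n : ℤ => (e : ℤ) * n) x.orderTop := by
  by_cases hx : x = 0
  · rw [hx, map_zero, HahnSeries.orderTop_zero, WithTop.map_top]
  · rw [← HahnSeries.order_eq_orderTop_of_ne_zero hx,
      ← HahnSeries.order_eq_orderTop_of_ne_zero ((qExpand_eq_zero_iff e x).not.mpr hx),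
      order_qExpand, WithTop.map_coe]

theorem subst_eq_zero_iff (ξ : Rˣ) (e : ℕ) [NeZero e] (x : LaurentSeries R) :
    subst ξ e x = 0 ↔ x = 0 :=
  map_eq_zero_iff _ (subst_injective ξ e)

theorem order_subst (ξ : Rˣ) (e : ℕ) [NeZero e] (x : LaurentSeries R) :
    (subst ξ e x).order = (e : ℤ) * x.order := by
  rw [subst_apply, order_qExpand, order_twist]

theorem orderTop_subst (ξ : Rˣ) (e : ℕ) [NeZero e] (x : LaurentSeries R) :
    (subst ξ e x).orderTop = WithTop.map (fun n : ℤ => (e : ℤ) * n) x.orderTop := by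
  rw [subst_apply, orderTop_qExpand, orderTop_twist]

section Nontrivial

variable [Nontrivial R]

theorem orderTop_Jconj (ξ : Rˣ) (e : ℕ) [NeZero e] :
    (Jconj R ξ e).orderTop = ((-(e : ℤ) : ℤ) : WithTop ℤ) :=
  orderTop_eq_coe_of (by rw [Jconj_coeff_neg]; exact Units.ne_zero _)
    fun _ hj => Jconj_coeff_of_lt ξ e hj

theorem order_Jconj (ξ : Rˣ) (e : ℕ) [NeZero e] : (Jconj R ξ e).order = -(e : ℤ) :=
  order_eq_of (by rw [Jconj_coeff_neg]; exact Units.ne_zero _)
    fun _ hj => Jconj_coeff_of_lt ξ e hj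

theorem Jconj_ne_zero (ξ : Rˣ) (e : ℕ) [NeZero e] : Jconj R ξ e ≠ 0 := fun h => by
  have h1 := Jconj_coeff_neg ξ e
  rw [h, HahnSeries.coeff_zero] at h1
  exact Units.ne_zero _ h1.symm

theorem leadingCoeff_Jconj (ξ : Rˣ) (e : ℕ) [NeZero e] :
    (Jconj R ξ e).leadingCoeff = ((ξ⁻¹ : Rˣ) : R) := by
  rw [HahnSeries.leadingCoeff_eq, order_Jconj, Jconj_coeff_neg]

theorem order_Jconj_neg (ξ : Rˣ) (e : ℕ) [NeZero e] : (Jconj R ξ e).order < 0 := by
  rw [order_Jconj, neg_lt_zero]
  exact_mod_cast Nat.pos_of_ne_zero (NeZero.ne e)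

theorem order_jqModC : (jqModC R).order = -1 := by
  have h := order_Jconj (R := R) 1 1
  rwa [Jconj_one_one, Nat.cast_one] at h

/-! ### (J) distinctness of the conjugates -/

/-- `J(ξ t^e)` determines `e` and `ξ`. -/
theorem Jconj_eq_iff {ξ ξ' : Rˣ} {e e' : ℕ} [NeZero e] [NeZero e'] :
    Jconj R ξ e = Jconj R ξ' e' ↔ e = e' ∧ ξ = ξ' := by
  constructor
  · intro h
    have he : e = e' := by
      have h1 := order_Jconj ξ e
      rw [h, order_Jconj] at h1
      exact_mod_cast neg_injective h1.symm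
    subst he
    refine ⟨rfl, ?_⟩
    have h1 := Jconj_coeff_neg ξ e
    rw [h, Jconj_coeff_neg] at h1
    exact inv_injective (Units.ext h1.symm)
  · rintro ⟨rfl, rfl⟩
    rfl

theorem Jconj_injective {ξ ξ' : Rˣ} {e : ℕ} [NeZero e] (h : Jconj R ξ e = Jconj R ξ' e) :
    ξ = ξ' :=
  (Jconj_eq_iff.mp h).2

end Nontrivial

/-! ### orders of polynomials in a series with a pole -/

section Domain

variable {k : Type*} [CommRing k] [IsDomain k]

theorem orderTop_pow (x : LaurentSeries k) (n : ℕ) : (x ^ n).orderTop = n • x.orderTop := by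
  induction n with
  | zero => rw [pow_zero, zero_smul, HahnSeries.orderTop_one]
  | succ n ih => rw [pow_succ, HahnSeries.orderTop_mul, ih, succ_nsmul]

theorem order_mul' {x y : LaurentSeries k} (hx : x ≠ 0) (hy : y ≠ 0) :
    (x * y).order = x.order + y.order :=
  HahnSeries.order_mul hx hy

theorem order_pow' (x : LaurentSeries k) (n : ℕ) : (x ^ n).order = (n : ℤ) * x.order := by
  by_cases hx : x = 0
  · rcases n with _ | n
    · simp
    · rw [hx, zero_pow (Nat.succ_ne_zero n), HahnSeries.order_zero, mul_zero]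
  · have h := orderTop_pow x n
    rw [← HahnSeries.order_eq_orderTop_of_ne_zero hx,
      ← HahnSeries.order_eq_orderTop_of_ne_zero (pow_ne_zero n hx)] at h
    have h2 : (n • (x.order : WithTop ℤ)) = (((n : ℤ) * x.order : ℤ) : WithTop ℤ) := by
      rw [← WithTop.coe_nsmul, nsmul_eq_mul]
    rw [h2] at h
    exact WithTop.coe_injective h

omit [IsDomain k] in
theorem orderTop_C_of_ne_zero {c : k} (hc : c ≠ 0) :
    (HahnSeries.C c : LaurentSeries k).orderTop = 0 :=
  HahnSeries.orderTop_single hc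

/-- **A nonzero polynomial in a series with a pole has a pole of order `deg P` times as big**
(in particular it is nonzero and its order is `≤ 0`). -/
theorem orderTop_aeval_of_order_neg {x : LaurentSeries k} (hx : x.order < 0) :
    ∀ (d : ℕ) (P : Polynomial k), P ≠ 0 → P.natDegree = d →
      (Polynomial.aeval x P).orderTop = (((d : ℤ) * x.order : ℤ) : WithTop ℤ) := by
  have hx0 : x ≠ 0 := by
    rintro rfl
    simp at hx
  have hmono : ∀ (d : ℕ) (c : k), c ≠ 0 →
      (Polynomial.aeval x (Polynomial.monomial d c)).orderTop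
        = (((d : ℤ) * x.order : ℤ) : WithTop ℤ) := by
    intro d c hc
    rw [Polynomial.aeval_monomial, HahnSeries.orderTop_mul, algebraMap_eq_C,
      orderTop_C_of_ne_zero hc, zero_add, orderTop_pow,
      ← HahnSeries.order_eq_orderTop_of_ne_zero hx0, ← WithTop.coe_nsmul, nsmul_eq_mul]
  intro d
  induction d using Nat.strong_induction_on with
  | _ d ih =>
    intro P hP hd
    have hlc : P.leadingCoeff ≠ 0 := Polynomial.leadingCoeff_ne_zero.mpr hP
    have hsplit := Polynomial.eraseLead_add_monomial_natDegree_leadingCoeff P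
    rw [hd] at hsplit
    by_cases hQ : P.eraseLead = 0
    · rw [hQ, zero_add] at hsplit
      rw [← hsplit]
      exact hmono d _ hlc
    · have hlt : P.eraseLead.natDegree < d := by
        rcases Polynomial.eraseLead_natDegree_lt_or_eraseLead_eq_zero P with h | h
        · rwa [hd] at h
        · exact absurd h hQ
      have h1 := ih _ hlt P.eraseLead hQ rfl
      have h2 := hmono d _ hlc
      rw [← hsplit, map_add]
      rw [HahnSeries.orderTop_add_eq_right, h2]
      rw [h1, h2, WithTop.coe_lt_coe]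
      have : (P.eraseLead.natDegree : ℤ) < d := by exact_mod_cast hlt
      nlinarith

theorem aeval_ne_zero_of_order_neg {x : LaurentSeries k} (hx : x.order < 0) {P : Polynomial k}
    (hP : P ≠ 0) : Polynomial.aeval x P ≠ 0 := by
  intro h
  have h1 := orderTop_aeval_of_order_neg hx _ P hP rfl
  rw [h, HahnSeries.orderTop_zero] at h1
  exact WithTop.top_ne_coe h1

theorem order_aeval_of_order_neg {x : LaurentSeries k} (hx : x.order < 0) {P : Polynomial k}
    (hP : P ≠ 0) : (Polynomial.aeval x P).order = (P.natDegree : ℤ) * x.order := by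
  have h1 := orderTop_aeval_of_order_neg hx _ P hP rfl
  rw [← HahnSeries.order_eq_orderTop_of_ne_zero (aeval_ne_zero_of_order_neg hx hP)] at h1
  exact WithTop.coe_injective h1

/-- A nonzero polynomial in a series with a pole has order `≤ 0`. -/
theorem order_aeval_nonpos {x : LaurentSeries k} (hx : x.order < 0) (P : Polynomial k) :
    (Polynomial.aeval x P).order ≤ 0 := by
  by_cases hP : P = 0
  · rw [hP, map_zero, HahnSeries.order_zero]
  · rw [order_aeval_of_order_neg hx hP]
    exact mul_nonpos_of_nonneg_of_nonpos (Int.natCast_nonneg _) hx.le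

theorem aeval_injective_of_order_neg {x : LaurentSeries k} (hx : x.order < 0) :
    Function.Injective (Polynomial.aeval x : Polynomial k → LaurentSeries k) :=
  (injective_iff_map_eq_zero _).mpr fun P hP => by
    by_contra h
    exact aeval_ne_zero_of_order_neg hx h hP

theorem transcendental_of_order_neg {x : LaurentSeries k} (hx : x.order < 0) :
    Transcendental k x :=
  transcendental_iff_injective.mpr (aeval_injective_of_order_neg hx)

theorem transcendental_Jconj (ξ : kˣ) (e : ℕ) [NeZero e] : Transcendental k (Jconj k ξ e) :=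
  transcendental_of_order_neg (order_Jconj_neg ξ e)

theorem transcendental_jqModC : Transcendental k (jqModC k) := by
  have h := transcendental_Jconj (k := k) 1 1
  rwa [Jconj_one_one] at h

/-- A polynomial in `J(ξ t^e)` which has positive `t`-order is zero. -/
theorem eq_zero_of_order_pos_of_aeval {x : LaurentSeries k} (hx : x.order < 0)
    {P : Polynomial k} (h : 0 < (Polynomial.aeval x P).order) : P = 0 := by
  by_contra hP
  exact absurd (order_aeval_nonpos hx P) (not_le.mpr h)

end Domain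

section Field

variable {k : Type*} [Field k]

theorem order_inv' {x : LaurentSeries k} (hx : x ≠ 0) : (x⁻¹).order = -x.order := by
  have h1 : (x * x⁻¹).order = x.order + (x⁻¹).order := order_mul' hx (inv_ne_zero hx)
  rw [mul_inv_cancel₀ hx, HahnSeries.order_one] at h1
  linarith

theorem order_div' {x y : LaurentSeries k} (hx : x ≠ 0) (hy : y ≠ 0) :
    (x / y).order = x.order - y.order := by
  rw [div_eq_mul_inv, order_mul' hx (inv_ne_zero hy), order_inv' hy, sub_eq_add_neg]

/-- The order of a rational function of a series with a pole. -/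
theorem order_aeval_div_aeval {x : LaurentSeries k} (hx : x.order < 0) {P Q : Polynomial k}
    (hP : P ≠ 0) (hQ : Q ≠ 0) :
    (Polynomial.aeval x P / Polynomial.aeval x Q).order
      = ((P.natDegree : ℤ) - Q.natDegree) * x.order := by
  rw [order_div' (aeval_ne_zero_of_order_neg hx hP) (aeval_ne_zero_of_order_neg hx hQ),
    order_aeval_of_order_neg hx hP, order_aeval_of_order_neg hx hQ, sub_mul]

/-- `t ↦ ξ t` as a `k`-algebra automorphism of `k((t))`. -/
def twistAlgEquiv (ξ : kˣ) : LaurentSeries k ≃ₐ[k] LaurentSeries k :=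
  { twistEquiv ξ with
    commutes' := fun c => by
      show twist ξ (algebraMap k (LaurentSeries k) c) = algebraMap k (LaurentSeries k) c
      rw [algebraMap_eq_C, twist_C] }

@[simp]
theorem twistAlgEquiv_apply (ξ : kˣ) (x : LaurentSeries k) : twistAlgEquiv ξ x = twist ξ x := rfl

@[simp]
theorem twistAlgEquiv_symm_apply (ξ : kˣ) (x : LaurentSeries k) :
    (twistAlgEquiv ξ).symm x = twist ξ⁻¹ x := rfl

/-- `f(t) ↦ f(ξ t^e)` as a `k`-algebra endomorphism of `k((t))`. -/
def substAlgHom (ξ : kˣ) (e : ℕ) [NeZero e] : LaurentSeries k →ₐ[k] LaurentSeries k :=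
  { subst ξ e with
    commutes' := fun c => by
      show subst ξ e (algebraMap k (LaurentSeries k) c) = algebraMap k (LaurentSeries k) c
      rw [algebraMap_eq_C, subst_C] }

@[simp]
theorem substAlgHom_apply (ξ : kˣ) (e : ℕ) [NeZero e] (x : LaurentSeries k) :
    substAlgHom ξ e x = subst ξ e x := rfl

end Field


/-! ### the discriminant series -/

section Delta

theorem DeltaS_coeff (n : ℤ) :
    (DeltaS R).coeff n =
      (HahnSeries.ofPowerSeries ℤ R (dedekindEtaUnit.map (Int.castRingHom R))).coeff (n - 1) := by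
  rw [DeltaS, HahnSeries.coeff_single_mul, one_mul]

theorem DeltaS_coeff_one : (DeltaS R).coeff 1 = 1 := by
  rw [DeltaS_coeff, sub_self]
  have h := HahnSeries.ofPowerSeries_apply_coeff (Γ := ℤ)
    (dedekindEtaUnit.map (Int.castRingHom R)) 0
  rw [Nat.cast_zero] at h
  rw [h, PowerSeries.coeff_map, PowerSeries.coeff_zero_eq_constantCoeff,
    constantCoeff_dedekindEtaUnit]
  simp

theorem DeltaS_coeff_of_lt {n : ℤ} (hn : n < 1) : (DeltaS R).coeff n = 0 := by
  rw [DeltaS_coeff]
  exact ofPowerSeries_coeff_of_neg _ (by omega)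

theorem coeffMap_DeltaS {S : Type*} [CommRing S] (f : R →+* S) :
    coeffMap f (DeltaS R) = DeltaS S := by
  rw [DeltaS, map_mul, coeffMap_single, map_one, coeffMap_ofPowerSeries,
    ← RingHom.comp_apply (PowerSeries.map f) (PowerSeries.map (Int.castRingHom R)),
    ← PowerSeries.map_comp, RingHom.ext_int (f.comp (Int.castRingHom R)) (Int.castRingHom S)]
  rfl

variable [Nontrivial R]

theorem order_DeltaS : (DeltaS R).order = 1 :=
  order_eq_of (by rw [DeltaS_coeff_one]; exact one_ne_zero) fun _ hj => DeltaS_coeff_of_lt hj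

theorem DeltaS_ne_zero : DeltaS R ≠ 0 := fun h => by
  have h1 := DeltaS_coeff_one (R := R)
  rw [h, HahnSeries.coeff_zero] at h1
  exact zero_ne_one h1

theorem subst_DeltaS_ne_zero (ξ : Rˣ) (e : ℕ) [NeZero e] : subst ξ e (DeltaS R) ≠ 0 :=
  (subst_eq_zero_iff ξ e _).not.mpr DeltaS_ne_zero

theorem order_subst_DeltaS (ξ : Rˣ) (e : ℕ) [NeZero e] :
    (subst ξ e (DeltaS R)).order = e := by
  rw [order_subst, order_DeltaS, mul_one]

end Delta

/-- The `t`-order of `Δ(ξ' t^e') / Δ(ξ t^e)` is `e' - e`. -/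
theorem order_subst_DeltaS_div {k : Type*} [Field k] (ξ ξ' : kˣ) (e e' : ℕ) [NeZero e]
    [NeZero e'] :
    (subst ξ' e' (DeltaS k) / subst ξ e (DeltaS k)).order = (e' : ℤ) - e := by
  rw [order_div' (subst_DeltaS_ne_zero ξ' e') (subst_DeltaS_ne_zero ξ e), order_subst_DeltaS,
    order_subst_DeltaS]

/-! ### the conjugates attached to triples -/

section Triples

/-- The conjugate `J_g = J(ζ_d^b t^(N a/d))` of `J(t^N)` attached to the triple `g = (a, b, d)`
with `d ∣ N`, where `ζ` is a (primitive) `N`-th root of unity: `ζ_d = ζ^(N/d)`. Junk value `0`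
if the exponent `N / d * a` vanishes. -/
def Jtriple (ζ : Rˣ) (N : ℕ) (g : ℕ × ℕ × ℕ) : LaurentSeries R :=
  if h : N / g.2.2 * g.1 = 0 then 0
  else
    haveI : NeZero (N / g.2.2 * g.1) := ⟨h⟩
    Jconj R (ζ ^ (N / g.2.2 * g.2.1)) (N / g.2.2 * g.1)

theorem Jtriple_eq (ζ : Rˣ) (N : ℕ) (g : ℕ × ℕ × ℕ) [NeZero (N / g.2.2 * g.1)] :
    Jtriple ζ N g = Jconj R (ζ ^ (N / g.2.2 * g.2.1)) (N / g.2.2 * g.1) :=
  dif_neg (NeZero.ne _)

theorem Jtriple_mk (ζ : Rˣ) (N a b d : ℕ) [NeZero (N / d * a)] :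
    Jtriple ζ N (a, b, d) = Jconj R (ζ ^ (N / d * b)) (N / d * a) :=
  Jtriple_eq ζ N (a, b, d)

theorem exponent_pos {N a d : ℕ} (hN : 0 < N) (hd : d ∣ N) (ha : 0 < a) : 0 < N / d * a :=
  Nat.mul_pos (Nat.div_pos (Nat.le_of_dvd hN hd) (Nat.pos_of_dvd_of_pos hd hN)) ha

/-- `J_(m,0,1) = J(t^(N m))`. -/
theorem Jtriple_top (ζ : Rˣ) (N m : ℕ) [NeZero N] [NeZero m] :
    Jtriple ζ N (m, 0, 1) = qExpand R (N * m) (jqModC R) := by
  have : NeZero (N / 1 * m) := ⟨by rw [Nat.div_one]; exact NeZero.ne _⟩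
  rw [Jtriple_mk, Nat.mul_zero, pow_zero, Jconj_one]
  exact qExpand_congr (by rw [Nat.div_one]) _

/-- Changing the level: `J_g` at level `c N` (with `ζ`) is `J_g` at level `N` (with `ζ^c`),
evaluated at `t^c`. -/
theorem Jtriple_mul_level (ζ : Rˣ) (N c : ℕ) [NeZero c] {a b d : ℕ} (hd : d ∣ N)
    [NeZero (N / d * a)] :
    Jtriple ζ (c * N) (a, b, d) = qExpand R c (Jtriple (ζ ^ c) N (a, b, d)) := by
  have h1 : c * N / d = c * (N / d) := Nat.mul_div_assoc c hd
  have : NeZero (c * N / d * a) := ⟨by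
    rw [h1, mul_assoc]
    exact mul_ne_zero (NeZero.ne c) (NeZero.ne _)⟩
  rw [Jtriple_mk, Jtriple_mk, qExpand_Jconj]
  refine Jconj_congr ?_ ?_
  · rw [h1, ← pow_mul, mul_assoc]
  · rw [h1, mul_assoc]

/-- `t ↦ ζ^s t` permutes the `J_g`: it sends `(a, b, d)` to `(a, (b + s a) mod d, d)`. -/
theorem twist_Jtriple {ζ : Rˣ} {N : ℕ} (hζ : ζ ^ N = 1) (s : ℕ) {a b d : ℕ} (hd : d ∣ N)
    [NeZero (N / d * a)] :
    twist (ζ ^ s) (Jtriple ζ N (a, b, d)) = Jtriple ζ N (a, (b + s * a) % d, d) := by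
  rw [Jtriple_mk, Jtriple_mk, twist_Jconj]
  refine Jconj_congr ?_ rfl
  have hN : N / d * d = N := Nat.div_mul_cancel hd
  have h1 : ζ ^ (N / d * ((b + s * a) % d)) = ζ ^ (N / d * (b + s * a)) := by
    conv_rhs => rw [← Nat.mod_add_div (b + s * a) d]
    rw [mul_add, _root_.pow_add, ← mul_assoc, hN, pow_mul ζ N, hζ, one_pow, mul_one]
  rw [h1, ← pow_mul, ← _root_.pow_add]
  congr 1
  ring

variable [Nontrivial R]

/-- **Distinctness of the conjugates**: for a primitive `N`-th root of unity `ζ`, the `J_g`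
attached to different triples `(a, b, d)` with `a d = m`, `b < d`, `d ∣ N` are different. -/
theorem Jtriple_injective {ζ : Rˣ} {N : ℕ} (hζ : IsPrimitiveRoot ζ N) (hN : 0 < N)
    {a b d a' b' d' : ℕ} (ha : 0 < a) (ha' : 0 < a') (hm : a * d = a' * d') (hb : b < d)
    (hb' : b' < d') (hd : d ∣ N) (hd' : d' ∣ N)
    (h : Jtriple ζ N (a, b, d) = Jtriple ζ N (a', b', d')) :
    a = a' ∧ b = b' ∧ d = d' := by
  have hd0 : 0 < d := lt_of_le_of_lt (Nat.zero_le _) hb
  have hd0' : 0 < d' := lt_of_le_of_lt (Nat.zero_le _) hb'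
  have : NeZero (N / d * a) := ⟨(exponent_pos hN hd ha).ne'⟩
  have : NeZero (N / d' * a') := ⟨(exponent_pos hN hd' ha').ne'⟩
  rw [Jtriple_mk, Jtriple_mk, Jconj_eq_iff] at h
  obtain ⟨he, hξ⟩ := h
  have hu : N / d * d = N := Nat.div_mul_cancel hd
  have hu' : N / d' * d' = N := Nat.div_mul_cancel hd'
  -- `a d' = a' d`
  have h1 : a * d' = a' * d := by
    have h2 : N * (a * d') = N * (a' * d) := by
      calc N * (a * d') = (N / d * a) * (d * d') := by
            conv_lhs => rw [← hu]
            ring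
        _ = (N / d' * a') * (d * d') := by rw [he]
        _ = N * (a' * d) := by
            conv_rhs => rw [← hu']
            ring
    exact Nat.eq_of_mul_eq_mul_left hN h2
  have haa : a = a' := by
    have h3 : a * a * d' = a' * a' * d' := by
      calc a * a * d' = a * (a * d') := by ring
        _ = a * (a' * d) := by rw [h1]
        _ = a' * (a * d) := by ring
        _ = a' * (a' * d') := by rw [hm]
        _ = a' * a' * d' := by ring
    have h4 : a * a = a' * a' := Nat.eq_of_mul_eq_mul_right hd0' h3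
    exact Nat.mul_self_inj.mp h4
  subst haa
  have hdd : d = d' := (Nat.eq_of_mul_eq_mul_left ha hm)
  subst hdd
  refine ⟨rfl, ?_, rfl⟩
  have hlt : N / d * b < N := by
    calc N / d * b < N / d * d :=
          Nat.mul_lt_mul_of_pos_left hb (Nat.div_pos (Nat.le_of_dvd hN hd) hd0)
      _ = N := hu
  have hlt' : N / d * b' < N := by
    calc N / d * b' < N / d * d :=
          Nat.mul_lt_mul_of_pos_left hb' (Nat.div_pos (Nat.le_of_dvd hN hd) hd0)
      _ = N := hu
  have h5 := hζ.pow_inj hlt hlt' hξ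
  exact Nat.eq_of_mul_eq_mul_left (Nat.div_pos (Nat.le_of_dvd hN hd) hd0) h5

/-- Distinctness in terms of `IsPrimTriple`. -/
theorem Jtriple_injOn {ζ : Rˣ} {N m : ℕ} (hζ : IsPrimitiveRoot ζ N) (hN : 0 < N) (hm : 0 < m)
    {g g' : ℕ × ℕ × ℕ} (hg : IsPrimTriple m g.1 g.2.1 g.2.2)
    (hg' : IsPrimTriple m g'.1 g'.2.1 g'.2.2) (hd : g.2.2 ∣ N) (hd' : g'.2.2 ∣ N)
    (h : Jtriple ζ N g = Jtriple ζ N g') : g = g' := by
  obtain ⟨a, b, d⟩ := g
  obtain ⟨a', b', d'⟩ := g'
  have ha : 0 < a := Nat.pos_of_ne_zero fun h0 => by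
    have := hg.1
    simp only [h0, zero_mul] at this
    omega
  have ha' : 0 < a' := Nat.pos_of_ne_zero fun h0 => by
    have := hg'.1
    simp only [h0, zero_mul] at this
    omega
  obtain ⟨h1, h2, h3⟩ := Jtriple_injective hζ hN ha ha' (hg.1.trans hg'.1.symm) hg.2.1 hg'.2.1
    hd hd' h
  simp only at h1 h2 h3
  rw [h1, h2, h3]

end Triples

end Fermat.Agent.S28.H39
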