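import Mathlib
import Fermat.Prelude.Def_ModularCurve_X0ModL

/-!
S28 (Igusa): shared vocabulary (helper16).

* `twist ξ`     : `f(q) ↦ f(ξ q)`        (coefficientwise `a_n ↦ ξ^n a_n`), a ring hom of Laurent series
* `subst ξ e`   : `f(q) ↦ f(ξ t^e)`      `= (qExpand R e).comp (twist ξ)`
* `Jconj K ξ e` : `J(ξ t^e)`             the formal conjugates of `j`
* `thetaOp`     : `q d/dq`               (additive; Leibniz rule `thetaOp_mul`)
* `DeltaS R`    : `q ∏ (1 - q^n)^24`
* `IsPrimTriple m a b d`, `triples m`    : Hermite normal forms of primitive matrices of determinant `m`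
-/

set_option autoImplicit false

noncomputable section

namespace Fermat.Agent.S28

open ModularCurve HahnSeries

variable {R : Type*} [CommRing R]

/-- `f(q) ↦ f(ξ q)`: multiply the `n`-th coefficient by `ξ ^ n`. -/
def twistFun (ξ : Rˣ) (x : LaurentSeries R) : LaurentSeries R where
  coeff n := ((ξ ^ n : Rˣ) : R) * x.coeff n
  isPWO_support' := x.isPWO_support.mono fun n hn => by
    simp only [Function.mem_support, ne_eq] at hn ⊢
    intro h
    exact hn (by rw [h, mul_zero])

@[simp]
theorem twistFun_coeff (ξ : Rˣ) (x : LaurentSeries R) (n : ℤ) :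
    (twistFun ξ x).coeff n = ((ξ ^ n : Rˣ) : R) * x.coeff n := rfl

theorem twistFun_support (ξ : Rˣ) (x : LaurentSeries R) :
    (twistFun ξ x).support = x.support := by
  ext n
  simp only [HahnSeries.mem_support, twistFun_coeff, ne_eq]
  exact not_congr (Units.mul_right_eq_zero _)

/-- `f(q) ↦ f(ξ q)` as a ring homomorphism of Laurent series. -/
def twist (ξ : Rˣ) : LaurentSeries R →+* LaurentSeries R where
  toFun := twistFun ξ
  map_zero' := by ext n; simp
  map_one' := by
    ext n
    simp only [twistFun_coeff, HahnSeries.coeff_one]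
    split_ifs with h
    · subst h; simp
    · simp
  map_add' x y := by ext n; simp [mul_add]
  map_mul' x y := by
    ext n
    rw [twistFun_coeff, HahnSeries.coeff_mul, HahnSeries.coeff_mul, Finset.mul_sum]
    have hs : ∀ z : LaurentSeries R, (twistFun ξ z).support = z.support := twistFun_support ξ
    have hset : Finset.antidiagonal (twistFun ξ x).isPWO_support (twistFun ξ y).isPWO_support n
        = Finset.antidiagonal x.isPWO_support y.isPWO_support n := by
      ext ij
      simp only [Finset.mem_antidiagonal, hs]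
    rw [hset]
    refine Finset.sum_congr rfl fun ij hij => ?_
    have hn : ij.1 + ij.2 = n := (Finset.mem_antidiagonal.mp hij).2.2
    simp only [twistFun_coeff]
    rw [← hn, zpow_add, Units.val_mul]
    ring

@[simp]
theorem twist_coeff (ξ : Rˣ) (x : LaurentSeries R) (n : ℤ) :
    (twist ξ x).coeff n = ((ξ ^ n : Rˣ) : R) * x.coeff n := rfl

/-- `f(q) ↦ f(ξ t^e)`. -/
def subst (ξ : Rˣ) (e : ℕ) [NeZero e] : LaurentSeries R →+* LaurentSeries R :=
  (qExpand R e).comp (twist ξ)

theorem subst_apply (ξ : Rˣ) (e : ℕ) [NeZero e] (x : LaurentSeries R) :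
    subst ξ e x = qExpand R e (twist ξ x) := rfl

@[simp]
theorem subst_coeff_mul (ξ : Rˣ) (e : ℕ) [NeZero e] (x : LaurentSeries R) (n : ℤ) :
    (subst ξ e x).coeff ((e : ℤ) * n) = ((ξ ^ n : Rˣ) : R) * x.coeff n := by
  rw [subst_apply, qExpand_coeff_mul, twist_coeff]

theorem subst_coeff_of_not_dvd (ξ : Rˣ) (e : ℕ) [NeZero e] (x : LaurentSeries R) {n : ℤ}
    (hn : ¬ (e : ℤ) ∣ n) : (subst ξ e x).coeff n = 0 := by
  rw [subst_apply, qExpand_coeff_of_not_dvd e _ hn]

variable (R) in
/-- The formal conjugate `J(ξ t^e)` of `j`, over any commutative ring. -/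
def Jconj (ξ : Rˣ) (e : ℕ) [NeZero e] : LaurentSeries R := subst ξ e (jqModC R)

variable (R) in
/-- `J(t^e) = qExpand R e (jqModC R)`. -/
theorem Jconj_one (e : ℕ) [NeZero e] : Jconj R 1 e = qExpand R e (jqModC R) := by
  rw [Jconj, subst_apply]
  congr 1
  ext n
  simp

/-- `θ = q d/dq` on Laurent series (additive; see `thetaOp_mul` for the Leibniz rule). -/
def thetaOp : LaurentSeries R →+ LaurentSeries R where
  toFun x :=
    { coeff := fun n => (n : R) * x.coeff n
      isPWO_support' := x.isPWO_support.mono fun n hn => by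
        simp only [Function.mem_support, ne_eq] at hn ⊢
        intro h
        exact hn (by rw [h, mul_zero]) }
  map_zero' := by ext n; simp
  map_add' x y := by ext n; simp [mul_add]

@[simp]
theorem thetaOp_coeff (x : LaurentSeries R) (n : ℤ) :
    (thetaOp x).coeff n = (n : R) * x.coeff n := rfl

theorem thetaOp_mul (x y : LaurentSeries R) :
    thetaOp (x * y) = thetaOp x * y + x * thetaOp y := by
  ext n
  rw [thetaOp_coeff, HahnSeries.coeff_add, HahnSeries.coeff_mul,
    HahnSeries.coeff_mul_left' (s := x.support) x.isPWO_support (by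
      intro m hm
      simp only [HahnSeries.mem_support, thetaOp_coeff, ne_eq] at hm ⊢
      intro h
      exact hm (by rw [h, mul_zero])),
    HahnSeries.coeff_mul_right' (s := y.support) y.isPWO_support (by
      intro m hm
      simp only [HahnSeries.mem_support, thetaOp_coeff, ne_eq] at hm ⊢
      intro h
      exact hm (by rw [h, mul_zero])),
    Finset.mul_sum, ← Finset.sum_add_distrib]
  refine Finset.sum_congr rfl fun ij hij => ?_
  have hn : ij.1 + ij.2 = n := (Finset.mem_antidiagonal.mp hij).2.2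
  simp only [thetaOp_coeff]
  rw [← hn]
  push_cast
  ring

/-- `θ (f(q^e)) = e • (θ f)(q^e)`. -/
theorem thetaOp_qExpand (e : ℕ) [NeZero e] (x : LaurentSeries R) :
    thetaOp (qExpand R e x) = (e : LaurentSeries R) * qExpand R e (thetaOp x) := by
  have hC : ((e : ℕ) : LaurentSeries R) = HahnSeries.C (e : R) := by
    rw [map_natCast]
  ext n
  rw [hC, HahnSeries.C_mul_eq_smul, HahnSeries.coeff_smul, thetaOp_coeff]
  by_cases hn : (e : ℤ) ∣ n
  · obtain ⟨m, rfl⟩ := hn
    rw [qExpand_coeff_mul, qExpand_coeff_mul, thetaOp_coeff, smul_eq_mul]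
    push_cast
    ring
  · rw [qExpand_coeff_of_not_dvd e _ hn, qExpand_coeff_of_not_dvd e _ hn, mul_zero, smul_zero]

theorem thetaOp_twist (ξ : Rˣ) (x : LaurentSeries R) :
    thetaOp (twist ξ x) = twist ξ (thetaOp x) := by
  ext n
  simp only [thetaOp_coeff, twist_coeff]
  ring

/-- `θ (f(ξ t^e)) = e • (θ f)(ξ t^e)`. -/
theorem thetaOp_subst (ξ : Rˣ) (e : ℕ) [NeZero e] (x : LaurentSeries R) :
    thetaOp (subst ξ e x) = (e : LaurentSeries R) * subst ξ e (thetaOp x) := by
  rw [subst_apply, thetaOp_qExpand, thetaOp_twist, subst_apply]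

variable (R) in
/-- The discriminant series `Δ = q ∏ (1 - q^n)^24` over `R`. -/
def DeltaS : LaurentSeries R :=
  HahnSeries.single (1 : ℤ) 1 *
    HahnSeries.ofPowerSeries ℤ R (dedekindEtaUnit.map (Int.castRingHom R))

/-- Hermite normal forms `(a b; 0 d)` of the primitive integer matrices of determinant `m`. -/
def IsPrimTriple (m a b d : ℕ) : Prop :=
  a * d = m ∧ b < d ∧ Nat.gcd a (Nat.gcd b d) = 1

instance (m a b d : ℕ) : Decidable (IsPrimTriple m a b d) := by
  unfold IsPrimTriple; infer_instance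

/-- The finite set of primitive triples of determinant `m`, as triples `(a, b, d)`. -/
def triples (m : ℕ) : Finset (ℕ × ℕ × ℕ) :=
  ((Finset.range (m + 1)) ×ˢ (Finset.range (m + 1)) ×ˢ (Finset.range (m + 1))).filter
    fun x => IsPrimTriple m x.1 x.2.1 x.2.2

theorem mem_triples {m : ℕ} (hm : 0 < m) {x : ℕ × ℕ × ℕ} :
    x ∈ triples m ↔ IsPrimTriple m x.1 x.2.1 x.2.2 := by
  simp only [triples, Finset.mem_filter, Finset.mem_product, Finset.mem_range, and_iff_right_iff_imp]
  rintro ⟨h1, h2, -⟩
  have hd : 0 < x.2.2 := Nat.pos_of_ne_zero fun h => by simp [h] at h2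
  have ha : 0 < x.1 := Nat.pos_of_ne_zero fun h => by simp [h] at h1; omega
  have had : x.1 ≤ m := h1 ▸ Nat.le_mul_of_pos_right _ hd
  have hda : x.2.2 ≤ m := h1 ▸ Nat.le_mul_of_pos_left _ ha
  omega

end Fermat.Agent.S28
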