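import Mathlib
import Fermat.Prelude.Def_ModularCurve_X0ModL
import Fermat.Agent.S28.Defs

/-!
S28 (Igusa): the INTERFACES between the work packages (helper16). Everything here is a definition
or a trivial lemma; the packages prove statements phrased with these names.

* `evalJ x`            : `ℤ[Y] →+* LaurentSeries R`, `Y ↦ x`
* `RootsAt R m ζ Φ`    : (W1b output, consumed by W2) all formal conjugates `J(ζ_d^b t^(a^2))`
                         (`t^m = q`, `(a,b,d)` primitive of determinant `m`) are roots of `Φ(X, J(t^m))`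
* `DeltaSInv`, `DeltaQuot R p` : `Δ(q^p)/Δ(q)` over any ring
* `IsDeltaQuotPoly p P`: (W1c output, consumed by W2c)
* `redModPoly K Φ`     : the image of `Φ ∈ ℤ[Y][X]` in `(RatFunc K)[X]`
* `IrredCharL N ℓ Φ`   : (W2 output, consumed by W3)
-/

set_option autoImplicit false

noncomputable section

namespace Fermat.Agent.S28

open ModularCurve HahnSeries Polynomial

variable (R : Type*) [CommRing R]

/-- Evaluate a polynomial with integer coefficients at a Laurent series over `R`. -/
def evalJ {R : Type*} [CommRing R] (x : LaurentSeries R) : ℤ[X] →+* LaurentSeries R :=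
  (Polynomial.aeval (R := ℤ) x).toRingHom

@[simp]
theorem evalJ_X {R : Type*} [CommRing R] (x : LaurentSeries R) : evalJ x Polynomial.X = x := by
  simp [evalJ]

/-- W1b → W2. `t` is the variable, `q = t^m`, `ζ` a (primitive) `m`-th root of unity of `R`.
For a primitive triple `(a,b,d)` of determinant `m` the conjugate `J(ζ_d^b q^(a/d))` is
`J(ζ^(a b) t^(a^2))` because `ζ_d = ζ^(m/d) = ζ^a` and `q^(1/d) = t^(m/d) = t^a`. -/
def RootsAt (m : ℕ) [NeZero m] (ζ : Rˣ) (Φ : Polynomial ℤ[X]) : Prop :=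
  ∀ (a b d : ℕ) (_ : IsPrimTriple m a b d) (_ : NeZero (a * a)),
    Φ.eval₂ (evalJ (qExpand R m (jqModC R))) (Jconj R (ζ ^ (a * b)) (a * a)) = 0

/-- The full W1b deliverable for level `m`: the prelude's `ModularPolynomialData m` whose polynomial
has all formal conjugates as roots over every field with a primitive `m`-th root of unity. -/
def HasModPoly (m : ℕ) [NeZero m] : Prop :=
  ∃ D : ModularPolynomialData m, ∀ (k : Type) [Field k] (ζ : kˣ),
    IsPrimitiveRoot ζ m → RootsAt k m ζ D.Φ

/-- `1/Δ = q⁻¹ ∏ (1 - q^n)^(-24)` over `R`. -/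
def DeltaSInv : LaurentSeries R :=
  HahnSeries.single (-1 : ℤ) 1 *
    HahnSeries.ofPowerSeries ℤ R (dedekindEtaUnitInv.map (Int.castRingHom R))

/-- `Δ(q^p)/Δ(q)` over `R`. -/
def DeltaQuot (p : ℕ) [NeZero p] : LaurentSeries R :=
  qExpand R p (DeltaS R) * DeltaSInv R

/-- W1c → W2c: `P ∈ ℤ[Y][X]` is monic and kills `p^12 Δ(q^p)/Δ(q)` over `ℤ`
(hence over every ring, by `coeffMap`). -/
def IsDeltaQuotPoly (p : ℕ) [NeZero p] (P : Polynomial ℤ[X]) : Prop :=
  P.Monic ∧ P.eval₂ (evalJ (jqModC ℤ)) ((p : LaurentSeries ℤ) ^ 12 * DeltaQuot ℤ p) = 0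

/-- The image of `Φ ∈ ℤ[Y][X]` in `(RatFunc K)[X]` (`Y ↦` the variable of `RatFunc K`). -/
def redModPoly (K : Type*) [Field K] (Φ : Polynomial ℤ[X]) : Polynomial (RatFunc K) :=
  Φ.map ((algebraMap K[X] (RatFunc K)).comp (Polynomial.mapRingHom (Int.castRingHom K)))

/-- W2 → W3: the reduction of `Φ` is irreducible over `K(J)` for every field `K` of
characteristic `ℓ`. -/
def IrredCharL (ℓ : ℕ) (Φ : Polynomial ℤ[X]) : Prop :=
  ∀ (K : Type) [Field K] [CharP K ℓ], Irreducible (redModPoly K Φ)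

end Fermat.Agent.S28
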