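import Mathlib
import Fermat.Agent.S28.Defs
import Fermat.Agent.S28.Interface

/-!
S28 / W1d (helper96): coefficient transfer. `coeffMap f` commutes with every operation of the
shared vocabulary (`twist`, `subst`, `Jconj`, `thetaOp`, `DeltaS`, `evalJ`, `eval₂`), so identities
proved over one ring transfer along ring homomorphisms; for injective `f` they also descend.
-/

set_option autoImplicit false

noncomputable section

namespace Fermat.Agent.S28.H96

open ModularCurve HahnSeries Polynomial

variable {R S : Type*} [CommRing R] [CommRing S]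

theorem coeffMap_injective (f : R →+* S) (hf : Function.Injective f) :
    Function.Injective (coeffMap f) := by
  intro x y h
  ext n
  apply hf
  have := congrArg (fun z => z.coeff n) h
  simpa using this

theorem coeffMap_C (f : R →+* S) (r : R) :
    coeffMap f (HahnSeries.C r) = HahnSeries.C (f r) := by
  rw [HahnSeries.C_apply, HahnSeries.C_apply, coeffMap_single]

theorem coeffMap_twist (f : R →+* S) (ξ : Rˣ) (x : LaurentSeries R) :
    coeffMap f (twist ξ x) = twist (Units.map (f : R →* S) ξ) (coeffMap f x) := by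
  ext n
  simp only [coeffMap_coeff, twist_coeff, map_mul]
  congr 1
  rw [← map_zpow]
  rfl

theorem coeffMap_subst (f : R →+* S) (ξ : Rˣ) (e : ℕ) [NeZero e] (x : LaurentSeries R) :
    coeffMap f (subst ξ e x) = subst (Units.map (f : R →* S) ξ) e (coeffMap f x) := by
  rw [subst_apply, subst_apply, coeffMap_qExpand, coeffMap_twist]

theorem coeffMap_Jconj (f : R →+* S) (ξ : Rˣ) (e : ℕ) [NeZero e] :
    coeffMap f (Jconj R ξ e) = Jconj S (Units.map (f : R →* S) ξ) e := by
  rw [Jconj, Jconj, coeffMap_subst, coeffMap_jqModC]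

theorem coeffMap_thetaOp (f : R →+* S) (x : LaurentSeries R) :
    coeffMap f (thetaOp x) = thetaOp (coeffMap f x) := by
  ext n
  simp only [coeffMap_coeff, thetaOp_coeff, map_mul, map_intCast]

theorem coeffMap_DeltaS (f : R →+* S) : coeffMap f (DeltaS R) = DeltaS S := by
  rw [DeltaS, DeltaS, map_mul, coeffMap_single, map_one, coeffMap_ofPowerSeries,
    ← RingHom.comp_apply (PowerSeries.map f) (PowerSeries.map (Int.castRingHom R)),
    ← PowerSeries.map_comp, RingHom.ext_int (f.comp (Int.castRingHom R)) (Int.castRingHom S)]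

theorem coeffMap_DeltaSInv (f : R →+* S) : coeffMap f (DeltaSInv R) = DeltaSInv S := by
  rw [DeltaSInv, DeltaSInv, map_mul, coeffMap_single, map_one, coeffMap_ofPowerSeries,
    ← RingHom.comp_apply (PowerSeries.map f) (PowerSeries.map (Int.castRingHom R)),
    ← PowerSeries.map_comp, RingHom.ext_int (f.comp (Int.castRingHom R)) (Int.castRingHom S)]

theorem coeffMap_DeltaQuot (f : R →+* S) (p : ℕ) [NeZero p] :
    coeffMap f (DeltaQuot R p) = DeltaQuot S p := by
  rw [DeltaQuot, DeltaQuot, map_mul, coeffMap_qExpand, coeffMap_DeltaS, coeffMap_DeltaSInv]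

/-- `coeffMap f ∘ evalJ x = evalJ (coeffMap f x)`. -/
theorem coeffMap_comp_evalJ (f : R →+* S) (x : LaurentSeries R) :
    (coeffMap f).comp (evalJ x) = evalJ (coeffMap f x) := by
  apply Polynomial.ringHom_ext
  · intro n
    simp [evalJ]
  · simp [evalJ]

theorem coeffMap_evalJ (f : R →+* S) (x : LaurentSeries R) (P : ℤ[X]) :
    coeffMap f (evalJ x P) = evalJ (coeffMap f x) P := by
  rw [← coeffMap_comp_evalJ]
  rfl

/-- Transfer of a two-variable polynomial identity along `coeffMap`. -/
theorem coeffMap_eval₂_evalJ (f : R →+* S) (x y : LaurentSeries R) (Φ : Polynomial ℤ[X]) :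
    coeffMap f (Φ.eval₂ (evalJ x) y) = Φ.eval₂ (evalJ (coeffMap f x)) (coeffMap f y) := by
  rw [Polynomial.hom_eval₂, coeffMap_comp_evalJ]

/-- `qExpand e ∘ evalJ x = evalJ (qExpand e x)`. -/
theorem qExpand_comp_evalJ (e : ℕ) [NeZero e] (x : LaurentSeries R) :
    (qExpand R e).comp (evalJ x) = evalJ (qExpand R e x) := by
  apply Polynomial.ringHom_ext
  · intro n
    simp [evalJ]
  · simp [evalJ]

theorem qExpand_eval₂_evalJ (e : ℕ) [NeZero e] (x y : LaurentSeries R) (Φ : Polynomial ℤ[X]) :
    qExpand R e (Φ.eval₂ (evalJ x) y) = Φ.eval₂ (evalJ (qExpand R e x)) (qExpand R e y) := by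
  rw [Polynomial.hom_eval₂, qExpand_comp_evalJ]

/-- `RootsAt` transfers along any ring homomorphism. -/
theorem RootsAt.map (f : R →+* S) {m : ℕ} [NeZero m] {ζ : Rˣ} {Φ : Polynomial ℤ[X]}
    (h : RootsAt R m ζ Φ) : RootsAt S m (Units.map (f : R →* S) ζ) Φ := by
  intro a b d hx hne
  have h1 := congrArg (coeffMap f) (h a b d hx hne)
  rw [map_zero, coeffMap_eval₂_evalJ, coeffMap_qExpand, coeffMap_jqModC, coeffMap_Jconj,
    map_pow] at h1
  exact h1

/-- `RootsAt` descends along an injective ring homomorphism. -/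
theorem RootsAt.of_map (f : R →+* S) (hf : Function.Injective f) {m : ℕ} [NeZero m] {ζ : Rˣ}
    {Φ : Polynomial ℤ[X]} (h : RootsAt S m (Units.map (f : R →* S) ζ) Φ) : RootsAt R m ζ Φ := by
  intro a b d hx hne
  apply coeffMap_injective f hf
  rw [map_zero, coeffMap_eval₂_evalJ, coeffMap_qExpand, coeffMap_jqModC, coeffMap_Jconj,
    map_pow]
  exact h a b d hx hne

end Fermat.Agent.S28.H96
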