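import Mathlib
import Fermat.Agent.S28.H96_Transfer

/-!
S28 / W1b (iii) (helper96): the leading-coefficient lemma.

If `j = t^(-e) + …` (all powers `j^b` have leading coefficient `1` at `t^(-e b)`) then a polynomial
`P` in `j` is determined coefficient by coefficient by the Laurent expansion of `P(j)`:
* `P(j) = 0 → P = 0` (so `j` is transcendental),
* if `P(j)` has coefficients in the image of `f : R →+* S`, then so has `P`.
-/

set_option autoImplicit false

noncomputable section

namespace Fermat.Agent.S28.H96

open ModularCurve HahnSeries Polynomial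

variable {R S : Type*} [CommRing R] [CommRing S]

/-- `j` looks like `t^(-e) + higher order terms`, as seen on all its powers. -/
structure IsLeading (e : ℕ) (j : LaurentSeries R) : Prop where
  coeff_pow_self : ∀ b : ℕ, (j ^ b).coeff (-((e * b : ℕ) : ℤ)) = 1
  coeff_pow_of_lt : ∀ (b : ℕ) (n : ℤ), n < -((e * b : ℕ) : ℤ) → (j ^ b).coeff n = 0

theorem IsLeading.map {e : ℕ} {j : LaurentSeries R} (h : IsLeading e j) (f : R →+* S) :
    IsLeading e (coeffMap f j) where
  coeff_pow_self b := by
    rw [← map_pow, coeffMap_coeff, h.coeff_pow_self b, map_one]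
  coeff_pow_of_lt b n hn := by
    rw [← map_pow, coeffMap_coeff, h.coeff_pow_of_lt b n hn, map_zero]

variable (R) in
theorem isLeading_jqModC : IsLeading 1 (jqModC R) where
  coeff_pow_self b := by
    rw [one_mul]
    exact coeff_jqModC_pow_self R b
  coeff_pow_of_lt b n hn := by
    rw [one_mul] at hn
    exact coeff_jqModC_pow_of_lt R hn

variable (R) in
theorem isLeading_qExpand_jqModC (m : ℕ) [NeZero m] : IsLeading m (qExpand R m (jqModC R)) where
  coeff_pow_self b := by
    rw [← map_pow]
    have h : (-((m * b : ℕ) : ℤ)) = (m : ℤ) * (-(b : ℤ)) := by push_cast; ring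
    rw [h, qExpand_coeff_mul]
    exact coeff_jqModC_pow_self R b
  coeff_pow_of_lt b n hn := by
    rw [← map_pow]
    by_cases hd : (m : ℤ) ∣ n
    · obtain ⟨k, rfl⟩ := hd
      rw [qExpand_coeff_mul]
      apply coeff_jqModC_pow_of_lt R
      have hm : (0 : ℤ) < m := by exact_mod_cast Nat.pos_of_ne_zero (NeZero.ne m)
      push_cast at hn
      nlinarith
    · exact qExpand_coeff_of_not_dvd m _ hd

/-- Evaluate a polynomial with coefficients in `R` at a Laurent series over `R`. -/
def evalC (x : LaurentSeries R) : R[X] →+* LaurentSeries R :=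
  Polynomial.eval₂RingHom HahnSeries.C x

@[simp]
theorem evalC_X (x : LaurentSeries R) : evalC x Polynomial.X = x := by
  simp [evalC]

@[simp]
theorem evalC_C (x : LaurentSeries R) (r : R) : evalC x (Polynomial.C r) = HahnSeries.C r := by
  simp [evalC]

theorem evalC_apply (x : LaurentSeries R) (P : R[X]) : evalC x P = P.eval₂ HahnSeries.C x := rfl

/-- `coeffMap f ∘ evalC x = evalC (coeffMap f x) ∘ map f`. -/
theorem coeffMap_comp_evalC (f : R →+* S) (x : LaurentSeries R) :
    (coeffMap f).comp (evalC x) = (evalC (coeffMap f x)).comp (Polynomial.mapRingHom f) := by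
  apply Polynomial.ringHom_ext
  · intro r
    simp
  · simp

theorem coeffMap_evalC (f : R →+* S) (x : LaurentSeries R) (P : R[X]) :
    coeffMap f (evalC x P) = evalC (coeffMap f x) (P.map f) := by
  have := congrArg (fun g => g P) (coeffMap_comp_evalC f x)
  simpa using this

/-- `evalJ x` is `evalC x` after casting the coefficients. -/
theorem evalJ_eq_evalC (x : LaurentSeries R) :
    evalJ x = (evalC x).comp (Polynomial.mapRingHom (Int.castRingHom R)) := by
  apply Polynomial.ringHom_ext
  · intro n
    simp [evalJ]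
  · simp [evalJ]

theorem coeff_evalC_of_lt {e : ℕ} {j : LaurentSeries R} (hj : IsLeading e j) (P : R[X])
    {n : ℤ} (hn : n < -((e * P.natDegree : ℕ) : ℤ)) : (evalC j P).coeff n = 0 := by
  rw [evalC_apply, Polynomial.eval₂_eq_sum_range, HahnSeries.coeff_sum]
  refine Finset.sum_eq_zero fun i hi => ?_
  rw [HahnSeries.C_mul_eq_smul, HahnSeries.coeff_smul]
  rw [hj.coeff_pow_of_lt i n, smul_zero]
  have hi' : i ≤ P.natDegree := Nat.lt_succ_iff.mp (Finset.mem_range.mp hi)
  have : ((e * i : ℕ) : ℤ) ≤ ((e * P.natDegree : ℕ) : ℤ) := by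
    exact_mod_cast Nat.mul_le_mul_left e hi'
  omega

/-- The coefficient of `P(j)` at `t^(-e deg P)` is the leading coefficient of `P`. -/
theorem coeff_evalC_natDegree {e : ℕ} (he : 0 < e) {j : LaurentSeries R} (hj : IsLeading e j)
    (P : R[X]) : (evalC j P).coeff (-((e * P.natDegree : ℕ) : ℤ)) = P.leadingCoeff := by
  rw [evalC_apply, Polynomial.eval₂_eq_sum_range, HahnSeries.coeff_sum,
    Finset.sum_eq_single_of_mem P.natDegree (Finset.mem_range.mpr (Nat.lt_succ_self _))]
  · rw [HahnSeries.C_mul_eq_smul, HahnSeries.coeff_smul, hj.coeff_pow_self, smul_eq_mul, mul_one]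
    rfl
  · intro i hi hne
    rw [HahnSeries.C_mul_eq_smul, HahnSeries.coeff_smul, hj.coeff_pow_of_lt i, smul_zero]
    have hi' : i < P.natDegree :=
      lt_of_le_of_ne (Nat.lt_succ_iff.mp (Finset.mem_range.mp hi)) hne
    have : ((e * i : ℕ) : ℤ) < ((e * P.natDegree : ℕ) : ℤ) := by
      exact_mod_cast Nat.mul_lt_mul_of_pos_left hi' he
    omega

/-- `j` is transcendental: `P(j) = 0 → P = 0`. -/
theorem evalC_injective {e : ℕ} (he : 0 < e) {j : LaurentSeries R} (hj : IsLeading e j) :
    Function.Injective (evalC j) := by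
  rw [injective_iff_map_eq_zero]
  intro P hP
  have h := coeff_evalC_natDegree he hj P
  rw [hP, HahnSeries.coeff_zero] at h
  exact Polynomial.leadingCoeff_eq_zero.mp h.symm

/-- **Leading-coefficient lemma.** If `P(j)` has all its coefficients in the image of `f`, then
`P` has all its coefficients in the image of `f`. -/
theorem mem_range_map_of_evalC_mem {e : ℕ} (he : 0 < e) (f : R →+* S) {j : LaurentSeries R}
    (hj : IsLeading e j) (P : S[X]) (hP : evalC (coeffMap f j) P ∈ (coeffMap f).range) :
    P ∈ (Polynomial.mapRingHom f).range := by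
  induction hc : P.support.card using Nat.strong_induction_on generalizing P with
  | _ c ih =>
    by_cases h0 : P = 0
    · rw [h0]; exact Subring.zero_mem _
    -- the leading coefficient is in the range
    obtain ⟨y, hy⟩ := hP
    have hlead : P.leadingCoeff = f (y.coeff (-((e * P.natDegree : ℕ) : ℤ))) := by
      rw [← coeff_evalC_natDegree he (hj.map f) P, ← hy, coeffMap_coeff]
    set a := y.coeff (-((e * P.natDegree : ℕ) : ℤ)) with ha
    -- the monomial is in the range
    have hmono : Polynomial.C P.leadingCoeff * Polynomial.X ^ P.natDegree ∈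
        (Polynomial.mapRingHom f).range :=
      ⟨Polynomial.C a * Polynomial.X ^ P.natDegree, by simp [hlead]⟩
    have hE : evalC (coeffMap f j) P.eraseLead ∈ (coeffMap f).range := by
      refine ⟨y - HahnSeries.C a * j ^ P.natDegree, ?_⟩
      have hsplit : evalC (coeffMap f j) P = evalC (coeffMap f j) P.eraseLead +
          HahnSeries.C P.leadingCoeff * coeffMap f j ^ P.natDegree := by
        conv_lhs => rw [← Polynomial.eraseLead_add_C_mul_X_pow P]
        rw [map_add, map_mul, map_pow, evalC_C, evalC_X]
      rw [map_sub, hy, map_mul, map_pow, coeffMap_C, ← hlead, hsplit, add_sub_cancel_right]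
    have hEL := ih _ (hc ▸ Polynomial.eraseLead_support_card_lt h0) P.eraseLead hE rfl
    rw [← Polynomial.eraseLead_add_C_mul_X_pow P]
    exact Subring.add_mem _ hEL hmono

/-- Two-variable version: if every coefficient (in `X`) of `Φ(j, X)` has its Laurent coefficients
in the image of `f`, then `Φ` comes from `R[Y][X]`. -/
theorem exists_map_eq_of_map_evalC_mem {e : ℕ} (he : 0 < e) (f : R →+* S) {j : LaurentSeries R}
    (hj : IsLeading e j) (Φ : Polynomial S[X])
    (hΦ : ∀ k, (Φ.map (evalC (coeffMap f j))).coeff k ∈ (coeffMap f).range) :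
    ∃ Ψ : Polynomial R[X], Ψ.map (Polynomial.mapRingHom f) = Φ := by
  have h : Φ ∈ (Polynomial.mapRingHom (Polynomial.mapRingHom f)).range := by
    rw [Polynomial.mem_map_range]
    intro k
    apply mem_range_map_of_evalC_mem he f hj
    have := hΦ k
    rwa [Polynomial.coeff_map] at this
  obtain ⟨Ψ, hΨ⟩ := h
  exact ⟨Ψ, hΨ⟩

end Fermat.Agent.S28.H96
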