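import Mathlib
import Fermat.Agent.S28.H96_LeadCoeff

/-!
S28 / W1b (iii) (helper96): the product of the formal conjugates has INTEGER coefficients.

`JT R ζ (a,b,d) = J(ζ^(ab) t^(a²))` is the conjugate of `j` attached to the triple `(a,b,d)` in the
native level-`m` picture (`t^m = q`). Over the cyclotomic field `K = ℚ(ζ_m)` the Galois group
permutes the conjugates, `σ_s : (a,b,d) ↦ (a, s b % d, d)`, so `∏ (X - J_x)` has Galois-invariant
coefficients; they are also integral over `ℤ`; hence they are integers.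
-/

set_option autoImplicit false

noncomputable section

namespace Fermat.Agent.S28.H96

open ModularCurve HahnSeries Polynomial

variable {R S : Type*} [CommRing R] [CommRing S]

variable (R) in
/-- The conjugate `J(ζ^(ab) t^(a²))` attached to the triple `x = (a,b,d)`. -/
def JT (ζ : Rˣ) (x : ℕ × ℕ × ℕ) : LaurentSeries R :=
  if h : x.1 = 0 then 0 else
    haveI : NeZero (x.1 * x.1) := ⟨mul_ne_zero h h⟩
    Jconj R (ζ ^ (x.1 * x.2.1)) (x.1 * x.1)

theorem JT_eq (ζ : Rˣ) (a b d : ℕ) [NeZero (a * a)] :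
    JT R ζ (a, b, d) = Jconj R (ζ ^ (a * b)) (a * a) := by
  have ha : a ≠ 0 := fun h => by
    have := NeZero.ne (a * a)
    simp [h] at this
  simp only [JT, ha, dite_false]

theorem coeffMap_JT (f : R →+* S) (ζ : Rˣ) (x : ℕ × ℕ × ℕ) :
    coeffMap f (JT R ζ x) = JT S (Units.map (f : R →* S) ζ) x := by
  unfold JT
  split_ifs with h
  · simp
  · haveI : NeZero (x.1 * x.1) := ⟨mul_ne_zero h h⟩
    rw [coeffMap_Jconj, map_pow]

theorem pos_of_mem_triples {m : ℕ} (hm : 0 < m) {x : ℕ × ℕ × ℕ} (hx : x ∈ triples m) :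
    0 < x.1 ∧ 0 < x.2.2 := by
  obtain ⟨h1, h2, -⟩ := (mem_triples hm).mp hx
  have hd : 0 < x.2.2 := by omega
  refine ⟨Nat.pos_of_ne_zero fun h => ?_, hd⟩
  rw [h, zero_mul] at h1
  omega

/-- The action of `s ∈ (ℤ/m)ˣ` on triples: `(a,b,d) ↦ (a, s b % d, d)`. -/
def tw (s : ℕ) (x : ℕ × ℕ × ℕ) : ℕ × ℕ × ℕ := (x.1, (s * x.2.1) % x.2.2, x.2.2)

theorem tw_mem_triples {m : ℕ} (hm : 0 < m) {s : ℕ} (hs : s.Coprime m) {x : ℕ × ℕ × ℕ}
    (hx : x ∈ triples m) : tw s x ∈ triples m := by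
  obtain ⟨ha, hd⟩ := pos_of_mem_triples hm hx
  obtain ⟨h1, h2, h3⟩ := (mem_triples hm).mp hx
  rw [mem_triples hm]
  refine ⟨h1, Nat.mod_lt _ hd, ?_⟩
  show Nat.gcd x.1 (Nat.gcd ((s * x.2.1) % x.2.2) x.2.2) = 1
  have hsd : s.Coprime x.2.2 := Nat.Coprime.coprime_dvd_right ⟨x.1, by rw [← h1, mul_comm]⟩ hs
  rw [← Nat.gcd_rec, Nat.gcd_comm x.2.2, Nat.Coprime.gcd_mul_left_cancel _ hsd]
  exact h3

theorem tw_injOn {m : ℕ} (hm : 0 < m) {s : ℕ} (hs : s.Coprime m) :
    Set.InjOn (tw s) (triples m : Set (ℕ × ℕ × ℕ)) := by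
  intro x hx y hy hxy
  obtain ⟨h1, h2, -⟩ := (mem_triples hm).mp hx
  obtain ⟨h1', h2', -⟩ := (mem_triples hm).mp hy
  simp only [tw, Prod.mk.injEq] at hxy
  obtain ⟨ha, hb, hd⟩ := hxy
  have hsd : s.Coprime x.2.2 := Nat.Coprime.coprime_dvd_right ⟨x.1, by rw [← h1, mul_comm]⟩ hs
  have hmod : s * x.2.1 ≡ s * y.2.1 [MOD x.2.2] := by
    rw [hd] at hb ⊢
    exact hb
  have hb' : x.2.1 ≡ y.2.1 [MOD x.2.2] :=
    Nat.ModEq.cancel_left_of_coprime (by rwa [Nat.coprime_comm] at hsd) hmod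
  have : x.2.1 = y.2.1 := by
    have h := hb'
    unfold Nat.ModEq at h
    rw [Nat.mod_eq_of_lt h2, Nat.mod_eq_of_lt (hd ▸ h2')] at h
    exact h
  exact Prod.ext ha (Prod.ext this hd)

theorem image_tw_triples {m : ℕ} (hm : 0 < m) {s : ℕ} (hs : s.Coprime m) :
    (triples m).image (tw s) = triples m := by
  apply Finset.eq_of_subset_of_card_le
  · intro y hy
    obtain ⟨x, hx, rfl⟩ := Finset.mem_image.mp hy
    exact tw_mem_triples hm hs hx
  · rw [Finset.card_image_of_injOn (tw_injOn hm hs)]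

/-- Reindexing a product over the triples by the action of a unit `s` mod `m`. -/
theorem prod_triples_tw {M : Type*} [CommMonoid M] {m : ℕ} (hm : 0 < m) {s : ℕ}
    (hs : s.Coprime m) (F : ℕ × ℕ × ℕ → M) :
    ∏ x ∈ triples m, F (tw s x) = ∏ x ∈ triples m, F x := by
  conv_rhs => rw [← image_tw_triples hm hs]
  rw [Finset.prod_image (tw_injOn hm hs)]

/-- `J_x` for the root of unity `ζ^s` is `J_(s·x)` for `ζ`. -/
theorem JT_pow {m : ℕ} (hm : 0 < m) (ζ : Rˣ) (hζ : ζ ^ m = 1) (s : ℕ) {x : ℕ × ℕ × ℕ}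
    (hx : x ∈ triples m) : JT R (ζ ^ s) x = JT R ζ (tw s x) := by
  obtain ⟨ha, hd⟩ := pos_of_mem_triples hm hx
  obtain ⟨h1, -, -⟩ := (mem_triples hm).mp hx
  have ha' : x.1 ≠ 0 := ha.ne'
  haveI : NeZero (x.1 * x.1) := ⟨mul_ne_zero ha' ha'⟩
  have e1 : JT R (ζ ^ s) x = Jconj R ((ζ ^ s) ^ (x.1 * x.2.1)) (x.1 * x.1) := by
    unfold JT
    rw [dif_neg ha']
  have e2 : JT R ζ (tw s x) = Jconj R (ζ ^ (x.1 * ((s * x.2.1) % x.2.2))) (x.1 * x.1) := by
    unfold JT
    rw [dif_neg (show ¬ (tw s x).1 = 0 from ha')]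
    rfl
  rw [e1, e2]
  congr 1
  -- ζ^(s a b) = ζ^(a (s b % d))
  have key : s * (x.1 * x.2.1) = m * ((s * x.2.1) / x.2.2) + x.1 * ((s * x.2.1) % x.2.2) := by
    have := Nat.div_add_mod (s * x.2.1) x.2.2
    calc s * (x.1 * x.2.1) = x.1 * (s * x.2.1) := by ring
      _ = x.1 * (x.2.2 * ((s * x.2.1) / x.2.2) + (s * x.2.1) % x.2.2) := by rw [this]
      _ = (x.1 * x.2.2) * ((s * x.2.1) / x.2.2) + x.1 * ((s * x.2.1) % x.2.2) := by ring
      _ = _ := by rw [h1]
  rw [← pow_mul, key, _root_.pow_add, pow_mul, hζ, one_pow, one_mul]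

/-! ### The product of the conjugates -/

variable (m : ℕ)

/-- `∏_{x ∈ triples m} (X - J_x)` over `R`, for the root of unity `ζ`. -/
def conjProd (ζ : Rˣ) : Polynomial (LaurentSeries R) :=
  ∏ x ∈ triples m, (Polynomial.X - Polynomial.C (JT R ζ x))

theorem map_conjProd (f : R →+* S) (ζ : Rˣ) :
    (conjProd m ζ).map (coeffMap f) = conjProd m (Units.map (f : R →* S) ζ) := by
  unfold conjProd
  rw [Polynomial.map_prod]
  refine Finset.prod_congr rfl fun x _ => ?_
  rw [Polynomial.map_sub, Polynomial.map_X, Polynomial.map_C, coeffMap_JT]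

theorem conjProd_pow (hm : 0 < m) (ζ : Rˣ) (hζ : ζ ^ m = 1) {s : ℕ} (hs : s.Coprime m) :
    conjProd m (ζ ^ s) = conjProd m ζ := by
  unfold conjProd
  rw [← prod_triples_tw hm hs (fun x => (Polynomial.X - Polynomial.C (JT R ζ x)))]
  refine Finset.prod_congr rfl fun x hx => ?_
  rw [JT_pow hm ζ hζ s hx]

theorem conjProd_monic (ζ : Rˣ) : (conjProd m ζ).Monic :=
  Polynomial.monic_prod_of_monic _ _ fun x _ => Polynomial.monic_X_sub_C _

theorem natDegree_conjProd [Nontrivial R] (ζ : Rˣ) :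
    (conjProd m ζ).natDegree = (triples m).card := by
  unfold conjProd
  rw [Polynomial.natDegree_finsetProd_X_sub_C_eq_card]

theorem eval_conjProd_JT (ζ : Rˣ) {x : ℕ × ℕ × ℕ} (hx : x ∈ triples m) :
    (conjProd m ζ).eval (JT R ζ x) = 0 := by
  unfold conjProd
  rw [Polynomial.eval_prod]
  exact Finset.prod_eq_zero hx (by simp)

/-- Every ring endomorphism of a field containing a primitive `m`-th root of unity `ζ` fixes
`∏ (X - J_x)` (it permutes the conjugates). -/
theorem map_conjProd_of_isPrimitiveRoot {K : Type*} [Field K] (hm : 0 < m) (ζ : Kˣ)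
    (hζ : IsPrimitiveRoot ζ m) (σ : K →+* K) :
    (conjProd m ζ).map (coeffMap σ) = conjProd m ζ := by
  haveI : NeZero m := ⟨hm.ne'⟩
  rw [map_conjProd]
  have hζK : IsPrimitiveRoot (ζ : K) m := IsPrimitiveRoot.coe_units_iff.mpr hζ
  have hσ : IsPrimitiveRoot (σ (ζ : K)) m := hζK.map_of_injective σ.injective
  obtain ⟨i, -, hi⟩ := hζK.eq_pow_of_pow_eq_one hσ.pow_eq_one
  have hcop : i.Coprime m := (hζK.pow_iff_coprime hm i).mp (hi ▸ hσ)
  have hu : Units.map (σ : K →* K) ζ = ζ ^ i := by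
    ext
    simp [hi]
  rw [hu, conjProd_pow m hm ζ hζ.pow_eq_one hcop]

/-! ### Membership in the range of `coeffMap` -/

theorem mem_range_coeffMap_iff (f : R →+* S) (x : LaurentSeries S) :
    x ∈ (coeffMap f).range ↔ ∀ n, x.coeff n ∈ f.range := by
  constructor
  · rintro ⟨y, rfl⟩ n
    exact ⟨y.coeff n, rfl⟩
  · intro h
    classical
    choose g hg using h
    refine ⟨⟨fun n => if x.coeff n = 0 then 0 else g n, x.isPWO_support.mono fun n hn => ?_⟩, ?_⟩
    · simp only [Function.mem_support, ne_eq, ite_eq_left_iff, not_forall] at hn ⊢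
      exact hn.1
    · ext n
      simp only [coeffMap_coeff]
      split_ifs with h0
      · rw [map_zero, h0]
      · exact hg n

/-! ### Integrality of the coefficients -/

theorem isIntegral_zpow_of_pow_eq_one {K : Type*} [Field K] (hm : 0 < m) (ξ : Kˣ)
    (hξ : ξ ^ m = 1) (n : ℤ) : IsIntegral ℤ (((ξ ^ n : Kˣ) : K)) := by
  apply IsIntegral.of_pow hm
  have : ((ξ ^ n : Kˣ) : K) ^ m = 1 := by
    rw [← Units.val_pow_eq_pow_val, ← zpow_natCast, ← zpow_mul, mul_comm, zpow_mul, zpow_natCast,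
      hξ, one_zpow, Units.val_one]
  rw [this]
  exact isIntegral_one

theorem isIntegral_coeff_Jconj {K : Type*} [Field K] (hm : 0 < m) (ξ : Kˣ)
    (hξ : ξ ^ m = 1) (e : ℕ) [NeZero e] (n : ℤ) : IsIntegral ℤ ((Jconj K ξ e).coeff n) := by
  by_cases hd : (e : ℤ) ∣ n
  · obtain ⟨k, rfl⟩ := hd
    rw [Jconj, subst_coeff_mul, coeff_jqModC_eq_intCast]
    exact (isIntegral_zpow_of_pow_eq_one m hm ξ hξ k).mul (isIntegral_algebraMap (R := ℤ)
      (x := (jqModC ℤ).coeff k))
  · rw [Jconj, subst_coeff_of_not_dvd _ _ _ hd]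
    exact isIntegral_zero

theorem isIntegral_coeff_JT {K : Type*} [Field K] (hm : 0 < m) (ζ : Kˣ)
    (hζ : ζ ^ m = 1) (x : ℕ × ℕ × ℕ) (n : ℤ) : IsIntegral ℤ ((JT K ζ x).coeff n) := by
  unfold JT
  split_ifs with h
  · simpa using isIntegral_zero
  · haveI : NeZero (x.1 * x.1) := ⟨mul_ne_zero h h⟩
    apply isIntegral_coeff_Jconj m hm
    rw [← pow_mul, mul_comm, pow_mul, hζ, one_pow]

/-- All coefficients of `∏ (X - J_x)` are integral over `ℤ`. -/
theorem isIntegral_coeff_conjProd {K : Type*} [Field K] (hm : 0 < m) (ζ : Kˣ)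
    (hζ : ζ ^ m = 1) (k : ℕ) (n : ℤ) : IsIntegral ℤ (((conjProd m ζ).coeff k).coeff n) := by
  set T : Subring K := (integralClosure ℤ K).toSubring with hT
  have hJ : ∀ x, JT K ζ x ∈ (coeffMap T.subtype).range := fun x => by
    rw [mem_range_coeffMap_iff]
    intro n
    exact ⟨⟨_, isIntegral_coeff_JT m hm ζ hζ x n⟩, rfl⟩
  have hP : conjProd m ζ ∈ (Polynomial.mapRingHom (coeffMap T.subtype)).range := by
    unfold conjProd
    refine Subring.prod_mem _ fun x _ => ?_
    obtain ⟨y, hy⟩ := hJ x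
    exact ⟨Polynomial.X - Polynomial.C y, by simp [hy]⟩
  rw [Polynomial.mem_map_range] at hP
  have h2 := (mem_range_coeffMap_iff _ _).mp (hP k) n
  obtain ⟨z, hz⟩ := h2
  rw [← hz]
  exact z.2

/-- Over a finite Galois extension `K/ℚ` containing a primitive `m`-th root of unity, the
coefficients of `∏ (X - J_x)` are integers. -/
theorem coeff_conjProd_mem_range_intCast {K : Type*} [Field K] [CharZero K] [Algebra ℚ K]
    [IsGalois ℚ K] [FiniteDimensional ℚ K] (hm : 0 < m) (ζ : Kˣ) (hζ : IsPrimitiveRoot ζ m) (k : ℕ) (n : ℤ) :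
    ((conjProd m ζ).coeff k).coeff n ∈ (Int.castRingHom K).range := by
  set c := ((conjProd m ζ).coeff k).coeff n with hc
  have hfix : ∀ σ : K ≃ₐ[ℚ] K, σ c = c := by
    intro σ
    have h := map_conjProd_of_isPrimitiveRoot m hm ζ hζ (σ : K →+* K)
    have h2 := congrArg (fun P => (P.coeff k).coeff n) h
    simpa [Polynomial.coeff_map] using h2
  obtain ⟨r, hr⟩ := IntermediateField.mem_bot.mp ((IsGalois.mem_bot_iff_fixed c).mpr hfix)
  have hint : IsIntegral ℤ c := isIntegral_coeff_conjProd m hm ζ hζ.pow_eq_one k n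
  rw [← hr] at hint
  have hr' : IsIntegral ℤ r :=
    (isIntegral_algebraMap_iff (algebraMap ℚ K).injective).mp hint
  obtain ⟨z, hz⟩ := IsIntegrallyClosed.isIntegral_iff.mp hr'
  refine ⟨z, ?_⟩
  rw [← hr, ← hz]
  simp

/-- Over a finite Galois extension `K/ℚ` containing a primitive `m`-th root of unity,
`∏ (X - J_x)` comes from `ℤ((t))[X]`. -/
theorem exists_map_eq_conjProd_of_isGalois {K : Type*} [Field K] [CharZero K] [Algebra ℚ K]
    [IsGalois ℚ K] [FiniteDimensional ℚ K] (hm : 0 < m) (ζ : Kˣ) (hζ : IsPrimitiveRoot ζ m) :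
    ∃ Q : Polynomial (LaurentSeries ℤ),
      Q.map (coeffMap (Int.castRingHom K)) = conjProd m ζ := by
  have h : conjProd m ζ ∈ (Polynomial.mapRingHom (coeffMap (Int.castRingHom K))).range := by
    rw [Polynomial.mem_map_range]
    intro k
    rw [mem_range_coeffMap_iff]
    exact coeff_conjProd_mem_range_intCast m hm ζ hζ k
  obtain ⟨Q, hQ⟩ := h
  exact ⟨Q, hQ⟩

/-- Transfer from a cyclotomic extension `K/ℚ` to any field of characteristic `0`. -/
theorem map_eq_conjProd_of_isCyclotomicExtension (hm : 0 < m) (K : Type*) [Field K] [CharZero K]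
    [Algebra ℚ K] [IsCyclotomicExtension {m} ℚ K] (ζK : Kˣ) (hζK : IsPrimitiveRoot ζK m)
    (Q : Polynomial (LaurentSeries ℤ))
    (hQ : Q.map (coeffMap (Int.castRingHom K)) = conjProd m ζK)
    (L : Type*) [Field L] [CharZero L] (ζ : Lˣ) (hζ : IsPrimitiveRoot ζ m) :
    Q.map (coeffMap (Int.castRingHom L)) = conjProd m ζ := by
  haveI : NeZero m := ⟨hm.ne'⟩
  obtain rfl : ‹Algebra ℚ K› = DivisionRing.toRatAlgebra := Subsingleton.elim _ _
  have hζK' : IsPrimitiveRoot (ζK : K) m := IsPrimitiveRoot.coe_units_iff.mpr hζK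
  have hζL : IsPrimitiveRoot (ζ : L) m := IsPrimitiveRoot.coe_units_iff.mpr hζ
  have hroot : Polynomial.aeval (ζ : L) (minpoly ℚ (hζK'.powerBasis ℚ).gen) = 0 := by
    rw [hζK'.powerBasis_gen ℚ, ← Polynomial.cyclotomic_eq_minpoly_rat hζK' hm,
      Polynomial.aeval_def, Polynomial.eval₂_eq_eval_map, Polynomial.map_cyclotomic]
    exact hζL.isRoot_cyclotomic hm
  let φ : K →ₐ[ℚ] L := (hζK'.powerBasis ℚ).lift (ζ : L) hroot
  have hφ : φ (ζK : K) = (ζ : L) := by
    have := (hζK'.powerBasis ℚ).lift_gen (ζ : L) hroot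
    rwa [hζK'.powerBasis_gen ℚ] at this
  have hcomp : ((φ : K →+* L).comp (Int.castRingHom K)) = Int.castRingHom L :=
    RingHom.ext_int _ _
  have hu : Units.map ((φ : K →+* L) : K →* L) ζK = ζ := by
    ext
    simp only [Units.coe_map, MonoidHom.coe_coe, RingHom.coe_coe]
    exact hφ
  calc Q.map (coeffMap (Int.castRingHom L))
      = (Q.map (coeffMap (Int.castRingHom K))).map (coeffMap (φ : K →+* L)) := by
        rw [Polynomial.map_map]
        congr 1
        ext x n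
        simp only [RingHom.comp_apply, coeffMap_coeff]
        rw [← hcomp]
        rfl
    _ = conjProd m ζ := by rw [hQ, map_conjProd, hu]

/-- **Integrality of the product of the conjugates.** There is ONE polynomial over `ℤ((t))` whose
image over every field `L` of characteristic `0` with a primitive `m`-th root of unity `ζ`
is `∏_{x ∈ triples m} (X - J_x)`. -/
theorem exists_map_eq_conjProd (hm : 0 < m) :
    ∃ Q : Polynomial (LaurentSeries ℤ), ∀ (L : Type*) [Field L] [CharZero L] (ζ : Lˣ),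
      IsPrimitiveRoot ζ m → Q.map (coeffMap (Int.castRingHom L)) = conjProd m ζ := by
  haveI : NeZero m := ⟨hm.ne'⟩
  letI : Algebra ℚ (CyclotomicField m ℚ) := CyclotomicField.algebra m ℚ
  haveI : IsCyclotomicExtension {m} ℚ (CyclotomicField m ℚ) :=
    CyclotomicField.isCyclotomicExtension m ℚ
  haveI : IsGalois ℚ (CyclotomicField m ℚ) := IsCyclotomicExtension.isGalois {m} ℚ _
  haveI : FiniteDimensional ℚ (CyclotomicField m ℚ) :=
    IsCyclotomicExtension.finiteDimensional {m} ℚ _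
  have hζK : IsPrimitiveRoot (IsCyclotomicExtension.zeta m ℚ (CyclotomicField m ℚ)) m :=
    IsCyclotomicExtension.zeta_spec m ℚ _
  have hζK' : IsPrimitiveRoot (hζK.isUnit hm.ne').unit m := IsPrimitiveRoot.coe_units_iff.mp (by
    rw [IsUnit.unit_spec]; exact hζK)
  obtain ⟨Q, hQ⟩ := exists_map_eq_conjProd_of_isGalois m hm _ hζK'
  exact ⟨Q, fun L _ _ ζ hζ =>
    map_eq_conjProd_of_isCyclotomicExtension m hm (CyclotomicField m ℚ) _ hζK' Q hQ L ζ hζ⟩

end Fermat.Agent.S28.H96
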