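import Mathlib
import Fermat.Agent.S28.H96_ConjProd

/-!
S28 / W1b (iii) + W1d (helper96): the ALGEBRAIC TAIL of the modular polynomial package.

INPUT (`hasModPoly_of_product`): a field `L` of characteristic `0` (think `ℂ`) with a primitive
`m`-th root of unity `ζ`, and a monic `Φ ∈ L[Y][X]` with
`Φ(J(t^m), X) = ∏_{x ∈ triples m} (X - J_x)` in `L((t))[X]`, `J_x = J(ζ^(ab) t^(a²))`.

OUTPUT: `HasModPoly m` (Interface): `Φ` has integer coefficients, gives the prelude's
`ModularPolynomialData m`, and all formal conjugates are roots over EVERY field with a primitive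
`m`-th root of unity (any characteristic).
-/

set_option autoImplicit false

noncomputable section

namespace Fermat.Agent.S28.H96

open ModularCurve HahnSeries Polynomial

/-! ### The ring `ℤ[ζ_m] = ℤ[X]/(Φ_m)` -/

section CycRing

variable (m : ℕ)

/-- `ℤ[ζ_m]` as `ℤ[X]/(cyclotomic m)`. -/
abbrev CycRing : Type := AdjoinRoot (Polynomial.cyclotomic m ℤ)

theorem cycRoot_pow : (AdjoinRoot.root (Polynomial.cyclotomic m ℤ)) ^ m = 1 := by
  have h : AdjoinRoot.mk (Polynomial.cyclotomic m ℤ) (Polynomial.X ^ m - 1) = 0 :=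
    AdjoinRoot.mk_eq_zero.mpr (Polynomial.cyclotomic.dvd_X_pow_sub_one m ℤ)
  rw [map_sub, map_pow, AdjoinRoot.mk_X, map_one, sub_eq_zero] at h
  exact h

/-- The root of unity `ζ_m ∈ ℤ[ζ_m]ˣ`. -/
def cycUnit (hm : m ≠ 0) : (CycRing m)ˣ :=
  Units.ofPowEqOne _ m (cycRoot_pow m) hm

@[simp]
theorem val_cycUnit (hm : m ≠ 0) :
    ((cycUnit m hm : (CycRing m)ˣ) : CycRing m) = AdjoinRoot.root (Polynomial.cyclotomic m ℤ) :=
  rfl

variable {m}

theorem eval₂_cyclotomic_of_isPrimitiveRoot {k : Type*} [CommRing k] [IsDomain k] (hm : 0 < m)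
    {ζ : k} (hζ : IsPrimitiveRoot ζ m) :
    (Polynomial.cyclotomic m ℤ).eval₂ (Int.castRingHom k) ζ = 0 := by
  rw [Polynomial.eval₂_eq_eval_map, Polynomial.map_cyclotomic_int]
  exact hζ.isRoot_cyclotomic hm

/-- `ℤ[ζ_m] → k`, `ζ_m ↦ ζ`, for a primitive `m`-th root of unity `ζ` of a domain `k`. -/
def cycLift {k : Type*} [CommRing k] [IsDomain k] (hm : 0 < m) {ζ : k}
    (hζ : IsPrimitiveRoot ζ m) : CycRing m →+* k :=
  AdjoinRoot.lift (Int.castRingHom k) ζ (eval₂_cyclotomic_of_isPrimitiveRoot hm hζ)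

@[simp]
theorem cycLift_root {k : Type*} [CommRing k] [IsDomain k] (hm : 0 < m) {ζ : k}
    (hζ : IsPrimitiveRoot ζ m) :
    cycLift hm hζ (AdjoinRoot.root (Polynomial.cyclotomic m ℤ)) = ζ := by
  simp [cycLift]

theorem map_cycUnit {k : Type*} [CommRing k] [IsDomain k] (hm : 0 < m) (ζ : kˣ)
    (hζ : IsPrimitiveRoot ζ m) :
    Units.map ((cycLift hm (IsPrimitiveRoot.coe_units_iff.mpr hζ) : CycRing m →+* k) :
      CycRing m →* k) (cycUnit m hm.ne') = ζ := by
  ext
  simp

/-- In characteristic `0` the map `ℤ[ζ_m] → L` is injective. -/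
theorem cycLift_injective {L : Type*} [Field L] [CharZero L] (hm : 0 < m) {ζ : L}
    (hζ : IsPrimitiveRoot ζ m) : Function.Injective (cycLift hm hζ) := by
  rw [injective_iff_map_eq_zero]
  intro x hx
  obtain ⟨p, rfl⟩ := AdjoinRoot.mk_surjective x
  rw [cycLift, AdjoinRoot.lift_mk] at hx
  rw [AdjoinRoot.mk_eq_zero, Polynomial.cyclotomic_eq_minpoly hζ hm]
  apply minpoly.isIntegrallyClosed_dvd (hζ.isIntegral hm)
  rw [Polynomial.aeval_def]
  convert hx
  exact Subsingleton.elim _ _

end CycRing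

/-! ### The main theorem -/

section Main

variable (m : ℕ) [NeZero m]

/-- **Algebraic tail of W1b + W1d.** From the product formula over ONE field of characteristic `0`
(with one primitive `m`-th root of unity) to the full `HasModPoly m`. -/
theorem hasModPoly_of_product {L : Type*} [Field L] [CharZero L] (ζ : Lˣ)
    (hζ : IsPrimitiveRoot ζ m) (Φ : Polynomial (Polynomial L)) (hmonic : Φ.Monic)
    (hprod : Φ.map (evalC (qExpand L m (jqModC L))) = conjProd m ζ)
    (hcard : (triples m).card = dedekindPsi m) : HasModPoly m := by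
  have hm : 0 < m := NeZero.pos m
  have hζL : IsPrimitiveRoot (ζ : L) m := IsPrimitiveRoot.coe_units_iff.mpr hζ
  obtain ⟨Q, hQ⟩ := exists_map_eq_conjProd m hm
  have hQL := hQ L ζ hζ
  -- `Φ` has integer coefficients
  have hJ : coeffMap (Int.castRingHom L) (qExpand ℤ m (jqModC ℤ)) = qExpand L m (jqModC L) := by
    rw [coeffMap_qExpand, coeffMap_jqModC]
  obtain ⟨Ψ, hΨ⟩ := exists_map_eq_of_map_evalC_mem hm (Int.castRingHom L)
    (isLeading_qExpand_jqModC ℤ m) Φ (by
      intro k
      rw [hJ, hprod, ← hQL, Polynomial.coeff_map]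
      exact ⟨_, rfl⟩)
  have hinj : Function.Injective (Polynomial.mapRingHom (Int.castRingHom L)) :=
    Polynomial.map_injective _ (RingHom.injective_int _)
  have hΨmonic : Ψ.Monic := Polynomial.monic_of_injective hinj (hΨ ▸ hmonic)
  have hdeg : Ψ.natDegree = (triples m).card := by
    rw [← hΨmonic.natDegree_map (Polynomial.mapRingHom (Int.castRingHom L)), hΨ,
      ← hmonic.natDegree_map (evalC (qExpand L m (jqModC L))), hprod, natDegree_conjProd]
  -- all conjugates are roots over `L`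
  have hmapJ : Ψ.map (evalJ (qExpand L m (jqModC L))) = conjProd m ζ := by
    rw [evalJ_eq_evalC, ← Polynomial.map_map, hΨ, hprod]
  have hrootsL : RootsAt L m ζ Ψ := by
    intro a b d hx hne
    rw [Polynomial.eval₂_eq_eval_map, hmapJ, ← JT_eq ζ a b d]
    exact eval_conjProd_JT m ζ ((mem_triples hm).mpr hx)
  -- descend to `ℤ[ζ_m]`
  have hrootsA : RootsAt (CycRing m) m (cycUnit m hm.ne') Ψ := by
    apply RootsAt.of_map (cycLift hm hζL) (cycLift_injective hm hζL)
    rw [map_cycUnit hm ζ hζ]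
    exact hrootsL
  -- the prelude identity over `ℚ`
  have heval : Ψ.eval₂ evalAtJ (jqN m) = 0 := by
    haveI : NeZero (m * m) := ⟨mul_ne_zero hm.ne' hm.ne'⟩
    have h1 := hrootsL m 0 1 ⟨mul_one m, Nat.zero_lt_one, by simp⟩ inferInstance
    rw [mul_zero, pow_zero, Jconj_one, ← qExpand_qExpand, ← qExpand_eval₂_evalJ] at h1
    have h2 : Ψ.eval₂ (evalJ (jqModC L)) (qExpand L m (jqModC L)) = 0 :=
      qExpand_injective m (by rw [h1, map_zero])
    have h3 : coeffMap (algebraMap ℚ L)
        (Ψ.eval₂ (evalJ (jqModC ℚ)) (qExpand ℚ m (jqModC ℚ))) = 0 := by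
      rw [coeffMap_eval₂_evalJ, coeffMap_qExpand, coeffMap_jqModC]
      exact h2
    have h4 := coeffMap_injective (algebraMap ℚ L) (algebraMap ℚ L).injective
      (by rw [h3, map_zero] : coeffMap (algebraMap ℚ L)
        (Ψ.eval₂ (evalJ (jqModC ℚ)) (qExpand ℚ m (jqModC ℚ))) = coeffMap (algebraMap ℚ L) 0)
    exact h4
  refine ⟨⟨Ψ, hΨmonic, hdeg.trans hcard, heval⟩, ?_⟩
  intro k _ ζk hζk
  have h := RootsAt.map (cycLift hm (IsPrimitiveRoot.coe_units_iff.mpr hζk)) hrootsA
  rwa [map_cycUnit hm ζk hζk] at h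

end Main

/-! ### Variant: from roots and distinctness to the product formula -/

section Variant

variable (m : ℕ)

/-- A monic polynomial of degree `#triples m` having the pairwise distinct conjugates `J_x` as
roots IS their product. -/
theorem eq_conjProd_of_roots {L : Type*} [Field L] (ζ : Lˣ) (P : Polynomial (LaurentSeries L))
    (hP : P.Monic) (hdeg : P.natDegree = (triples m).card)
    (hroots : ∀ x ∈ triples m, P.eval (JT L ζ x) = 0)
    (hinj : Set.InjOn (JT L ζ) (triples m : Set (ℕ × ℕ × ℕ))) : P = conjProd m ζ := by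
  classical
  have hnd : ((triples m).val.map (JT L ζ)).Nodup :=
    Multiset.Nodup.map_on (fun x hx y hy h => hinj hx hy h) (triples m).nodup
  have hle : (triples m).val.map (JT L ζ) ≤ P.roots := by
    rw [Multiset.le_iff_subset hnd]
    intro y hy
    obtain ⟨x, hx, rfl⟩ := Multiset.mem_map.mp hy
    exact (Polynomial.mem_roots hP.ne_zero).mpr (hroots x hx)
  have hdvd := (Multiset.prod_X_sub_C_dvd_iff_le_roots hP.ne_zero _).mpr hle
  have hprod : (((triples m).val.map (JT L ζ)).map fun a => Polynomial.X - Polynomial.C a).prod =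
      conjProd m ζ := by
    rw [Multiset.map_map]
    rfl
  rw [hprod] at hdvd
  refine Polynomial.eq_of_monic_of_dvd_of_natDegree_le (conjProd_monic m ζ) hP hdvd ?_
  rw [hdeg, natDegree_conjProd]

end Variant

end Fermat.Agent.S28.H96
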