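import Fermat.Agent.S28.H17_ModPolyC2
import Fermat.Agent.S28.H96_ModPolyTail

/-!
S28 / W1-final (helper16): `hasModPoly m : HasModPoly m`, gluing helper17's product formula over `ℂ`
(`H17.exists_modPoly_complex'`) with helper96's algebraic tail (`H96.hasModPoly_of_product`).
-/

set_option autoImplicit false

noncomputable section

namespace Fermat.Agent.S28.H16

open Fermat.Agent.S28 Polynomial ModularCurve

theorem jTc_eq_jT (ζ : ℂˣ) (x : ℕ × ℕ × ℕ) : H17.JTc ζ x = H96.JT ℂ ζ x := by
  unfold H17.JTc H96.JT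
  rfl

/-- **W1-final**: the modular polynomial package exists for every level. -/
theorem hasModPoly (m : ℕ) [NeZero m] : HasModPoly m := by
  obtain ⟨P, hmonic, _, hprod⟩ := H17.exists_modPoly_complex' m
  refine H96.hasModPoly_of_product m (H17.zetaC m) (H17.isPrimitiveRoot_zetaC m) P hmonic ?_
    (H17.card_triples_eq m)
  have h1 : P.map (H96.evalC (qExpand ℂ m (jqModC ℂ))) =
      P.map (H17.evalCC (qExpand ℂ m (jqModC ℂ))) := rfl
  rw [h1, hprod]
  unfold H96.conjProd
  exact Finset.prod_congr rfl (fun x _ => by rw [jTc_eq_jT])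

end Fermat.Agent.S28.H16
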