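import Mathlib
import Fermat.Prelude.Def_ModularCurve_X0ModL
import Fermat.Agent.S28.Defs
import Fermat.Agent.S28.Interface

/-!
S28 / W2 bridge (helper16): the embedding `RatFunc k → LaurentSeries k`, `X ↦ x` (for `x`
transcendental, e.g. `x = J(t^N)`), and the identification of `redModPoly k Φ` mapped along it with
`Φ.map (evalJ x)`. With `algebraOfTranscendental x hx : Algebra (RatFunc k) (LaurentSeries k)`
the abstract step lemmas (`H43`, `H50`; `F ⊆ L` fields with `[Algebra F L]`) apply with
`F := RatFunc k`, `L := LaurentSeries k`, `PN := redModPoly k Φ`.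
-/

set_option autoImplicit false

noncomputable section

namespace Fermat.Agent.S28.H16

open ModularCurve Polynomial Fermat.Agent.S28

variable {k : Type*} [Field k]

/-- `RatFunc k → LaurentSeries k`, `X ↦ x`, for `x` with `aeval x` injective. -/
def ratFuncToLaurent (x : LaurentSeries k)
    (hx : Function.Injective (Polynomial.aeval (R := k) x)) : RatFunc k →+* LaurentSeries k :=
  RatFunc.liftRingHom (Polynomial.aeval (R := k) x).toRingHom (by
    intro p hp
    rw [Submonoid.mem_comap, mem_nonZeroDivisors_iff_ne_zero] at *
    intro h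
    apply hp
    apply hx
    rw [map_zero]
    exact h)

theorem ratFuncToLaurent_algebraMap (x : LaurentSeries k)
    (hx : Function.Injective (Polynomial.aeval (R := k) x)) (P : k[X]) :
    ratFuncToLaurent x hx (algebraMap k[X] (RatFunc k) P) = Polynomial.aeval x P := by
  rw [ratFuncToLaurent, RatFunc.liftRingHom_algebraMap]
  rfl

theorem ratFuncToLaurent_X (x : LaurentSeries k)
    (hx : Function.Injective (Polynomial.aeval (R := k) x)) :
    ratFuncToLaurent x hx RatFunc.X = x := by
  rw [← RatFunc.algebraMap_X, ratFuncToLaurent_algebraMap, Polynomial.aeval_X]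

theorem ratFuncToLaurent_injective (x : LaurentSeries k)
    (hx : Function.Injective (Polynomial.aeval (R := k) x)) :
    Function.Injective (ratFuncToLaurent x hx) :=
  (ratFuncToLaurent x hx).injective

/-- The `RatFunc k`-algebra structure on `LaurentSeries k` given by `X ↦ x`. Use with `letI`. -/
abbrev algebraOfTranscendental (x : LaurentSeries k)
    (hx : Function.Injective (Polynomial.aeval (R := k) x)) :
    Algebra (RatFunc k) (LaurentSeries k) :=
  (ratFuncToLaurent x hx).toAlgebra

/-- The reduction of `Φ ∈ ℤ[Y][X]` over `k(Y)`, mapped to `k((t))` by `Y ↦ x`, is `Φ` with its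
coefficients evaluated at `x`. -/
theorem redModPoly_map_ratFuncToLaurent (x : LaurentSeries k)
    (hx : Function.Injective (Polynomial.aeval (R := k) x)) (Φ : Polynomial ℤ[X]) :
    (redModPoly k Φ).map (ratFuncToLaurent x hx) = Φ.map (evalJ x) := by
  rw [redModPoly, Polynomial.map_map]
  congr 1
  refine Polynomial.ringHom_ext' (Subsingleton.elim _ _) ?_
  simp only [RingHom.comp_apply, Polynomial.coe_mapRingHom, Polynomial.map_X, evalJ_X]
  rw [ratFuncToLaurent_algebraMap, Polynomial.aeval_X]

/-- Root form: `y` is a root of the mapped `redModPoly` iff `Φ.eval₂ (evalJ x) y = 0`. -/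
theorem eval_redModPoly_map (x y : LaurentSeries k)
    (hx : Function.Injective (Polynomial.aeval (R := k) x)) (Φ : Polynomial ℤ[X]) :
    ((redModPoly k Φ).map (ratFuncToLaurent x hx)).eval y = Φ.eval₂ (evalJ x) y := by
  rw [redModPoly_map_ratFuncToLaurent, Polynomial.eval_map]

end Fermat.Agent.S28.H16
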