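import Mathlib
import Fermat.Prelude.Def_ModularCurve_X0ModL
import Fermat.Agent.S28.Defs
import Fermat.Agent.S28.Interface

/-!
S28 / W1d (helper16): TRANSFER of the formal root statements along ring homomorphisms of the
coefficient ring, and from `ℂ` to every field with a primitive `m`-th root of unity (through
`AdjoinRoot (cyclotomic m ℤ)`).
-/

set_option autoImplicit false

noncomputable section

namespace Fermat.Agent.S28.H16

open ModularCurve HahnSeries Polynomial Fermat.Agent.S28

variable {R S : Type*} [CommRing R] [CommRing S]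

theorem coeffMap_injective {f : R →+* S} (hf : Function.Injective f) :
    Function.Injective (coeffMap f) := by
  intro x y h
  ext n
  apply hf
  have := congrArg (fun z => HahnSeries.coeff z n) h
  simpa using this

theorem coeffMap_twist (f : R →+* S) (ξ : Rˣ) (x : LaurentSeries R) :
    coeffMap f (twist ξ x) = twist (Units.map (f : R →* S) ξ) (coeffMap f x) := by
  ext n
  simp only [coeffMap_coeff, twist_coeff, map_mul]
  congr 1
  rw [← map_zpow]
  rfl

theorem coeffMap_subst (f : R →+* S) (ξ : Rˣ) (e : ℕ) [NeZero e] (x : LaurentSeries R) :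
    coeffMap f (subst ξ e x) = subst (Units.map (f : R →* S) ξ) e (coeffMap f x) := by
  rw [subst_apply, subst_apply, coeffMap_qExpand, coeffMap_twist]

theorem coeffMap_Jconj (f : R →+* S) (ξ : Rˣ) (e : ℕ) [NeZero e] :
    coeffMap f (Jconj R ξ e) = Jconj S (Units.map (f : R →* S) ξ) e := by
  rw [Jconj, Jconj, coeffMap_subst, coeffMap_jqModC]

theorem coeffMap_comp_evalJ (f : R →+* S) (x : LaurentSeries R) :
    (coeffMap f).comp (evalJ x) = evalJ (coeffMap f x) := by
  refine Polynomial.ringHom_ext' (Subsingleton.elim _ _) ?_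
  simp [evalJ]

theorem coeffMap_evalJ (f : R →+* S) (x : LaurentSeries R) (P : ℤ[X]) :
    coeffMap f (evalJ x P) = evalJ (coeffMap f x) P :=
  congrArg (fun g : ℤ[X] →+* LaurentSeries S => g P) (coeffMap_comp_evalJ f x)

theorem coeffMap_eval₂_evalJ (f : R →+* S) (Φ : Polynomial ℤ[X]) (x y : LaurentSeries R) :
    coeffMap f (Φ.eval₂ (evalJ x) y) = Φ.eval₂ (evalJ (coeffMap f x)) (coeffMap f y) := by
  rw [Polynomial.hom_eval₂, coeffMap_comp_evalJ]

/-- Root statements push forward along ring homs of the coefficients. -/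
theorem RootsAt.map (f : R →+* S) {m : ℕ} [NeZero m] {ζ : Rˣ} {Φ : Polynomial ℤ[X]}
    (h : RootsAt R m ζ Φ) : RootsAt S m (Units.map (f : R →* S) ζ) Φ := by
  intro a b d habd hne
  have h1 := congrArg (coeffMap f) (h a b d habd hne)
  rw [coeffMap_eval₂_evalJ, coeffMap_qExpand, coeffMap_jqModC, coeffMap_Jconj, map_zero,
    map_pow] at h1
  exact h1

/-- Root statements pull back along injective ring homs of the coefficients. -/
theorem RootsAt.of_injective (f : R →+* S) (hf : Function.Injective f) {m : ℕ} [NeZero m]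
    {ζ : Rˣ} {Φ : Polynomial ℤ[X]} (h : RootsAt S m (Units.map (f : R →* S) ζ) Φ) :
    RootsAt R m ζ Φ := by
  intro a b d habd hne
  apply coeffMap_injective hf
  rw [coeffMap_eval₂_evalJ, coeffMap_qExpand, coeffMap_jqModC, coeffMap_Jconj, map_zero,
    map_pow]
  exact h a b d habd hne

section Cyclotomic

variable (m : ℕ) [NeZero m]

/-- The cyclotomic ring `ℤ[X]/(Φ_m)`. -/
abbrev CycRing : Type := AdjoinRoot (cyclotomic m ℤ)

omit [NeZero m] in
theorem root_pow_eq_one : (AdjoinRoot.root (cyclotomic m ℤ)) ^ m = 1 := by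
  have h1 : cyclotomic m ℤ ∣ X ^ m - 1 := cyclotomic.dvd_X_pow_sub_one m ℤ
  obtain ⟨g, hg⟩ := h1
  have h2 : (AdjoinRoot.mk (cyclotomic m ℤ)) (X ^ m - 1) = 0 := by
    rw [hg, map_mul, AdjoinRoot.mk_self, zero_mul]
  rw [map_sub, map_pow, AdjoinRoot.mk_X, map_one, sub_eq_zero] at h2
  exact h2

/-- The root of unity of `CycRing m`, as a unit. -/
def cycUnit : (CycRing m)ˣ :=
  Units.ofPowEqOne (AdjoinRoot.root (cyclotomic m ℤ)) m (root_pow_eq_one m) (NeZero.ne m)

@[simp]
theorem coe_cycUnit : ((cycUnit m : (CycRing m)ˣ) : CycRing m) = AdjoinRoot.root (cyclotomic m ℤ) :=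
  rfl

variable {m}

/-- The ring hom `ℤ[ζ_m] → A` attached to a primitive `m`-th root of unity of a domain `A`. -/
def cycHom {A : Type*} [CommRing A] [IsDomain A] (ζ : Aˣ) (hζ : IsPrimitiveRoot ζ m) :
    CycRing m →+* A :=
  AdjoinRoot.lift (Int.castRingHom A) (ζ : A) (by
    have h : IsPrimitiveRoot (ζ : A) m := IsPrimitiveRoot.coe_units_iff.mpr hζ
    have := h.isRoot_cyclotomic (Nat.pos_of_ne_zero (NeZero.ne m))
    rw [Polynomial.IsRoot.def, ← map_cyclotomic_int m A, Polynomial.eval_map] at this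
    exact this)

theorem cycHom_root {A : Type*} [CommRing A] [IsDomain A] (ζ : Aˣ) (hζ : IsPrimitiveRoot ζ m) :
    cycHom ζ hζ (AdjoinRoot.root (cyclotomic m ℤ)) = ζ := by
  simp [cycHom]

theorem map_cycUnit {A : Type*} [CommRing A] [IsDomain A] (ζ : Aˣ) (hζ : IsPrimitiveRoot ζ m) :
    Units.map (cycHom ζ hζ : CycRing m →* A) (cycUnit m) = ζ := by
  ext
  simp [cycHom_root]

/-- Over `ℂ` (or any characteristic-zero domain) the hom `ℤ[ζ_m] → A` is injective. -/
theorem cycHom_injective {A : Type*} [Field A] [CharZero A] (ζ : Aˣ)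
    (hζ : IsPrimitiveRoot ζ m) : Function.Injective (cycHom ζ hζ) := by
  have h : IsPrimitiveRoot (ζ : A) m := IsPrimitiveRoot.coe_units_iff.mpr hζ
  have hmin : cyclotomic m ℤ = minpoly ℤ (ζ : A) :=
    cyclotomic_eq_minpoly h (Nat.pos_of_ne_zero (NeZero.ne m))
  rw [injective_iff_map_eq_zero]
  intro x hx
  obtain ⟨P, rfl⟩ := AdjoinRoot.mk_surjective x
  rw [cycHom, AdjoinRoot.lift_mk] at hx
  rw [AdjoinRoot.mk_eq_zero, hmin]
  have hint : IsIntegral ℤ (ζ : A) := h.isIntegral (Nat.pos_of_ne_zero (NeZero.ne m))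
  refine minpoly.isIntegrallyClosed_dvd hint ?_
  rw [Polynomial.aeval_def]
  convert hx using 2
  exact RingHom.ext_int _ _

end Cyclotomic

/-- **W1d.** A root statement over `ℂ` (w.r.t. any primitive `m`-th root of unity) holds over every
field with a primitive `m`-th root of unity. -/
theorem rootsAt_of_complex {m : ℕ} [NeZero m] {Φ : Polynomial ℤ[X]} (ζC : ℂˣ)
    (hζC : IsPrimitiveRoot ζC m) (h : RootsAt ℂ m ζC Φ)
    (k : Type*) [Field k] (ζ : kˣ) (hζ : IsPrimitiveRoot ζ m) : RootsAt k m ζ Φ := by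
  have h1 : RootsAt (CycRing m) m (cycUnit m) Φ := by
    refine RootsAt.of_injective (cycHom ζC hζC) (cycHom_injective ζC hζC) ?_
    rw [map_cycUnit]
    exact h
  have h2 := RootsAt.map (cycHom ζ hζ) h1
  rw [map_cycUnit] at h2
  exact h2

end Fermat.Agent.S28.H16
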