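/-
helper61 — S28 / W3c (tensor step), Mathlib only.

Final step of the chart algebra of S28:  if a `Z`-algebra `A` maps to a field `Ω ⊇ K` with kernel
`ℓ A`, and the image is linearly disjoint from `K` over the residue field `𝔽 = Z/ℓ`, then
`A ⊗[Z] K` embeds in `Ω`, hence is a domain.  Together with the two producers of linear
disjointness (rational function fields, `AdjoinRoot` of a monic polynomial) this gives
`isDomain_tensor_of_adjoinRoot`.
-/
import Mathlib

set_option autoImplicit false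

namespace Fermat.Agent.S28.H61

open TensorProduct Polynomial

section Main

universe uK

variable {Z A Ω 𝔽 : Type*} {K : Type uK} [CommRing Z] [CommRing A] [Algebra Z A] [Field K]
  [Algebra Z K]
  [Field Ω] [Algebra K Ω] [Algebra Z Ω] [IsScalarTower Z K Ω]
  [Field 𝔽] [Algebra Z 𝔽] [Algebra 𝔽 K] [IsScalarTower Z 𝔽 K]

/-- The map `(aᵢ)ᵢ ↦ ∑ aᵢ ⊗ bᵢ`. -/
noncomputable def sumTmul {ι : Type*} (b : ι → K) : (ι →₀ A) →ₗ[Z] A ⊗[Z] K :=
  Finsupp.lsum Z fun i => (TensorProduct.mk Z A K).flip (b i)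

theorem sumTmul_apply {ι : Type*} (b : ι → K) (f : ι →₀ A) :
    sumTmul (Z := Z) b f = f.sum fun i a => a ⊗ₜ[Z] b i := by
  simp only [sumTmul, Finsupp.lsum_apply]
  rfl

theorem sumTmul_single {ι : Type*} (b : ι → K) (i : ι) (a : A) :
    sumTmul (Z := Z) b (Finsupp.single i a) = a ⊗ₜ[Z] b i := by
  simp [sumTmul_apply]

/-- Every element of `A ⊗[Z] K` is a finite sum `∑ aᵢ ⊗ bᵢ` over a fixed `𝔽`-basis `b` of `K`
(`𝔽` a quotient of `Z`). -/
theorem sumTmul_surjective (hsurj : Function.Surjective (algebraMap Z 𝔽))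
    {ι : Type*} (b : Module.Basis ι 𝔽 K) :
    Function.Surjective (sumTmul (Z := Z) (A := A) (fun i => b i)) := by
  classical
  intro x
  rw [← LinearMap.mem_range]
  induction x using TensorProduct.induction_on with
  | zero => exact zero_mem _
  | tmul a c =>
    choose lift hlift using hsurj
    have hc : c = ∑ i ∈ (b.repr c).support, lift (b.repr c i) • b i := by
      conv_lhs => rw [← b.linearCombination_repr c, Finsupp.linearCombination_apply, Finsupp.sum]
      refine Finset.sum_congr rfl fun i _ => ?_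
      rw [← algebraMap_smul 𝔽 (lift (b.repr c i)) (b i), hlift]
    rw [hc, TensorProduct.tmul_sum]
    refine Submodule.sum_mem _ fun i _ => ?_
    rw [TensorProduct.tmul_smul, TensorProduct.smul_tmul', ← sumTmul_single (Z := Z)]
    exact LinearMap.mem_range_self _ _
  | add x y hx hy => exact add_mem hx hy

/-- **Tensor step.**  `ψ : A → Ω` with kernel `ℓ A`, whose image is linearly disjoint from `K`
over `𝔽 = Z/ℓ` (hypothesis `hLD`, on finite families): then `A ⊗[Z] K → Ω` is injective. -/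
theorem productMap_injective (hsurj : Function.Surjective (algebraMap Z 𝔽))
    (ℓ : Z) (hℓ : algebraMap Z 𝔽 ℓ = 0)
    (ψ : A →ₐ[Z] Ω) (hker : ∀ a, ψ a = 0 → ∃ a', a = ℓ • a')
    (hLD : ∀ (ι : Type uK) (b : ι → K), LinearIndependent 𝔽 b → ∀ (s : Finset ι) (a : ι → A),
      ∑ i ∈ s, ψ (a i) * algebraMap K Ω (b i) = 0 → ∀ i ∈ s, ψ (a i) = 0) :
    Function.Injective (Algebra.TensorProduct.productMap ψ (IsScalarTower.toAlgHom Z K Ω)) := by
  classical
  rw [injective_iff_map_eq_zero]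
  intro x hx
  let b := Module.Free.chooseBasis 𝔽 K
  obtain ⟨f, rfl⟩ := sumTmul_surjective (A := A) hsurj b x
  rw [sumTmul_apply] at hx ⊢
  rw [Finsupp.sum, map_sum] at hx
  have hx' : ∑ i ∈ f.support, ψ (f i) * algebraMap K Ω (b i) = 0 := by
    rw [← hx]
    refine Finset.sum_congr rfl fun i _ => ?_
    simp [Algebra.TensorProduct.productMap_apply_tmul]
  have h0 := hLD _ (fun i => b i) b.linearIndependent f.support (fun i => f i) hx'
  rw [Finsupp.sum]
  refine Finset.sum_eq_zero fun i hi => ?_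
  obtain ⟨a', ha'⟩ := hker _ (h0 i hi)
  rw [ha', TensorProduct.smul_tmul]
  have : ℓ • (b i : K) = 0 := by
    rw [← algebraMap_smul 𝔽 ℓ (b i), hℓ, zero_smul]
  rw [this, TensorProduct.tmul_zero]

/-- Domain form of `productMap_injective`. -/
theorem isDomain_tensor (hsurj : Function.Surjective (algebraMap Z 𝔽))
    (ℓ : Z) (hℓ : algebraMap Z 𝔽 ℓ = 0)
    (ψ : A →ₐ[Z] Ω) (hker : ∀ a, ψ a = 0 → ∃ a', a = ℓ • a')
    (hLD : ∀ (ι : Type uK) (b : ι → K), LinearIndependent 𝔽 b → ∀ (s : Finset ι) (a : ι → A),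
      ∑ i ∈ s, ψ (a i) * algebraMap K Ω (b i) = 0 → ∀ i ∈ s, ψ (a i) = 0) :
    IsDomain (A ⊗[Z] K) :=
  Function.Injective.isDomain
    (Algebra.TensorProduct.productMap ψ (IsScalarTower.toAlgHom Z K Ω)).toRingHom
    (productMap_injective hsurj ℓ hℓ ψ hker hLD)

end Main

section AdjoinRootLD

variable {L L' : Type*} [Field L] [Field L'] (φ : L →+* L') (g : L[X])

theorem adjoinRoot_map_mk (p : L[X]) :
    AdjoinRoot.map φ g (g.map φ) dvd_rfl (AdjoinRoot.mk g p) = AdjoinRoot.mk (g.map φ) (p.map φ) := by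
  induction p using Polynomial.induction_on' with
  | add p q hp hq => simp only [map_add, Polynomial.map_add, hp, hq]
  | monomial n a =>
    rw [← Polynomial.C_mul_X_pow_eq_monomial]
    simp only [map_mul, map_pow, Polynomial.map_mul, Polynomial.map_pow, Polynomial.map_C,
      Polynomial.map_X, AdjoinRoot.mk_C, AdjoinRoot.mk_X, AdjoinRoot.map_of, AdjoinRoot.map_root]

/-- **(LD2)** A finite family of `L'` that is linearly independent over `φ(L)` stays linearly
independent over `AdjoinRoot g` inside `AdjoinRoot (g.map φ)` (`g` monic). -/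
theorem adjoinRoot_linDisjoint (hg : g.Monic) {ι : Type*} (s : Finset ι) (c : ι → L')
    (hc : ∀ e : ι → L, ∑ i ∈ s, φ (e i) * c i = 0 → ∀ i ∈ s, e i = 0)
    (r : ι → AdjoinRoot g)
    (h : ∑ i ∈ s, AdjoinRoot.map φ g (g.map φ) dvd_rfl (r i) * AdjoinRoot.of (g.map φ) (c i) = 0) :
    ∀ i ∈ s, r i = 0 := by
  classical
  set p : ι → L[X] := fun i => AdjoinRoot.modByMonicHom hg (r i) with hp
  have hr : ∀ i, r i = AdjoinRoot.mk g (p i) := fun i => (AdjoinRoot.mk_leftInverse hg (r i)).symm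
  have hdeg : ∀ i, (p i).degree < g.degree := fun i => by
    obtain ⟨q, hq⟩ := AdjoinRoot.mk_surjective (r i)
    rw [hp]
    simp only
    rw [← hq, AdjoinRoot.modByMonicHom_mk]
    exact Polynomial.degree_modByMonic_lt q hg
  -- the polynomial `P = ∑ pᵢ^φ * C cᵢ` is divisible by `g^φ` and of smaller degree
  set P : L'[X] := ∑ i ∈ s, (p i).map φ * C (c i) with hP
  have hPmk : AdjoinRoot.mk (g.map φ) P = 0 := by
    rw [hP, map_sum, ← h]
    refine Finset.sum_congr rfl fun i _ => ?_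
    rw [map_mul, AdjoinRoot.mk_C, hr i, adjoinRoot_map_mk]
  have hPdeg : P.degree < (g.map φ).degree := by
    rw [Polynomial.degree_map]
    refine lt_of_le_of_lt (Polynomial.degree_sum_le _ _) ?_
    rw [Finset.sup_lt_iff (by
      rw [bot_lt_iff_ne_bot, Ne, Polynomial.degree_eq_bot]; exact hg.ne_zero)]
    intro i _
    refine lt_of_le_of_lt (Polynomial.degree_mul_le _ _) ?_
    refine lt_of_le_of_lt (add_le_add (Polynomial.degree_map_le) (Polynomial.degree_C_le)) ?_
    rw [add_zero]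
    exact hdeg i
  have hP0 : P = 0 :=
    Polynomial.eq_zero_of_dvd_of_degree_lt (AdjoinRoot.mk_eq_zero.mp hPmk) hPdeg
  have hcoeff : ∀ j : ℕ, ∀ i ∈ s, (p i).coeff j = 0 := by
    intro j
    apply hc (fun i => (p i).coeff j)
    have := congrArg (fun Q : L'[X] => Q.coeff j) hP0
    simp only [hP, Polynomial.finsetSum_coeff, Polynomial.coeff_mul_C, Polynomial.coeff_map,
      Polynomial.coeff_zero] at this
    exact this
  intro i hi
  rw [hr i]
  have : p i = 0 := Polynomial.ext fun j => by rw [hcoeff j i hi, Polynomial.coeff_zero]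
  rw [this, map_zero]

end AdjoinRootLD

section RatFuncLD

variable {𝔽 K L L' : Type*} [Field 𝔽] [Field K] [Algebra 𝔽 K]
  [Field L] [Algebra 𝔽[X] L] [IsFractionRing 𝔽[X] L]
  [Field L'] [Algebra K[X] L'] [FaithfulSMul K[X] L']

/-- **(LD1)** A family of `K` that is linearly independent over the subfield `𝔽` stays linearly
independent over `𝔽(T)` inside `K(T)` (`L`, `L'` any models of the fraction fields, `φ : L → L'`
any ring hom restricting to the coefficient map on polynomials). -/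
theorem fractionField_linDisjoint (φ : L →+* L')
    (hφ : ∀ p : 𝔽[X], φ (algebraMap 𝔽[X] L p) = algebraMap K[X] L' (p.map (algebraMap 𝔽 K)))
    {ι : Type*} (b : ι → K) (hb : LinearIndependent 𝔽 b) (s : Finset ι) (e : ι → L)
    (h : ∑ i ∈ s, φ (e i) * algebraMap K[X] L' (C (b i)) = 0) : ∀ i ∈ s, e i = 0 := by
  classical
  obtain ⟨D, hD⟩ := IsLocalization.exist_integer_multiples (nonZeroDivisors 𝔽[X]) s e
  have hex : ∀ i, ∃ n : 𝔽[X], i ∈ s → algebraMap 𝔽[X] L n = (D : 𝔽[X]) • e i := fun i => by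
    by_cases hi : i ∈ s
    · obtain ⟨n, hn⟩ := hD i hi
      exact ⟨n, fun _ => hn⟩
    · exact ⟨0, fun h => absurd h hi⟩
  choose n hn using hex
  have hinj : Function.Injective (algebraMap K[X] L') := FaithfulSMul.algebraMap_injective _ _
  -- the polynomial identity
  have hpoly : ∑ i ∈ s, (n i).map (algebraMap 𝔽 K) * C (b i) = 0 := by
    apply hinj
    rw [map_zero, map_sum]
    have h' := congrArg (fun x => φ (algebraMap 𝔽[X] L (D : 𝔽[X])) * x) h
    simp only [mul_zero, Finset.mul_sum] at h'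
    rw [← h']
    refine Finset.sum_congr rfl fun i hi => ?_
    rw [map_mul, ← hφ, hn i hi, Algebra.smul_def, map_mul, mul_assoc]
  have hcoeff : ∀ j : ℕ, ∀ i ∈ s, (n i).coeff j = 0 := by
    intro j
    have hj := congrArg (fun Q : K[X] => Q.coeff j) hpoly
    simp only [Polynomial.finsetSum_coeff, Polynomial.coeff_mul_C, Polynomial.coeff_map,
      Polynomial.coeff_zero] at hj
    have hj' : ∑ i ∈ s, (n i).coeff j • b i = 0 := by
      rw [← hj]
      exact Finset.sum_congr rfl fun i _ => Algebra.smul_def _ _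
    exact linearIndependent_iff'.mp hb s (fun i => (n i).coeff j) hj'
  intro i hi
  have hni : n i = 0 := Polynomial.ext fun j => by rw [hcoeff j i hi, Polynomial.coeff_zero]
  have hDe := hn i hi
  rw [hni, map_zero, Algebra.smul_def] at hDe
  have hD0 : algebraMap 𝔽[X] L (D : 𝔽[X]) ≠ 0 := by
    rw [Ne, map_eq_zero_iff _ (IsFractionRing.injective 𝔽[X] L)]
    exact nonZeroDivisors.ne_zero D.2
  exact (mul_eq_zero.mp hDe.symm).resolve_left hD0

end RatFuncLD

section Combined

universe uK'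

variable {Z A 𝔽 L L' : Type*} {K : Type uK'} [CommRing Z] [CommRing A] [Algebra Z A] [Field K]
  [Algebra Z K] [Field 𝔽] [Algebra Z 𝔽] [Algebra 𝔽 K] [IsScalarTower Z 𝔽 K]
  [Field L] [Algebra 𝔽[X] L] [IsFractionRing 𝔽[X] L]
  [Field L'] [Algebra K[X] L'] [FaithfulSMul K[X] L']

/-- **W3c, combined form.**  `𝔽 = Z/ℓ` the residue field, `L = 𝔽(T)`, `L' = K(T)` (any models),
`g` monic over `L` whose image over `L'` is irreducible, and `ψ₀ : A → L[X]/(g)` a ring hom with
kernel `ℓ A`, compatible with `Z → 𝔽`.  Then `A ⊗[Z] K` is a domain (it embeds in the field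
`L'[X]/(g)`). -/
theorem isDomain_tensor_of_adjoinRoot
    (hsurj : Function.Surjective (algebraMap Z 𝔽)) (ℓ : Z) (hℓ : algebraMap Z 𝔽 ℓ = 0)
    (φ : L →+* L')
    (hφ : ∀ p : 𝔽[X], φ (algebraMap 𝔽[X] L p) = algebraMap K[X] L' (p.map (algebraMap 𝔽 K)))
    (g : L[X]) (hg : g.Monic) (hirr : Irreducible (g.map φ))
    (ψ₀ : A →+* AdjoinRoot g)
    (hψ₀ : ∀ z : Z, ψ₀ (algebraMap Z A z) =
      AdjoinRoot.of g (algebraMap 𝔽[X] L (C (algebraMap Z 𝔽 z))))
    (hker : ∀ a, ψ₀ a = 0 → ∃ a', a = ℓ • a') :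
    IsDomain (A ⊗[Z] K) := by
  classical
  have : Fact (Irreducible (g.map φ)) := ⟨hirr⟩
  let Ω := AdjoinRoot (g.map φ)
  let iK : K →+* Ω := (AdjoinRoot.of (g.map φ)).comp ((algebraMap K[X] L').comp C)
  let algK : Algebra K Ω := iK.toAlgebra
  let algZ : Algebra Z Ω := (iK.comp (algebraMap Z K)).toAlgebra
  have : IsScalarTower Z K Ω := IsScalarTower.of_algebraMap_eq fun _ => rfl
  have hKΩ : ∀ c : K, algebraMap K Ω c = AdjoinRoot.of (g.map φ) (algebraMap K[X] L' (C c)) :=
    fun _ => rfl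
  let Θ : AdjoinRoot g →+* Ω := AdjoinRoot.map φ g (g.map φ) dvd_rfl
  -- `Θ` is injective (special case of (LD2))
  have hΘ : ∀ r : AdjoinRoot g, Θ r = 0 → r = 0 := by
    intro r hr
    refine adjoinRoot_linDisjoint φ g hg ({()} : Finset Unit) (fun _ => 1) ?_ (fun _ => r) ?_ ()
      (Finset.mem_singleton_self _)
    · intro e he i _
      simpa using he
    · simpa using hr
  let ψ : A →ₐ[Z] Ω :=
    { (Θ.comp ψ₀) with
      commutes' := fun z => by
        show Θ (ψ₀ (algebraMap Z A z)) = iK (algebraMap Z K z)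
        rw [hψ₀, AdjoinRoot.map_of, hφ, Polynomial.map_C,
          ← IsScalarTower.algebraMap_apply Z 𝔽 K]
        rfl }
  have hψ : ∀ a, ψ a = Θ (ψ₀ a) := fun _ => rfl
  refine isDomain_tensor (Ω := Ω) hsurj ℓ hℓ ψ ?_ ?_
  · intro a ha
    exact hker a (hΘ _ ha)
  · intro ι b hb s a hsum i hi
    rw [hψ]
    have := adjoinRoot_linDisjoint φ g hg s (fun i => algebraMap K[X] L' (C (b i)))
      (fun e he => fractionField_linDisjoint φ hφ b hb s e he) (fun i => ψ₀ (a i)) hsum i hi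
    rw [this, map_zero]

end Combined

section RatFuncModel

variable {𝔽 K : Type*} [Field 𝔽] [Field K] [Algebra 𝔽 K]

/-- The coefficient extension `𝔽(T) → K(T)`. -/
noncomputable def ratFuncMap (𝔽 K : Type*) [Field 𝔽] [Field K] [Algebra 𝔽 K] :
    RatFunc 𝔽 →+* RatFunc K :=
  RatFunc.mapRingHom (Polynomial.mapRingHom (algebraMap 𝔽 K)) (by
    intro p hp
    rw [Submonoid.mem_comap, mem_nonZeroDivisors_iff_ne_zero] at *
    simpa [Polynomial.map_eq_zero_iff (algebraMap 𝔽 K).injective] using hp)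

theorem ratFuncMap_algebraMap (p : 𝔽[X]) :
    ratFuncMap 𝔽 K (algebraMap 𝔽[X] (RatFunc 𝔽) p) =
      algebraMap K[X] (RatFunc K) (p.map (algebraMap 𝔽 K)) := by
  have h := RatFunc.map_apply_div (Polynomial.mapRingHom (algebraMap 𝔽 K)) (by
    intro p hp
    rw [Submonoid.mem_comap, mem_nonZeroDivisors_iff_ne_zero] at *
    simpa [Polynomial.map_eq_zero_iff (algebraMap 𝔽 K).injective] using hp) p 1
  simpa [ratFuncMap, RatFunc.coe_mapRingHom_eq_coe_map] using h

end RatFuncModel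

section CombinedRatFunc

universe uK''

variable {Z A 𝔽 : Type*} {K : Type uK''} [CommRing Z] [CommRing A] [Algebra Z A] [Field K]
  [Algebra Z K] [Field 𝔽] [Algebra Z 𝔽] [Algebra 𝔽 K] [IsScalarTower Z 𝔽 K]

/-- `isDomain_tensor_of_adjoinRoot` for the `RatFunc` models. -/
theorem isDomain_tensor_of_adjoinRoot_ratFunc
    (hsurj : Function.Surjective (algebraMap Z 𝔽)) (ℓ : Z) (hℓ : algebraMap Z 𝔽 ℓ = 0)
    (g : (RatFunc 𝔽)[X]) (hg : g.Monic) (hirr : Irreducible (g.map (ratFuncMap 𝔽 K)))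
    (ψ₀ : A →+* AdjoinRoot g)
    (hψ₀ : ∀ z : Z, ψ₀ (algebraMap Z A z) =
      AdjoinRoot.of g (algebraMap 𝔽[X] (RatFunc 𝔽) (C (algebraMap Z 𝔽 z))))
    (hker : ∀ a, ψ₀ a = 0 → ∃ a', a = ℓ • a') :
    IsDomain (A ⊗[Z] K) :=
  isDomain_tensor_of_adjoinRoot hsurj ℓ hℓ (ratFuncMap 𝔽 K) ratFuncMap_algebraMap g hg hirr ψ₀ hψ₀
    hker

end CombinedRatFunc

end Fermat.Agent.S28.H61
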