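import Mathlib
import Fermat.Prelude.Def_ModularCurve_X0ModL
import Fermat.Agent.S28.Defs
import Fermat.Agent.S28.Interface
import Fermat.Agent.S28.H61_Tensor

/-!
S28 / W2-final wrapper (helper16): the INDUCTION FRAME over the level and the DESCENT from the
algebraic closure. The only input is the concrete one-step statement `StepStatement`
(level `M` ⟹ level `p * M`, over an algebraically closed field in which `p * M ≠ 0`).
-/

set_option autoImplicit false

noncomputable section

namespace Fermat.Agent.S28.H16

open ModularCurve Polynomial Fermat.Agent.S28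

/-- "Every modular polynomial of level `m` (= prelude data whose `Φ` has all formal conjugates as
roots) is irreducible over `k(J)`." -/
def IrrAll (k : Type) [Field k] (m : ℕ) : Prop :=
  ∀ (hm : NeZero m) (D : @ModularPolynomialData m hm),
    (∀ (k' : Type) [Field k'] (ζ : k'ˣ), IsPrimitiveRoot ζ m → @RootsAt k' _ m hm ζ D.Φ) →
      Irreducible (redModPoly k D.Φ)

/-- The concrete induction step, to be supplied by W2e (helper43 / helper50). -/
def StepStatement (k : Type) [Field k] : Prop :=
  ∀ p M : ℕ, p.Prime → 0 < M → ((p * M : ℕ) : k) ≠ 0 → IrrAll k M → IrrAll k (p * M)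

theorem redModPoly_monic (K : Type*) [Field K] {Φ : Polynomial ℤ[X]} (h : Φ.Monic) :
    (redModPoly K Φ).Monic := h.map _

theorem redModPoly_natDegree (K : Type*) [Field K] {Φ : Polynomial ℤ[X]} (h : Φ.Monic) :
    (redModPoly K Φ).natDegree = Φ.natDegree := h.natDegree_map _

/-- Level one. -/
theorem irrAll_one (k : Type) [Field k] : IrrAll k 1 := by
  intro hm D _
  have hdeg : (redModPoly k D.Φ).natDegree = 1 := by
    rw [redModPoly_natDegree k D.monic, D.natDegree_eq, dedekindPsi_one]
  exact Polynomial.irreducible_of_degree_eq_one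
    (by rw [Polynomial.degree_eq_natDegree (redModPoly_monic k D.monic).ne_zero, hdeg]; rfl)

/-- The induction over the level. -/
theorem irrAll_of_step (k : Type) [Field k] (hstep : StepStatement k) :
    ∀ m : ℕ, 0 < m → ((m : ℕ) : k) ≠ 0 → IrrAll k m := by
  intro m
  induction m using Nat.strong_induction_on with
  | _ m ih =>
    intro hm hk
    rcases Nat.lt_or_ge 1 m with h1 | h1
    · -- m > 1: split off the smallest prime factor
      have hp : (Nat.minFac m).Prime := Nat.minFac_prime (by omega)
      obtain ⟨M, hM⟩ := Nat.minFac_dvd m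
      have hM0 : 0 < M := by
        rcases Nat.eq_zero_or_pos M with h | h
        · subst h; omega
        · exact h
      have hlt : M < m := by
        have h2 : 2 ≤ Nat.minFac m := hp.two_le
        nlinarith
      have hkM : ((M : ℕ) : k) ≠ 0 := by
        intro h
        apply hk
        rw [hM, Nat.cast_mul, h, mul_zero]
      have := hstep (Nat.minFac m) M hp hM0 (by rw [← hM]; exact hk) (ih M hlt hM0 hkM)
      rwa [← hM] at this
    · have : m = 1 := by omega
      subst this
      exact irrAll_one k

/-- `redModPoly` over an extension field is the base change of `redModPoly` over the small field. -/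
theorem redModPoly_map (K L : Type*) [Field K] [Field L] [Algebra K L] (Φ : Polynomial ℤ[X]) :
    (redModPoly K Φ).map (H61.ratFuncMap K L) = redModPoly L Φ := by
  rw [redModPoly, redModPoly, Polynomial.map_map]
  congr 1
  refine Polynomial.ringHom_ext' (Subsingleton.elim _ _) ?_
  simp only [RingHom.comp_apply, Polynomial.coe_mapRingHom, Polynomial.map_X]
  rw [H61.ratFuncMap_algebraMap, Polynomial.map_X]

/-- **W2-final**: from the concrete step over algebraically closed fields to `IrredCharL`. -/
theorem irredCharL_of_step
    (hstep : ∀ (k : Type) [Field k] [IsAlgClosed k], StepStatement k)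
    (N : ℕ) [NeZero N] (ℓ : ℕ) [Fact ℓ.Prime] (hℓN : ¬ ℓ ∣ N)
    (D : ModularPolynomialData N)
    (hD : ∀ (k : Type) [Field k] (ζ : kˣ), IsPrimitiveRoot ζ N → RootsAt k N ζ D.Φ) :
    IrredCharL ℓ D.Φ := by
  intro K _ _
  have hN : ((N : ℕ) : AlgebraicClosure K) ≠ 0 := by
    haveI : CharP (AlgebraicClosure K) ℓ := charP_of_injective_algebraMap
      (algebraMap K (AlgebraicClosure K)).injective ℓ
    rw [Ne, CharP.cast_eq_zero_iff (AlgebraicClosure K) ℓ]
    exact hℓN
  have h1 : IrrAll (AlgebraicClosure K) N :=
    irrAll_of_step (AlgebraicClosure K) (hstep (AlgebraicClosure K)) N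
      (Nat.pos_of_ne_zero (NeZero.ne N)) hN
  have h2 : Irreducible (redModPoly (AlgebraicClosure K) D.Φ) := h1 inferInstance D hD
  rw [← redModPoly_map K (AlgebraicClosure K)] at h2
  exact Polynomial.Monic.irreducible_of_irreducible_map _ _ (redModPoly_monic K D.monic) h2

end Fermat.Agent.S28.H16
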