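import Mathlib
import Fermat.Prelude.Def_ModularCurve_LaurentCoeff

set_option autoImplicit false

noncomputable section

namespace Fermat.Agent.S28.H40

open ModularCurve Polynomial IntermediateField

/-! ### Polynomial independence -/

section PolyIndep

variable {ι : Type*} [Fintype ι]

/-- `v` is *polynomially independent over `(K, j)`*: the only relation `∑ Pᵢ(j) vᵢ = 0` with
`Pᵢ ∈ K[X]` is the trivial one. For `j` transcendental over a field `K` this is linear independence
over `K(j)`. -/
def PolyIndep (K : Type*) {F : Type*} [CommRing K] [CommRing F] [Algebra K F] (j : F)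
    (v : ι → F) : Prop :=
  ∀ P : ι → K[X], ∑ i, aeval j (P i) * v i = 0 → ∀ i, P i = 0

section Transport

variable {K F F' : Type*} [CommRing K] [CommRing F] [CommRing F'] [Algebra K F] [Algebra K F']

theorem aeval_ringHom_apply (f : F →+* F')
    (hcomp : ∀ c, f (algebraMap K F c) = algebraMap K F' c) (j : F) (p : K[X]) :
    aeval (f j) p = f (aeval j p) := by
  rw [aeval_def, aeval_def, hom_eval₂]
  congr 1
  exact (RingHom.ext hcomp).symm

/-- Transport of polynomial independence along an injective ring hom compatible with the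
`K`-algebra structures (no `AlgHom` needed: useful when the `K`-algebra instances are only
propositionally the expected ones, e.g. for `K = ℚ`). -/
theorem polyIndep_ringHom_iff (f : F →+* F') (hf : Function.Injective f)
    (hcomp : ∀ c, f (algebraMap K F c) = algebraMap K F' c) (j : F) (v : ι → F) :
    PolyIndep K (f j) (fun i => f (v i)) ↔ PolyIndep K j v := by
  have key : ∀ P : ι → K[X],
      ∑ i, aeval (f j) (P i) * f (v i) = f (∑ i, aeval j (P i) * v i) := by
    intro P
    rw [map_sum]
    refine Finset.sum_congr rfl fun i _ => ?_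
    rw [map_mul, aeval_ringHom_apply f hcomp]
  constructor
  · intro h P hP
    refine h P ?_
    rw [key, hP, map_zero]
  · intro h P hP
    refine h P (hf ?_)
    rw [← key, hP, map_zero]

theorem polyIndep_map_iff (f : F →ₐ[K] F') (hf : Function.Injective f) (j : F) (v : ι → F) :
    PolyIndep K (f j) (fun i => f (v i)) ↔ PolyIndep K j v :=
  polyIndep_ringHom_iff f.toRingHom hf f.commutes j v

/-- Transcendence descends along a compatible ring hom. -/
theorem transcendental_of_ringHom (f : F →+* F')
    (hcomp : ∀ c, f (algebraMap K F c) = algebraMap K F' c) {j : F}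
    (h : Transcendental K (f j)) : Transcendental K j := by
  rintro ⟨p, hp0, hp⟩
  exact h ⟨p, hp0, by rw [aeval_ringHom_apply f hcomp, hp, map_zero]⟩

theorem PolyIndep.comp {κ : Type*} [Fintype κ] {j : F} {v : ι → F} (h : PolyIndep K j v)
    (e : κ → ι) (he : Function.Injective e) : PolyIndep K j (v ∘ e) := by
  classical
  intro P hP k
  let Q : ι → K[X] := fun i => if hi : ∃ k, e k = i then P hi.choose else 0
  have hQ : ∀ k, Q (e k) = P k := by
    intro k
    have hk : ∃ k', e k' = e k := ⟨k, rfl⟩
    simp only [Q, dif_pos hk]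
    rw [he hk.choose_spec]
  have hsum : ∑ i, aeval j (Q i) * v i = ∑ k, aeval j (P k) * (v ∘ e) k := by
    rw [← Finset.sum_subset (Finset.subset_univ (Finset.univ.image e))]
    · rw [Finset.sum_image (fun a _ b _ hab => he hab)]
      refine Finset.sum_congr rfl fun k _ => ?_
      rw [hQ, Function.comp_apply]
    · intro i _ hi
      have : ¬ ∃ k, e k = i := by
        rintro ⟨k, rfl⟩
        exact hi (Finset.mem_image_of_mem e (Finset.mem_univ k))
      simp only [Q, dif_neg this, map_zero, zero_mul]
  rw [← hQ k]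
  exact h Q (hsum.trans hP) (e k)

end Transport

section Field

variable {K F : Type*} [Field K] [Field F] [Algebra K F]

/-- Numerator / denominator of an element of `K(j)`. -/
theorem exists_num_denom (j : F) (c : K⟮j⟯) :
    ∃ r s : K[X], aeval j s ≠ 0 ∧ (c : F) * aeval j s = aeval j r := by
  obtain ⟨r, s, hrs⟩ := (mem_adjoin_simple_iff K (c : F)).mp c.2
  by_cases hs : aeval j s = 0
  · refine ⟨0, 1, by simp, ?_⟩
    rw [hrs, hs, div_zero, zero_mul, map_zero]
  · exact ⟨r, s, hs, by rw [hrs, div_mul_cancel₀ _ hs]⟩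

/-- Clearing denominators: polynomial independence implies linear independence over `K(j)`. -/
theorem PolyIndep.linearIndependent {j : F} {v : ι → F} (h : PolyIndep K j v) :
    LinearIndependent K⟮j⟯ v := by
  classical
  rw [Fintype.linearIndependent_iff]
  intro g hg i₀
  choose r s hs hrs using fun i => exists_num_denom j (g i)
  have hs0 : ∀ i, s i ≠ 0 := fun i h0 => hs i (by rw [h0, map_zero])
  let P : ι → K[X] := fun i => r i * ∏ k ∈ Finset.univ.erase i, s k
  have hP : ∀ i, aeval j (P i) = (g i : F) * aeval j (∏ k, s k) := by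
    intro i
    simp only [P]
    rw [map_mul, ← hrs i, mul_assoc, ← map_mul, Finset.mul_prod_erase _ _ (Finset.mem_univ i)]
  have hsum : ∑ i, aeval j (P i) * v i = 0 := by
    have h1 : ∑ i, aeval j (P i) * v i = aeval j (∏ k, s k) * ∑ i, g i • v i := by
      rw [Finset.mul_sum]
      refine Finset.sum_congr rfl fun i _ => ?_
      rw [hP, Algebra.smul_def]
      show _ = _ * ((g i : F) * v i)
      ring
    rw [h1, hg, mul_zero]
  have hP0 := h P hsum i₀
  have hr0 : r i₀ = 0 := by
    rcases mul_eq_zero.mp hP0 with h1 | h1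
    · exact h1
    · exact absurd h1 (Finset.prod_ne_zero_iff.mpr fun k _ => hs0 k)
  have h2 := hrs i₀
  rw [hr0, map_zero] at h2
  rcases mul_eq_zero.mp h2 with h3 | h3
  · exact Subtype.ext h3
  · exact absurd h3 (hs i₀)

/-- For `j` transcendental, linear independence over `K(j)` implies polynomial independence. -/
theorem PolyIndep.of_linearIndependent {j : F} (hj : Transcendental K j) {v : ι → F}
    (h : LinearIndependent K⟮j⟯ v) : PolyIndep K j v := by
  intro P hP i
  rw [Fintype.linearIndependent_iff] at h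
  let g : ι → K⟮j⟯ := fun i => ⟨aeval j (P i),
    algebra_adjoin_le_adjoin K {j} (aeval_mem_adjoin_singleton K j)⟩
  have hg : ∑ i, g i • v i = 0 := by
    rw [← hP]
    refine Finset.sum_congr rfl fun i _ => ?_
    rw [Algebra.smul_def]
    rfl
  have h1 := congrArg Subtype.val (h g hg i)
  exact (transcendental_iff.mp hj) (P i) h1

end Field

end PolyIndep

section Functional

variable {L : Type*} [Field L] [Algebra ℚ L]

/-- Apply a `ℚ`-linear functional `lam : L → ℚ` coefficientwise to a Laurent series. -/
def coeffFunctional (lam : L →ₗ[ℚ] ℚ) : LaurentSeries L →+ LaurentSeries ℚ where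
  toFun x := x.map lam
  map_zero' := by
    ext k
    simp
  map_add' x y := by
    ext k
    simp

@[simp]
theorem coeffFunctional_coeff (lam : L →ₗ[ℚ] ℚ) (x : LaurentSeries L) (k : ℤ) :
    (coeffFunctional lam x).coeff k = lam (x.coeff k) :=
  rfl

theorem coeffFunctional_single (lam : L →ₗ[ℚ] ℚ) (k : ℤ) (c : L) :
    coeffFunctional lam (HahnSeries.single k c) = HahnSeries.single k (lam c) := by
  ext m
  rcases eq_or_ne m k with rfl | hm
  · simp [HahnSeries.coeff_single_same]
  · simp [HahnSeries.coeff_single_of_ne hm]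

theorem support_coeffFunctional_subset (lam : L →ₗ[ℚ] ℚ) (x : LaurentSeries L) :
    (coeffFunctional lam x).support ⊆ x.support := by
  intro k hk
  rw [HahnSeries.mem_support] at hk ⊢
  intro h0
  exact hk (by rw [coeffFunctional_coeff, h0, map_zero])

theorem support_coeffEmb_subset (y : LaurentSeries ℚ) :
    (coeffEmb L y).support ⊆ y.support := by
  intro k hk
  rw [HahnSeries.mem_support] at hk ⊢
  intro h0
  exact hk (by rw [coeffEmb_coeff, h0, map_zero])

/-- The coefficient functional is linear over `ℚ((q))`. -/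
theorem coeffFunctional_mul_coeffEmb (lam : L →ₗ[ℚ] ℚ) (z : LaurentSeries L)
    (y : LaurentSeries ℚ) :
    coeffFunctional lam (z * coeffEmb L y) = coeffFunctional lam z * y := by
  ext n
  rw [coeffFunctional_coeff,
    HahnSeries.coeff_mul_right' y.isPWO_support (support_coeffEmb_subset y),
    HahnSeries.coeff_mul_left' z.isPWO_support (support_coeffFunctional_subset lam z), map_sum]
  refine Finset.sum_congr rfl fun ij _ => ?_
  rw [coeffFunctional_coeff, coeffEmb_coeff, mul_comm (z.coeff ij.1), ← Algebra.smul_def,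
    map_smul, smul_eq_mul, mul_comm]

/-- Apply a functional to the coefficients of a polynomial. -/
def polyFunctional (lam : L →ₗ[ℚ] ℚ) (p : L[X]) : ℚ[X] :=
  ∑ k ∈ Finset.range (p.natDegree + 1), Polynomial.monomial k (lam (p.coeff k))

theorem polyFunctional_coeff (lam : L →ₗ[ℚ] ℚ) (p : L[X]) (k : ℕ) :
    (polyFunctional lam p).coeff k = lam (p.coeff k) := by
  rw [polyFunctional, Polynomial.finsetSum_coeff]
  simp only [Polynomial.coeff_monomial]
  rw [Finset.sum_ite_eq' (Finset.range (p.natDegree + 1)) k]
  split_ifs with hk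
  · rfl
  · rw [Finset.mem_range, not_lt] at hk
    rw [Polynomial.coeff_eq_zero_of_natDegree_lt (by omega), map_zero]

theorem coeffFunctional_aeval (lam : L →ₗ[ℚ] ℚ) (J₀ : LaurentSeries ℚ) (p : L[X]) :
    coeffFunctional lam (aeval (coeffEmb L J₀) p) = aeval J₀ (polyFunctional lam p) := by
  rw [polyFunctional, map_sum, aeval_eq_sum_range, map_sum]
  refine Finset.sum_congr rfl fun k _ => ?_
  rw [aeval_monomial, Algebra.smul_def, ← map_pow, coeffFunctional_mul_coeffEmb,
    algebraMap_laurentSeries_eq_single, coeffFunctional_single,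
    ← algebraMap_laurentSeries_eq_single]

end Functional

section Descent

variable {ι : Type*} [Fintype ι] {L : Type*} [Field L] [Algebra ℚ L]

theorem coeffEmb_algebraMap (c : ℚ) :
    coeffEmb L (algebraMap ℚ (LaurentSeries ℚ) c)
      = algebraMap L (LaurentSeries L) (algebraMap ℚ L c) := by
  rw [algebraMap_laurentSeries_eq_single, algebraMap_laurentSeries_eq_single, coeffEmb,
    coeffMap_single]

theorem coeffEmb_aeval (J₀ : LaurentSeries ℚ) (p : ℚ[X]) :
    coeffEmb L (aeval J₀ p) = aeval (coeffEmb L J₀) (p.map (algebraMap ℚ L)) := by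
  rw [aeval_def, hom_eval₂, aeval_def, eval₂_map]
  congr 1
  refine RingHom.ext fun c => ?_
  exact coeffEmb_algebraMap (L := L) c

theorem coeffEmb_injective : Function.Injective (coeffEmb L) := by
  intro x y hxy
  ext k
  have := congrArg (fun z => z.coeff k) hxy
  simp only [coeffEmb_coeff] at this
  exact (algebraMap ℚ L).injective this

/-- **Hard direction** (linear disjointness of `L` and `ℚ((q))` over `ℚ` inside `L((q))`). -/
theorem PolyIndep.coeffEmb {J₀ : LaurentSeries ℚ} {x : ι → LaurentSeries ℚ}
    (h : PolyIndep ℚ J₀ x) :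
    PolyIndep L (coeffEmb L J₀) (fun i => coeffEmb L (x i)) := by
  intro P hP i
  ext k
  rw [Polynomial.coeff_zero]
  rw [← Module.forall_dual_apply_eq_zero_iff (R := ℚ)]
  intro lam
  have h1 := congrArg (coeffFunctional lam) hP
  rw [map_sum, map_zero] at h1
  have h2 : ∑ i, aeval J₀ (polyFunctional lam (P i)) * x i = 0 := by
    rw [← h1]
    refine Finset.sum_congr rfl fun i _ => ?_
    rw [coeffFunctional_mul_coeffEmb, coeffFunctional_aeval]
  have h3 := h _ h2 i
  rw [← polyFunctional_coeff, h3, Polynomial.coeff_zero]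

/-- **Easy direction.** -/
theorem PolyIndep.of_coeffEmb {J₀ : LaurentSeries ℚ} {x : ι → LaurentSeries ℚ}
    (h : PolyIndep L (ModularCurve.coeffEmb L J₀) (fun i => ModularCurve.coeffEmb L (x i))) :
    PolyIndep ℚ J₀ x := by
  intro P hP i
  have h1 := congrArg (ModularCurve.coeffEmb L) hP
  rw [map_sum, map_zero] at h1
  have h2 : ∑ i, aeval (ModularCurve.coeffEmb L J₀) ((P i).map (algebraMap ℚ L))
      * ModularCurve.coeffEmb L (x i) = 0 := by
    rw [← h1]
    refine Finset.sum_congr rfl fun i _ => ?_
    rw [map_mul, coeffEmb_aeval]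
  have h3 := h _ h2 i
  exact Polynomial.map_injective _ (algebraMap ℚ L).injective (by rw [h3, Polynomial.map_zero])

end Descent


section Degree

variable {K F : Type*} [Field K] [Field F] [Algebra K F]

/-- If `1, x, …, x^(n-1)` are polynomially independent over `(K, j)` but `1, x, …, x^n` are not,
then `x` is integral over `K(j)` of degree exactly `n`. -/
theorem isIntegral_and_natDegree_minpoly_of_polyIndep {j : F} (hj : Transcendental K j) (x : F)
    (n : ℕ) (hA : PolyIndep K j (fun i : Fin n => x ^ (i : ℕ)))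
    (hB : ¬ PolyIndep K j (fun i : Fin (n + 1) => x ^ (i : ℕ))) :
    IsIntegral K⟮j⟯ x ∧ (minpoly K⟮j⟯ x).natDegree = n := by
  classical
  have hLI := hA.linearIndependent
  have hnLI : ¬ LinearIndependent K⟮j⟯ (fun i : Fin (n + 1) => x ^ (i : ℕ)) :=
    fun h => hB (PolyIndep.of_linearIndependent hj h)
  rw [Fintype.linearIndependent_iff] at hnLI
  push Not at hnLI
  obtain ⟨g, hg, i₀, hi₀⟩ := hnLI
  let p : K⟮j⟯[X] := ∑ i : Fin (n + 1), Polynomial.monomial (i : ℕ) (g i)
  have hp_eval : aeval x p = 0 := by
    rw [map_sum, ← hg]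
    refine Finset.sum_congr rfl fun i _ => ?_
    rw [aeval_monomial, Algebra.smul_def]
  have hp_coeff : ∀ i : Fin (n + 1), p.coeff i = g i := by
    intro i
    simp only [p, Polynomial.finsetSum_coeff, Polynomial.coeff_monomial, Fin.val_inj]
    rw [Finset.sum_ite_eq' Finset.univ i, if_pos (Finset.mem_univ i)]
  have hp0 : p ≠ 0 := fun h => hi₀ (by rw [← hp_coeff, h, coeff_zero])
  have hp_deg : p.natDegree ≤ n :=
    natDegree_sum_le_of_forall_le _ _
      (fun i _ => (natDegree_monomial_le _).trans (Nat.lt_succ_iff.mp i.2))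
  have hint : IsIntegral K⟮j⟯ x := isAlgebraic_iff_isIntegral.mp ⟨p, hp0, hp_eval⟩
  refine ⟨hint, le_antisymm ?_ ?_⟩
  · exact (natDegree_le_natDegree (minpoly.degree_le_of_ne_zero K⟮j⟯ x hp0 hp_eval)).trans hp_deg
  · by_contra hlt
    push Not at hlt
    rw [Fintype.linearIndependent_iff] at hLI
    have hsum : ∑ i : Fin n, (minpoly K⟮j⟯ x).coeff i • x ^ (i : ℕ) = 0 := by
      rw [Fin.sum_univ_eq_sum_range (fun i => (minpoly K⟮j⟯ x).coeff i • x ^ i) n,
        ← aeval_eq_sum_range' hlt, minpoly.aeval]
    have h1 := hLI (fun i => (minpoly K⟮j⟯ x).coeff i) hsum ⟨_, hlt⟩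
    have h2 : (minpoly K⟮j⟯ x).leadingCoeff = 0 := h1
    rw [(minpoly.monic hint).leadingCoeff] at h2
    exact one_ne_zero h2

/-- If `v` is polynomially independent over `(K, j)` but `v, y` is not, then `y` lies in the
`K(j)`-span of `v`. -/
theorem mem_span_of_not_polyIndep_snoc {j : F} (hj : Transcendental K j) {n : ℕ} {v : Fin n → F}
    (hA : PolyIndep K j v) (y : F)
    (hB : ¬ PolyIndep K j (Fin.snoc (α := fun _ => F) v y)) :
    y ∈ Submodule.span K⟮j⟯ (Set.range v) := by
  by_contra hy
  exact hB (PolyIndep.of_linearIndependent hj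
    (linearIndependent_finSnoc.mpr ⟨hA.linearIndependent, hy⟩))

theorem mem_adjoin_of_not_polyIndep_snoc {j : F} (hj : Transcendental K j) (x : F) (n : ℕ)
    (hA : PolyIndep K j (fun i : Fin n => x ^ (i : ℕ))) (y : F)
    (hB : ¬ PolyIndep K j (Fin.snoc (α := fun _ => F) (fun i : Fin n => x ^ (i : ℕ)) y)) :
    y ∈ K⟮j⟯⟮x⟯ := by
  have h1 := mem_span_of_not_polyIndep_snoc hj hA y hB
  have h2 : Submodule.span K⟮j⟯ (Set.range fun i : Fin n => x ^ (i : ℕ))
      ≤ Subalgebra.toSubmodule (K⟮j⟯⟮x⟯).toSubalgebra :=
    Submodule.span_le.mpr (by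
      rintro _ ⟨i, rfl⟩
      exact pow_mem (mem_adjoin_simple_self _ _) _)
  exact h2 h1

end Degree

end Fermat.Agent.S28.H40
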