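import Mathlib
import Fermat.Prelude.Def_ModularCurve_IgusaScheme
import Fermat.Agent.S24.H40_M123
import Fermat.Agent.S24.H24_Comb
import Fermat.Agent.S28.H40_CoeffDescent

/-!
S28 / W5 (helper40): descent of the degree `[Qbar(j, j_d : d ∣ N) : Qbar(j)] = ψ(N)` (S24) to `ℚ`.

Ambient `ℚ((q))`, base `ℚ(jq)`:
* `isIntegral_jqN`, `natDegree_minpoly_jqN`, `irreducible_minpoly_jqN`
* `functionFieldGeneration : FunctionFieldGeneration N`, `modularFunctionFieldFull_eq`
* `finrank_adjoin_jqN`, `restrictScalars_adjoin_jqN`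
* `toAdjoin_eq_minpoly`, `irreducible_toAdjoin`

Ambient `F = modularFunctionFieldFull N`, base `ℚ(jFull N)`:
* `isIntegral_jNFull`, `natDegree_minpoly_jNFull`, `adjoin_jNFull_eq_top`,
  `finiteDimensional_full`, `finrank_full`
-/

set_option autoImplicit false

noncomputable section

namespace Fermat.Agent.S28.H40

open ModularCurve Polynomial IntermediateField UpperHalfPlane
open Fermat.Agent.S24

variable (N : ℕ) [NeZero N]

/-! ### The two inputs from S24 -/

/-- `[FN : Qbar(j)] = ψ(N)`. -/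
theorem finrank_FN_eq_psi : Module.finrank Qbar⟮jBar N⟯ (FN N) = dedekindPsi N := by
  rw [S24.H40.finrank_FN_eq, S24.H24.card_XN_eq_dedekindPsi]

/-- `j_N` is integral over `Qbar[j]`. -/
theorem isIntegral_adjoin_jd :
    IsIntegral (Algebra.adjoin Qbar {jBar N}) (jd N N dvd_rfl : FN N) := by
  obtain ⟨P, hmon, -, hev⟩ := (S24.H40.thetaData N).key_weak (S24.H17.jd_mem_A N N dvd_rfl)
  let φ : Polynomial Qbar →+* Algebra.adjoin Qbar {jBar N} :=
    (Polynomial.aeval (⟨jBar N, Algebra.self_mem_adjoin_singleton Qbar (jBar N)⟩ :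
      Algebra.adjoin Qbar {jBar N})).toRingHom
  refine ⟨P.map φ, hmon.map φ, ?_⟩
  rw [eval₂_map]
  have h2 : (algebraMap (Algebra.adjoin Qbar {jBar N}) (FN N)).comp φ
      = ((Polynomial.aeval (jBar N)).toRingHom : Polynomial Qbar →+* FN N) := by
    ext p
    · simp [φ]
    · simp [φ]
  rw [h2]
  exact hev

/-- The minimal polynomial of `j_N` over `Qbar(j)` has degree at least `ψ(N)`. -/
theorem psi_le_natDegree_minpoly_jd :
    dedekindPsi N ≤ (minpoly Qbar⟮jBar N⟯ (jd N N dvd_rfl : FN N)).natDegree := by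
  classical
  rw [← S24.H24.card_XN_eq_dedekindPsi]
  let f0 : S24.H40.AN N := ⟨jd N N dvd_rfl, S24.H40.jd_mem_AN N N dvd_rfl⟩
  obtain ⟨τ₁, hτ₁⟩ := S24.H40.exists_injective_eval
    (fun x => S24.H17.thetaXHom N x f0)
    (fun x => S24.H17.thetaConj_mdiff N (S24.H17.jd_mem_A N N dvd_rfl) (Quotient.out x))
    (S24.H17.thetaX_jd_injective N)
  exact S24.H40.card_le_natDegree_minpoly (jBar N) (S24.H40.transcendental_jBar N)
    (S24.H40.AN N) (S24.H40.jBar_mem_AN N) (fun x => S24.H17.thetaXHom N x)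
    (QuotientGroup.mk 1 : S24.H24.XN N)
    (fun x c hc => by
      show S24.H17.thetaConj N (Quotient.out x) c.1 = S24.H17.thetaConj N (Quotient.out _) c.1
      rw [S24.H17.thetaConj_of_mem_adjoin_jBar N hc, S24.H17.thetaConj_of_mem_adjoin_jBar N hc])
    (Pi.evalRingHom (fun _ : ℍ => ℂ) τ₁) f0 hτ₁ (isIntegral_adjoin_jd N)

/-! ### Polynomial (in)dependence over `(ℚ, jq)` -/

/-- `jq` is transcendental over `ℚ`. -/
theorem transcendental_jq : Transcendental ℚ jq := by
  have h := S24.H40.transcendental_coeffEmb_jq ℚ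
  have h1 : coeffEmb ℚ jq = jq := by
    ext k
    simp
  rwa [h1] at h

/-- (B) any `ψ(N) + 1` elements of the full function field are polynomially dependent over
`(ℚ, jq)`. -/
theorem not_polyIndep_of_mem_full (u : Fin (dedekindPsi N + 1) → LaurentSeries ℚ)
    (hu : ∀ i, u i ∈ modularFunctionFieldFull N) : ¬ PolyIndep ℚ jq u := by
  intro h
  have h1 : PolyIndep Qbar (coeffEmb Qbar jq) (fun i => coeffEmb Qbar (u i)) := h.coeffEmb
  let v : Fin (dedekindPsi N + 1) → FN N :=
    fun i => ⟨coeffEmb Qbar (u i), coeffEmb_mem_laurentBaseChange Qbar (hu i)⟩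
  have h2 : PolyIndep Qbar (jBar N) v :=
    (polyIndep_map_iff (modularFunctionFieldBar N).val Subtype.val_injective (jBar N) v).mp h1
  have h3 := h2.linearIndependent
  have := S24.H40.finiteDimensional_FN N
  have h4 := h3.fintype_card_le_finrank
  rw [Fintype.card_fin, finrank_FN_eq_psi] at h4
  omega

/-- (A) `1, j_N, …, j_N^(ψ(N)-1)` are polynomially independent over `(ℚ, jq)`. -/
theorem polyIndep_jqN_pow :
    PolyIndep ℚ jq (fun i : Fin (dedekindPsi N) => (jqN N) ^ (i : ℕ)) := by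
  have h0 : LinearIndependent Qbar⟮jBar N⟯
      (fun i : Fin (minpoly Qbar⟮jBar N⟯ (jd N N dvd_rfl : FN N)).natDegree =>
        (jd N N dvd_rfl : FN N) ^ (i : ℕ)) := linearIndependent_pow _
  have h1 : LinearIndependent Qbar⟮jBar N⟯
      (fun i : Fin (dedekindPsi N) => (jd N N dvd_rfl : FN N) ^ (i : ℕ)) :=
    h0.comp (Fin.castLE (psi_le_natDegree_minpoly_jd N)) (Fin.castLE_injective _)
  have h2 := PolyIndep.of_linearIndependent (S24.H40.transcendental_jBar N) h1
  have h3 := (polyIndep_map_iff (modularFunctionFieldBar N).val Subtype.val_injective _ _).mpr h2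
  apply PolyIndep.of_coeffEmb (L := Qbar)
  have e : (fun i : Fin (dedekindPsi N) => coeffEmb Qbar ((jqN N) ^ (i : ℕ)))
      = fun i : Fin (dedekindPsi N) =>
        (modularFunctionFieldBar N).val ((jd N N dvd_rfl : FN N) ^ (i : ℕ)) := by
    funext i
    rw [map_pow, map_pow]
    rfl
  rw [e]
  exact h3

/-! ### Results in the ambient `ℚ((q))` over `ℚ(jq)` -/

theorem isIntegral_and_natDegree_jqN :
    IsIntegral ℚ⟮jq⟯ (jqN N) ∧ (minpoly ℚ⟮jq⟯ (jqN N)).natDegree = dedekindPsi N :=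
  isIntegral_and_natDegree_minpoly_of_polyIndep transcendental_jq (jqN N) (dedekindPsi N)
    (polyIndep_jqN_pow N)
    (not_polyIndep_of_mem_full N _ (fun _ => pow_mem (jqd_mem_full N dvd_rfl) _))

/-- `j(q^N)` is integral (algebraic) over `ℚ(j)`. -/
theorem isIntegral_jqN : IsIntegral ℚ⟮jq⟯ (jqN N) := (isIntegral_and_natDegree_jqN N).1

/-- The minimal polynomial of `j(q^N)` over `ℚ(j)` has degree `ψ(N)`. -/
theorem natDegree_minpoly_jqN : (minpoly ℚ⟮jq⟯ (jqN N)).natDegree = dedekindPsi N :=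
  (isIntegral_and_natDegree_jqN N).2

theorem irreducible_minpoly_jqN : Irreducible (minpoly ℚ⟮jq⟯ (jqN N)) :=
  minpoly.irreducible (isIntegral_jqN N)

/-- `j(q^d) ∈ ℚ(j)(j_N)` for `d ∣ N`. -/
theorem qExpand_mem_adjoin_adjoin (d : ℕ) [NeZero d] (hd : d ∣ N) :
    qExpand ℚ d jq ∈ ℚ⟮jq⟯⟮jqN N⟯ := by
  refine mem_adjoin_of_not_polyIndep_snoc transcendental_jq (jqN N) (dedekindPsi N)
    (polyIndep_jqN_pow N) _ (not_polyIndep_of_mem_full N _ (fun i => ?_))
  refine Fin.lastCases ?_ (fun i => ?_) i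
  · rw [Fin.snoc_last]
    exact jqd_mem_full N hd
  · rw [Fin.snoc_castSucc]
    exact pow_mem (jqd_mem_full N dvd_rfl) _

/-- The prelude's `FunctionFieldGeneration N`: `ℚ(j, j_N)` contains all `j(q^d)`, `d ∣ N`. -/
theorem functionFieldGeneration : FunctionFieldGeneration N := by
  intro d hd hne
  have := hne
  have h := qExpand_mem_adjoin_adjoin N d hd
  rw [← adjoin_simple_adjoin_simple]
  exact h

/-- `ℚ(j(q^d) : d ∣ N) = ℚ(j, j_N)`. -/
theorem modularFunctionFieldFull_eq : modularFunctionFieldFull N = modularFunctionField N := by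
  apply le_antisymm
  · rw [modularFunctionFieldFull, adjoin_le_iff]
    rintro x ⟨d, hne, hdvd, rfl⟩
    exact functionFieldGeneration N d hdvd hne
  · exact modularFunctionField_le_full N

theorem finrank_adjoin_jqN : Module.finrank ℚ⟮jq⟯ ℚ⟮jq⟯⟮jqN N⟯ = dedekindPsi N := by
  rw [adjoin.finrank (isIntegral_jqN N), natDegree_minpoly_jqN]

theorem mem_adjoin_adjoin_iff (x : LaurentSeries ℚ) :
    x ∈ ℚ⟮jq⟯⟮jqN N⟯ ↔ x ∈ modularFunctionFieldFull N := by
  have h := adjoin_simple_adjoin_simple (F := ℚ) jq (jqN N)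
  rw [modularFunctionFieldFull_eq]
  show x ∈ ℚ⟮jq⟯⟮jqN N⟯ ↔ x ∈ ℚ⟮jq, jqN N⟯
  rw [← h]
  rfl

/-- Any `ModularPolynomialData N` is the minimal polynomial of `j_N` over `ℚ(j)`. -/
theorem toAdjoin_eq_minpoly (data : ModularPolynomialData N) :
    data.toAdjoin = minpoly ℚ⟮jq⟯ (jqN N) := by
  have hroot : aeval (jqN N) data.toAdjoin = 0 := by
    rw [ModularPolynomialData.toAdjoin, aeval_def, eval₂_map, algebraMap_comp_evalAtJGen]
    exact data.eval_eq_zero
  refine eq_of_monic_of_dvd_of_natDegree_le (minpoly.monic (isIntegral_jqN N))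
    data.toAdjoin_monic (minpoly.dvd _ _ hroot) ?_
  rw [natDegree_minpoly_jqN, ModularPolynomialData.toAdjoin, data.monic.natDegree_map,
    data.natDegree_eq]

theorem irreducible_toAdjoin (data : ModularPolynomialData N) : Irreducible data.toAdjoin := by
  rw [toAdjoin_eq_minpoly]
  exact irreducible_minpoly_jqN N

/-! ### Results inside `F = modularFunctionFieldFull N` over `ℚ(jFull N)` -/

/-- `j(q^N)` as an element of the full function field. -/
def jNFull : ↥(modularFunctionFieldFull N) := ⟨qExpand ℚ N jq, jqd_mem_full N dvd_rfl⟩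

@[simp] theorem coe_jNFull : (jNFull N : LaurentSeries ℚ) = jqN N := rfl

/-- The inclusion `F → ℚ((q))` as a ring hom. -/
def fullVal : ↥(modularFunctionFieldFull N) →+* LaurentSeries ℚ :=
  (modularFunctionFieldFull N).toSubfield.subtype

omit [NeZero N] in
theorem fullVal_apply (y : ↥(modularFunctionFieldFull N)) : fullVal N y = (y : LaurentSeries ℚ) :=
  rfl

omit [NeZero N] in
theorem fullVal_injective : Function.Injective (fullVal N) := Subtype.val_injective

omit [NeZero N] in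
theorem fullVal_algebraMap (c : ℚ) :
    fullVal N (algebraMap ℚ ↥(modularFunctionFieldFull N) c)
      = algebraMap ℚ (LaurentSeries ℚ) c :=
  RingHom.congr_fun (Subsingleton.elim
    ((fullVal N).comp (algebraMap ℚ ↥(modularFunctionFieldFull N)))
    (algebraMap ℚ (LaurentSeries ℚ))) c

theorem transcendental_jFull : Transcendental ℚ (IgusaScheme.jFull N) :=
  transcendental_of_ringHom (fullVal N) (fullVal_algebraMap N) transcendental_jq

theorem polyIndep_full_iff {ι : Type*} [Fintype ι] (w : ι → ↥(modularFunctionFieldFull N)) :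
    PolyIndep ℚ (IgusaScheme.jFull N) w ↔ PolyIndep ℚ jq (fun i => (w i : LaurentSeries ℚ)) :=
  (polyIndep_ringHom_iff (fullVal N) (fullVal_injective N) (fullVal_algebraMap N)
    (IgusaScheme.jFull N) w).symm

theorem isIntegral_and_natDegree_jNFull :
    IsIntegral ℚ⟮IgusaScheme.jFull N⟯ (jNFull N) ∧
      (minpoly ℚ⟮IgusaScheme.jFull N⟯ (jNFull N)).natDegree = dedekindPsi N := by
  refine isIntegral_and_natDegree_minpoly_of_polyIndep (transcendental_jFull N) (jNFull N)
    (dedekindPsi N) ?_ ?_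
  · rw [polyIndep_full_iff]
    exact polyIndep_jqN_pow N
  · rw [polyIndep_full_iff]
    exact not_polyIndep_of_mem_full N _ (fun i => (jNFull N ^ (i : ℕ)).2)

theorem isIntegral_jNFull : IsIntegral ℚ⟮IgusaScheme.jFull N⟯ (jNFull N) :=
  (isIntegral_and_natDegree_jNFull N).1

theorem natDegree_minpoly_jNFull :
    (minpoly ℚ⟮IgusaScheme.jFull N⟯ (jNFull N)).natDegree = dedekindPsi N :=
  (isIntegral_and_natDegree_jNFull N).2

/-- `F = ℚ(j)(j_N)`. -/
theorem adjoin_jNFull_eq_top : ℚ⟮IgusaScheme.jFull N⟯⟮jNFull N⟯ = ⊤ := by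
  rw [eq_top_iff]
  intro y _
  refine mem_adjoin_of_not_polyIndep_snoc (transcendental_jFull N) (jNFull N) (dedekindPsi N)
    ?_ y ?_
  · rw [polyIndep_full_iff]
    exact polyIndep_jqN_pow N
  · rw [polyIndep_full_iff]
    exact not_polyIndep_of_mem_full N _ (fun i => (Fin.snoc (α := fun _ => _) _ y i).2)

theorem finiteDimensional_full :
    FiniteDimensional ℚ⟮IgusaScheme.jFull N⟯ ↥(modularFunctionFieldFull N) := by
  have h1 := adjoin.finiteDimensional (isIntegral_jNFull N)
  rw [adjoin_jNFull_eq_top] at h1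
  exact (topEquiv (F := ℚ⟮IgusaScheme.jFull N⟯)
    (E := ↥(modularFunctionFieldFull N))).toLinearEquiv.finiteDimensional

/-- **W5**: `[ℚ(j(q^d) : d ∣ N) : ℚ(j)] = ψ(N)`. -/
theorem finrank_full :
    Module.finrank ℚ⟮IgusaScheme.jFull N⟯ ↥(modularFunctionFieldFull N) = dedekindPsi N := by
  rw [← finrank_top' (F := ℚ⟮IgusaScheme.jFull N⟯) (E := ↥(modularFunctionFieldFull N)),
    ← adjoin_jNFull_eq_top, adjoin.finrank (isIntegral_jNFull N), natDegree_minpoly_jNFull]

end Fermat.Agent.S28.H40
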