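import Fermat.Agent.S24.H17_QSum
import Fermat.Agent.S24.H28_JLaurent
import Fermat.Agent.S24.H8_Ramanujan
import Fermat.Prelude.Def_ModularCurve_X0ModL
import Fermat.Agent.S28.Defs

/-!
S28 package W1a (helper17): the formal differential identity
`Δ · j⁴ · (j - 1728)³ = (θ j)⁶`, `θ = q d/dq`, in `LaurentSeries R` for every commutative ring `R`.
-/

set_option autoImplicit false

noncomputable section

namespace Fermat.Agent.S28.H17

open UpperHalfPlane hiding I
open Complex ModularCurve ModularForm Derivative EisensteinSeries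
open Fermat.Agent.S24.H17 (IsQSum)
open Fermat.Agent.S24
open scoped MatrixGroups Manifold Real

local notation "𝕢" => Function.Periodic.qParam
local notation "Δ" => ModularForm.discriminant

/-! ### `coeffMap` compatibility of `thetaOp` and `DeltaS` (defined in `S28/Defs.lean`) -/

section Compat

variable {R : Type*} [CommRing R]

theorem thetaOp_eq_of_coeff {X Y : LaurentSeries R}
    (hY : ∀ n : ℤ, Y.coeff n = (n : R) * X.coeff n) : Y = thetaOp X := by
  ext n
  rw [hY, thetaOp_coeff]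

theorem coeffMap_thetaOp {S : Type*} [CommRing S] (f : R →+* S) (X : LaurentSeries R) :
    coeffMap f (thetaOp X) = thetaOp (coeffMap f X) := by
  ext n
  simp

theorem coeffMap_DeltaS {S : Type*} [CommRing S] (f : R →+* S) :
    coeffMap f (DeltaS R) = DeltaS S := by
  rw [DeltaS, map_mul, coeffMap_single, map_one, coeffMap_ofPowerSeries,
    ← RingHom.comp_apply (PowerSeries.map f) (PowerSeries.map (Int.castRingHom R)),
    ← PowerSeries.map_comp, RingHom.ext_int (f.comp (Int.castRingHom R)) (Int.castRingHom S)]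
  rfl

end Compat

/-! ### Termwise differentiation of `q`-sums -/

theorem qParam_zpow (z : ℂ) (n : ℤ) : 𝕢 1 z ^ n = cexp (n * (2 * π * I * z)) := by
  rw [Function.Periodic.qParam, Complex.exp_int_mul]
  simp

theorem norm_qParam_zpow (z : ℂ) (n : ℤ) : ‖𝕢 1 z ^ n‖ = Real.exp (-(2 * π * n * z.im)) := by
  rw [qParam_zpow, Complex.norm_exp]
  congr 1
  simp
  ring

/-- termwise differentiation of a `q`-series. -/
theorem isQSum_theta {X : LaurentSeries ℂ} {g : ℍ → ℂ} (hX : IsQSum X g) :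
    IsQSum (thetaOp X) (D g) := by
  intro τ
  set a : ℝ := τ.im / 2 with ha
  set b : ℝ := 2 * τ.im with hb
  have hτ : 0 < τ.im := τ.im_pos
  have ha0 : 0 < a := by positivity
  have hb0 : 0 < b := by positivity
  set U : Set ℂ := {z | a < z.im ∧ z.im < b} with hU
  have hUo : IsOpen U :=
    (isOpen_lt continuous_const Complex.continuous_im).inter
      (isOpen_lt Complex.continuous_im continuous_const)
  have hτU : (τ : ℂ) ∈ U := by
    constructor
    · change a < τ.im; rw [ha]; linarith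
    · change τ.im < b; rw [hb]; linarith
  set F : ℤ → ℂ → ℂ := fun n z => X.coeff n * cexp (n * (2 * π * I * z)) with hF
  set u : ℤ → ℝ := fun n => ‖X.coeff n‖ * (Real.exp (-(2 * π * n * a)) + Real.exp (-(2 * π * n * b)))
    with hu
  have hsum : ∀ c : ℝ, 0 < c → Summable fun n : ℤ => ‖X.coeff n‖ * Real.exp (-(2 * π * n * c)) := by
    intro c hc
    have h1 := (hX ⟨Complex.I * c, by simpa using hc⟩).summable.norm
    refine h1.congr fun n => ?_
    rw [norm_mul, norm_qParam_zpow]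
    simp
  have husum : Summable u := by
    have := (hsum a ha0).add (hsum b hb0)
    refine this.congr fun n => ?_
    simp only [hu]; ring
  have hFd : ∀ n : ℤ, DifferentiableOn ℂ (F n) U := by
    intro n
    apply Differentiable.differentiableOn
    simp only [hF]
    fun_prop
  have hFle : ∀ (n : ℤ) (w : ℂ), w ∈ U → ‖F n w‖ ≤ u n := by
    intro n w hw
    simp only [hF, hu]
    rw [norm_mul, ← qParam_zpow, norm_qParam_zpow]
    refine mul_le_mul_of_nonneg_left ?_ (norm_nonneg _)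
    rcases le_or_gt 0 n with hn | hn
    · have h1 : Real.exp (-(2 * π * n * w.im)) ≤ Real.exp (-(2 * π * n * a)) := by
        apply Real.exp_le_exp.mpr
        have : (0:ℝ) ≤ n := by exact_mod_cast hn
        have h2 : (2 * π * n) * a ≤ (2 * π * n) * w.im :=
          mul_le_mul_of_nonneg_left hw.1.le (by positivity)
        linarith
      have := Real.exp_pos (-(2 * π * n * b))
      linarith
    · have h1 : Real.exp (-(2 * π * n * w.im)) ≤ Real.exp (-(2 * π * n * b)) := by
        apply Real.exp_le_exp.mpr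
        have : (n:ℝ) < 0 := by exact_mod_cast hn
        have h2 : (-(2 * π * n)) * w.im ≤ (-(2 * π * n)) * b :=
          mul_le_mul_of_nonneg_left hw.2.le (by nlinarith [Real.pi_pos])
        linarith
      have := Real.exp_pos (-(2 * π * n * a))
      linarith
  have key := hasSum_deriv_of_summable_norm husum hFd hUo hFle hτU
  have hderivF : ∀ n : ℤ, deriv (F n) τ = (2 * π * I) * ((n : ℂ) * X.coeff n * 𝕢 1 (τ : ℂ) ^ n) := by
    intro n
    simp only [hF]
    rw [qParam_zpow]
    have h1 : HasDerivAt (fun z : ℂ => X.coeff n * cexp (n * (2 * π * I * z)))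
        (X.coeff n * (cexp (n * (2 * π * I * (τ : ℂ))) * (n * (2 * π * I * 1)))) (τ : ℂ) := by
      apply HasDerivAt.const_mul
      apply HasDerivAt.cexp
      apply HasDerivAt.const_mul
      apply HasDerivAt.const_mul
      exact hasDerivAt_id _
    rw [h1.deriv]
    ring
  have heq : deriv (g ∘ ofComplex) τ = deriv (fun w : ℂ => ∑' n : ℤ, F n w) τ := by
    apply Filter.EventuallyEq.deriv_eq
    filter_upwards [hUo.mem_nhds hτU] with w hw
    have hw0 : 0 < w.im := lt_trans ha0 hw.1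
    simp only [Function.comp_apply, ofComplex_apply_of_im_pos hw0]
    have := (hX ⟨w, hw0⟩).tsum_eq
    rw [← this]
    refine tsum_congr fun n => ?_
    simp only [hF]
    rw [← qParam_zpow]
  rw [← heq] at key
  have key2 := key.mul_left ((2 * π * I)⁻¹)
  have h2pi : (2 * π * I : ℂ) ≠ 0 := by
    simp [Real.pi_ne_zero]
  have hfun : (fun n : ℤ => (thetaOp X).coeff n * 𝕢 1 (τ : ℂ) ^ n) =
      fun i => (2 * π * I)⁻¹ * deriv (F i) τ := by
    funext n
    rw [hderivF, thetaOp_coeff]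
    field_simp
  rw [hfun]
  exact key2

/-! ### `J` and `Δ` as `q`-sums -/

/-- `J` as a `q`-sum (in terms of `jqModC ℂ`). -/
theorem isQSum_J : IsQSum (jqModC ℂ) H28.J := by
  intro τ
  have hq : 𝕢 1 (τ : ℂ) ≠ 0 := Function.Periodic.qParam_ne_zero _
  refine (H17.hasSum_bridge _ 1 ?_ hq _).mpr ?_
  · intro n hn
    exact coeff_jqModC_of_lt ℂ (by simpa using hn)
  · have := H28.hasSum_jq τ
    rw [← coeffMap_jqModC (algebraMap ℚ ℂ), jqModC_rat]
    simpa using this

theorem taylorPS_eulerPhi_pow :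
    H28.taylorPS (H28.eulerPhi ^ 24) = dedekindEtaUnit.map (Int.castRingHom ℂ) := by
  rw [H28.taylorPS_pow (H28.analyticAt_zero_of_differentiableOn_ball H28.differentiableOn_eulerPhi),
    H28.taylorPS_eulerPhi, dedekindEtaUnit, map_pow]

/-- `Δ` as a `q`-sum. -/
theorem isQSum_Delta : IsQSum (DeltaS ℂ) Δ := by
  intro τ
  have hq : 𝕢 1 (τ : ℂ) ≠ 0 := Function.Periodic.qParam_ne_zero _
  have hq1 : ‖𝕢 1 (τ : ℂ)‖ < 1 := Function.Periodic.norm_qParam_lt_one one_pos τ.im_pos
  have hΔ : Δ τ = 𝕢 1 τ * H28.eulerPhi (𝕢 1 τ) ^ 24 := by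
    rw [discriminant_eq_q_prod, H28.eulerPhi]
    congr 1
    exact (multipliableLocallyUniformlyOn_eta.multipliable τ.2).tprod_pow 24
  have h := H28.hasSum_taylorPS (H28.differentiableOn_eulerPhi.pow 24) hq1
  rw [taylorPS_eulerPhi_pow] at h
  -- DeltaS = q * series
  have h2 := h.mul_left (𝕢 1 (τ : ℂ))
  rw [hΔ]
  have hfun : (fun n : ℤ => (DeltaS ℂ).coeff n * 𝕢 1 (τ : ℂ) ^ n) =
      fun n : ℤ => if 1 ≤ n then
        𝕢 1 (τ : ℂ) * ((dedekindEtaUnit.map (Int.castRingHom ℂ)).coeff (n - 1).toNat *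
          𝕢 1 (τ : ℂ) ^ (n - 1).toNat) else 0 := by
    funext n
    rw [DeltaS, HahnSeries.coeff_single_mul, one_mul]
    split_ifs with hn
    · obtain ⟨m, hm⟩ := Int.eq_ofNat_of_zero_le (show 0 ≤ n - 1 by omega)
      rw [hm, HahnSeries.ofPowerSeries_apply_coeff, Int.toNat_natCast]
      have : n = m + 1 := by omega
      rw [this, zpow_add₀ hq, zpow_natCast, zpow_one]
      ring
    · rw [ofPowerSeries_coeff_of_neg _ (by omega), zero_mul]
  rw [hfun]
  have hinj : Function.Injective (fun m : ℕ => (m : ℤ) + 1) := by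
    intro a b h; simpa using h
  have := (hinj.hasSum_iff (f := fun n : ℤ => if 1 ≤ n then
        𝕢 1 (τ : ℂ) * ((dedekindEtaUnit.map (Int.castRingHom ℂ)).coeff (n - 1).toNat *
          𝕢 1 (τ : ℂ) ^ (n - 1).toNat) else 0) (a := 𝕢 1 (τ : ℂ) * (H28.eulerPhi ^ 24) (𝕢 1 τ)) ?_).mp ?_
  · simpa using this
  · intro x hx
    have : ¬ 1 ≤ x := by
      intro h1
      apply hx
      exact ⟨(x - 1).toNat, by simp; omega⟩
    simp [this]
  · have hfun2 : ((fun n : ℤ => if 1 ≤ n then
        𝕢 1 (τ : ℂ) * ((dedekindEtaUnit.map (Int.castRingHom ℂ)).coeff (n - 1).toNat *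
          𝕢 1 (τ : ℂ) ^ (n - 1).toNat) else 0) ∘ fun m : ℕ => (m : ℤ) + 1) =
        fun i : ℕ => 𝕢 1 (τ : ℂ) *
          ((dedekindEtaUnit.map (Int.castRingHom ℂ)).coeff i * 𝕢 1 (τ : ℂ) ^ i) := by
      funext m
      simp
    rw [hfun2]
    exact h2

/-! ### The analytic identity -/

theorem mdiff_discriminant : MDiff (Δ : ℍ → ℂ) := ModularFormClass.holo CuspForm.discriminant

/-- `D J · Δ = -E₄² E₆`. -/
theorem D_J_mul_discriminant (τ : ℍ) : D H28.J τ * Δ τ = -(E₄ τ ^ 2 * E₆ τ) := by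
  have h4 : MDiff (E₄ : ℍ → ℂ) := ModularFormClass.holo E₄
  have hfun : H28.J * (Δ : ℍ → ℂ) = (E₄ : ℍ → ℂ) ^ 3 := by
    funext w
    simp only [Pi.mul_apply, Pi.pow_apply]
    exact H28.J_mul_discriminant w
  have h1 := normalizedDerivOfComplex_mul H28.J Δ H28.J_mdiff mdiff_discriminant
  have h2 := normalizedDerivOfComplex_pow (E₄ : ℍ → ℂ) 3 h4
  rw [hfun, h2] at h1
  have h3 := congrFun h1 τ
  simp only [Pi.add_apply, Pi.mul_apply, Pi.pow_apply, Pi.natCast_apply] at h3
  rw [H8.D_E₄, H8.D_discriminant] at h3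
  have hJ := H28.J_mul_discriminant τ
  push_cast at h3
  linear_combination (-1 : ℂ) * h3 - E2 τ * hJ

/-- the analytic identity `Δ J⁴ (J - 1728)³ = (D J)⁶`. -/
theorem analytic_identity (τ : ℍ) :
    Δ τ * H28.J τ ^ 4 * (H28.J τ - 1728) ^ 3 = D H28.J τ ^ 6 := by
  have hne := discriminant_ne_zero τ
  have h1 := D_J_mul_discriminant τ
  have hDJ : D H28.J τ = -(E₄ τ ^ 2 * E₆ τ) / Δ τ := by
    rw [eq_div_iff hne, h1]
  rw [hDJ, H28.J_sub_1728, H28.J_def]
  field_simp

/-! ### The formal identity -/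

theorem isQSum_pow {X : LaurentSeries ℂ} {g : ℍ → ℂ} (hX : IsQSum X g) (n : ℕ) :
    IsQSum (X ^ n) (g ^ n) := by
  induction n with
  | zero => simpa using H17.IsQSum.one
  | succ n ih => rw [pow_succ, pow_succ]; exact H17.IsQSum.mul ih hX


theorem isQSum_ofNat (n : ℕ) [n.AtLeastTwo] :
    IsQSum (OfNat.ofNat n : LaurentSeries ℂ) (fun _ => (OfNat.ofNat n : ℂ)) := by
  have h := H17.IsQSum.single_zero (OfNat.ofNat n : ℂ)
  have e : (OfNat.ofNat n : LaurentSeries ℂ) = HahnSeries.single 0 (OfNat.ofNat n : ℂ) := by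
    rw [← HahnSeries.C_apply, map_ofNat]
  rw [e]
  exact h

theorem formal_identity_complex :
    DeltaS ℂ * jqModC ℂ ^ 4 * (jqModC ℂ - 1728) ^ 3 = (thetaOp (jqModC ℂ)) ^ 6 := by
  have hL : IsQSum (DeltaS ℂ * jqModC ℂ ^ 4 * (jqModC ℂ - 1728) ^ 3)
      ((Δ : ℍ → ℂ) * H28.J ^ 4 * (H28.J - fun _ => (1728 : ℂ)) ^ 3) :=
    H17.IsQSum.mul (H17.IsQSum.mul isQSum_Delta (isQSum_pow isQSum_J 4))
      (isQSum_pow (H17.IsQSum.sub isQSum_J (isQSum_ofNat 1728)) 3)
  have hR : IsQSum ((thetaOp (jqModC ℂ)) ^ 6) ((D H28.J) ^ 6) := isQSum_pow (isQSum_theta isQSum_J) 6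
  have hfun : ((Δ : ℍ → ℂ) * H28.J ^ 4 * (H28.J - fun _ => (1728 : ℂ)) ^ 3) = (D H28.J) ^ 6 := by
    funext τ
    simp only [Pi.mul_apply, Pi.pow_apply, Pi.sub_apply]
    exact analytic_identity τ
  rw [hfun] at hL
  exact H17.IsQSum.series_unique hL hR

theorem coeffMap_intCast_injective :
    Function.Injective (coeffMap (Int.castRingHom ℂ)) := by
  intro X Y h
  ext n
  have := congrArg (fun Z => Z.coeff n) h
  simpa using this

theorem formal_identity_int :
    DeltaS ℤ * jqModC ℤ ^ 4 * (jqModC ℤ - 1728) ^ 3 = (thetaOp (jqModC ℤ)) ^ 6 := by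
  apply coeffMap_intCast_injective
  simp only [map_mul, map_pow, map_sub, coeffMap_DeltaS, coeffMap_jqModC, coeffMap_thetaOp,
    map_ofNat]
  exact formal_identity_complex

/-- **W1a**: the formal identity `Δ j⁴ (j - 1728)³ = (θ j)⁶` over any commutative ring. -/
theorem formal_identity (R : Type*) [CommRing R] :
    DeltaS R * jqModC R ^ 4 * (jqModC R - 1728) ^ 3 = (thetaOp (jqModC R)) ^ 6 := by
  have := congrArg (coeffMap (Int.castRingHom R)) formal_identity_int
  simpa only [map_mul, map_pow, map_sub, coeffMap_DeltaS, coeffMap_jqModC, coeffMap_thetaOp,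
    map_ofNat] using this

/-- def-independent form: any `Y` with coefficients `n * coeff n` of `jqModC`. -/
theorem formal_identity' (R : Type*) [CommRing R] (Y : LaurentSeries R)
    (hY : ∀ n : ℤ, Y.coeff n = (n : R) * (jqModC R).coeff n) :
    DeltaS R * jqModC R ^ 4 * (jqModC R - 1728) ^ 3 = Y ^ 6 := by
  rw [thetaOp_eq_of_coeff hY]
  exact formal_identity R

end Fermat.Agent.S28.H17
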