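/-
helper30: S28 / W2a — abstract characteristic-`ℓ` core of the prime-level step
(helper16's blueprint, steps (2)–(3)).  Mathlib + the frozen `ModularCurve.qExpand` only.
-/
import Mathlib
import Fermat.Prelude.Def_ModularCurve_X0

set_option autoImplicit false

noncomputable section

open HahnSeries Polynomial

namespace Fermat.Agent.S28.H30

variable {k : Type*} [Field k]

/-- the (default, power-series) algebra map `k → k((q))` is `C`. -/
lemma algebraMap_eq_C (c : k) : algebraMap k (LaurentSeries k) c = HahnSeries.C c := by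
  have h1 : algebraMap k (PowerSeries k) c = PowerSeries.C c := by simp
  rw [HahnSeries.algebraMap_apply', h1, HahnSeries.ofPowerSeries_C]

/-! ### The derivation `θ = q d/dq` on Laurent series -/

/-- underlying function of `θ = q d/dq`: multiply the `n`-th coefficient by `n`. -/
def thetaFun (f : LaurentSeries k) : LaurentSeries k where
  coeff n := (n : k) * f.coeff n
  isPWO_support' := f.isPWO_support.mono (fun n hn => by
    simp only [Function.mem_support, ne_eq] at hn ⊢
    exact fun h => hn (by rw [h, mul_zero]))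

@[simp] lemma thetaFun_coeff (f : LaurentSeries k) (n : ℤ) :
    (thetaFun f).coeff n = (n : k) * f.coeff n := rfl

lemma support_thetaFun_subset (f : LaurentSeries k) : (thetaFun f).support ⊆ f.support := by
  intro n hn
  simp only [HahnSeries.mem_support, thetaFun_coeff, ne_eq] at hn ⊢
  exact fun h => hn (by rw [h, mul_zero])

lemma thetaFun_mul (f g : LaurentSeries k) :
    thetaFun (f * g) = f * thetaFun g + g * thetaFun f := by
  ext n
  rw [thetaFun_coeff, HahnSeries.coeff_add, HahnSeries.coeff_mul,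
    HahnSeries.coeff_mul_right' g.isPWO_support (support_thetaFun_subset g),
    mul_comm g (thetaFun f),
    HahnSeries.coeff_mul_left' f.isPWO_support (support_thetaFun_subset f),
    Finset.mul_sum, ← Finset.sum_add_distrib]
  refine Finset.sum_congr rfl fun ij hij => ?_
  have h : ij.1 + ij.2 = n := (Finset.mem_antidiagonal.mp hij).2.2
  simp only [thetaFun_coeff]
  rw [← h]
  push_cast
  ring

lemma thetaFun_add (f g : LaurentSeries k) : thetaFun (f + g) = thetaFun f + thetaFun g := by
  ext n
  simp [mul_add]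

lemma thetaFun_C_mul (c : k) (f : LaurentSeries k) :
    thetaFun (HahnSeries.C c * f) = HahnSeries.C c * thetaFun f := by
  ext n
  rw [HahnSeries.C_mul_eq_smul, HahnSeries.C_mul_eq_smul]
  simp only [thetaFun_coeff, HahnSeries.coeff_smul, smul_eq_mul]
  ring

/-- `θ` as a linear map from `k((q))` with the module structure of the (default) algebra
structure to `k((q))` with the Hahn-series module structure (the two are propositionally
but not definitionally equal; this is the shape `Derivation.mk'` asks for). -/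
def thetaLin : @LinearMap k k _ _ (RingHom.id k) (LaurentSeries k) (LaurentSeries k) _ _
    Algebra.toModule HahnSeries.instModule :=
  @LinearMap.mk k k _ _ (RingHom.id k) (LaurentSeries k) (LaurentSeries k) _ _
    Algebra.toModule HahnSeries.instModule
    { toFun := thetaFun, map_add' := thetaFun_add }
    (fun c f => by
      simp only [RingHom.id_apply]
      rw [Algebra.smul_def, algebraMap_eq_C, thetaFun_C_mul, HahnSeries.C_mul_eq_smul])

/-- `θ = q d/dq` as a derivation of `k((q))`. -/
def theta : Derivation k (LaurentSeries k) (LaurentSeries k) :=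
  Derivation.mk' thetaLin
    (fun a b => by
      show thetaFun (a * b) = a • thetaFun b + b • thetaFun a
      rw [thetaFun_mul, smul_eq_mul, smul_eq_mul])

@[simp] lemma theta_coeff (f : LaurentSeries k) (n : ℤ) :
    (theta f).coeff n = (n : k) * f.coeff n := rfl

open ModularCurve in
/-- `θ (f(q^p)) = p · (θ f)(q^p)`. -/
lemma theta_qExpand (p : ℕ) [NeZero p] (f : LaurentSeries k) :
    theta (qExpand k p f) = HahnSeries.C (p : k) * qExpand k p (theta f) := by
  ext n
  rw [HahnSeries.C_mul_eq_smul, HahnSeries.coeff_smul, theta_coeff, smul_eq_mul]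
  by_cases hn : (p : ℤ) ∣ n
  · obtain ⟨m, rfl⟩ := hn
    rw [qExpand_coeff_mul, qExpand_coeff_mul, theta_coeff]
    push_cast
    ring
  · rw [qExpand_coeff_of_not_dvd p f hn, qExpand_coeff_of_not_dvd p _ hn, mul_zero, mul_zero]

/-! ### Polynomials in a series of negative order -/

lemma coeff_algebra_smul (c : k) (f : LaurentSeries k) (i : ℤ) :
    (c • f).coeff i = c * f.coeff i := by
  rw [HahnSeries.coeff_smul, smul_eq_mul]

/-- the `k`-algebra scalar action on `k((q))`, coefficientwise. -/
lemma coeff_algebraMap_mul (c : k) (f : LaurentSeries k) (i : ℤ) :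
    (algebraMap k (LaurentSeries k) c * f).coeff i = c * f.coeff i := by
  rw [algebraMap_eq_C, HahnSeries.C_mul_eq_smul, HahnSeries.coeff_smul, smul_eq_mul]

/-- Claim A: a polynomial of degree `≤ d` in `J` (`ord J < 0`) has no coefficients below
`d · ord J`. -/
lemma coeff_aeval_eq_zero_of_lt {J : LaurentSeries k} (hJ : J.order < 0) (Q : k[X]) {d : ℕ}
    (hQ : Q.natDegree ≤ d) {i : ℤ} (hi : i < d * J.order) : (aeval J Q).coeff i = 0 := by
  have hJ0 : J ≠ 0 := by
    rintro rfl
    simp at hJ
  rw [Polynomial.aeval_eq_sum_range' (Nat.lt_succ_of_le hQ), HahnSeries.coeff_sum]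
  refine Finset.sum_eq_zero fun j hj => ?_
  rw [Algebra.smul_def, coeff_algebraMap_mul]
  have hjd : j ≤ d := Nat.lt_succ_iff.mp (Finset.mem_range.mp hj)
  have : i < (J ^ j).order := by
    rw [HahnSeries.order_pow, nsmul_eq_mul]
    have : (d : ℤ) * J.order ≤ (j : ℤ) * J.order :=
      mul_le_mul_of_nonpos_right (by exact_mod_cast hjd) hJ.le
    linarith
  rw [HahnSeries.coeff_eq_zero_of_lt_order this, mul_zero]

/-- Claim B: the coefficient of `P(J)` at `deg P · ord J` is nonzero. -/
lemma coeff_aeval_natDegree_ne_zero {J : LaurentSeries k} (hJ : J.order < 0) {P : k[X]}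
    (hP : P ≠ 0) : (aeval J P).coeff (P.natDegree * J.order) ≠ 0 := by
  have hJ0 : J ≠ 0 := by
    rintro rfl
    simp at hJ
  have hlc : P.leadingCoeff ≠ 0 := Polynomial.leadingCoeff_ne_zero.mpr hP
  have hpow : (J ^ P.natDegree).coeff (P.natDegree * J.order) ≠ 0 := by
    have h1 : (J ^ P.natDegree).order = P.natDegree * J.order := by
      rw [HahnSeries.order_pow, nsmul_eq_mul]
    rw [← h1]
    exact fun h => (pow_ne_zero _ hJ0) (HahnSeries.coeff_order_eq_zero.mp h)
  have key : aeval J P = aeval J P.eraseLead +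
      algebraMap k (LaurentSeries k) P.leadingCoeff * J ^ P.natDegree := by
    conv_lhs => rw [← Polynomial.eraseLead_add_monomial_natDegree_leadingCoeff P]
    rw [map_add, Polynomial.aeval_monomial]
  rw [key, HahnSeries.coeff_add, coeff_algebraMap_mul]
  rcases Nat.eq_zero_or_pos P.natDegree with h0 | hpos
  · have : P.eraseLead = 0 := by
      have := Polynomial.eraseLead_natDegree_le P
      rw [Polynomial.eq_C_of_natDegree_eq_zero h0]
      simp
    rw [this, map_zero, HahnSeries.coeff_zero, zero_add]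
    exact mul_ne_zero hlc hpow
  · have hle : P.eraseLead.natDegree ≤ P.natDegree - 1 := Polynomial.eraseLead_natDegree_le P
    have hlt : (P.natDegree : ℤ) * J.order < ((P.natDegree - 1 : ℕ) : ℤ) * J.order := by
      have : ((P.natDegree - 1 : ℕ) : ℤ) < (P.natDegree : ℤ) := by
        exact_mod_cast Nat.sub_lt hpos Nat.one_pos
      exact mul_lt_mul_of_neg_right this hJ
    rw [coeff_aeval_eq_zero_of_lt hJ _ hle hlt, zero_add]
    exact mul_ne_zero hlc hpow

lemma aeval_ne_zero_of_order_neg {J : LaurentSeries k} (hJ : J.order < 0) {P : k[X]}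
    (hP : P ≠ 0) : aeval J P ≠ 0 := fun h => by
  have := coeff_aeval_natDegree_ne_zero hJ hP
  rw [h] at this
  exact this (HahnSeries.coeff_zero)

lemma aeval_injective_of_order_neg {J : LaurentSeries k} (hJ : J.order < 0) :
    Function.Injective (aeval (R := k) J) := by
  rw [injective_iff_map_eq_zero]
  intro P hP
  by_contra h
  exact aeval_ne_zero_of_order_neg hJ h hP

/-- a nonzero polynomial in `J` (`ord J < 0`) has order `≤ 0`. -/
lemma order_aeval_le_zero {J : LaurentSeries k} (hJ : J.order < 0) {P : k[X]} (hP : P ≠ 0) :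
    (aeval J P).order ≤ 0 := by
  refine (HahnSeries.order_le_of_coeff_ne_zero (coeff_aeval_natDegree_ne_zero hJ hP)).trans ?_
  exact mul_nonpos_of_nonneg_of_nonpos (by positivity) hJ.le

/-! ### `k[J]` is integrally closed in `k(J)` -/

/-- if `u ∈ k(J)` is integral over `k[J]` (`ord J < 0`, so `J` is transcendental) then
`u ∈ k[J]`. -/
lemma exists_aeval_eq_of_integral {J : LaurentSeries k} (hJ : J.order < 0) {u : LaurentSeries k}
    (hmem : u ∈ IntermediateField.adjoin k {J})
    (hint : ∃ F : Polynomial (Polynomial k), F.Monic ∧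
      F.eval₂ (aeval (R := k) J).toRingHom u = 0) :
    ∃ P : k[X], aeval J P = u := by
  obtain ⟨A, B, rfl⟩ := (IntermediateField.mem_adjoin_simple_iff k _).1 hmem
  have hinj := aeval_injective_of_order_neg hJ
  have hφ' : nonZeroDivisors k[X] ≤ Submonoid.comap (aeval (R := k) J)
      (nonZeroDivisors (LaurentSeries k)) := by
    intro Q hQ
    rw [Submonoid.mem_comap, mem_nonZeroDivisors_iff_ne_zero]
    exact aeval_ne_zero_of_order_neg hJ (nonZeroDivisors.ne_zero hQ)
  set φ := RatFunc.liftAlgHom (aeval (R := k) J) hφ' with hφ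
  have hφinj : Function.Injective φ := RatFunc.liftAlgHom_injective _ hinj hφ'
  have hφalg : ∀ Q : k[X], φ (algebraMap k[X] (RatFunc k) Q) = aeval J Q := by
    intro Q
    have := RatFunc.liftAlgHom_apply_div (aeval (R := k) J) hφ' Q 1
    rwa [map_one, div_one, map_one, div_one] at this
  set r : RatFunc k := algebraMap k[X] (RatFunc k) A / algebraMap k[X] (RatFunc k) B with hr
  have hφr : φ r = aeval J A / aeval J B := RatFunc.liftAlgHom_apply_div _ hφ' A B
  obtain ⟨F, hFm, hF⟩ := hint
  have hrint : IsIntegral k[X] r := by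
    refine ⟨F, hFm, hφinj ?_⟩
    rw [map_zero, ← AlgHom.coe_toRingHom, Polynomial.hom_eval₂, AlgHom.coe_toRingHom, hφr]
    have : (φ : RatFunc k →+* LaurentSeries k).comp (algebraMap k[X] (RatFunc k)) =
        (aeval (R := k) J).toRingHom := by
      refine RingHom.ext fun Q => ?_
      exact hφalg Q
    rw [this]
    exact hF
  obtain ⟨P, hP⟩ := IsIntegrallyClosed.isIntegral_iff.1 hrint
  exact ⟨P, by rw [← hφalg, hP, hφr]⟩

/-! ### The prime-level core -/

lemma ne_C_of_order_neg {J : LaurentSeries k} (hJ : J.order < 0) (c : k) : J ≠ HahnSeries.C c := by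
  rintro rfl
  rw [HahnSeries.order_C] at hJ
  exact lt_irrefl _ hJ

lemma ne_zero_of_order_neg {J : LaurentSeries k} (hJ : J.order < 0) : J ≠ 0 := by
  rintro rfl
  simp at hJ

open ModularCurve in
/-- **Prime-level core** (helper16's steps (2)–(3)).  Let `J, Dl ∈ k((q))` with
`Dl · J⁴ (J - c)³ = (θ J)⁶`, `ord J < 0`, `p ≠ 0` in `k`, and suppose
`u = Dl(q^p)/Dl(q)` has positive order and is integral over `k[J]`.
Then `J(q^p) ∉ k(J)`. -/
theorem qExpand_not_mem_adjoin (p : ℕ) [NeZero p] (hp : (p : k) ≠ 0)
    {J Dl : LaurentSeries k} (c : k) (hJ : J.order < 0)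
    (hrel : Dl * J ^ 4 * (J - HahnSeries.C c) ^ 3 = (theta J) ^ 6)
    (hu : 0 < (qExpand k p Dl / Dl).order)
    (hint : ∃ F : Polynomial (Polynomial k), F.Monic ∧
      F.eval₂ (aeval (R := k) J).toRingHom (qExpand k p Dl / Dl) = 0) :
    qExpand k p J ∉ IntermediateField.adjoin k {J} := by
  intro hmem
  set V := qExpand k p with hV
  set K := IntermediateField.adjoin k {J} with hK
  have hJK : J ∈ K := IntermediateField.mem_adjoin_simple_self k J
  have hJ0 : J ≠ 0 := ne_zero_of_order_neg hJ
  have hJc : J - HahnSeries.C c ≠ 0 := sub_ne_zero.mpr (ne_C_of_order_neg hJ c)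
  have hVinj : Function.Injective V := qExpand_injective p
  have hVJ0 : V J ≠ 0 := fun h => hJ0 (hVinj (by rw [h, map_zero]))
  have hVJc : V J - HahnSeries.C c ≠ 0 := by
    have : V (J - HahnSeries.C c) = V J - HahnSeries.C c := by
      rw [map_sub, hV, qExpand_C]
    rw [← this]
    exact fun h => hJc (hVinj (by rw [h, map_zero]))
  have hu0 : V Dl / Dl ≠ 0 := by
    intro h
    rw [h, HahnSeries.order_zero] at hu
    exact lt_irrefl _ hu
  have hDl : Dl ≠ 0 := fun h => hu0 (by rw [h, div_zero])
  have hCK : ∀ a : k, HahnSeries.C a ∈ K := fun a => by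
    rw [← algebraMap_eq_C]
    exact K.algebraMap_mem a
  have haevalK : ∀ Q : k[X], aeval J Q ∈ K := fun Q => by
    have : aeval J Q = ((aeval (⟨J, hJK⟩ : K) Q : K) : LaurentSeries k) := by
      rw [← IntermediateField.coe_val, ← Polynomial.aeval_algHom_apply]
      rfl
    rw [this]
    exact Subtype.prop _
  -- `V J = A(J)/B(J)`
  obtain ⟨A, B, hAB⟩ := (IntermediateField.mem_adjoin_simple_iff k _).1 hmem
  have hB : aeval J B ≠ 0 := by
    intro h
    rw [h, div_zero] at hAB
    exact hVJ0 hAB
  have hABmul : aeval J B * V J = aeval J A := by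
    rw [hAB, mul_div_cancel₀ _ hB]
  -- apply `θ`
  have hθ : aeval J B * theta (V J) =
      (aeval J (derivative A) - aeval J (derivative B) * V J) * theta J := by
    have h1 := congrArg theta hABmul
    rw [Derivation.leibniz, Derivation.map_aeval, Derivation.map_aeval, smul_eq_mul, smul_eq_mul,
      smul_eq_mul, smul_eq_mul] at h1
    linear_combination h1
  set ρ : LaurentSeries k := (aeval J (derivative A) - aeval J (derivative B) * V J) / aeval J B
    with hρ
  have hρK : ρ ∈ K :=
    K.div_mem (K.sub_mem (haevalK _) (K.mul_mem (haevalK _) hmem)) (haevalK _)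
  have hθV : theta (V J) = ρ * theta J := by
    rw [hρ, div_mul_eq_mul_div, eq_div_iff hB, mul_comm, hθ]
  have hCp : (HahnSeries.C (p : k) : LaurentSeries k) ≠ 0 := by
    intro h
    have h2 : (HahnSeries.C (p : k) : LaurentSeries k).coeff 0 = 0 := by rw [h]; rfl
    rw [HahnSeries.C_apply, HahnSeries.coeff_single_same] at h2
    exact hp h2
  have hVθ : V (theta J) = (HahnSeries.C (p : k))⁻¹ * ρ * theta J := by
    have := theta_qExpand p J
    rw [← hV, hθV] at this
    rw [mul_assoc, this, inv_mul_cancel_left₀ hCp]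
  -- apply `V` to the relation
  have hrelV : V Dl * V J ^ 4 * (V J - HahnSeries.C c) ^ 3 =
      ((HahnSeries.C (p : k))⁻¹ * ρ) ^ 6 * (Dl * J ^ 4 * (J - HahnSeries.C c) ^ 3) := by
    have := congrArg V hrel
    rw [map_mul, map_mul, map_pow, map_pow, map_pow, map_sub, hV, qExpand_C, ← hV, hVθ] at this
    rw [this, hrel]
    ring
  have hueq : V Dl / Dl = ((HahnSeries.C (p : k))⁻¹ * ρ) ^ 6 * (J ^ 4 * (J - HahnSeries.C c) ^ 3) /
      (V J ^ 4 * (V J - HahnSeries.C c) ^ 3) := by
    rw [div_eq_div_iff hDl (mul_ne_zero (pow_ne_zero _ hVJ0) (pow_ne_zero _ hVJc))]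
    linear_combination hrelV
  have huK : V Dl / Dl ∈ K := by
    rw [hueq]
    refine K.div_mem (K.mul_mem (pow_mem (K.mul_mem (K.inv_mem (hCK _)) hρK) _)
      (K.mul_mem (pow_mem hJK _) (pow_mem (K.sub_mem hJK (hCK c)) _)))
      (K.mul_mem (pow_mem hmem _) (pow_mem (K.sub_mem hmem (hCK c)) _))
  obtain ⟨P, hP⟩ := exists_aeval_eq_of_integral hJ huK hint
  have hP0 : P ≠ 0 := by
    rintro rfl
    rw [map_zero] at hP
    exact hu0 hP.symm
  have := order_aeval_le_zero hJ hP0
  rw [hP] at this
  exact absurd hu (not_lt.mpr this)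

open ModularCurve in
/-- polynomial form of `qExpand_not_mem_adjoin`. -/
theorem not_exists_aeval_mul_qExpand_eq (p : ℕ) [NeZero p] (hp : (p : k) ≠ 0)
    {J Dl : LaurentSeries k} (c : k) (hJ : J.order < 0)
    (hrel : Dl * J ^ 4 * (J - HahnSeries.C c) ^ 3 = (theta J) ^ 6)
    (hu : 0 < (qExpand k p Dl / Dl).order)
    (hint : ∃ F : Polynomial (Polynomial k), F.Monic ∧
      F.eval₂ (aeval (R := k) J).toRingHom (qExpand k p Dl / Dl) = 0) :
    ¬ ∃ A B : k[X], aeval J B ≠ 0 ∧ aeval J B * qExpand k p J = aeval J A := by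
  rintro ⟨A, B, hB, h⟩
  refine qExpand_not_mem_adjoin p hp c hJ hrel hu hint ?_
  rw [IntermediateField.mem_adjoin_simple_iff]
  exact ⟨A, B, by rw [eq_div_iff hB, mul_comm, h]⟩

/-- integrality over the subalgebra `k[J] = Algebra.adjoin k {J}` gives the polynomial form of
integrality used above. -/
lemma exists_monic_of_isIntegral_adjoin {J u : LaurentSeries k}
    (h : IsIntegral (Algebra.adjoin k {J}) u) :
    ∃ F : Polynomial (Polynomial k), F.Monic ∧ F.eval₂ (aeval (R := k) J).toRingHom u = 0 := by
  obtain ⟨G, hGm, hG⟩ := h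
  have hsurj : ∀ s : Algebra.adjoin k {J}, ∃ Q : k[X], aeval J Q = (s : LaurentSeries k) := by
    intro s
    have h1 : (s : LaurentSeries k) ∈ (aeval (R := k) J).range := by
      rw [← Algebra.adjoin_singleton_eq_range_aeval]
      exact s.2
    exact h1
  -- the surjection `k[X] → k[J]`
  let f : k[X] →+* Algebra.adjoin k {J} :=
    ((aeval (R := k) J).codRestrict (Algebra.adjoin k {J}) (fun Q => by
      rw [Algebra.adjoin_singleton_eq_range_aeval]; exact ⟨Q, rfl⟩)).toRingHom
  have hf : ∀ Q, ((f Q : Algebra.adjoin k {J}) : LaurentSeries k) = aeval J Q := fun Q => rfl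
  have hfsurj : Function.Surjective f := by
    intro s
    obtain ⟨Q, hQ⟩ := hsurj s
    exact ⟨Q, Subtype.ext (by rw [hf, hQ])⟩
  have hlifts : G ∈ Polynomial.lifts f := by
    rw [Polynomial.lifts_iff_coeff_lifts]
    intro n
    exact hfsurj _
  obtain ⟨F, hFG, -, hFm⟩ := Polynomial.lifts_and_natDegree_eq_and_monic hlifts hGm
  refine ⟨F, hFm, ?_⟩
  have hcomp : (aeval (R := k) J).toRingHom =
      (algebraMap (Algebra.adjoin k {J}) (LaurentSeries k)).comp f := by
    refine RingHom.ext fun Q => ?_
    rfl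
  rw [hcomp, ← Polynomial.eval₂_map, hFG]
  exact hG

open ModularCurve in
/-- `qExpand_not_mem_adjoin` with the integrality hypothesis in `IsIntegral` form. -/
theorem qExpand_not_mem_adjoin_of_isIntegral (p : ℕ) [NeZero p] (hp : (p : k) ≠ 0)
    {J Dl : LaurentSeries k} (c : k) (hJ : J.order < 0)
    (hrel : Dl * J ^ 4 * (J - HahnSeries.C c) ^ 3 = (theta J) ^ 6)
    (hu : 0 < (qExpand k p Dl / Dl).order)
    (hint : IsIntegral (Algebra.adjoin k {J}) (qExpand k p Dl / Dl)) :
    qExpand k p J ∉ IntermediateField.adjoin k {J} :=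
  qExpand_not_mem_adjoin p hp c hJ hrel hu (exists_monic_of_isIntegral_adjoin hint)

end Fermat.Agent.S28.H30
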