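/-
helper30: S28 / W2a — the prime-level core in the vocabulary of `S28/Defs.lean` + `S28/Interface.lean`:
`J(q^p) ∉ k(J)` for `J = jqModC k`, from W1a (`H17.formal_identity`, landed) and the W1c deliverable
`IsDeltaQuotPoly p P` (taken as a hypothesis).
-/
import Mathlib
import Fermat.Agent.S28.Interface
import Fermat.Agent.S28.H16_Transfer
import Fermat.Agent.S28.H17_FormalIdentity
import Fermat.Agent.S28.H30_PrimeCore

set_option autoImplicit false

noncomputable section

open HahnSeries Polynomial ModularCurve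

namespace Fermat.Agent.S28.H30

/-! ### `DeltaS`, `DeltaSInv`, `DeltaQuot` -/

section Ring

variable (R : Type*) [CommRing R]

theorem DeltaS_mul_DeltaSInv : DeltaS R * DeltaSInv R = 1 := by
  have h1 : (dedekindEtaUnit.map (Int.castRingHom R)) * (dedekindEtaUnitInv.map (Int.castRingHom R))
      = 1 := by
    rw [← map_mul, dedekindEtaUnit_mul_inv, map_one]
  have e1 : HahnSeries.single (1 : ℤ) (1 : R) * HahnSeries.single (-1 : ℤ) (1 : R) = 1 := by
    rw [HahnSeries.single_mul_single, mul_one]
    rfl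
  have e2 : HahnSeries.ofPowerSeries ℤ R (dedekindEtaUnit.map (Int.castRingHom R)) *
      HahnSeries.ofPowerSeries ℤ R (dedekindEtaUnitInv.map (Int.castRingHom R)) = 1 := by
    rw [← map_mul, h1, map_one]
  calc DeltaS R * DeltaSInv R
      = (HahnSeries.single (1 : ℤ) (1 : R) * HahnSeries.single (-1 : ℤ) (1 : R)) *
          (HahnSeries.ofPowerSeries ℤ R (dedekindEtaUnit.map (Int.castRingHom R)) *
           HahnSeries.ofPowerSeries ℤ R (dedekindEtaUnitInv.map (Int.castRingHom R))) := by
        rw [DeltaS, DeltaSInv]; ring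
    _ = 1 := by rw [e1, e2, mul_one]

theorem coeffMap_DeltaSInv {S : Type*} [CommRing S] (f : R →+* S) :
    coeffMap f (DeltaSInv R) = DeltaSInv S := by
  rw [DeltaSInv, map_mul, coeffMap_single, map_one, coeffMap_ofPowerSeries,
    ← RingHom.comp_apply (PowerSeries.map f) (PowerSeries.map (Int.castRingHom R)),
    ← PowerSeries.map_comp, RingHom.ext_int (f.comp (Int.castRingHom R)) (Int.castRingHom S)]
  rfl

theorem coeffMap_DeltaQuot {S : Type*} [CommRing S] (f : R →+* S) (p : ℕ) [NeZero p] :
    coeffMap f (DeltaQuot R p) = DeltaQuot S p := by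
  rw [DeltaQuot, map_mul, coeffMap_qExpand, H17.coeffMap_DeltaS, coeffMap_DeltaSInv, DeltaQuot]

end Ring

section Field

variable (k : Type*) [Field k]

theorem DeltaS_ne_zero : DeltaS k ≠ 0 := fun h => by
  have := DeltaS_mul_DeltaSInv k
  rw [h, zero_mul] at this
  exact zero_ne_one this

theorem DeltaSInv_eq_inv : DeltaSInv k = (DeltaS k)⁻¹ :=
  eq_inv_of_mul_eq_one_right (DeltaS_mul_DeltaSInv k)

theorem DeltaQuot_eq_div (p : ℕ) [NeZero p] :
    DeltaQuot k p = qExpand k p (DeltaS k) / DeltaS k := by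
  rw [DeltaQuot, DeltaSInv_eq_inv, div_eq_mul_inv]

/-- coefficients of `q^n · (power series)`. -/
theorem coeff_single_mul_ofPowerSeries (n m : ℤ) (F : PowerSeries k) :
    (HahnSeries.single n (1 : k) * HahnSeries.ofPowerSeries ℤ k F).coeff m =
      if n ≤ m then PowerSeries.coeff (m - n).toNat F else 0 := by
  rw [HahnSeries.coeff_single_mul, one_mul]
  split_ifs with h
  · obtain ⟨j, hj⟩ := Int.eq_ofNat_of_zero_le (sub_nonneg.mpr h)
    rw [hj, Int.toNat_natCast, HahnSeries.ofPowerSeries_apply_coeff]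
  · exact ofPowerSeries_coeff_of_neg _ (by omega)

theorem order_single_mul_ofPowerSeries (n : ℤ) (F : PowerSeries k)
    (hF : PowerSeries.constantCoeff F = 1) :
    (HahnSeries.single n (1 : k) * HahnSeries.ofPowerSeries ℤ k F).order = n := by
  set Y := HahnSeries.single n (1 : k) * HahnSeries.ofPowerSeries ℤ k F with hY
  have hn : Y.coeff n = 1 := by
    rw [hY, coeff_single_mul_ofPowerSeries, if_pos le_rfl, sub_self, Int.toNat_zero,
      PowerSeries.coeff_zero_eq_constantCoeff_apply, hF]
  have hY0 : Y ≠ 0 := fun h => by rw [h, HahnSeries.coeff_zero] at hn; exact zero_ne_one hn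
  refine le_antisymm (HahnSeries.order_le_of_coeff_ne_zero (by rw [hn]; exact one_ne_zero)) ?_
  by_contra hlt
  rw [not_le] at hlt
  have h0 : Y.coeff Y.order = 0 := by
    rw [hY, coeff_single_mul_ofPowerSeries, if_neg (not_le.mpr hlt)]
  exact hY0 (HahnSeries.coeff_order_eq_zero.mp h0)

theorem order_DeltaS : (DeltaS k).order = 1 := by
  rw [DeltaS]
  refine order_single_mul_ofPowerSeries k 1 _ ?_
  rw [← PowerSeries.coeff_zero_eq_constantCoeff_apply, PowerSeries.coeff_map,
    PowerSeries.coeff_zero_eq_constantCoeff_apply, dedekindEtaUnit, map_pow,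
    constantCoeff_etaProd]
  simp

theorem order_qExpand (e : ℕ) [NeZero e] (x : LaurentSeries k) :
    (qExpand k e x).order = e * x.order := by
  by_cases hx : x = 0
  · rw [hx, map_zero, HahnSeries.order_zero, mul_zero]
  have hq : qExpand k e x ≠ 0 := fun h => hx (qExpand_injective e (by rw [h, map_zero]))
  have he : (0 : ℤ) < e := by exact_mod_cast Nat.pos_of_ne_zero (NeZero.ne e)
  refine le_antisymm (HahnSeries.order_le_of_coeff_ne_zero ?_) ?_
  · rw [qExpand_coeff_mul]
    exact fun h => hx (HahnSeries.coeff_order_eq_zero.mp h)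
  · -- the order of `qExpand` is a multiple `e * m` with `x.coeff m ≠ 0`
    have hne : (qExpand k e x).coeff (qExpand k e x).order ≠ 0 :=
      fun h => hq (HahnSeries.coeff_order_eq_zero.mp h)
    by_cases hdvd : (e : ℤ) ∣ (qExpand k e x).order
    · obtain ⟨m, hm⟩ := hdvd
      rw [hm, qExpand_coeff_mul] at hne
      rw [hm]
      exact mul_le_mul_of_nonneg_left (HahnSeries.order_le_of_coeff_ne_zero hne) he.le
    · exact absurd (qExpand_coeff_of_not_dvd e x hdvd) hne

theorem order_DeltaQuot (p : ℕ) [NeZero p] : (DeltaQuot k p).order = (p : ℤ) - 1 := by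
  have h1 : (qExpand k p (DeltaS k)).order = p := by
    rw [order_qExpand, order_DeltaS, mul_one]
  have hq : qExpand k p (DeltaS k) ≠ 0 :=
    fun h => DeltaS_ne_zero k (qExpand_injective p (by rw [h, map_zero]))
  have hinv : DeltaSInv k ≠ 0 := fun h => by
    have := DeltaS_mul_DeltaSInv k
    rw [h, mul_zero] at this
    exact zero_ne_one this
  have h2 : (DeltaSInv k).order = -1 := by
    have := HahnSeries.order_mul (DeltaS_ne_zero k) hinv
    rw [DeltaS_mul_DeltaSInv, HahnSeries.order_one, order_DeltaS] at this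
    omega
  rw [DeltaQuot, HahnSeries.order_mul hq hinv, h1, h2]
  ring

theorem order_jqModC_neg : (jqModC k).order < 0 := by
  have h : (jqModC k).order ≤ -1 :=
    HahnSeries.order_le_of_coeff_ne_zero (by rw [coeff_jqModC_neg_one]; exact one_ne_zero)
  omega

/-! ### integrality of `Δ(q^p)/Δ(q)` over `k[J]` from the W1c deliverable -/

theorem evalJ_eq_comp (x : LaurentSeries k) :
    evalJ x = ((aeval (R := k) x).toRingHom).comp (Polynomial.mapRingHom (Int.castRingHom k)) := by
  refine Polynomial.ringHom_ext' (Subsingleton.elim _ _) ?_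
  simp [evalJ]

theorem isIntegral_DeltaQuot {p : ℕ} [NeZero p] (hp : (p : k) ≠ 0) {P : Polynomial ℤ[X]}
    (hP : IsDeltaQuotPoly p P) :
    IsIntegral (Algebra.adjoin k {jqModC k}) (DeltaQuot k p) := by
  obtain ⟨hPm, hP0⟩ := hP
  set J := jqModC k with hJ
  -- transfer the relation to `k`
  have h1 := congrArg (coeffMap (Int.castRingHom k)) hP0
  rw [H16.coeffMap_eval₂_evalJ, coeffMap_jqModC, map_zero, map_mul, map_pow, map_natCast,
    coeffMap_DeltaQuot] at h1
  -- the subalgebra `k[J]`
  set A := Algebra.adjoin k {J} with hA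
  -- `w = p^12 · u` is integral over `k[J]`
  have hw : IsIntegral A ((p : LaurentSeries k) ^ 12 * DeltaQuot k p) := by
    let g : ℤ[X] →+* A :=
      ((aeval (R := k) (⟨J, Algebra.subset_adjoin (Set.mem_singleton J)⟩ : A)).toRingHom).comp
        (Polynomial.mapRingHom (Int.castRingHom k))
    refine ⟨P.map g, hPm.map g, ?_⟩
    rw [Polynomial.eval₂_map]
    have hcomp : (algebraMap A (LaurentSeries k)).comp g = evalJ J := by
      refine Polynomial.ringHom_ext' (Subsingleton.elim _ _) ?_
      simp [g, evalJ]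
    rw [hcomp]
    exact h1
  -- `p⁻¹ ∈ k ⊆ k[J]`
  have hpinv : IsIntegral A (algebraMap k (LaurentSeries k) ((p : k)⁻¹) ^ 12) := by
    refine IsIntegral.pow ?_ 12
    have : algebraMap k (LaurentSeries k) ((p : k)⁻¹) =
        algebraMap A (LaurentSeries k) (algebraMap k A ((p : k)⁻¹)) := by
      rw [← IsScalarTower.algebraMap_apply]
    rw [this]
    exact isIntegral_algebraMap
  have hmul := hpinv.mul hw
  have hcast : ((p : ℕ) : LaurentSeries k) = algebraMap k (LaurentSeries k) (p : k) := by
    rw [map_natCast]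
  have : algebraMap k (LaurentSeries k) ((p : k)⁻¹) ^ 12 *
      ((p : LaurentSeries k) ^ 12 * DeltaQuot k p) = DeltaQuot k p := by
    rw [hcast, ← mul_assoc, ← mul_pow, ← map_mul, inv_mul_cancel₀ hp, map_one, one_pow, one_mul]
  rwa [this] at hmul

/-! ### The prime-level core in `Defs`/`Interface` vocabulary -/

theorem theta_eq_thetaOp (f : LaurentSeries k) : theta f = thetaOp f := by
  ext n
  rfl

/-- **Prime-level core** (`hcore` of the W2 packages): for `p ≥ 2` invertible in `k`,
`J(q^p) ∉ k(J)`, given the W1c deliverable for `p`. -/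
theorem qExpand_jqModC_not_mem_adjoin {p : ℕ} [NeZero p] (hp2 : 2 ≤ p) (hp : (p : k) ≠ 0)
    {P : Polynomial ℤ[X]} (hP : IsDeltaQuotPoly p P) :
    qExpand k p (jqModC k) ∉ IntermediateField.adjoin k {jqModC k} := by
  have hrel : DeltaS k * jqModC k ^ 4 * (jqModC k - HahnSeries.C (1728 : k)) ^ 3 =
      (theta (jqModC k)) ^ 6 := by
    rw [theta_eq_thetaOp, map_ofNat]
    exact H17.formal_identity k
  refine qExpand_not_mem_adjoin_of_isIntegral p hp (1728 : k) (order_jqModC_neg k) hrel ?_ ?_
  · rw [← DeltaQuot_eq_div, order_DeltaQuot]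
    have : (2 : ℤ) ≤ p := by exact_mod_cast hp2
    omega
  · rw [← DeltaQuot_eq_div]
    exact isIntegral_DeltaQuot k hp hP

/-- prime version. -/
theorem qExpand_jqModC_not_mem_adjoin_of_prime {p : ℕ} [NeZero p] (hpp : p.Prime)
    (hp : (p : k) ≠ 0) {P : Polynomial ℤ[X]} (hP : IsDeltaQuotPoly p P) :
    qExpand k p (jqModC k) ∉ IntermediateField.adjoin k {jqModC k} :=
  qExpand_jqModC_not_mem_adjoin k hpp.two_le hp hP

end Field

end Fermat.Agent.S28.H30
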