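import Mathlib
import Fermat.Agent.S28.Defs
import Fermat.Agent.S20.H78_Index

set_option autoImplicit false

/-!
# S28 / W2d: combinatorics of primitive triples (Hermite normal forms)

A triple `g = (a, b, d)` stands for `τ ↦ (a τ + b) / d`, i.e. for the conjugate
`J_g = J(ζ_d^b q^(a/d))`.  `tmul α c` is the Hermite form of the matrix product
`(a' b'; 0 d') (a b; 0 d)`: evaluating `J_α` at `τ_c` gives `J_(tmul α c)`.
-/

namespace Fermat.Agent.S28.H64

open Fermat.Agent.S28 ModularCurve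

/-- Hermite normal form of the product of the upper triangular matrices of `α` and `c`. -/
def tmul (α c : ℕ × ℕ × ℕ) : ℕ × ℕ × ℕ :=
  (α.1 * c.1, (α.1 * c.2.1 + α.2.1 * c.2.2) % (α.2.2 * c.2.2), α.2.2 * c.2.2)

theorem tmul_top (p a b d : ℕ) : tmul (p, 0, 1) (a, b, d) = (p * a, (p * b) % d, d) := by
  simp [tmul]

theorem add_mul_lt {p b' b d : ℕ} (hb : b < d) (hb' : b' < p) : b + b' * d < p * d :=
  calc b + b' * d < d + b' * d := by omega
    _ = (b' + 1) * d := by ring
    _ ≤ p * d := Nat.mul_le_mul_right d hb'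

theorem tmul_bot {p b' a b d : ℕ} (hb : b < d) (hb' : b' < p) :
    tmul (1, b', p) (a, b, d) = (a, b + b' * d, p * d) := by
  simp only [tmul, one_mul]
  rw [Nat.mod_eq_of_lt (add_mul_lt hb hb')]

/-- determinant of a product. -/
theorem tmul_det (α c : ℕ × ℕ × ℕ) :
    (tmul α c).1 * (tmul α c).2.2 = (α.1 * α.2.2) * (c.1 * c.2.2) := by
  simp only [tmul]; ring

theorem tmul_lt {α c : ℕ × ℕ × ℕ} (hα : 0 < α.2.2) (hc : 0 < c.2.2) :
    (tmul α c).2.1 < (tmul α c).2.2 :=
  Nat.mod_lt _ (Nat.mul_pos hα hc)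

/-- `gcd x (gcd y z) = 1` iff no prime divides all three. -/
theorem gcd3_eq_one_iff {x y z : ℕ} :
    Nat.gcd x (Nat.gcd y z) = 1 ↔ ∀ r : ℕ, r.Prime → r ∣ x → r ∣ y → r ∣ z → False := by
  rw [Nat.eq_one_iff_not_exists_prime_dvd]
  constructor
  · intro h r hr hx hy hz
    exact h r hr (Nat.dvd_gcd hx (Nat.dvd_gcd hy hz))
  · intro h r hr hdvd
    have h1 : r ∣ x := hdvd.trans (Nat.gcd_dvd_left _ _)
    have h2 : r ∣ Nat.gcd y z := hdvd.trans (Nat.gcd_dvd_right _ _)
    exact h r hr h1 (h2.trans (Nat.gcd_dvd_left _ _)) (h2.trans (Nat.gcd_dvd_right _ _))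

theorem IsPrimTriple.pos {m a b d : ℕ} (hm : 0 < m) (h : IsPrimTriple m a b d) :
    0 < a ∧ 0 < d := by
  obtain ⟨h1, -, -⟩ := h
  constructor
  · rcases Nat.eq_zero_or_pos a with h0 | h0
    · subst h0; omega
    · exact h0
  · rcases Nat.eq_zero_or_pos d with h0 | h0
    · subst h0; omega
    · exact h0

/-- primitive triples of prime determinant. -/
theorem isPrimTriple_prime_iff {p : ℕ} (hp : p.Prime) {a b d : ℕ} :
    IsPrimTriple p a b d ↔ (a = p ∧ b = 0 ∧ d = 1) ∨ (a = 1 ∧ b < p ∧ d = p) := by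
  constructor
  · rintro ⟨h1, h2, -⟩
    have ha : a ∣ p := ⟨d, h1.symm⟩
    rcases (Nat.dvd_prime hp).mp ha with rfl | rfl
    · right
      rw [one_mul] at h1
      subst h1
      exact ⟨rfl, h2, rfl⟩
    · left
      have hd : d = 1 := by
        have := hp.pos
        exact Nat.eq_of_mul_eq_mul_left this (by rw [h1, mul_one])
      subst hd
      exact ⟨rfl, by omega, rfl⟩
  · rintro (⟨rfl, rfl, rfl⟩ | ⟨rfl, hb, rfl⟩)
    · exact ⟨mul_one _, Nat.one_pos, by simp⟩
    · exact ⟨one_mul _, hb, by simp⟩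

theorem triples_prime {p : ℕ} (hp : p.Prime) :
    triples p = insert (p, 0, 1) ((Finset.range p).image fun b' => ((1, b', p) : ℕ × ℕ × ℕ)) := by
  ext ⟨a, b, d⟩
  rw [mem_triples hp.pos, isPrimTriple_prime_iff hp]
  simp only [Finset.mem_insert, Finset.mem_image, Finset.mem_range, Prod.mk.injEq]
  constructor
  · rintro (⟨rfl, rfl, rfl⟩ | ⟨rfl, hb, rfl⟩)
    · exact Or.inl ⟨rfl, rfl, rfl⟩
    · exact Or.inr ⟨b, hb, rfl, rfl, rfl⟩
  · rintro (⟨rfl, rfl, rfl⟩ | ⟨b', hb, rfl, rfl, rfl⟩)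
    · exact Or.inl ⟨rfl, rfl, rfl⟩
    · exact Or.inr ⟨rfl, hb, rfl⟩

section Neighbours

variable {p M : ℕ} (hp : p.Prime) (hM : 0 < M)
include hp hM

/-- the `∞`-neighbour `(p a, p b mod d, d)` is primitive iff `p ∤ d`. -/
theorem tmul_top_mem_iff {c : ℕ × ℕ × ℕ} (hc : c ∈ triples M) :
    tmul (p, 0, 1) c ∈ triples (p * M) ↔ ¬ p ∣ c.2.2 := by
  obtain ⟨a, b, d⟩ := c
  rw [mem_triples hM] at hc
  obtain ⟨ha, hd⟩ := IsPrimTriple.pos hM hc
  obtain ⟨h1, h2, h3⟩ := hc
  simp only at h1 h2 h3 ha hd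
  rw [mem_triples (Nat.mul_pos hp.pos hM), tmul_top]
  simp only [IsPrimTriple]
  rw [gcd3_eq_one_iff] at h3 ⊢
  constructor
  · rintro ⟨-, -, h⟩ hpd
    exact h p hp (Dvd.intro _ rfl) ((Nat.dvd_mod_iff hpd).mpr (Dvd.intro _ rfl)) hpd
  · intro hpd
    refine ⟨by rw [← h1]; ring, Nat.mod_lt _ hd, ?_⟩
    intro r hr hra hrb hrd
    have hrb' : r ∣ p * b := (Nat.dvd_mod_iff hrd).mp hrb
    have hrp : ¬ r ∣ p := by
      intro h
      have : r = p := (Nat.prime_dvd_prime_iff_eq hr hp).mp h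
      subst this
      exact hpd hrd
    exact h3 r hr ((hr.dvd_mul.mp hra).resolve_left hrp)
      ((hr.dvd_mul.mp hrb').resolve_left hrp) hrd

/-- the neighbour `(a, b + b' d, p d)` is primitive iff not (`p ∣ a` and `p ∣ b + b' d`). -/
theorem tmul_bot_mem_iff {c : ℕ × ℕ × ℕ} (hc : c ∈ triples M) {b' : ℕ} (hb' : b' < p) :
    tmul (1, b', p) c ∈ triples (p * M) ↔ ¬ (p ∣ c.1 ∧ p ∣ c.2.1 + b' * c.2.2) := by
  obtain ⟨a, b, d⟩ := c
  rw [mem_triples hM] at hc
  obtain ⟨ha, hd⟩ := IsPrimTriple.pos hM hc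
  obtain ⟨h1, h2, h3⟩ := hc
  simp only at h1 h2 h3 ha hd
  rw [mem_triples (Nat.mul_pos hp.pos hM), tmul_bot h2 hb']
  simp only [IsPrimTriple]
  rw [gcd3_eq_one_iff] at h3 ⊢
  constructor
  · rintro ⟨-, -, h⟩ ⟨hpa, hpb⟩
    exact h p hp hpa hpb (Dvd.intro _ rfl)
  · intro hcon
    refine ⟨by rw [← h1]; ring, add_mul_lt h2 hb', ?_⟩
    intro r hr hra hrb hrd
    rcases hr.dvd_mul.mp hrd with h | h
    · have : r = p := (Nat.prime_dvd_prime_iff_eq hr hp).mp h
      subst this
      exact hcon ⟨hra, hrb⟩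
    · have hrb0 : r ∣ b := (Nat.dvd_add_left (Dvd.dvd.mul_left h b')).mp hrb
      exact h3 r hr hra hrb0 h

end Neighbours


/-- the number of `b' < p` with `p ∣ b + b' d` is one when `p ∤ d`. -/
theorem card_filter_dvd {p : ℕ} (hp : p.Prime) {b d : ℕ} (hd : ¬ p ∣ d) :
    ((Finset.range p).filter fun b' => p ∣ b + b' * d).card = 1 := by
  have := Fact.mk hp
  rw [Finset.card_eq_one]
  have hd0 : ((d : ℕ) : ZMod p) ≠ 0 := by rwa [Ne, ZMod.natCast_eq_zero_iff]
  refine ⟨(-(b : ZMod p) * (d : ZMod p)⁻¹).val, ?_⟩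
  ext b'
  simp only [Finset.mem_filter, Finset.mem_range, Finset.mem_singleton]
  constructor
  · rintro ⟨hlt, hdvd⟩
    rw [← ZMod.natCast_eq_zero_iff] at hdvd
    push_cast at hdvd
    have : (b' : ZMod p) = -(b : ZMod p) * (d : ZMod p)⁻¹ := by
      field_simp
      linear_combination hdvd
    rw [← this, ZMod.val_natCast, Nat.mod_eq_of_lt hlt]
  · rintro rfl
    refine ⟨ZMod.val_lt _, ?_⟩
    rw [← ZMod.natCast_eq_zero_iff]
    push_cast
    rw [ZMod.natCast_zmod_val]
    field_simp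
    ring

section Count

variable {p M : ℕ} (hp : p.Prime) (hM : 0 < M)
include hp hM

/-- **Number of primitive `p`-neighbours** of a primitive triple of determinant `M`. -/
theorem card_primitive_nbrs {c : ℕ × ℕ × ℕ} (hc : c ∈ triples M) :
    ((triples p).filter fun α => tmul α c ∈ triples (p * M)).card =
      if p ∣ M then p else p + 1 := by
  classical
  have htop := tmul_top_mem_iff hp hM hc
  have hbot : ∀ b' ∈ Finset.range p, (tmul (1, b', p) c ∈ triples (p * M) ↔
      ¬ (p ∣ c.1 ∧ p ∣ c.2.1 + b' * c.2.2)) := fun b' hb' =>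
    tmul_bot_mem_iff hp hM hc (Finset.mem_range.mp hb')
  obtain ⟨a, b, d⟩ := c
  have hc' := (mem_triples hM).mp hc
  obtain ⟨ha, hd⟩ := IsPrimTriple.pos hM hc'
  obtain ⟨h1, h2, h3⟩ := hc'
  simp only at h1 h2 h3 ha hd htop hbot
  rw [gcd3_eq_one_iff] at h3
  have hinj : Function.Injective fun b' : ℕ => ((1, b', p) : ℕ × ℕ × ℕ) := by
    intro x y h
    simpa using h
  have hnotin : ((p, 0, 1) : ℕ × ℕ × ℕ) ∉
      ((Finset.range p).image fun b' => ((1, b', p) : ℕ × ℕ × ℕ)) := by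
    simp only [Finset.mem_image, Finset.mem_range, Prod.mk.injEq, not_exists, not_and]
    intro x _ h
    have := hp.one_lt
    omega
  rw [triples_prime hp, Finset.filter_insert, Finset.filter_image]
  have hfilter : (Finset.range p).filter (fun b' => tmul (1, b', p) (a, b, d) ∈ triples (p * M))
      = (Finset.range p).filter (fun b' => ¬ (p ∣ a ∧ p ∣ b + b' * d)) :=
    Finset.filter_congr hbot
  rw [hfilter]
  have hcard_image : ∀ s : Finset ℕ,
      (s.image fun b' => ((1, b', p) : ℕ × ℕ × ℕ)).card = s.card :=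
    fun s => Finset.card_image_of_injective s hinj
  have hnotin' : ∀ s : Finset ℕ, s ⊆ Finset.range p → ((p, 0, 1) : ℕ × ℕ × ℕ) ∉
      (s.image fun b' => ((1, b', p) : ℕ × ℕ × ℕ)) := by
    intro s hs h
    exact hnotin (Finset.image_subset_image hs h)
  have hMdvd : p ∣ M ↔ p ∣ a ∨ p ∣ d := by rw [← h1]; exact hp.dvd_mul
  by_cases hpa : p ∣ a
  · -- `p ∣ a`, so `p ∣ M`
    rw [if_pos (hMdvd.mpr (Or.inl hpa))]
    by_cases hpd : p ∣ d
    · -- no bad `b'`, top excluded
      have hpb : ¬ p ∣ b := fun h => h3 p hp hpa h hpd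
      rw [if_neg (by rw [htop]; exact not_not.mpr hpd)]
      have : (Finset.range p).filter (fun b' => ¬ (p ∣ a ∧ p ∣ b + b' * d)) = Finset.range p := by
        refine Finset.filter_true_of_mem fun b' _ => ?_
        rintro ⟨-, h⟩
        exact hpb ((Nat.dvd_add_left (Dvd.dvd.mul_left hpd b')).mp h)
      rw [this, hcard_image, Finset.card_range]
    · -- exactly one bad `b'`, top included
      rw [if_pos (by rw [htop]; exact hpd),
        Finset.card_insert_of_notMem (hnotin' _ (Finset.filter_subset _ _)), hcard_image]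
      have hsplit : (Finset.range p).filter (fun b' => ¬ (p ∣ a ∧ p ∣ b + b' * d))
          = (Finset.range p).filter (fun b' => ¬ (p ∣ b + b' * d)) := by
        refine Finset.filter_congr fun b' _ => ?_
        simp [hpa]
      rw [hsplit, Finset.filter_not, Finset.card_sdiff_of_subset (Finset.filter_subset _ _),
        card_filter_dvd hp hpd, Finset.card_range]
      have := hp.one_lt
      omega
  · -- `p ∤ a`: all `b'` are good
    have hall : (Finset.range p).filter (fun b' => ¬ (p ∣ a ∧ p ∣ b + b' * d)) = Finset.range p := by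
      refine Finset.filter_true_of_mem fun b' _ => ?_
      rintro ⟨h, -⟩
      exact hpa h
    rw [hall]
    by_cases hpd : p ∣ d
    · rw [if_pos (hMdvd.mpr (Or.inr hpd)), if_neg (by rw [htop]; exact not_not.mpr hpd),
        hcard_image, Finset.card_range]
    · rw [if_neg (show ¬ p ∣ M by rw [hMdvd]; tauto),
        if_pos (show tmul (p, 0, 1) (a, b, d) ∈ triples (p * M) by rw [htop]; exact hpd),
        Finset.card_insert_of_notMem hnotin, hcard_image, Finset.card_range]

end Count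


section Factor

variable {p M : ℕ} (hp : p.Prime) (hM : 0 < M)
include hp hM

/-- **Existence of the `M`-part**: every primitive triple of determinant `p M` is a product. -/
theorem exists_factor {g : ℕ × ℕ × ℕ} (hg : g ∈ triples (p * M)) :
    ∃ c ∈ triples M, ∃ α ∈ triples p, tmul α c = g := by
  obtain ⟨A, B, D⟩ := g
  have hpM : 0 < p * M := Nat.mul_pos hp.pos hM
  have hg' := (mem_triples hpM).mp hg
  obtain ⟨hA, hD⟩ := IsPrimTriple.pos hpM hg'
  obtain ⟨h1, h2, h3⟩ := hg'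
  simp only at h1 h2 h3 hA hD
  rw [gcd3_eq_one_iff] at h3
  by_cases hpD : p ∣ D
  · obtain ⟨d, rfl⟩ := hpD
    have hd : 0 < d := Nat.pos_of_ne_zero fun h => by subst h; simp at hD
    have hAd : A * d = M := Nat.eq_of_mul_eq_mul_left hp.pos (by rw [← h1]; ring)
    have hdiv : B / d < p := Nat.div_lt_of_lt_mul (by rwa [mul_comm] at h2)
    refine ⟨(A, B % d, d), ?_, (1, B / d, p), ?_, ?_⟩
    · rw [mem_triples hM]
      refine ⟨hAd, Nat.mod_lt _ hd, ?_⟩
      rw [gcd3_eq_one_iff]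
      intro r hr hrA hrB hrd
      exact h3 r hr hrA ((Nat.dvd_mod_iff hrd).mp hrB) (Dvd.dvd.mul_left hrd p)
    · rw [mem_triples hp.pos, isPrimTriple_prime_iff hp]
      exact Or.inr ⟨rfl, hdiv, rfl⟩
    · rw [tmul_bot (Nat.mod_lt _ hd) hdiv, Nat.mod_add_div']
  · have hpA : p ∣ A := by
      have : p ∣ A * D := ⟨M, h1⟩
      exact (hp.dvd_mul.mp this).resolve_right hpD
    obtain ⟨a, rfl⟩ := hpA
    have haD : a * D = M := Nat.eq_of_mul_eq_mul_left hp.pos (by rw [← h1]; ring)
    have hcop : Nat.Coprime p D := (Nat.Prime.coprime_iff_not_dvd hp).mpr hpD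
    have : NeZero D := ⟨hD.ne'⟩
    have hbD : ((B : ZMod D) * (p : ZMod D)⁻¹).val < D := ZMod.val_lt _
    have hpb : (p * ((B : ZMod D) * (p : ZMod D)⁻¹).val) % D = B := by
      have h4 : ((p * ((B : ZMod D) * (p : ZMod D)⁻¹).val : ℕ) : ZMod D) = (B : ZMod D) := by
        push_cast
        rw [ZMod.natCast_zmod_val, mul_comm (B : ZMod D), ← mul_assoc,
          ZMod.coe_mul_inv_eq_one p hcop, one_mul]
      rw [ZMod.natCast_eq_natCast_iff'] at h4
      rw [h4, Nat.mod_eq_of_lt h2]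
    refine ⟨(a, ((B : ZMod D) * (p : ZMod D)⁻¹).val, D), ?_, (p, 0, 1), ?_, ?_⟩
    · rw [mem_triples hM]
      refine ⟨haD, hbD, ?_⟩
      rw [gcd3_eq_one_iff]
      intro r hr hra hrb hrD
      refine h3 r hr (Dvd.dvd.mul_left hra p) ?_ hrD
      rw [← hpb]
      exact (Nat.dvd_mod_iff hrD).mpr (Dvd.dvd.mul_left hrb p)
    · rw [mem_triples hp.pos, isPrimTriple_prime_iff hp]
      exact Or.inl ⟨rfl, rfl, rfl⟩
    · rw [tmul_top, hpb]

/-- **Uniqueness of the `M`-part** of a primitive product. -/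
theorem factor_unique {c c' α α' : ℕ × ℕ × ℕ} (hc : c ∈ triples M) (hc' : c' ∈ triples M)
    (hα : α ∈ triples p) (hα' : α' ∈ triples p) (hprim : tmul α c ∈ triples (p * M))
    (h : tmul α c = tmul α' c') : c = c' ∧ α = α' := by
  have hprim' : tmul α' c' ∈ triples (p * M) := h ▸ hprim
  obtain ⟨a, b, d⟩ := c
  obtain ⟨a', b2, d'⟩ := c'
  have hcc := (mem_triples hM).mp hc
  have hcc' := (mem_triples hM).mp hc'
  obtain ⟨ha, hd⟩ := IsPrimTriple.pos hM hcc
  obtain ⟨ha', hd'⟩ := IsPrimTriple.pos hM hcc'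
  obtain ⟨-, hb, -⟩ := hcc
  obtain ⟨-, hb2, -⟩ := hcc'
  simp only at ha hd ha' hd' hb hb2
  rw [triples_prime hp] at hα hα'
  simp only [Finset.mem_insert, Finset.mem_image, Finset.mem_range] at hα hα'
  rcases hα with rfl | ⟨b', hb', rfl⟩ <;> rcases hα' with rfl | ⟨b'', hb'', rfl⟩
  · -- top / top
    have hpd : ¬ p ∣ d := (tmul_top_mem_iff hp hM hc).mp hprim
    rw [tmul_top, tmul_top] at h
    simp only [Prod.mk.injEq] at h
    obtain ⟨h1, h2, rfl⟩ := h
    have haa : a = a' := Nat.eq_of_mul_eq_mul_left hp.pos h1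
    subst haa
    have hcop : Nat.Coprime p d := (Nat.Prime.coprime_iff_not_dvd hp).mpr hpd
    have hmod : b ≡ b2 [MOD d] :=
      Nat.ModEq.cancel_left_of_coprime (by rwa [Nat.coprime_comm, Nat.Coprime] at hcop) h2
    have : b = b2 := by
      have := hmod
      unfold Nat.ModEq at this
      rwa [Nat.mod_eq_of_lt hb, Nat.mod_eq_of_lt hb2] at this
    subst this
    exact ⟨rfl, rfl⟩
  · -- top / bottom : impossible
    exfalso
    have hpd : ¬ p ∣ d := (tmul_top_mem_iff hp hM hc).mp hprim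
    rw [tmul_top, tmul_bot hb2 hb''] at h
    simp only [Prod.mk.injEq] at h
    exact hpd ⟨d', h.2.2⟩
  · -- bottom / top : impossible
    exfalso
    have hpd : ¬ p ∣ d' := (tmul_top_mem_iff hp hM hc').mp hprim'
    rw [tmul_top, tmul_bot hb hb'] at h
    simp only [Prod.mk.injEq] at h
    exact hpd ⟨d, h.2.2.symm⟩
  · -- bottom / bottom
    rw [tmul_bot hb hb', tmul_bot hb2 hb''] at h
    simp only [Prod.mk.injEq] at h
    obtain ⟨rfl, h2, h3⟩ := h
    have hdd : d = d' := Nat.eq_of_mul_eq_mul_left hp.pos h3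
    subst hdd
    have hbb : b = b2 := by
      have := congrArg (· % d) h2
      simpa [Nat.add_mul_mod_self_right, Nat.mod_eq_of_lt hb, Nat.mod_eq_of_lt hb2] using this
    subst hbb
    have hb'b'' : b' = b'' := by
      have : b' * d = b'' * d := by omega
      exact Nat.eq_of_mul_eq_mul_right hd this
    subst hb'b''
    exact ⟨rfl, rfl⟩

/-- existence and uniqueness of the factorisation, bundled. -/
theorem existsUnique_factor {g : ℕ × ℕ × ℕ} (hg : g ∈ triples (p * M)) :
    ∃! cα : (ℕ × ℕ × ℕ) × (ℕ × ℕ × ℕ),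
      cα.1 ∈ triples M ∧ cα.2 ∈ triples p ∧ tmul cα.2 cα.1 = g := by
  obtain ⟨c, hc, α, hα, rfl⟩ := exists_factor hp hM hg
  refine ⟨(c, α), ⟨hc, hα, rfl⟩, ?_⟩
  rintro ⟨c', α'⟩ ⟨hc', hα', h⟩
  obtain ⟨h1, h2⟩ := factor_unique hp hM hc hc' hα hα' hg h.symm
  rw [h1, h2]

/-- `α ↦ tmul α c` is injective on `triples p` (primitive or not): the `p + 1` roots of
`Φ_p(J_c, Y)` are distinct. -/
theorem tmul_injOn_prime {c : ℕ × ℕ × ℕ} (hc : c ∈ triples M) {α α' : ℕ × ℕ × ℕ}
    (hα : α ∈ triples p) (hα' : α' ∈ triples p) (h : tmul α c = tmul α' c) : α = α' := by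
  obtain ⟨a, b, d⟩ := c
  have hcc := (mem_triples hM).mp hc
  obtain ⟨ha, hd⟩ := IsPrimTriple.pos hM hcc
  obtain ⟨-, hb, -⟩ := hcc
  simp only at ha hd hb
  rw [triples_prime hp] at hα hα'
  simp only [Finset.mem_insert, Finset.mem_image, Finset.mem_range] at hα hα'
  rcases hα with rfl | ⟨b', hb', rfl⟩ <;> rcases hα' with rfl | ⟨b'', hb'', rfl⟩
  · rfl
  · exfalso
    rw [tmul_top, tmul_bot hb hb''] at h
    simp only [Prod.mk.injEq] at h
    have := hp.one_lt
    nlinarith [h.1]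
  · exfalso
    rw [tmul_top, tmul_bot hb hb'] at h
    simp only [Prod.mk.injEq] at h
    have := hp.one_lt
    nlinarith [h.1]
  · rw [tmul_bot hb hb', tmul_bot hb hb''] at h
    simp only [Prod.mk.injEq] at h
    have : b' * d = b'' * d := by omega
    have := Nat.eq_of_mul_eq_mul_right hd this
    subst this
    rfl

end Factor


section Card

variable {p M : ℕ} (hp : p.Prime) (hM : 0 < M)
include hp hM

/-- `card (triples (p M)) = card (triples M) * (p or p + 1)`. -/
theorem card_triples_prime_mul :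
    (triples (p * M)).card = (triples M).card * (if p ∣ M then p else p + 1) := by
  classical
  have hunion : triples (p * M) = (triples M).biUnion (fun c =>
      ((triples p).filter fun α => tmul α c ∈ triples (p * M)).image (fun α => tmul α c)) := by
    ext g
    simp only [Finset.mem_biUnion, Finset.mem_image, Finset.mem_filter]
    constructor
    · intro hg
      obtain ⟨c, hc, α, hα, rfl⟩ := exists_factor hp hM hg
      exact ⟨c, hc, α, ⟨hα, hg⟩, rfl⟩
    · rintro ⟨c, hc, α, ⟨hα, hmem⟩, rfl⟩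
      exact hmem
  rw [hunion, Finset.card_biUnion]
  · have hconst : ∀ c ∈ triples M,
        (((triples p).filter fun α => tmul α c ∈ triples (p * M)).image
          (fun α => tmul α c)).card = if p ∣ M then p else p + 1 := by
      intro c hc
      rw [Finset.card_image_of_injOn, card_primitive_nbrs hp hM hc]
      intro α hα α' hα' h
      simp only [Finset.coe_filter, Set.mem_ofPred_eq] at hα hα'
      exact (factor_unique hp hM hc hc hα.1 hα'.1 hα.2 h).2
    rw [Finset.sum_congr rfl hconst, Finset.sum_const, smul_eq_mul]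
  · intro c hc c' hc' hne
    change Disjoint _ _
    rw [Finset.disjoint_left]
    intro g hg hg'
    simp only [Finset.mem_image, Finset.mem_filter] at hg hg'
    obtain ⟨α, ⟨hα, hmem⟩, rfl⟩ := hg
    obtain ⟨α', ⟨hα', -⟩, h⟩ := hg'
    exact hne (factor_unique hp hM hc hc' hα hα' hmem h.symm).1

omit hM in
/-- `ψ(p M) = ψ(M) * (p or p + 1)`. -/
theorem dedekindPsi_prime_mul (hM : 0 < M) :
    dedekindPsi (p * M) = dedekindPsi M * (if p ∣ M then p else p + 1) := by
  obtain ⟨k, M', hM', rfl⟩ := Nat.exists_eq_pow_mul_and_not_dvd hM.ne' p hp.ne_one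
  have hcop : ∀ j : ℕ, Nat.Coprime (p ^ j) M' := fun j =>
    Nat.Coprime.pow_left j ((Nat.Prime.coprime_iff_not_dvd hp).mpr hM')
  have hpow : ∀ j : ℕ, dedekindPsi (p ^ (j + 1)) = p ^ (j + 1) + p ^ j := fun j => by
    rw [Fermat.Agent.S20.H78.dedekindPsi_prime_pow hp (Nat.succ_pos j)]
    rfl
  have e1 : p * (p ^ k * M') = p ^ (k + 1) * M' := by ring
  rw [e1, Fermat.Agent.S20.H78.dedekindPsi_mul (hcop (k + 1)),
    Fermat.Agent.S20.H78.dedekindPsi_mul (hcop k), hpow k]
  rcases Nat.eq_zero_or_pos k with rfl | hk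
  · have hnd : ¬ p ∣ p ^ 0 * M' := by simpa using hM'
    rw [if_neg hnd]
    simp only [pow_zero, zero_add, pow_one, dedekindPsi_one]
    ring
  · have hd : p ∣ p ^ k * M' := Dvd.dvd.mul_right (dvd_pow_self p hk.ne') M'
    rw [if_pos hd]
    obtain ⟨j, rfl⟩ : ∃ j, k = j + 1 := ⟨k - 1, by omega⟩
    rw [hpow j]
    ring

end Card

/-- **`#triples m = ψ(m)`**. -/
theorem card_triples (m : ℕ) (hm : 0 < m) : (triples m).card = dedekindPsi m := by
  induction m using Nat.strong_induction_on with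
  | _ m ih =>
    rcases Nat.lt_or_ge 1 m with h1 | h1
    · obtain ⟨M, hMeq⟩ := Nat.minFac_dvd m
      have hp : (Nat.minFac m).Prime := Nat.minFac_prime (by omega)
      have hMpos : 0 < M := Nat.pos_of_ne_zero fun h => by subst h; omega
      have hMlt : M < m := by
        have := hp.one_lt
        nlinarith
      rw [hMeq, card_triples_prime_mul hp hMpos, dedekindPsi_prime_mul hp hMpos, ih M hMlt hMpos]
    · have : m = 1 := by omega
      subst this
      rw [dedekindPsi_one]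
      have : triples 1 = {(1, 0, 1)} := by
        ext ⟨a, b, d⟩
        rw [mem_triples Nat.one_pos]
        simp only [IsPrimTriple, Finset.mem_singleton, Prod.mk.injEq]
        constructor
        · rintro ⟨h1, h2, -⟩
          have ha : a = 1 := Nat.eq_one_of_mul_eq_one_right h1
          have hd : d = 1 := Nat.eq_one_of_mul_eq_one_left h1
          subst ha hd
          exact ⟨rfl, by omega, rfl⟩
        · rintro ⟨rfl, rfl, rfl⟩
          simp
      rw [this, Finset.card_singleton]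

end Fermat.Agent.S28.H64
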