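import Fermat.Agent.S28.H39_Laurent
import Fermat.Agent.S28.Interface
import Fermat.Agent.S28.H64_Triples

/-!
S28 / W2a (helper39): the SERIES DICTIONARY between the native-level root statements `RootsAt`
and the conjugates `Jtriple ζ N g` inside a big `R((t))`, `t^N = q`.

* `rootsAt_level`        : (L) level transport `m ∣ N`
* `eval₂_Jtriple_tmul`   : (P) `Φ_m'(J_(α c), J_c) = 0` for the Hermite product `tmul α c`
* `twist_Jtriple_fix`, `twist_Jtriple_bot` : the action of `t ↦ ζ^(N/p) t` on the neighbours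
-/

set_option autoImplicit false

noncomputable section

namespace Fermat.Agent.S28.H39

open ModularCurve HahnSeries Fermat.Agent.S28 Polynomial Fermat.Agent.S28.H64

variable {R : Type*} [CommRing R]

/-- Ring homomorphisms of Laurent series commute with `evalJ`. -/
theorem comp_evalJ {S : Type*} [CommRing S] (φ : LaurentSeries R →+* LaurentSeries S)
    (x : LaurentSeries R) : φ.comp (evalJ x) = evalJ (φ x) := by
  apply Polynomial.ringHom_ext
  · intro a
    simp [evalJ]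
  · simp [evalJ]

theorem map_eval₂_evalJ {S : Type*} [CommRing S] (φ : LaurentSeries R →+* LaurentSeries S)
    (Φ : Polynomial ℤ[X]) (x y : LaurentSeries R) :
    φ (Φ.eval₂ (evalJ x) y) = Φ.eval₂ (evalJ (φ x)) (φ y) := by
  rw [Polynomial.hom_eval₂, comp_evalJ]

theorem eval₂_evalJ_of_map {S : Type*} [CommRing S] (φ : LaurentSeries R →+* LaurentSeries S)
    {Φ : Polynomial ℤ[X]} {x y : LaurentSeries R} (h : Φ.eval₂ (evalJ x) y = 0) :
    Φ.eval₂ (evalJ (φ x)) (φ y) = 0 := by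
  rw [← map_eval₂_evalJ, h, map_zero]

/-- `Jtriple ζ N (a,b,d)` is a series in `t^((N/d) a)`. -/
theorem Jtriple_mem_range_qExpand (ζ : Rˣ) (N a b d : ℕ) [NeZero (N / d * a)] :
    Jtriple ζ N (a, b, d) ∈ (qExpand R (N / d * a)).range := by
  rw [Jtriple_mk]
  exact Jconj_mem_range_qExpand _ _

/-- **(L) level transport.** If all native level-`m` conjugates are roots of `Φ(X, J(t^m))`
(for the `m`-th root of unity `ζ^(N/m)`), then inside `R((t))` with `t^N = q` all
`Jtriple ζ N g`, `g` a primitive triple of determinant `m`, are roots of `Φ(X, J(t^N))`. -/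
theorem rootsAt_level {ζ : Rˣ} {N m : ℕ} [NeZero N] [NeZero m] (hm : m ∣ N)
    {Φ : Polynomial ℤ[X]} (h : RootsAt R m (ζ ^ (N / m)) Φ) {a b d : ℕ}
    (hg : IsPrimTriple m a b d) :
    Φ.eval₂ (evalJ (qExpand R N (jqModC R))) (Jtriple ζ N (a, b, d)) = 0 := by
  have hm0 : 0 < m := Nat.pos_of_ne_zero (NeZero.ne m)
  have hN0 : 0 < N := Nat.pos_of_ne_zero (NeZero.ne N)
  obtain ⟨ha, hd⟩ := IsPrimTriple.pos hm0 hg
  have hNm : N / m * m = N := Nat.div_mul_cancel hm
  have hu0 : 0 < N / m := Nat.div_pos (Nat.le_of_dvd hN0 hm) hm0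
  have : NeZero (N / m) := ⟨hu0.ne'⟩
  have : NeZero (a * a) := ⟨(Nat.mul_pos ha ha).ne'⟩
  have hdN : d ∣ N := (Dvd.intro_left a hg.1).trans hm
  -- `N / d = (N / m) * a`
  have hNd : N / d = N / m * a := by
    apply Nat.div_eq_of_eq_mul_left hd
    calc N = N / m * m := hNm.symm
      _ = N / m * (a * d) := by rw [hg.1]
      _ = N / m * a * d := by ring
  have : NeZero (N / d * a) := ⟨by rw [hNd]; exact (Nat.mul_pos (Nat.mul_pos hu0 ha) ha).ne'⟩
  have h1 := eval₂_evalJ_of_map (qExpand R (N / m)) (h a b d hg inferInstance)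
  rw [qExpand_qExpand, qExpand_Jconj] at h1
  have h2 : qExpand R (N / m * m) (jqModC R) = qExpand R N (jqModC R) := qExpand_congr hNm _
  rw [h2] at h1
  rw [Jtriple_mk]
  convert h1 using 2
  refine Jconj_congr ?_ ?_
  · rw [hNd, ← pow_mul]
    congr 1
    ring
  · rw [hNd]
    ring

/-- **(P) product dictionary.** Let `c = (a,b,d)` be a triple with `d * m' ∣ N` and let `α` be a
primitive triple of determinant `m'`. Applying the substitution
`s_c = subst (ζ^((N/(d m')) b)) ((N/(d m')) a)` to the native level-`m'` root statement gives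
`Φ(J_(tmul α c), J_c) = 0` inside `R((t))`, `t^N = q`. -/
theorem eval₂_Jtriple_tmul {ζ : Rˣ} {N m' : ℕ} [NeZero N] [NeZero m'] (hζ : ζ ^ N = 1)
    {Φ : Polynomial ℤ[X]} (h : RootsAt R m' (ζ ^ (N / m')) Φ) {a b d : ℕ} (ha : 0 < a)
    (hd : 0 < d) (hdiv : d * m' ∣ N) {α : ℕ × ℕ × ℕ} (hα : IsPrimTriple m' α.1 α.2.1 α.2.2) :
    Φ.eval₂ (evalJ (Jtriple ζ N (a, b, d))) (Jtriple ζ N (tmul α (a, b, d))) = 0 := by
  obtain ⟨a', b', d'⟩ := α
  simp only at hα
  have hm0 : 0 < m' := Nat.pos_of_ne_zero (NeZero.ne m')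
  have hN0 : 0 < N := Nat.pos_of_ne_zero (NeZero.ne N)
  obtain ⟨ha', hd'⟩ := IsPrimTriple.pos hm0 hα
  set u := N / (d * m') with hu
  have hN : N = u * (d * m') := (Nat.div_mul_cancel hdiv).symm
  have hu0 : 0 < u := Nat.div_pos (Nat.le_of_dvd hN0 hdiv) (Nat.mul_pos hd hm0)
  have hNd : N / d = u * m' := by
    apply Nat.div_eq_of_eq_mul_left hd
    rw [hN]; ring
  have hNm : N / m' = u * d := by
    apply Nat.div_eq_of_eq_mul_left hm0
    rw [hN]; ring
  have hNdd : N / (d' * d) = u * a' := by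
    apply Nat.div_eq_of_eq_mul_left (Nat.mul_pos hd' hd)
    rw [hN, ← hα.1]; ring
  have : NeZero (u * a) := ⟨(Nat.mul_pos hu0 ha).ne'⟩
  have : NeZero (a' * a') := ⟨(Nat.mul_pos ha' ha').ne'⟩
  have : NeZero (N / d * a) := ⟨by rw [hNd]; exact (Nat.mul_pos (Nat.mul_pos hu0 hm0) ha).ne'⟩
  have : NeZero (N / (d' * d) * (a' * a)) := ⟨by
    rw [hNdd]; exact (Nat.mul_pos (Nat.mul_pos hu0 ha') (Nat.mul_pos ha' ha)).ne'⟩
  have h1 := eval₂_evalJ_of_map (subst (ζ ^ (u * b)) (u * a)) (h a' b' d' hα inferInstance)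
  rw [subst_qExpand, subst_Jconj] at h1
  have e1 : Jtriple ζ N (a, b, d) = subst ((ζ ^ (u * b)) ^ m') (u * a * m') (jqModC R) := by
    rw [Jtriple_mk]
    refine Jconj_congr ?_ ?_
    · rw [hNd, ← pow_mul]
      congr 1
      ring
    · rw [hNd]; ring
  have e2 : Jtriple ζ N (tmul (a', b', d') (a, b, d)) =
      Jconj R ((ζ ^ (N / m')) ^ (a' * b') * (ζ ^ (u * b)) ^ (a' * a')) (u * a * (a' * a')) := by
    show Jtriple ζ N (a' * a, (a' * b + b' * d) % (d' * d), d' * d) = _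
    rw [Jtriple_mk]
    refine Jconj_congr ?_ ?_
    · rw [hNdd, hNm]
      have hper : ζ ^ (u * a' * (d' * d)) = 1 := by
        have : u * a' * (d' * d) = N := by rw [hN, ← hα.1]; ring
        rw [this, hζ]
      have h3 : ζ ^ (u * a' * ((a' * b + b' * d) % (d' * d))) = ζ ^ (u * a' * (a' * b + b' * d)) := by
        conv_rhs => rw [← Nat.mod_add_div (a' * b + b' * d) (d' * d)]
        rw [mul_add, _root_.pow_add, ← mul_assoc (u * a') (d' * d), pow_mul ζ (u * a' * (d' * d)),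
          hper, one_pow, mul_one]
      rw [h3, ← pow_mul, ← pow_mul, ← _root_.pow_add]
      congr 1
      ring
    · rw [hNdd]; ring
  rw [e1, e2]
  exact h1

/-- `t ↦ ζ^(N/p) t` fixes `J_c` when `d p ∣ N`. -/
theorem twist_Jtriple_fix {ζ : Rˣ} {N p : ℕ} (hζ : ζ ^ N = 1) {a b d : ℕ} (hb : b < d)
    (hp : 0 < p) (hdiv : d * p ∣ N) [NeZero (N / d * a)] :
    twist (ζ ^ (N / p)) (Jtriple ζ N (a, b, d)) = Jtriple ζ N (a, b, d) := by
  have hd : 0 < d := lt_of_le_of_lt (Nat.zero_le _) hb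
  have hdN : d ∣ N := (Dvd.intro _ rfl).trans hdiv
  rw [twist_Jtriple hζ (N / p) hdN]
  congr 2
  have hN : N = N / (d * p) * (d * p) := (Nat.div_mul_cancel hdiv).symm
  have hNp : N / p = N / (d * p) * d := by
    apply Nat.div_eq_of_eq_mul_left hp
    conv_lhs => rw [hN]
    ring
  rw [hNp, show b + N / (d * p) * d * a = b + d * (N / (d * p) * a) by ring,
    Nat.add_mul_mod_self_left, Nat.mod_eq_of_lt hb]

/-- `t ↦ ζ^(N/p) t` permutes the `p` bottom neighbours `(a, b + b' d, p d)` of `c = (a,b,d)`: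
`b' ↦ (b' + (N/(d p)) a) mod p`. -/
theorem twist_Jtriple_bot {ζ : Rˣ} {N p : ℕ} (hζ : ζ ^ N = 1) {a b d b' : ℕ} (hb : b < d)
    (hp : 0 < p) (hdiv : d * p ∣ N) [NeZero (N / (p * d) * a)] :
    twist (ζ ^ (N / p)) (Jtriple ζ N (a, b + b' * d, p * d)) =
      Jtriple ζ N (a, b + (b' + N / (d * p) * a) % p * d, p * d) := by
  have hd : 0 < d := lt_of_le_of_lt (Nat.zero_le _) hb
  have hpdN : p * d ∣ N := by rwa [mul_comm] at hdiv
  rw [twist_Jtriple hζ (N / p) hpdN]
  congr 2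
  have hN : N = N / (d * p) * (d * p) := (Nat.div_mul_cancel hdiv).symm
  have hNp : N / p = N / (d * p) * d := by
    apply Nat.div_eq_of_eq_mul_left hp
    conv_lhs => rw [hN]
    ring
  rw [hNp]
  set u := N / (d * p)
  have h1 : b + b' * d + u * d * a = (b + (b' + u * a) % p * d) + p * d * ((b' + u * a) / p) := by
    have := Nat.mod_add_div (b' + u * a) p
    calc b + b' * d + u * d * a = b + (b' + u * a) * d := by ring
      _ = b + ((b' + u * a) % p + p * ((b' + u * a) / p)) * d := by rw [this]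
      _ = _ := by ring
  rw [h1, Nat.add_mul_mod_self_left, Nat.mod_eq_of_lt]
  exact add_mul_lt hb (Nat.mod_lt _ hp)

end Fermat.Agent.S28.H39
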