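import Mathlib

/-!
S28 (Igusa), package W2e, Galois-theoretic variant (helper50).  Mathlib only.

* `irreducible_of_forall_conj` (G1): a monic separable polynomial over `K` that splits in `L` and
  all of whose roots in `L` have the same minimal polynomial over `K` is irreducible.
* `irreducible_of_fibre` (G2): the induction step `N = pM`.
* `exists_conj_of_not_mem` (G3): a root `y∞ ∉ E` of `h ∈ E[X]` is conjugate to another root.
* `conj_of_algEquiv`, `conj_of_ringEquiv`: automorphisms of `L` preserve minimal polynomials.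
* `rel_map`: the relation `Φ(y, x) = 0`, `Φ ∈ ℤ[X][Y]`, is stable under ring homomorphisms.
-/

set_option autoImplicit false

namespace Fermat.Agent.S28.H50

open Polynomial IntermediateField

variable {K L : Type*} [Field K] [Field L] [Algebra K L]

/-- (G1) A monic separable polynomial of positive degree over `K` which splits in `L` and all of
whose roots in `L` are `K`-conjugate is irreducible. -/
theorem irreducible_of_forall_conj {f : K[X]} (hmonic : f.Monic) (hsep : f.Separable)
    (hdeg : f.natDegree ≠ 0) (hsplit : (f.map (algebraMap K L)).Splits)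
    (hconj : ∀ y y' : L, aeval y f = 0 → aeval y' f = 0 → minpoly K y = minpoly K y') :
    Irreducible f := by
  have hdeg' : (f.map (algebraMap K L)).degree ≠ 0 := by
    rw [degree_map]
    intro h
    exact hdeg (natDegree_eq_of_degree_eq_some h)
  obtain ⟨y0, hy0⟩ := hsplit.exists_eval_eq_zero hdeg'
  have hy0' : aeval y0 f = 0 := by rwa [eval_map_algebraMap] at hy0
  have hint : IsIntegral K y0 := ⟨f, hmonic, by rwa [← aeval_def]⟩
  have hirr := minpoly.irreducible hint
  have h1 : minpoly K y0 ∣ f := minpoly.dvd K y0 hy0'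
  have hne : f.map (algebraMap K L) ≠ 0 := (hmonic.map _).ne_zero
  have h2 : f ∣ minpoly K y0 := by
    rw [← Polynomial.map_dvd_map' (algebraMap K L)]
    apply hsplit.dvd_of_roots_le_roots hne
    rw [Multiset.le_iff_subset (nodup_roots hsep.map)]
    intro y hy
    have hy' : aeval y f = 0 := by
      have := (mem_roots hne).1 hy
      rwa [IsRoot.def, eval_map_algebraMap] at this
    have hm0 : (minpoly K y0).map (algebraMap K L) ≠ 0 :=
      ((minpoly.monic hint).map _).ne_zero
    rw [mem_roots hm0, IsRoot.def, eval_map_algebraMap, hconj y0 y hy0' hy']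
    exact minpoly.aeval K y
  have : f = minpoly K y0 :=
    eq_of_monic_of_associated hmonic (minpoly.monic hint) (associated_of_dvd_dvd h2 h1)
  rw [this]
  exact hirr

/-- A `K`-algebra automorphism of `L` preserves minimal polynomials over `K`. -/
theorem conj_of_algEquiv (σ : L ≃ₐ[K] L) (y : L) : minpoly K (σ y) = minpoly K y :=
  minpoly.algEquiv_eq σ y

/-- A ring automorphism of `L` fixing (the image of) `K` preserves minimal polynomials over `K`. -/
theorem conj_of_ringEquiv (σ : L ≃+* L) (hσ : ∀ c : K, σ (algebraMap K L c) = algebraMap K L c)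
    (y : L) : minpoly K (σ y) = minpoly K y :=
  conj_of_algEquiv (AlgEquiv.ofRingEquiv (f := σ) hσ) y

/-- (G2) The induction step.  `fM` irreducible, `fN` monic separable, both split in `L`;
`Rel y x` ("`x` is an `M`-part of `y`") is stable under `K`-embeddings of intermediate fields;
every root of `fN` has an `M`-part among the roots of `fM`; and the roots of `fN` in the fibre over
ONE root `x0` of `fM` are `K`-conjugate.  Then `fN` is irreducible. -/
theorem irreducible_of_fibre {fM fN : K[X]} (hM : Irreducible fM)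
    (hMsplit : (fM.map (algebraMap K L)).Splits)
    (hNmonic : fN.Monic) (hNsep : fN.Separable) (hNdeg : fN.natDegree ≠ 0)
    (hNsplit : (fN.map (algebraMap K L)).Splits)
    (Rel : L → L → Prop)
    (hRel : ∀ (F : IntermediateField K L) (σ : F →ₐ[K] L) (y x : F),
      Rel (y : L) (x : L) → Rel (σ y) (σ x))
    (hex : ∀ y : L, aeval y fN = 0 → ∃ x : L, aeval x fM = 0 ∧ Rel y x)
    (x0 : L) (hx0 : aeval x0 fM = 0)
    (hfib : ∀ y y' : L, aeval y fN = 0 → aeval y' fN = 0 → Rel y x0 → Rel y' x0 →
      minpoly K y = minpoly K y') : Irreducible fN := by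
  classical
  have hMN0 : fM * fN ≠ 0 := mul_ne_zero hM.ne_zero hNmonic.ne_zero
  have hsplit : ((fM * fN).map (algebraMap K L)).Splits := by
    rw [Polynomial.map_mul]
    exact hMsplit.mul hNsplit
  let F : IntermediateField K L := adjoin K ((fM * fN).rootSet L)
  have : (fM * fN).IsSplittingField K F := adjoin_rootSet_isSplittingField hsplit
  have : Normal K F := Normal.of_isSplittingField (fM * fN)
  have hmemM : ∀ x : L, aeval x fM = 0 → x ∈ F := fun x hx =>
    subset_adjoin K _ ((mem_rootSet_of_ne hMN0).2 (by rw [map_mul, hx, zero_mul]))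
  have hmemN : ∀ y : L, aeval y fN = 0 → y ∈ F := fun y hy =>
    subset_adjoin K _ ((mem_rootSet_of_ne hMN0).2 (by rw [map_mul, hy, mul_zero]))
  -- every root of `fN` is conjugate to a root in the fibre over `x0`
  have key : ∀ y : L, aeval y fN = 0 →
      ∃ y' : L, aeval y' fN = 0 ∧ Rel y' x0 ∧ minpoly K y = minpoly K y' := by
    intro y hy
    obtain ⟨x, hx, hyx⟩ := hex y hy
    let yF : F := ⟨y, hmemN y hy⟩
    let xF : F := ⟨x, hmemM x hx⟩
    let x0F : F := ⟨x0, hmemM x0 hx0⟩
    have hconj : IsConjRoot K x0F xF := by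
      rw [isConjRoot_def, IntermediateField.minpoly_eq, IntermediateField.minpoly_eq]
      show minpoly K x0 = minpoly K x
      rw [← minpoly.eq_of_irreducible hM hx0, ← minpoly.eq_of_irreducible hM hx]
    obtain ⟨σ, hσ⟩ := hconj.exists_algEquiv
    refine ⟨((σ yF : F) : L), ?_, ?_, ?_⟩
    · have h1 : aeval yF fN = 0 := by
        apply Subtype.ext
        rw [← IntermediateField.aeval_coe]
        exact hy
      have h2 : aeval (σ yF) fN = 0 := by
        rw [aeval_algEquiv, AlgHom.comp_apply, h1, map_zero]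
      rw [IntermediateField.aeval_coe, h2]
      rfl
    · have := hRel F (F.val.comp σ.toAlgHom) yF xF hyx
      have hx0' : (F.val.comp σ.toAlgHom) xF = x0 := by
        show ((σ xF : F) : L) = x0
        rw [hσ]
      rw [hx0'] at this
      exact this
    · rw [← IntermediateField.minpoly_eq (σ yF), minpoly.algEquiv_eq σ yF,
        IntermediateField.minpoly_eq]
  refine irreducible_of_forall_conj hNmonic hNsep hNdeg hNsplit ?_
  intro y y' hy hy'
  obtain ⟨y1, hy1, hr1, he1⟩ := key y hy
  obtain ⟨y1', hy1', hr1', he1'⟩ := key y' hy'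
  rw [he1, he1']
  exact hfib y1 y1' hy1 hy1' hr1 hr1'

/-- (G3) Let `K ⊆ E ⊆ L`, `h ∈ E[X]` with `h = (X - y∞) ∏_{y ∈ S} (X - y)` over `L`, and
`y∞ ∉ E`.  Then `y∞` is conjugate (over `E`, hence over `K`) to some `y ∈ S`. -/
theorem exists_conj_of_not_mem {E : Type*} [Field E] [Algebra K E] [Algebra E L]
    [IsScalarTower K E L] (h : E[X]) (yinf : L) (S : Multiset L)
    (hh : h.map (algebraMap E L) = (X - C yinf) * (S.map fun y => X - C y).prod)
    (hint : IsIntegral K yinf) (hy : yinf ∉ (algebraMap E L).range) :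
    ∃ y ∈ S, minpoly K yinf = minpoly K y := by
  have hintE : IsIntegral E yinf := hint.tower_top
  set μ := minpoly E yinf with hμ
  have hPS0 : (S.map fun y => X - C y).prod ≠ 0 := by
    apply Multiset.prod_ne_zero
    intro h0
    obtain ⟨y, -, hy0⟩ := Multiset.mem_map.1 h0
    exact X_sub_C_ne_zero y hy0
  have hroot : aeval yinf h = 0 := by
    rw [← eval_map_algebraMap, hh, eval_mul, eval_sub, eval_X, eval_C, sub_self, zero_mul]
  have hμh : μ ∣ h := minpoly.dvd E yinf hroot
  have hdeg2 : 2 ≤ μ.natDegree := by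
    have h1 : μ.natDegree ≠ 1 := fun h1 => hy ((minpoly.natDegree_eq_one_iff).1 h1)
    have h0 : 0 < μ.natDegree := minpoly.natDegree_pos hintE
    omega
  have hdvd1 : (X - C yinf) ∣ μ.map (algebraMap E L) := by
    rw [dvd_iff_isRoot, IsRoot.def, eval_map_algebraMap]
    exact minpoly.aeval E yinf
  obtain ⟨ν, hν⟩ := hdvd1
  have hνdvd : ν ∣ (S.map fun y => X - C y).prod := by
    have : μ.map (algebraMap E L) ∣ h.map (algebraMap E L) := Polynomial.map_dvd _ hμh
    rw [hν, hh] at this
    exact (mul_dvd_mul_iff_left (X_sub_C_ne_zero yinf)).1 this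
  have hν0 : ν ≠ 0 := by
    intro h0
    have : μ.map (algebraMap E L) = 0 := by rw [hν, h0, mul_zero]
    exact ((minpoly.monic hintE).map (algebraMap E L)).ne_zero this
  have hνdeg : ν.natDegree ≠ 0 := by
    have := congrArg natDegree hν
    rw [natDegree_map, natDegree_mul (X_sub_C_ne_zero yinf) hν0, natDegree_X_sub_C] at this
    omega
  have hνsplit : ν.Splits := by
    refine Splits.of_dvd ?_ hPS0 hνdvd
    apply Splits.multisetProd
    intro f hf
    obtain ⟨y, -, rfl⟩ := Multiset.mem_map.1 hf
    exact Splits.X_sub_C y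
  have hνdeg' : ν.degree ≠ 0 := fun h0 => hνdeg (natDegree_eq_of_degree_eq_some h0)
  obtain ⟨y, hyν⟩ := hνsplit.exists_eval_eq_zero hνdeg'
  have hyS : y ∈ S := by
    have h1 : y ∈ ν.roots := (mem_roots hν0).2 hyν
    have h2 := Multiset.mem_of_le (roots.le_of_dvd hPS0 hνdvd) h1
    rwa [roots_multiset_prod_X_sub_C] at h2
  refine ⟨y, hyS, ?_⟩
  have hyμ : aeval y μ = 0 := by
    rw [← eval_map_algebraMap, hν, eval_mul, hyν, mul_zero]
  have hE : IsConjRoot E yinf y := by
    rw [isConjRoot_def]
    exact minpoly.eq_of_irreducible_of_monic (minpoly.irreducible hintE) hyμ (minpoly.monic hintE)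
  exact hE.of_isScalarTower hint

/-- The relation `Φ(y, x) = 0` for `Φ ∈ ℤ[X][Y]` is preserved by ring homomorphisms. -/
theorem rel_map {A B : Type*} [CommRing A] [CommRing B] (τ : A →+* B) (Φ : Polynomial ℤ[X])
    (y x : A) :
    Φ.eval₂ (Polynomial.aeval (R := ℤ) (τ x)).toRingHom (τ y) =
      τ (Φ.eval₂ (Polynomial.aeval (R := ℤ) x).toRingHom y) := by
  rw [Polynomial.hom_eval₂]
  congr 1
  apply Polynomial.ringHom_ext
  · intro a
    simp
  · simp

/-- The relation `Φ(y, x) = 0`, `Φ ∈ ℤ[X][Y]`, satisfies the stability hypothesis of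
`irreducible_of_fibre`. -/
theorem rel_stable (Φ : Polynomial ℤ[X]) (F : IntermediateField K L) (σ : F →ₐ[K] L) (y x : F)
    (h : Φ.eval₂ (Polynomial.aeval (R := ℤ) (x : L)).toRingHom (y : L) = 0) :
    Φ.eval₂ (Polynomial.aeval (R := ℤ) (σ x)).toRingHom (σ y) = 0 := by
  have h1 := rel_map (algebraMap F L) Φ y x
  rw [IntermediateField.algebraMap_apply, IntermediateField.algebraMap_apply, h] at h1
  have h2 : Φ.eval₂ (Polynomial.aeval (R := ℤ) x).toRingHom y = 0 :=
    (algebraMap F L).injective (by rw [← h1, map_zero])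
  have h3 := rel_map (σ : F →+* L) Φ y x
  rw [h2, map_zero] at h3
  exact h3

end Fermat.Agent.S28.H50
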