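import Mathlib
import Fermat.Agent.S28.Interface
import Fermat.Agent.S28.H50_Induction

/-!
S28 (Igusa), package W2e: the FRAME around the induction (helper50).

Everything is phrased WITHOUT an `Algebra (RatFunc k) (LaurentSeries k)` instance (Mathlib has a
global one, `X ↦ single 1 1`, which is NOT the one we need): the base field `K` acts through an
explicit ring homomorphism `ι : K →+* L`, and "`y`, `y'` are `K`-conjugate" is the instance-free
predicate `SameAnn ι y y'`.

* `SameAnn ι y y'`, `sameAnn_iff_minpoly`, `SameAnn.refl/symm/trans`, `sameAnn_of_ringHom`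
* `irreducible_of_fibre_poly` : instance-free form of `irreducible_of_fibre` for `Φ ∈ ℤ[X][Y]`
* `exists_sameAnn_of_not_mem` : instance-free form of `exists_conj_of_not_mem` (`E` a subfield)
* `eq_prod_of_roots` (F2), `ratFuncHom` (F1), `irreducible_redModPoly_of_hom` (F3)
* `step_frame` : the induction step in terms of finite sets of series
* `irredCharL_of_step` (F4): base case + induction + descent to arbitrary `K` of characteristic `ℓ`
-/

set_option autoImplicit false

noncomputable section

namespace Fermat.Agent.S28.H50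

open Polynomial

section SameAnn

variable {K L : Type*} [Field K] [Field L]

/-- `y` and `y'` are annihilated by the same polynomials with coefficients in `K` (via `ι`). -/
def SameAnn (ι : K →+* L) (y y' : L) : Prop :=
  ∀ g : K[X], (g.map ι).eval y = 0 ↔ (g.map ι).eval y' = 0

theorem SameAnn.refl (ι : K →+* L) (y : L) : SameAnn ι y y := fun _ => Iff.rfl

theorem SameAnn.symm {ι : K →+* L} {y y' : L} (h : SameAnn ι y y') : SameAnn ι y' y :=
  fun g => (h g).symm

theorem SameAnn.trans {ι : K →+* L} {y y' y'' : L} (h : SameAnn ι y y') (h' : SameAnn ι y' y'') :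
    SameAnn ι y y'' := fun g => (h g).trans (h' g)

/-- `SameAnn` is equality of minimal polynomials for the algebra structure given by `ι`. -/
theorem sameAnn_iff_minpoly (ι : K →+* L) (y y' : L) :
    letI := ι.toAlgebra
    SameAnn ι y y' ↔ minpoly K y = minpoly K y' := by
  let _ := ι.toAlgebra
  have hev : ∀ (g : K[X]) (z : L), (g.map ι).eval z = aeval z g := fun g z =>
    eval_map_algebraMap g z
  constructor
  · intro h
    by_cases hy : IsIntegral K y
    · have hy' : IsIntegral K y' := by
        refine ⟨minpoly K y, minpoly.monic hy, ?_⟩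
        have := (h (minpoly K y)).1 (by rw [hev]; exact minpoly.aeval K y)
        rwa [hev, aeval_def] at this
      have h1 : minpoly K y' ∣ minpoly K y := by
        apply minpoly.dvd
        have := (h (minpoly K y)).1 (by rw [hev]; exact minpoly.aeval K y)
        rwa [hev] at this
      have h2 : minpoly K y ∣ minpoly K y' := by
        apply minpoly.dvd
        have := (h (minpoly K y')).2 (by rw [hev]; exact minpoly.aeval K y')
        rwa [hev] at this
      exact eq_of_monic_of_associated (minpoly.monic hy) (minpoly.monic hy')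
        (associated_of_dvd_dvd h2 h1)
    · have hy' : ¬ IsIntegral K y' := by
        intro hy'
        apply hy
        refine ⟨minpoly K y', minpoly.monic hy', ?_⟩
        have := (h (minpoly K y')).2 (by rw [hev]; exact minpoly.aeval K y')
        rwa [hev, aeval_def] at this
      rw [minpoly.eq_zero hy, minpoly.eq_zero hy']
  · intro h g
    rw [hev, hev, ← minpoly.dvd_iff, ← minpoly.dvd_iff, h]

/-- A ring endomorphism of `L` fixing `ι K` pointwise moves `y` to a conjugate. -/
theorem sameAnn_of_ringHom (ι : K →+* L) (σ : L →+* L) (hσ : ∀ c : K, σ (ι c) = ι c) (y : L) :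
    SameAnn ι y (σ y) := by
  intro g
  have h1 : (g.map ι).eval (σ y) = σ ((g.map ι).eval y) := by
    rw [eval_map, eval_map, hom_eval₂]
    congr 1
    ext c
    simp [hσ c]
  rw [h1]
  constructor
  · intro h; rw [h, map_zero]
  · intro h; exact σ.injective (by rw [h, map_zero])

/-- Instance-free form of `irreducible_of_fibre`, for the relation `Φ(y, x) = 0`, `Φ ∈ ℤ[X][Y]`. -/
theorem irreducible_of_fibre_poly (ι : K →+* L) {fM fN : K[X]} (hM : Irreducible fM)
    (hMsplit : (fM.map ι).Splits)
    (hNmonic : fN.Monic) (hNsep : fN.Separable) (hNdeg : fN.natDegree ≠ 0)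
    (hNsplit : (fN.map ι).Splits) (Φ : Polynomial ℤ[X])
    (hex : ∀ y : L, (fN.map ι).eval y = 0 →
      ∃ x : L, (fM.map ι).eval x = 0 ∧ Φ.eval₂ (Polynomial.aeval (R := ℤ) x).toRingHom y = 0)
    (x0 : L) (hx0 : (fM.map ι).eval x0 = 0)
    (hfib : ∀ y y' : L, (fN.map ι).eval y = 0 → (fN.map ι).eval y' = 0 →
      Φ.eval₂ (Polynomial.aeval (R := ℤ) x0).toRingHom y = 0 →
      Φ.eval₂ (Polynomial.aeval (R := ℤ) x0).toRingHom y' = 0 → SameAnn ι y y') :
    Irreducible fN := by
  letI := ι.toAlgebra
  have hev : ∀ (g : K[X]) (z : L), (g.map ι).eval z = aeval z g := fun g z =>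
    eval_map_algebraMap g z
  refine irreducible_of_fibre (K := K) (L := L) hM hMsplit hNmonic hNsep hNdeg hNsplit
    (fun y x => Φ.eval₂ (Polynomial.aeval (R := ℤ) x).toRingHom y = 0)
    (fun F σ y x h => rel_stable Φ F σ y x h) ?_ x0 (by rw [← hev]; exact hx0) ?_
  · intro y hy
    obtain ⟨x, hx, hr⟩ := hex y (by rw [hev]; exact hy)
    exact ⟨x, by rw [← hev]; exact hx, hr⟩
  · intro y y' hy hy' hr hr'
    exact (sameAnn_iff_minpoly ι y y').1
      (hfib y y' (by rw [hev]; exact hy) (by rw [hev]; exact hy') hr hr')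

/-- Instance-free form of `exists_conj_of_not_mem`: `E` a subfield of `L` containing `ι K`,
`h ∈ L[X]` with coefficients in `E`, `h = (X - y∞) ∏_{y ∈ S} (X - y)`, `y∞ ∉ E`. Then `y∞` is
conjugate over `K` to some `y ∈ S`. -/
theorem exists_sameAnn_of_not_mem (ι : K →+* L) (E : Subfield L) (hE : ∀ c : K, ι c ∈ E)
    (h : L[X]) (hcoeff : ∀ i, h.coeff i ∈ E) (yinf : L) (S : Multiset L)
    (hh : h = (X - C yinf) * (S.map fun y => X - C y).prod) (hy : yinf ∉ E) :
    ∃ y ∈ S, SameAnn ι yinf y := by
  -- lift `h` to `E[X]`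
  have hlift : h ∈ Polynomial.lifts E.subtype := by
    rw [lifts_iff_coeff_lifts]
    intro n
    exact ⟨⟨h.coeff n, hcoeff n⟩, rfl⟩
  obtain ⟨h', hh''⟩ := hlift
  have hh' : h'.map E.subtype = h := hh''
  have hmonic : h.Monic := by
    rw [hh]
    refine (monic_X_sub_C yinf).mul (monic_multiset_prod_of_monic _ _ fun y _ => monic_X_sub_C y)
  have hmonic' : h'.Monic := by
    have : (h'.map E.subtype).Monic := by rw [hh']; exact hmonic
    exact monic_of_injective E.subtype.injective this
  have hroot : (h'.map E.subtype).eval yinf = 0 := by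
    rw [hh', hh, eval_mul, eval_sub, eval_X, eval_C, sub_self, zero_mul]
  have hint : IsIntegral E yinf := ⟨h', hmonic', by
    rw [← aeval_def, ← eval_map_algebraMap]; exact hroot⟩
  have hy' : yinf ∉ (algebraMap E L).range := by
    rintro ⟨e, he⟩
    apply hy
    rw [← he]
    exact e.2
  obtain ⟨y, hyS, hconj⟩ := exists_conj_of_not_mem (K := E) (E := E) (L := L) h' yinf S
    (by rw [← hh]; exact hh') hint hy'
  refine ⟨y, hyS, ?_⟩
  -- from conjugacy over `E` to `SameAnn ι`
  let ιE : K →+* E := ι.codRestrict E.toSubring hE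
  have hι : E.subtype.comp ιE = ι := by
    ext c
    rfl
  have hyint : IsIntegral E y := by
    by_contra hc
    have h0 : minpoly E y = 0 := minpoly.eq_zero hc
    rw [h0] at hconj
    exact minpoly.ne_zero hint hconj
  intro g
  have hev : ∀ z : L, (g.map ι).eval z = aeval z (g.map ιE) := by
    intro z
    rw [← eval_map_algebraMap, Polynomial.map_map]
    congr 2
  rw [hev, hev, ← minpoly.dvd_iff, ← minpoly.dvd_iff, hconj]

end SameAnn

section Roots

variable {L : Type*} [Field L]

/-- (F2) A monic polynomial of degree `n` with `n` distinct known roots is their product. -/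
theorem eq_prod_of_roots {f : L[X]} (hf : f.Monic) (S : Finset L) (hcard : S.card = f.natDegree)
    (hroot : ∀ y ∈ S, f.eval y = 0) : f = ∏ y ∈ S, (X - C y) := by
  classical
  have hle : S.val ≤ f.roots := by
    rw [Multiset.le_iff_subset S.nodup]
    intro y hy
    exact (mem_roots hf.ne_zero).2 (hroot y hy)
  have hcard' : Multiset.card f.roots ≤ Multiset.card S.val := by
    rw [Finset.card_val, hcard]
    exact card_roots' f
  have heq : S.val = f.roots := Multiset.eq_of_le_of_card_le hle hcard'
  have h1 : Multiset.card f.roots = f.natDegree := by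
    rw [← heq, Finset.card_val, hcard]
  have := prod_multiset_X_sub_C_of_monic_of_roots_card_eq hf h1
  calc f = (f.roots.map fun a => X - C a).prod := this.symm
    _ = (S.val.map fun a => X - C a).prod := by rw [heq]
    _ = ∏ y ∈ S, (X - C y) := (Finset.prod_eq_multiset_prod S _).symm

theorem splits_of_roots {f : L[X]} (hf : f.Monic) (S : Finset L) (hcard : S.card = f.natDegree)
    (hroot : ∀ y ∈ S, f.eval y = 0) : f.Splits := by
  rw [eq_prod_of_roots hf S hcard hroot]
  exact Splits.prod fun y _ => Splits.X_sub_C y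

theorem separable_of_roots {f : L[X]} (hf : f.Monic) (S : Finset L) (hcard : S.card = f.natDegree)
    (hroot : ∀ y ∈ S, f.eval y = 0) : f.Separable := by
  rw [eq_prod_of_roots hf S hcard hroot]
  exact (separable_prod_X_sub_C_iff' (f := fun y : L => y) (s := S)).2 fun x _ y _ h => h

theorem eval_eq_zero_iff_of_roots {f : L[X]} (hf : f.Monic) (S : Finset L)
    (hcard : S.card = f.natDegree) (hroot : ∀ y ∈ S, f.eval y = 0) (y : L) :
    f.eval y = 0 ↔ y ∈ S := by
  constructor
  · intro h
    rw [eq_prod_of_roots hf S hcard hroot, eval_prod, Finset.prod_eq_zero_iff] at h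
    obtain ⟨z, hz, hyz⟩ := h
    rw [eval_sub, eval_X, eval_C, sub_eq_zero] at hyz
    rw [hyz]
    exact hz
  · exact hroot y

end Roots

section RatFunc

variable {k : Type*} [Field k] {L : Type*} [Field L] [Algebra k L]

/-- (F1) The embedding `k(X) → L`, `X ↦ x`, for a transcendental `x`. -/
def ratFuncHom (x : L) (hx : Transcendental k x) : RatFunc k →+* L :=
  IsFractionRing.lift (A := k[X]) (K := RatFunc k) (g := (Polynomial.aeval x).toRingHom)
    (transcendental_iff_injective.1 hx)

theorem ratFuncHom_algebraMap (x : L) (hx : Transcendental k x) (P : k[X]) :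
    ratFuncHom x hx (algebraMap k[X] (RatFunc k) P) = Polynomial.aeval x P :=
  IsFractionRing.lift_algebraMap _ P

theorem ratFuncHom_C (x : L) (hx : Transcendental k x) (c : k) :
    ratFuncHom x hx (RatFunc.C c) = algebraMap k L c := by
  rw [← RatFunc.algebraMap_C, ratFuncHom_algebraMap, aeval_C]

theorem ratFuncHom_X (x : L) (hx : Transcendental k x) :
    ratFuncHom x hx RatFunc.X = x := by
  rw [← RatFunc.algebraMap_X, ratFuncHom_algebraMap, aeval_X]

/-- `redModPoly k Φ` mapped to `L[X]` along `X ↦ x` is `Φ(·, x)`. -/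
theorem map_redModPoly (x : L) (hx : Transcendental k x) (Φ : Polynomial ℤ[X]) :
    (redModPoly k Φ).map (ratFuncHom x hx) = Φ.map (Polynomial.aeval (R := ℤ) x).toRingHom := by
  rw [redModPoly, Polynomial.map_map]
  congr 1
  apply Polynomial.ringHom_ext
  · intro a
    simp
  · simp [ratFuncHom_X]

theorem eval_map_redModPoly (x : L) (hx : Transcendental k x) (Φ : Polynomial ℤ[X]) (y : L) :
    ((redModPoly k Φ).map (ratFuncHom x hx)).eval y =
      Φ.eval₂ (Polynomial.aeval (R := ℤ) x).toRingHom y := by
  rw [map_redModPoly, eval_map]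

theorem monic_redModPoly {Φ : Polynomial ℤ[X]} (hΦ : Φ.Monic) : (redModPoly k Φ).Monic :=
  hΦ.map _

theorem natDegree_redModPoly {Φ : Polynomial ℤ[X]} (hΦ : Φ.Monic) :
    (redModPoly k Φ).natDegree = Φ.natDegree :=
  hΦ.natDegree_map _

/-- A ring endomorphism of `L` fixing `k` and `x` fixes the image of `k(X)`. -/
theorem ratFuncHom_fixed (x : L) (hx : Transcendental k x) (σ : L →+* L)
    (hσk : ∀ c : k, σ (algebraMap k L c) = algebraMap k L c) (hσx : σ x = x) (r : RatFunc k) :
    σ (ratFuncHom x hx r) = ratFuncHom x hx r := by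
  obtain ⟨P, Q, -, rfl⟩ := IsFractionRing.div_surjective (A := k[X]) r
  have hP : ∀ P : k[X], σ (Polynomial.aeval x P) = Polynomial.aeval x P := by
    intro P
    rw [aeval_def, hom_eval₂, hσx]
    congr 1
    ext c
    exact hσk c
  rw [map_div₀, map_div₀, ratFuncHom_algebraMap, ratFuncHom_algebraMap, hP, hP]

/-- Orbits: a ring endomorphism of `L` fixing `k` and `x` moves `y` to a `k(x)`-conjugate. -/
theorem sameAnn_ratFuncHom (x : L) (hx : Transcendental k x) (σ : L →+* L)
    (hσk : ∀ c : k, σ (algebraMap k L c) = algebraMap k L c) (hσx : σ x = x) (y : L) :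
    SameAnn (ratFuncHom x hx) y (σ y) :=
  sameAnn_of_ringHom _ σ (ratFuncHom_fixed x hx σ hσk hσx) y

/-- The image of `k(X)` lies in every intermediate field containing `x`. -/
theorem ratFuncHom_mem (x : L) (hx : Transcendental k x) (E : IntermediateField k L) (hxE : x ∈ E)
    (r : RatFunc k) : ratFuncHom x hx r ∈ E := by
  obtain ⟨P, Q, -, rfl⟩ := IsFractionRing.div_surjective (A := k[X]) r
  rw [map_div₀, ratFuncHom_algebraMap, ratFuncHom_algebraMap]
  have hP : ∀ P : k[X], Polynomial.aeval x P ∈ E := by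
    intro P
    have := IntermediateField.aeval_coe E (⟨x, hxE⟩ : E) P
    rw [show ((⟨x, hxE⟩ : E) : L) = x from rfl] at this
    rw [this]
    exact (Polynomial.aeval (⟨x, hxE⟩ : E) P).2
  exact E.div_mem (hP P) (hP Q)

/-- The coefficients of `Φ(·, x0)` lie in every intermediate field containing `x0`. -/
theorem coeff_map_aeval_mem (Φ : Polynomial ℤ[X]) (x0 : L) (E : IntermediateField k L)
    (hx0 : x0 ∈ E) (i : ℕ) :
    (Φ.map (Polynomial.aeval (R := ℤ) x0).toRingHom).coeff i ∈ E := by
  rw [coeff_map]
  show Polynomial.aeval x0 (Φ.coeff i) ∈ E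
  have := IntermediateField.aeval_coe E (⟨x0, hx0⟩ : E) (Φ.coeff i)
  rw [show ((⟨x0, hx0⟩ : E) : L) = x0 from rfl] at this
  rw [this]
  exact (Polynomial.aeval (⟨x0, hx0⟩ : E) (Φ.coeff i)).2

/-- (G3) in the frame: if `Φ(·, x0) = (X - y∞) ∏_{y ∈ S} (X - y)` and `y∞ ∉ k(x, x0)` then `y∞` is
`k(x)`-conjugate to some `y ∈ S`.  [case `p ∤ M`; the non-membership is W2c.] -/
theorem exists_sameAnn_of_not_mem_adjoin (x : L) (hx : Transcendental k x) (Φ : Polynomial ℤ[X])
    (x0 yinf : L) (S : Multiset L)
    (hh : Φ.map (Polynomial.aeval (R := ℤ) x0).toRingHom =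
      (X - C yinf) * (S.map fun y => X - C y).prod)
    (hy : yinf ∉ IntermediateField.adjoin k {x, x0}) :
    ∃ y ∈ S, SameAnn (ratFuncHom x hx) yinf y := by
  set E : IntermediateField k L := IntermediateField.adjoin k {x, x0} with hE
  have hxE : x ∈ E := IntermediateField.subset_adjoin k _ (by simp)
  have hx0E : x0 ∈ E := IntermediateField.subset_adjoin k _ (by simp)
  exact exists_sameAnn_of_not_mem (ratFuncHom x hx) E.toSubfield
    (fun c => ratFuncHom_mem x hx E hxE c) _ (fun i => coeff_map_aeval_mem Φ x0 E hx0E i)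
    yinf S hh hy

/-- (F3) Descent: irreducibility over `k'(X)` implies irreducibility over `k(X)` for `k → k'`. -/
theorem irreducible_redModPoly_of_hom {k' : Type*} [Field k'] (φ : k →+* k')
    {Φ : Polynomial ℤ[X]} (hΦ : Φ.Monic) (h : Irreducible (redModPoly k' Φ)) :
    Irreducible (redModPoly k Φ) := by
  have hinj : Function.Injective
      ((algebraMap k'[X] (RatFunc k')).comp (Polynomial.mapRingHom φ)) :=
    (IsFractionRing.injective k'[X] (RatFunc k')).comp (Polynomial.map_injective φ φ.injective)
  let ψ : RatFunc k →+* RatFunc k' :=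
    IsFractionRing.lift (A := k[X]) (K := RatFunc k) hinj
  have hψ : (redModPoly k Φ).map ψ = redModPoly k' Φ := by
    rw [redModPoly, redModPoly, Polynomial.map_map]
    congr 1
    apply Polynomial.ringHom_ext
    · intro a
      simp
    · have hX : ψ (algebraMap k[X] (RatFunc k) X) = algebraMap k'[X] (RatFunc k') X := by
        simp only [ψ, IsFractionRing.lift_algebraMap, RingHom.comp_apply, coe_mapRingHom, map_X]
      simpa using hX
  exact (monic_redModPoly hΦ).irreducible_of_irreducible_map ψ _ (by rw [hψ]; exact h)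

/-- THE STEP, in terms of finite sets of roots.  `x = J(t^N)` transcendental; `SM`, `SN` the
(distinct) roots of `ΦM(·, x)`, `ΦN(·, x)`; every `y ∈ SN` has an `M`-part `x' ∈ SM` with
`Φp(y, x') = 0`; the elements of `SN` in the fibre over one `x0 ∈ SM` are `k(x)`-conjugate. -/
theorem step_frame (x : L) (hx : Transcendental k x) (ΦM ΦN Φp : Polynomial ℤ[X])
    (hΦM : ΦM.Monic) (hΦN : ΦN.Monic) (hirrM : Irreducible (redModPoly k ΦM))
    (SM SN : Finset L) (hcardM : SM.card = ΦM.natDegree) (hcardN : SN.card = ΦN.natDegree)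
    (hrootM : ∀ y ∈ SM, ΦM.eval₂ (Polynomial.aeval (R := ℤ) x).toRingHom y = 0)
    (hrootN : ∀ y ∈ SN, ΦN.eval₂ (Polynomial.aeval (R := ℤ) x).toRingHom y = 0)
    (hNdeg : ΦN.natDegree ≠ 0)
    (hex : ∀ y ∈ SN, ∃ x' ∈ SM, Φp.eval₂ (Polynomial.aeval (R := ℤ) x').toRingHom y = 0)
    (x0 : L) (hx0 : x0 ∈ SM)
    (hfib : ∀ y ∈ SN, ∀ y' ∈ SN,
      Φp.eval₂ (Polynomial.aeval (R := ℤ) x0).toRingHom y = 0 →
      Φp.eval₂ (Polynomial.aeval (R := ℤ) x0).toRingHom y' = 0 →
      SameAnn (ratFuncHom x hx) y y') :
    Irreducible (redModPoly k ΦN) := by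
  set ι := ratFuncHom x hx with hι
  have hMm : ((redModPoly k ΦM).map ι).Monic := (monic_redModPoly hΦM).map _
  have hNm : ((redModPoly k ΦN).map ι).Monic := (monic_redModPoly hΦN).map _
  have hMd : SM.card = ((redModPoly k ΦM).map ι).natDegree := by
    rw [(monic_redModPoly hΦM).natDegree_map, natDegree_redModPoly hΦM, hcardM]
  have hNd : SN.card = ((redModPoly k ΦN).map ι).natDegree := by
    rw [(monic_redModPoly hΦN).natDegree_map, natDegree_redModPoly hΦN, hcardN]
  have hMr : ∀ y ∈ SM, ((redModPoly k ΦM).map ι).eval y = 0 := fun y hy => by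
    rw [eval_map_redModPoly]; exact hrootM y hy
  have hNr : ∀ y ∈ SN, ((redModPoly k ΦN).map ι).eval y = 0 := fun y hy => by
    rw [eval_map_redModPoly]; exact hrootN y hy
  refine irreducible_of_fibre_poly ι hirrM (splits_of_roots hMm SM hMd hMr)
    (monic_redModPoly hΦN) ((separable_map ι).1 (separable_of_roots hNm SN hNd hNr))
    (by rw [natDegree_redModPoly hΦN]; exact hNdeg) (splits_of_roots hNm SN hNd hNr) Φp
    ?_ x0 (hMr x0 hx0) ?_
  · intro y hy
    obtain ⟨x', hx', hr⟩ := hex y ((eval_eq_zero_iff_of_roots hNm SN hNd hNr y).1 hy)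
    exact ⟨x', hMr x' hx', hr⟩
  · intro y y' hy hy' hr hr'
    exact hfib y ((eval_eq_zero_iff_of_roots hNm SN hNd hNr y).1 hy)
      y' ((eval_eq_zero_iff_of_roots hNm SN hNd hNr y').1 hy') hr hr'

end RatFunc

section Wrapper

open ModularCurve

/-- The inductive statement at level `m` over the field `k`: EVERY monic `Φ` of degree `ψ(m)`
having all formal conjugates as roots (for every primitive `m`-th root of unity of `k`) reduces
to an irreducible polynomial over `k(X)`. -/
def IrredAt (k : Type) [Field k] (m : ℕ) [NeZero m] : Prop :=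
  ∀ Φ : Polynomial ℤ[X], Φ.Monic → Φ.natDegree = dedekindPsi m →
    (∀ ζ : kˣ, IsPrimitiveRoot ζ m → RootsAt k m ζ Φ) → Irreducible (redModPoly k Φ)

/-- Base case `m = 1`: degree one. -/
theorem irredAt_one (k : Type) [Field k] : IrredAt k 1 := by
  intro Φ hΦ hdeg _
  apply Polynomial.irreducible_of_degree_eq_one
  rw [degree_eq_natDegree (monic_redModPoly hΦ).ne_zero, natDegree_redModPoly hΦ, hdeg,
    dedekindPsi_one]
  rfl

/-- (F4a) Strong induction over the divisors of `N` from a prime step. -/
theorem irredAt_of_step (k : Type) [Field k] (N : ℕ)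
    (step : ∀ (p M : ℕ) [NeZero M] [NeZero (p * M)], p.Prime → p * M ∣ N →
      IrredAt k M → IrredAt k (p * M))
    (m : ℕ) [hm0 : NeZero m] (hm : m ∣ N) : IrredAt k m := by
  induction m using Nat.strong_induction_on generalizing hm0 with
  | _ m ih =>
    by_cases h1 : m = 1
    · subst h1
      exact irredAt_one k
    · have hp : m.minFac.Prime := Nat.minFac_prime h1
      obtain ⟨M, hM⟩ := Nat.minFac_dvd m
      have hM0 : M ≠ 0 := by
        rintro rfl
        exact hm0.out (by rw [hM, mul_zero])
      haveI : NeZero M := ⟨hM0⟩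
      have hlt : M < m := by
        have h2 : 2 ≤ m.minFac := hp.two_le
        have hMpos : 0 < M := Nat.pos_of_ne_zero hM0
        calc M = 1 * M := (one_mul M).symm
          _ < m.minFac * M := Nat.mul_lt_mul_of_pos_right (by omega) hMpos
          _ = m := hM.symm
      have hMN : M ∣ N := (Dvd.intro_left _ hM.symm).trans hm
      have ihM : IrredAt k M := ih M hlt hMN
      generalize hpdef : m.minFac = p at hp hM
      subst hM
      exact step p M hp hm ihM

/-- (F4) The WRAPPER: from a prime step over every algebraically closed field of characteristic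
`ℓ`, `IrredCharL ℓ D.Φ`.  (Base case, induction over `m ∣ N`, and descent
`K → AlgebraicClosure K` are done here.) -/
theorem irredCharL_of_step (ℓ : ℕ) (N : ℕ) [NeZero N]
    (step : ∀ (k : Type) [Field k] [IsAlgClosed k] [CharP k ℓ] (p M : ℕ) [NeZero M]
      [NeZero (p * M)], p.Prime → p * M ∣ N → IrredAt k M → IrredAt k (p * M))
    (D : ModularPolynomialData N)
    (hD : ∀ (k : Type) [Field k] (ζ : kˣ), IsPrimitiveRoot ζ N → RootsAt k N ζ D.Φ) :
    IrredCharL ℓ D.Φ := by
  intro K _ _
  have h1 : IrredAt (AlgebraicClosure K) N :=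
    irredAt_of_step (AlgebraicClosure K) N
      (fun p M _ _ hp hd ih => step (AlgebraicClosure K) p M hp hd ih) N dvd_rfl
  have h2 : Irreducible (redModPoly (AlgebraicClosure K) D.Φ) :=
    h1 D.Φ D.monic D.natDegree_eq (fun ζ hζ => hD (AlgebraicClosure K) ζ hζ)
  exact irreducible_redModPoly_of_hom (algebraMap K (AlgebraicClosure K)) D.monic h2

end Wrapper

end Fermat.Agent.S28.H50
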