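import Mathlib

/-!
S28 (Igusa), package W2c (helper59): the abstract Galois lemma behind the general prime step.

`K ⊆ L` fields, `Lp` an intermediate field.  `Jm : L` is a root of a monic `P ∈ K[X]` which splits
in `L` with all roots in `Lp`; `y : L` is a root of a separable `Q ∈ K[X]` which splits in `L`
and all of whose roots other than `y` lie outside `Lp`.  If `y ∈ K(Jm)` then `y ∈ K`.
-/

set_option autoImplicit false

noncomputable section

namespace Fermat.Agent.S28.H59

open Polynomial IntermediateField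

/-- If a monic polynomial of degree `#s` over a field has the `#s` distinct roots `r i`, `i ∈ s`,
then its root multiset is exactly `{r i}`. -/
theorem roots_eq_image_of_distinct {L : Type*} [Field L] {ι : Type*} [DecidableEq L]
    (f : L[X]) (hf : f ≠ 0) (s : Finset ι) (r : ι → L) (hinj : Set.InjOn r s)
    (hroot : ∀ i ∈ s, f.eval (r i) = 0) (hcard : f.natDegree = s.card) :
    f.roots = (s.image r).val := by
  have hle : (s.image r).val ≤ f.roots := by
    rw [Multiset.le_iff_subset (s.image r).nodup]
    intro x hx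
    rw [Finset.mem_val, Finset.mem_image] at hx
    obtain ⟨i, hi, rfl⟩ := hx
    exact (mem_roots hf).mpr (hroot i hi)
  refine (Multiset.eq_of_le_of_card_le hle ?_).symm
  calc Multiset.card f.roots ≤ f.natDegree := f.card_roots'
    _ = s.card := hcard
    _ = (s.image r).card := (Finset.card_image_of_injOn hinj).symm
    _ = Multiset.card (s.image r).val := rfl

/-- Same hypotheses: the polynomial splits. -/
theorem splits_of_distinct {L : Type*} [Field L] {ι : Type*}
    (f : L[X]) (hf : f ≠ 0) (s : Finset ι) (r : ι → L) (hinj : Set.InjOn r s)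
    (hroot : ∀ i ∈ s, f.eval (r i) = 0) (hcard : f.natDegree = s.card) :
    f.Splits := by
  classical
  rw [splits_iff_card_roots, roots_eq_image_of_distinct f hf s r hinj hroot hcard]
  show (s.image r).card = _
  rw [Finset.card_image_of_injOn hinj, hcard]

/-- Same hypotheses: the polynomial is separable. -/
theorem separable_of_distinct {L : Type*} [Field L] {ι : Type*}
    (f : L[X]) (hf : f ≠ 0) (s : Finset ι) (r : ι → L) (hinj : Set.InjOn r s)
    (hroot : ∀ i ∈ s, f.eval (r i) = 0) (hcard : f.natDegree = s.card) :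
    f.Separable := by
  classical
  rw [← nodup_roots_iff_of_splits hf (splits_of_distinct f hf s r hinj hroot hcard),
    roots_eq_image_of_distinct f hf s r hinj hroot hcard]
  exact (s.image r).nodup

/-- Same hypotheses: every root is one of the `r i`. -/
theorem exists_eq_of_root_of_distinct {L : Type*} [Field L] {ι : Type*}
    (f : L[X]) (hf : f ≠ 0) (s : Finset ι) (r : ι → L) (hinj : Set.InjOn r s)
    (hroot : ∀ i ∈ s, f.eval (r i) = 0) (hcard : f.natDegree = s.card)
    {x : L} (hx : f.eval x = 0) : ∃ i ∈ s, r i = x := by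
  classical
  have h : x ∈ f.roots := (mem_roots hf).mpr hx
  rw [roots_eq_image_of_distinct f hf s r hinj hroot hcard, Finset.mem_val,
    Finset.mem_image] at h
  exact h

section Galois

variable {K L : Type*} [Field K] [Field L] [Algebra K L]

/-- **Abstract Galois lemma.**  -/
theorem mem_range_of_conjugates (Lp : IntermediateField K L) (Jm y : L)
    (P : K[X]) (hPm : P.Monic) (hPJ : aeval Jm P = 0)
    (hPsplit : (P.map (algebraMap K L)).Splits)
    (hProots : ∀ r : L, aeval r P = 0 → r ∈ Lp)
    (Q : K[X]) (hQy : aeval y Q = 0)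
    (hQsplit : (Q.map (algebraMap K L)).Splits) (hQsep : Q.Separable)
    (hQroots : ∀ r : L, aeval r Q = 0 → r = y ∨ r ∉ Lp)
    (hy : y ∈ K⟮Jm⟯) : y ∈ (algebraMap K L).range := by
  classical
  have hJint : IsIntegral K Jm := ⟨P, hPm, by rwa [← aeval_def]⟩
  have hQ0 : Q ≠ 0 := hQsep.ne_zero
  have hyint : IsIntegral K y := by
    have : IsAlgebraic K y := ⟨Q, hQ0, hQy⟩
    exact this.isIntegral
  by_contra hnot
  have h2 : 2 ≤ (minpoly K y).natDegree := (minpoly.two_le_natDegree_iff hyint).mpr hnot
  set f := minpoly K y with hf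
  have hfQ : f ∣ Q := minpoly.dvd K y hQy
  have hfsplit : (f.map (algebraMap K L)).Splits :=
    hQsplit.of_dvd (Polynomial.map_ne_zero hQ0) (Polynomial.map_dvd _ hfQ)
  have hfsep : f.Separable := hQsep.of_dvd hfQ
  have hf0 : f.map (algebraMap K L) ≠ 0 := Polynomial.map_ne_zero (minpoly.ne_zero hyint)
  have hnodup : (f.map (algebraMap K L)).roots.Nodup :=
    nodup_roots hfsep.map
  have hcard : Multiset.card (f.map (algebraMap K L)).roots = f.natDegree := by
    rw [splits_iff_card_roots.mp hfsplit, natDegree_map]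
  -- another root `y' ≠ y`
  obtain ⟨y', hy'mem, hy'ne⟩ : ∃ y' ∈ (f.map (algebraMap K L)).roots, y' ≠ y := by
    by_contra hcon
    push Not at hcon
    have hsub : (f.map (algebraMap K L)).roots ≤ {y} := by
      rw [Multiset.le_iff_subset hnodup]
      intro z hz
      rw [Multiset.mem_singleton]
      exact hcon z hz
    have := Multiset.card_le_card hsub
    rw [hcard, Multiset.card_singleton] at this
    omega
  have hy'root : aeval y' f = 0 := by
    have := (mem_roots hf0).mp hy'mem
    rwa [IsRoot.def, eval_map, ← aeval_def] at this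
  have hy'Q : aeval y' Q = 0 := by
    obtain ⟨g, hg⟩ := hfQ
    rw [hg, map_mul, hy'root, zero_mul]
  have hy'notin : y' ∉ Lp := (hQroots y' hy'Q).resolve_left hy'ne
  -- the embedding `φ : K(Jm) → L` with `φ y = y'`
  have hK : ∀ s ∈ ({Jm} : Set L), IsIntegral K s ∧
      ((minpoly K s).map (algebraMap K L)).Splits := by
    intro s hs
    rw [Set.mem_singleton_iff] at hs
    subst hs
    refine ⟨hJint, ?_⟩
    exact hPsplit.of_dvd (Polynomial.map_ne_zero hPm.ne_zero)
      (Polynomial.map_dvd _ (minpoly.dvd K s hPJ))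
  obtain ⟨φ, hφ⟩ := exists_algHom_adjoin_of_splits_of_aeval hK hy hy'root
  -- `φ` maps into `Lp`
  have hφJ : φ ⟨Jm, mem_adjoin_simple_self K Jm⟩ ∈ Lp := by
    apply hProots
    have h1 : aeval (φ ⟨Jm, mem_adjoin_simple_self K Jm⟩) P
        = φ (aeval (⟨Jm, mem_adjoin_simple_self K Jm⟩ : K⟮Jm⟯) P) := (aeval_algHom_apply φ _ P)
    rw [h1]
    have h2 : aeval (⟨Jm, mem_adjoin_simple_self K Jm⟩ : K⟮Jm⟯) P = 0 := by
      apply Subtype.ext
      have := aeval_algHom_apply (K⟮Jm⟯.val) (⟨Jm, mem_adjoin_simple_self K Jm⟩ : K⟮Jm⟯) P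
      simp only [IntermediateField.coe_val] at this
      rw [← this]
      simpa using hPJ
    rw [h2, map_zero]
  have hall : ∀ (z : L) (hz : z ∈ K⟮Jm⟯), φ ⟨z, hz⟩ ∈ Lp := by
    intro z hz
    induction hz using IntermediateField.adjoin_induction with
    | mem x hx =>
      rw [Set.mem_singleton_iff] at hx
      subst hx
      exact hφJ
    | algebraMap x =>
      have : φ ⟨algebraMap K L x, IntermediateField.algebraMap_mem _ x⟩ = algebraMap K L x := by
        exact φ.commutes x
      rw [this]
      exact Lp.algebraMap_mem x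
    | add x z hx hz ihx ihz =>
      have : φ ⟨x + z, add_mem hx hz⟩ = φ ⟨x, hx⟩ + φ ⟨z, hz⟩ := by
        rw [← map_add]; rfl
      rw [this]
      exact add_mem ihx ihz
    | inv x hx ihx =>
      have : φ ⟨x⁻¹, inv_mem hx⟩ = (φ ⟨x, hx⟩)⁻¹ := by
        rw [← map_inv₀]; rfl
      rw [this]
      exact inv_mem ihx
    | mul x z hx hz ihx ihz =>
      have : φ ⟨x * z, mul_mem hx hz⟩ = φ ⟨x, hx⟩ * φ ⟨z, hz⟩ := by
        rw [← map_mul]; rfl
      rw [this]
      exact mul_mem ihx ihz
  exact hy'notin (hφ ▸ hall y hy)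

end Galois

end Fermat.Agent.S28.H59
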