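import Mathlib
import Fermat.Prelude.Def_ModularCurve_X0ModL
import Fermat.Agent.S28.Defs
import Fermat.Agent.S28.Interface
import Fermat.Agent.S28.H64_Triples
import Fermat.Agent.S28.H59_Galois

/-!
S28 (Igusa), package W2c (helper59): the GENERAL PRIME STEP, reduced to the prime core.

For a prime `p ∤ M`:  `j(q^(pM)) ∉ k(j(q), j(q^M))`, given
* the W1b shapes `RootsAt k M ζ_M Φ_M`, `RootsAt k p ζ_p Φ_p` (monic, of degree `#triples`), and
* the prime core `j(q^p) ∉ k(j(q))`.

Proof (pure Galois theory): over `K₁ = k(j(q^M))` the conjugates of `j(q)` all lie in `k((q))`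
while the conjugates of `j(q^(pM))` other than itself do not (`p ∤ M`); so
`j(q^(pM)) ∈ K₁(j(q))` forces `j(q^(pM)) ∈ K₁`, which is the prime core in the variable `q^M`.
-/

set_option autoImplicit false

noncomputable section

namespace Fermat.Agent.S28.H59

open ModularCurve HahnSeries Polynomial IntermediateField

variable {k : Type*} [Field k]

/-! ### The subfield `k((t^e))` of `k((t))` -/

variable (k) in
/-- `k((t^e)) ⊆ k((t))`: the range of `qExpand k e`, as an intermediate field. -/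
def rangeQ (e : ℕ) [NeZero e] : IntermediateField k (LaurentSeries k) :=
  (qExpandAlgHomC k e).fieldRange

theorem mem_rangeQ {e : ℕ} [NeZero e] {x : LaurentSeries k} :
    x ∈ rangeQ k e ↔ ∃ z, qExpand k e z = x := by
  rw [rangeQ, AlgHom.mem_fieldRange]
  rfl

theorem qExpand_mem_rangeQ (e : ℕ) [NeZero e] (z : LaurentSeries k) :
    qExpand k e z ∈ rangeQ k e := mem_rangeQ.mpr ⟨z, rfl⟩

theorem coeff_eq_zero_of_mem_rangeQ {e : ℕ} [NeZero e] {x : LaurentSeries k}
    (hx : x ∈ rangeQ k e) {n : ℤ} (hn : ¬ (e : ℤ) ∣ n) : x.coeff n = 0 := by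
  obtain ⟨z, rfl⟩ := mem_rangeQ.mp hx
  exact qExpand_coeff_of_not_dvd e z hn

/-! ### Coefficients of the formal conjugates -/

theorem Jconj_coeff_neg (ξ : kˣ) (e : ℕ) [NeZero e] :
    (Jconj k ξ e).coeff (-(e : ℤ)) = ((ξ⁻¹ : kˣ) : k) := by
  have h := subst_coeff_mul ξ e (jqModC k) (-1)
  rw [coeff_jqModC_neg_one, mul_one, mul_neg_one, zpow_neg_one] at h
  exact h

theorem Jconj_coeff_neg_ne_zero (ξ : kˣ) (e : ℕ) [NeZero e] :
    (Jconj k ξ e).coeff (-(e : ℤ)) ≠ 0 := by
  rw [Jconj_coeff_neg]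
  exact Units.ne_zero _

theorem Jconj_coeff_of_lt (ξ : kˣ) (e : ℕ) [NeZero e] {n : ℤ} (hn : n < -(e : ℤ)) :
    (Jconj k ξ e).coeff n = 0 := by
  by_cases hd : (e : ℤ) ∣ n
  · obtain ⟨m, rfl⟩ := hd
    have he : (0 : ℤ) < e := by exact_mod_cast Nat.pos_of_ne_zero (NeZero.ne e)
    have hm : m < -1 := by
      by_contra hcon
      push Not at hcon
      have : -(e : ℤ) ≤ (e : ℤ) * m := by nlinarith
      omega
    rw [Jconj, subst_coeff_mul, coeff_jqModC_of_lt k hm, mul_zero]
  · exact subst_coeff_of_not_dvd ξ e _ hd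

theorem qExpand_Jconj (f e : ℕ) [NeZero f] [NeZero e] (ξ : kˣ) :
    qExpand k f (Jconj k ξ e) = Jconj k ξ (f * e) := by
  rw [Jconj, subst_apply, qExpand_qExpand, Jconj, subst_apply]

theorem Jconj_one_one : Jconj k (1 : kˣ) 1 = jqModC k := by
  rw [Jconj_one, qExpand_one_apply]

theorem Jconj_congr {ξ ξ' : kˣ} {e e' : ℕ} [NeZero e] [NeZero e'] (hξ : ξ = ξ') (he : e = e') :
    Jconj k ξ e = Jconj k ξ' e' := by
  subst hξ; subst he; rfl

/-- `Jconj k ξ e` determines `e` and `ξ`. -/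
theorem Jconj_injective {ξ ξ' : kˣ} {e e' : ℕ} [NeZero e] [NeZero e']
    (h : Jconj k ξ e = Jconj k ξ' e') : e = e' ∧ ξ = ξ' := by
  have he : e = e' := by
    rcases lt_trichotomy e e' with hlt | heq | hgt
    · exfalso
      have h1 : (Jconj k ξ e).coeff (-(e' : ℤ)) = 0 :=
        Jconj_coeff_of_lt ξ e (by omega)
      rw [h] at h1
      exact Jconj_coeff_neg_ne_zero ξ' e' h1
    · exact heq
    · exfalso
      have h1 : (Jconj k ξ' e').coeff (-(e : ℤ)) = 0 :=
        Jconj_coeff_of_lt ξ' e' (by omega)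
      rw [← h] at h1
      exact Jconj_coeff_neg_ne_zero ξ e h1
  subst he
  refine ⟨rfl, ?_⟩
  have h1 := Jconj_coeff_neg ξ e
  rw [h, Jconj_coeff_neg] at h1
  have : ξ'⁻¹ = ξ⁻¹ := Units.ext h1
  exact (inv_injective this).symm

/-- Total version of the conjugate attached to a triple `(a,b,d)` (junk `0` for `a = 0`):
`J(ζ^(ab) t^(a²))`. -/
def Jtrip (ζ : kˣ) (g : ℕ × ℕ × ℕ) : LaurentSeries k :=
  if h : g.1 = 0 then 0 else
    haveI : NeZero (g.1 * g.1) := ⟨mul_ne_zero h h⟩
    Jconj k (ζ ^ (g.1 * g.2.1)) (g.1 * g.1)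

theorem Jtrip_eq (ζ : kˣ) (a b d : ℕ) [NeZero (a * a)] :
    Jtrip ζ (a, b, d) = Jconj k (ζ ^ (a * b)) (a * a) := by
  have ha : a ≠ 0 := fun h => by
    have := NeZero.ne (a * a)
    rw [h] at this
    exact this rfl
  rw [Jtrip, dif_neg ha]

theorem fst_ne_zero_of_mem_triples {m : ℕ} (hm : 0 < m) {g : ℕ × ℕ × ℕ} (hg : g ∈ triples m) :
    g.1 ≠ 0 := by
  obtain ⟨h1, -, -⟩ := (mem_triples hm).mp hg
  intro h
  rw [h, zero_mul] at h1
  omega

/-- The conjugates attached to the triples of level `m` are pairwise distinct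
(`ζ` a primitive `m`-th root of unity). -/
theorem Jtrip_injOn {m : ℕ} (hm : 0 < m) {ζ : kˣ} (hζ : IsPrimitiveRoot ζ m) :
    Set.InjOn (Jtrip (k := k) ζ) (triples m : Set (ℕ × ℕ × ℕ)) := by
  rintro ⟨a, b, d⟩ hg ⟨a', b', d'⟩ hg' h
  have ha : a ≠ 0 := fst_ne_zero_of_mem_triples hm hg
  have ha' : a' ≠ 0 := fst_ne_zero_of_mem_triples hm hg'
  obtain ⟨h1, h2, -⟩ := (mem_triples hm).mp hg
  obtain ⟨h1', h2', -⟩ := (mem_triples hm).mp hg'
  simp only at h1 h2 h1' h2'
  haveI : NeZero (a * a) := ⟨mul_ne_zero ha ha⟩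
  haveI : NeZero (a' * a') := ⟨mul_ne_zero ha' ha'⟩
  rw [Jtrip_eq, Jtrip_eq] at h
  obtain ⟨he, hξ⟩ := Jconj_injective h
  have haa : a = a' := by
    rcases lt_trichotomy a a' with hlt | heq | hgt
    · exfalso; have := Nat.mul_lt_mul'' hlt hlt; omega
    · exact heq
    · exfalso; have := Nat.mul_lt_mul'' hgt hgt; omega
  subst haa
  have hdd : d = d' := by
    have : a * d = a * d' := h1.trans h1'.symm
    exact Nat.eq_of_mul_eq_mul_left (Nat.pos_of_ne_zero ha) this
  subst hdd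
  have hb : a * b < m := by rw [← h1]; exact Nat.mul_lt_mul_of_pos_left h2 (Nat.pos_of_ne_zero ha)
  have hb' : a * b' < m := by
    rw [← h1]; exact Nat.mul_lt_mul_of_pos_left h2' (Nat.pos_of_ne_zero ha)
  have := hζ.pow_inj hb hb' hξ
  have hbb : b = b' := Nat.eq_of_mul_eq_mul_left (Nat.pos_of_ne_zero ha) this
  subst hbb
  rfl

/-! ### The two-variable relation -/

/-- Ring homomorphisms of Laurent series commute with `Φ(·,·)`. -/
theorem map_eval₂_evalJ (τ : LaurentSeries k →+* LaurentSeries k) (Φ : Polynomial ℤ[X])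
    (x y : LaurentSeries k) :
    τ (Φ.eval₂ (evalJ x) y) = Φ.eval₂ (evalJ (τ x)) (τ y) := by
  rw [Polynomial.hom_eval₂]
  congr 1
  apply Polynomial.ringHom_ext'
  · exact RingHom.ext_int _ _
  · simp [evalJ]

/-- `RootsAt` in the `Jtrip` form, after the substitution `t ↦ t^f`. -/
theorem rootsAt_qExpand {m : ℕ} [NeZero m] {ζ : kˣ} {Φ : Polynomial ℤ[X]}
    (h : RootsAt k m ζ Φ) (f : ℕ) [NeZero f] {g : ℕ × ℕ × ℕ} (hg : g ∈ triples m) :
    Φ.eval₂ (evalJ (qExpand k (f * m) (jqModC k))) (qExpand k f (Jtrip ζ g)) = 0 := by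
  obtain ⟨a, b, d⟩ := g
  have hm : 0 < m := Nat.pos_of_ne_zero (NeZero.ne m)
  have hprim : IsPrimTriple m a b d := (mem_triples hm).mp hg
  have ha : a ≠ 0 := fst_ne_zero_of_mem_triples hm hg
  haveI : NeZero (a * a) := ⟨mul_ne_zero ha ha⟩
  have h0 := h a b d hprim inferInstance
  have h1 := congrArg (qExpand k f) h0
  rw [map_eval₂_evalJ, map_zero, qExpand_qExpand] at h1
  rw [Jtrip_eq]
  exact h1

section TwoVar

variable (x₁ : LaurentSeries k)

/-- `ℤ[Y] → k(x₁)`, `Y ↦ x₁`. -/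
def evalJsub : ℤ[X] →+* ↥(k⟮x₁⟯) :=
  (Polynomial.aeval (R := ℤ) (AdjoinSimple.gen k x₁)).toRingHom

theorem algebraMap_comp_evalJsub :
    (algebraMap ↥(k⟮x₁⟯) (LaurentSeries k)).comp (evalJsub x₁) = evalJ x₁ := by
  apply Polynomial.ringHom_ext'
  · exact RingHom.ext_int _ _
  · simp [evalJ, evalJsub]

theorem map_map_evalJsub (Φ : Polynomial ℤ[X]) :
    (Φ.map (evalJsub x₁)).map (algebraMap ↥(k⟮x₁⟯) (LaurentSeries k)) = Φ.map (evalJ x₁) := by
  rw [Polynomial.map_map, algebraMap_comp_evalJsub]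

theorem aeval_map_evalJsub (Φ : Polynomial ℤ[X]) (r : LaurentSeries k) :
    aeval r (Φ.map (evalJsub x₁)) = Φ.eval₂ (evalJ x₁) r := by
  rw [aeval_def, ← Polynomial.eval_map, map_map_evalJsub, Polynomial.eval_map]

end TwoVar

section Main

variable {p M : ℕ} [NeZero p] [NeZero M]

/-- The Galois step in the variable `t` (`t^p = s`, `s^M = q'`): with `x₁ = j(t^(pM)) = j(q')`,
`Jm = j(t^p) = j(q'^(1/M))`, `y = j(t^(p·pM)) = j(q'^p)`:  `y ∈ k(x₁, Jm)` implies `y ∈ k(x₁)`. -/
theorem prime_step_aux (hp : p.Prime) (hpM : ¬ p ∣ M)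
    {ΦM Φp : Polynomial ℤ[X]} (hΦMm : ΦM.Monic) (hΦMd : ΦM.natDegree = (triples M).card)
    (hΦpm : Φp.Monic) (hΦpd : Φp.natDegree = (triples p).card)
    {ζM ζp : kˣ} (hζM : IsPrimitiveRoot ζM M) (hζp : IsPrimitiveRoot ζp p)
    (hM : RootsAt k M ζM ΦM) (hP : RootsAt k p ζp Φp)
    (hmem : qExpand k (p * (p * M)) (jqModC k) ∈
      IntermediateField.adjoin k {qExpand k (p * M) (jqModC k), qExpand k p (jqModC k)}) :
    qExpand k (p * (p * M)) (jqModC k) ∈
      IntermediateField.adjoin k {qExpand k (p * M) (jqModC k)} := by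
  classical
  have hMpos : 0 < M := Nat.pos_of_ne_zero (NeZero.ne M)
  have hppos : 0 < p := hp.pos
  set x₁ := qExpand k (p * M) (jqModC k) with hx₁
  set Jm := qExpand k p (jqModC k) with hJm
  set y := qExpand k (p * (p * M)) (jqModC k) with hy
  have hx₁M : qExpand k (M * p) (jqModC k) = x₁ := qExpand_congr (Nat.mul_comm M p) _
  -- `K₁ = k(x₁) ⊆ k((t^p))`
  have hK₁Lp : k⟮x₁⟯ ≤ rangeQ k p := by
    rw [adjoin_simple_le_iff, hx₁, ← qExpand_qExpand]
    exact qExpand_mem_rangeQ p _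
  let Lp : IntermediateField ↥(k⟮x₁⟯) (LaurentSeries k) := IntermediateField.extendScalars hK₁Lp
  have hLp : ∀ r : LaurentSeries k, r ∈ Lp ↔ r ∈ rangeQ k p := fun r =>
    IntermediateField.mem_extendScalars hK₁Lp
  -- the two polynomials over `L`
  have hPm : (ΦM.map (evalJ x₁)).Monic := hΦMm.map _
  have hQm : (Φp.map (evalJ x₁)).Monic := hΦpm.map _
  have hPd : (ΦM.map (evalJ x₁)).natDegree = (triples M).card := by
    rw [hΦMm.natDegree_map, hΦMd]
  have hQd : (Φp.map (evalJ x₁)).natDegree = (triples p).card := by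
    rw [hΦpm.natDegree_map, hΦpd]
  -- root families
  have hPr : ∀ g ∈ triples M, (ΦM.map (evalJ x₁)).eval (qExpand k p (Jtrip ζM g)) = 0 := by
    intro g hg
    rw [Polynomial.eval_map]
    exact rootsAt_qExpand hM p hg
  have hQr : ∀ g ∈ triples p, (Φp.map (evalJ x₁)).eval (qExpand k M (Jtrip ζp g)) = 0 := by
    intro g hg
    rw [Polynomial.eval_map, ← hx₁M]
    exact rootsAt_qExpand hP M hg
  have hPinj : Set.InjOn (fun g => qExpand k p (Jtrip ζM g)) (triples M : Set (ℕ × ℕ × ℕ)) :=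
    fun g hg g' hg' h => Jtrip_injOn hMpos hζM hg hg' (qExpand_injective p h)
  have hQinj : Set.InjOn (fun g => qExpand k M (Jtrip ζp g)) (triples p : Set (ℕ × ℕ × ℕ)) :=
    fun g hg g' hg' h => Jtrip_injOn hppos hζp hg hg' (qExpand_injective M h)
  -- `Jm` and `y` are among the roots
  have hJm_root : qExpand k p (Jtrip ζM (1, 0, M)) = Jm := by
    haveI : NeZero (1 * 1) := ⟨by norm_num⟩
    rw [Jtrip_eq, mul_zero, pow_zero, Jconj_one]
    have : qExpand k (1 * 1) (jqModC k) = jqModC k := by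
      rw [qExpand_congr (show 1 * 1 = 1 from rfl), qExpand_one_apply]
    rw [this]
  have h1M : ((1, 0, M) : ℕ × ℕ × ℕ) ∈ triples M := by
    rw [mem_triples hMpos]
    exact ⟨one_mul M, hMpos, Nat.gcd_one_left _⟩
  have hy_root : qExpand k M (Jtrip ζp (p, 0, 1)) = y := by
    haveI : NeZero (p * p) := ⟨mul_ne_zero hp.ne_zero hp.ne_zero⟩
    rw [Jtrip_eq, mul_zero, pow_zero, Jconj_one, qExpand_qExpand]
    exact qExpand_congr (by ring) _
  have hp1 : ((p, 0, 1) : ℕ × ℕ × ℕ) ∈ triples p := by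
    rw [mem_triples hppos]
    exact ⟨mul_one p, Nat.one_pos, by simp⟩
  -- hypotheses of the Galois lemma
  have hPJ : aeval Jm (ΦM.map (evalJsub x₁)) = 0 := by
    rw [aeval_map_evalJsub, ← Polynomial.eval_map, ← hJm_root]
    exact hPr _ h1M
  have hPsplit : ((ΦM.map (evalJsub x₁)).map (algebraMap ↥(k⟮x₁⟯) (LaurentSeries k))).Splits := by
    rw [map_map_evalJsub]
    exact splits_of_distinct _ hPm.ne_zero (triples M) _ hPinj hPr hPd
  have hProots : ∀ r : LaurentSeries k, aeval r (ΦM.map (evalJsub x₁)) = 0 → r ∈ Lp := by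
    intro r hr
    rw [aeval_map_evalJsub, ← Polynomial.eval_map] at hr
    obtain ⟨g, -, rfl⟩ :=
      exists_eq_of_root_of_distinct _ hPm.ne_zero (triples M) _ hPinj hPr hPd hr
    rw [hLp]
    exact qExpand_mem_rangeQ p _
  have hQy : aeval y (Φp.map (evalJsub x₁)) = 0 := by
    rw [aeval_map_evalJsub, ← Polynomial.eval_map, ← hy_root]
    exact hQr _ hp1
  have hQsplit : ((Φp.map (evalJsub x₁)).map (algebraMap ↥(k⟮x₁⟯) (LaurentSeries k))).Splits := by
    rw [map_map_evalJsub]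
    exact splits_of_distinct _ hQm.ne_zero (triples p) _ hQinj hQr hQd
  have hQsep : (Φp.map (evalJsub x₁)).Separable := by
    rw [← Polynomial.separable_map (algebraMap ↥(k⟮x₁⟯) (LaurentSeries k)), map_map_evalJsub]
    exact separable_of_distinct _ hQm.ne_zero (triples p) _ hQinj hQr hQd
  have hQroots : ∀ r : LaurentSeries k, aeval r (Φp.map (evalJsub x₁)) = 0 →
      r = y ∨ r ∉ Lp := by
    intro r hr
    rw [aeval_map_evalJsub, ← Polynomial.eval_map] at hr
    obtain ⟨⟨a, b, d⟩, hg, rfl⟩ :=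
      exists_eq_of_root_of_distinct _ hQm.ne_zero (triples p) _ hQinj hQr hQd hr
    rcases (H64.isPrimTriple_prime_iff hp).mp ((mem_triples hppos).mp hg) with
      ⟨ha, hb0, hd⟩ | ⟨ha, hb, hd⟩
    · left
      dsimp only at ha hb0 hd
      show qExpand k M (Jtrip ζp (a, b, d)) = y
      rw [ha, hb0, hd]
      exact hy_root
    · right
      dsimp only at ha hb hd
      rw [hLp]
      intro hmemr
      haveI : NeZero (1 * 1) := ⟨by norm_num⟩
      have hcoef := coeff_eq_zero_of_mem_rangeQ hmemr (n := -((M * (1 * 1) : ℕ) : ℤ)) (by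
        rw [Int.dvd_neg, Int.natCast_dvd_natCast, mul_one, mul_one]
        exact hpM)
      change (qExpand k M (Jtrip ζp (a, b, d))).coeff _ = 0 at hcoef
      rw [ha, Jtrip_eq, qExpand_Jconj] at hcoef
      exact Jconj_coeff_neg_ne_zero _ _ hcoef
  have hy' : y ∈ (k⟮x₁⟯)⟮Jm⟯ := by
    have h1 := adjoin_adjoin_left k ({x₁} : Set (LaurentSeries k)) {Jm}
    rw [Set.singleton_union] at h1
    rw [← h1] at hmem
    exact hmem
  obtain ⟨c, hc⟩ := mem_range_of_conjugates Lp Jm y _ (hΦMm.map _) hPJ hPsplit hProots _ hQy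
    hQsplit hQsep hQroots hy'
  rw [← hc]
  exact c.2

/-- Transport of `IntermediateField.adjoin` along the field embedding `qExpand k e`. -/
theorem qExpand_mem_adjoin_image_iff (e : ℕ) [NeZero e] (S : Set (LaurentSeries k))
    (x : LaurentSeries k) :
    qExpand k e x ∈ IntermediateField.adjoin k ((qExpand k e) '' S) ↔
      x ∈ IntermediateField.adjoin k S := by
  have h : IntermediateField.adjoin k ((qExpand k e) '' S) =
      (IntermediateField.adjoin k S).map (qExpandAlgHomC k e) := by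
    rw [IntermediateField.adjoin_map]
    rfl
  rw [h, IntermediateField.mem_map]
  constructor
  · rintro ⟨z, hz, hzx⟩
    rw [qExpandAlgHomC_apply] at hzx
    rwa [← qExpand_injective e hzx]
  · intro hx
    exact ⟨x, hx, rfl⟩

/-- **General prime step** (W2c), reduced to the prime core: for a prime `p ∤ M`,
`j(t^(e p M)) ∉ k(j(t^e), j(t^(e M)))`, i.e. `j(q^(pM)) ∉ k(j(q), j(q^M))` with `q = t^e`. -/
theorem prime_step (hp : p.Prime) (hpM : ¬ p ∣ M)
    {ΦM Φp : Polynomial ℤ[X]} (hΦMm : ΦM.Monic) (hΦMd : ΦM.natDegree = (triples M).card)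
    (hΦpm : Φp.Monic) (hΦpd : Φp.natDegree = (triples p).card)
    {ζM ζp : kˣ} (hζM : IsPrimitiveRoot ζM M) (hζp : IsPrimitiveRoot ζp p)
    (hM : RootsAt k M ζM ΦM) (hP : RootsAt k p ζp Φp)
    (hcore : qExpand k p (jqModC k) ∉ IntermediateField.adjoin k {jqModC k})
    (e : ℕ) [NeZero e] :
    qExpand k (e * (p * M)) (jqModC k) ∉
      IntermediateField.adjoin k {qExpand k e (jqModC k), qExpand k (e * M) (jqModC k)} := by
  intro h
  -- pull back along `qExpand e`
  have hA : qExpand k (p * M) (jqModC k) ∈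
      IntermediateField.adjoin k {jqModC k, qExpand k M (jqModC k)} := by
    rw [← qExpand_mem_adjoin_image_iff e, Set.image_pair, qExpand_qExpand, qExpand_qExpand]
    exact h
  -- push along `qExpand p`
  have hB : qExpand k (p * (p * M)) (jqModC k) ∈
      IntermediateField.adjoin k {qExpand k (p * M) (jqModC k), qExpand k p (jqModC k)} := by
    rw [← qExpand_mem_adjoin_image_iff p, Set.image_pair, qExpand_qExpand, qExpand_qExpand] at hA
    rw [Set.pair_comm]
    exact hA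
  have hC := prime_step_aux hp hpM hΦMm hΦMd hΦpm hΦpd hζM hζp hM hP hB
  -- pull back along `qExpand (p * M)`
  apply hcore
  rw [← qExpand_mem_adjoin_image_iff (p * M), Set.image_singleton, qExpand_qExpand]
  rw [qExpand_congr (show p * M * p = p * (p * M) by ring)]
  exact hC

/-- The prime step over an arbitrary model `K` of `k(j(t^e))` (e.g. `RatFunc k`):
`j(t^(e p M)) ∉ K(j(t^(e M)))`. -/
theorem prime_step_tower (hp : p.Prime) (hpM : ¬ p ∣ M)
    {ΦM Φp : Polynomial ℤ[X]} (hΦMm : ΦM.Monic) (hΦMd : ΦM.natDegree = (triples M).card)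
    (hΦpm : Φp.Monic) (hΦpd : Φp.natDegree = (triples p).card)
    {ζM ζp : kˣ} (hζM : IsPrimitiveRoot ζM M) (hζp : IsPrimitiveRoot ζp p)
    (hM : RootsAt k M ζM ΦM) (hP : RootsAt k p ζp Φp)
    (hcore : qExpand k p (jqModC k) ∉ IntermediateField.adjoin k {jqModC k})
    (e : ℕ) [NeZero e]
    (K : Type*) [Field K] [Algebra k K] [Algebra K (LaurentSeries k)]
    [IsScalarTower k K (LaurentSeries k)]
    (hK : ∀ c : K, algebraMap K (LaurentSeries k) c ∈
      IntermediateField.adjoin k {qExpand k e (jqModC k)}) :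
    qExpand k (e * (p * M)) (jqModC k) ∉
      IntermediateField.adjoin K {qExpand k (e * M) (jqModC k)} := by
  intro h
  refine prime_step hp hpM hΦMm hΦMd hΦpm hΦpd hζM hζp hM hP hcore e ?_
  set E' : IntermediateField k (LaurentSeries k) :=
    IntermediateField.adjoin k {qExpand k e (jqModC k), qExpand k (e * M) (jqModC k)} with hE'
  let E'' : IntermediateField K (LaurentSeries k) :=
    { E'.toSubfield with
      algebraMap_mem' := fun c =>
        IntermediateField.adjoin.mono k _ _ (Set.singleton_subset_iff.mpr (Set.mem_insert _ _))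
          (hK c) }
  have hle : IntermediateField.adjoin K {qExpand k (e * M) (jqModC k)} ≤ E'' := by
    rw [IntermediateField.adjoin_le_iff, Set.singleton_subset_iff]
    exact IntermediateField.subset_adjoin k _ (Set.mem_insert_of_mem _ rfl)
  exact hle h

/-- `prime_step_tower` in the shape consumed by `H50.exists_conj_of_not_mem`. -/
theorem prime_step_range (hp : p.Prime) (hpM : ¬ p ∣ M)
    {ΦM Φp : Polynomial ℤ[X]} (hΦMm : ΦM.Monic) (hΦMd : ΦM.natDegree = (triples M).card)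
    (hΦpm : Φp.Monic) (hΦpd : Φp.natDegree = (triples p).card)
    {ζM ζp : kˣ} (hζM : IsPrimitiveRoot ζM M) (hζp : IsPrimitiveRoot ζp p)
    (hM : RootsAt k M ζM ΦM) (hP : RootsAt k p ζp Φp)
    (hcore : qExpand k p (jqModC k) ∉ IntermediateField.adjoin k {jqModC k})
    (e : ℕ) [NeZero e]
    (K : Type*) [Field K] [Algebra k K] [Algebra K (LaurentSeries k)]
    [IsScalarTower k K (LaurentSeries k)]
    (hK : ∀ c : K, algebraMap K (LaurentSeries k) c ∈
      IntermediateField.adjoin k {qExpand k e (jqModC k)}) :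
    qExpand k (e * (p * M)) (jqModC k) ∉
      (algebraMap ↥(IntermediateField.adjoin K {qExpand k (e * M) (jqModC k)})
        (LaurentSeries k)).range := by
  rintro ⟨c, hc⟩
  refine prime_step_tower hp hpM hΦMm hΦMd hΦpm hΦpd hζM hζp hM hP hcore e K hK ?_
  rw [← hc]
  exact c.2

end Main

end Fermat.Agent.S28.H59
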