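import Mathlib
import Fermat.Agent.S28.H50_Frame
import Fermat.Agent.S28.H16_Wrapper
import Fermat.Agent.S28.H39_Dictionary
import Fermat.Agent.S28.H59_PrimeStep
import Fermat.Agent.S28.H30_PrimeLevel

/-!
S28 (Igusa), W2e: the CONCRETE induction step (helper50), in the shape `H16.StepStatement`,
via `H50.step_frame` (Galois-theoretic, no counting) + helper39's series dictionary + helper64's
triples + helper59's general prime step + helper30's prime core.
-/

set_option autoImplicit false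

noncomputable section

namespace Fermat.Agent.S28.H50

open ModularCurve Polynomial Fermat.Agent.S28 Fermat.Agent.S28.H64 Fermat.Agent.S28.H39

section Prelim

variable {k : Type*} [Field k]

/-- `J(t^N)` is transcendental over `k`. -/
theorem transcendental_qExpand_jqModC (N : ℕ) [NeZero N] :
    Transcendental k (qExpand k N (jqModC k)) := by
  rw [transcendental_iff_injective]
  apply H30.aeval_injective_of_order_neg
  rw [H30.order_qExpand]
  have h1 : (jqModC k).order < 0 := H30.order_jqModC_neg k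
  have h2 : (0 : ℤ) < (N : ℤ) := by
    have := Nat.pos_of_ne_zero (NeZero.ne N)
    exact_mod_cast this
  exact mul_neg_of_pos_of_neg h2 h1

/-- Ring homomorphisms out of `ℤ[X]` are determined by the image of `X`. -/
theorem ringHom_X_ext {A : Type*} [CommRing A] (f g : ℤ[X] →+* A) (h : f X = g X) : f = g := by
  apply Polynomial.ringHom_ext
  · intro a
    have hC : (C a : ℤ[X]) = (a : ℤ[X]) := by simp
    rw [hC, map_intCast, map_intCast]
  · exact h

/-- `eval₂` along two ring homomorphisms `ℤ[X] →+* A` agreeing on `X` (bridges `evalJ x` and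
`(aeval x).toRingHom` for whatever `ℤ`-algebra instance has been synthesized). -/
theorem eval₂_hom_congr {A : Type*} [CommRing A] {f g : ℤ[X] →+* A} (h : f X = g X)
    (Φ : Polynomial ℤ[X]) (y : A) : Φ.eval₂ f y = Φ.eval₂ g y := by
  rw [ringHom_X_ext f g h]

/-- `t ↦ ξ t` with `ξ^N = 1` fixes `k` and `J(t^N)`, hence moves every series to a
`k(J(t^N))`-conjugate. -/
theorem sameAnn_twist (N : ℕ) [NeZero N] (ξ : kˣ) (hξ : ξ ^ N = 1) (y : LaurentSeries k) :
    SameAnn (ratFuncHom (qExpand k N (jqModC k)) (transcendental_qExpand_jqModC N)) y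
      (twist ξ y) := by
  apply sameAnn_ratFuncHom _ _ (twist ξ)
  · intro c
    rw [H39.algebraMap_eq_C, twist_C]
  · exact twist_qExpand_of_pow_eq_one hξ _

end Prelim

section Level

open scoped Classical

variable {k : Type*} [Field k] {N : ℕ} [NeZero N] {ζ : kˣ}

omit [NeZero N] in
/-- divisors of the last entry of a primitive triple of determinant `m ∣ N`. -/
theorem dvd_of_mem_triples {m : ℕ} (hm0 : 0 < m) (hm : m ∣ N) {g : ℕ × ℕ × ℕ}
    (hg : g ∈ triples m) : g.2.2 ∣ N :=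
  (Dvd.intro_left _ ((mem_triples hm0).1 hg).1).trans hm

/-- The conjugates at level `m ∣ N` are pairwise distinct. -/
theorem Jtriple_injOn_triples (hζ : IsPrimitiveRoot ζ N) {m : ℕ} (hm0 : 0 < m) (hm : m ∣ N) :
    Set.InjOn (Jtriple ζ N) (triples m : Set (ℕ × ℕ × ℕ)) := by
  intro g hg g' hg' h
  have hN0 : 0 < N := Nat.pos_of_ne_zero (NeZero.ne N)
  exact Jtriple_injOn hζ hN0 hm0 ((mem_triples hm0).1 hg) ((mem_triples hm0).1 hg')
    (dvd_of_mem_triples hm0 hm hg) (dvd_of_mem_triples hm0 hm hg') h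

/-- The set of conjugates at level `m ∣ N` inside `k((t))`, `t^N = q`. -/
def levelRoots (ζ : kˣ) (N m : ℕ) : Finset (LaurentSeries k) :=
  (triples m).image (Jtriple ζ N)

theorem card_levelRoots (hζ : IsPrimitiveRoot ζ N) {m : ℕ} (hm0 : 0 < m) (hm : m ∣ N) :
    (levelRoots ζ N m).card = dedekindPsi m := by
  rw [levelRoots, Finset.card_image_of_injOn (Jtriple_injOn_triples hζ hm0 hm), card_triples m hm0]

theorem root_levelRoots {m : ℕ} [NeZero m] (hm : m ∣ N) {Φ : Polynomial ℤ[X]}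
    (h : RootsAt k m (ζ ^ (N / m)) Φ) {y : LaurentSeries k} (hy : y ∈ levelRoots ζ N m) :
    Φ.eval₂ (evalJ (qExpand k N (jqModC k))) y = 0 := by
  rw [levelRoots] at hy
  obtain ⟨⟨a, b, d⟩, hg, rfl⟩ := Finset.mem_image.1 hy
  have hm0 : 0 < m := Nat.pos_of_ne_zero (NeZero.ne m)
  exact rootsAt_level hm h ((mem_triples hm0).1 hg)

theorem isPrimitiveRoot_pow_div (hζ : IsPrimitiveRoot ζ N) {m : ℕ} (hm : m ∣ N) :
    IsPrimitiveRoot (ζ ^ (N / m)) m := by
  have hN0 : 0 < N := Nat.pos_of_ne_zero (NeZero.ne N)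
  exact hζ.pow hN0 (Nat.div_mul_cancel hm).symm

end Level

section Neighbours

open scoped Classical

variable {k : Type*} [Field k] {p M : ℕ} [NeZero (p * M)] {ζ : kˣ}

/-- The `p + 1` neighbours of `J_c`: the roots of `Φ_p(·, J_c)`. -/
def nbrRoots (ζ : kˣ) (p M : ℕ) (c : ℕ × ℕ × ℕ) : Finset (LaurentSeries k) :=
  (triples p).image fun α => Jtriple ζ (p * M) (tmul α c)

theorem nbr_injOn (hp : p.Prime) (hM : 0 < M) (hζ : IsPrimitiveRoot ζ (p * M))
    {c : ℕ × ℕ × ℕ} (hc : c ∈ triples M) :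
    Set.InjOn (fun α => Jtriple ζ (p * M) (tmul α c)) (triples p : Set (ℕ × ℕ × ℕ)) := by
  intro α hα α' hα' h
  have hN0 : 0 < p * M := Nat.pos_of_ne_zero (NeZero.ne _)
  have hcc := (mem_triples hM).1 hc
  obtain ⟨ha, hd⟩ := IsPrimTriple.pos hM hcc
  have hαα := (mem_triples hp.pos).1 hα
  have hαα' := (mem_triples hp.pos).1 hα'
  obtain ⟨hαa, hαd⟩ := IsPrimTriple.pos hp.pos hαα
  obtain ⟨hαa', hαd'⟩ := IsPrimTriple.pos hp.pos hαα'
  apply tmul_injOn_prime hp hM hc hα hα'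
  have hdvd : ∀ β : ℕ × ℕ × ℕ, IsPrimTriple p β.1 β.2.1 β.2.2 → (tmul β c).2.2 ∣ p * M := by
    intro β hβ
    show β.2.2 * c.2.2 ∣ p * M
    exact Nat.mul_dvd_mul (Dvd.intro_left _ hβ.1) (Dvd.intro_left _ hcc.1)
  have key := Jtriple_injective (ζ := ζ) (N := p * M) hζ hN0
    (a := (tmul α c).1) (b := (tmul α c).2.1) (d := (tmul α c).2.2)
    (a' := (tmul α' c).1) (b' := (tmul α' c).2.1) (d' := (tmul α' c).2.2)
    (Nat.mul_pos hαa ha) (Nat.mul_pos hαa' ha)
    (by rw [tmul_det, tmul_det, hαα.1, hαα'.1])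
    (tmul_lt hαd hd) (tmul_lt hαd' hd) (hdvd α hαα) (hdvd α' hαα') h
  obtain ⟨h1, h2, h3⟩ := key
  exact Prod.ext h1 (Prod.ext h2 h3)

theorem card_nbrRoots (hp : p.Prime) (hM : 0 < M) (hζ : IsPrimitiveRoot ζ (p * M))
    {c : ℕ × ℕ × ℕ} (hc : c ∈ triples M) :
    (nbrRoots ζ p M c).card = dedekindPsi p := by
  rw [nbrRoots, Finset.card_image_of_injOn (nbr_injOn hp hM hζ hc), card_triples p hp.pos]

theorem root_nbrRoots [NeZero p] (hp : p.Prime) (hM : 0 < M) (hζ : ζ ^ (p * M) = 1)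
    {Φp : Polynomial ℤ[X]} (h : RootsAt k p (ζ ^ (p * M / p)) Φp)
    {c : ℕ × ℕ × ℕ} (hc : c ∈ triples M) {y : LaurentSeries k} (hy : y ∈ nbrRoots ζ p M c) :
    Φp.eval₂ (evalJ (Jtriple ζ (p * M) c)) y = 0 := by
  rw [nbrRoots] at hy
  obtain ⟨α, hα, rfl⟩ := Finset.mem_image.1 hy
  obtain ⟨a, b, d⟩ := c
  have hcc := (mem_triples hM).1 hc
  obtain ⟨ha, hd⟩ := IsPrimTriple.pos hM hcc
  have hdiv : d * p ∣ p * M := by
    rw [mul_comm d p]
    exact Nat.mul_dvd_mul_left p (Dvd.intro_left _ hcc.1)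
  exact eval₂_Jtriple_tmul hζ h ha hd hdiv ((mem_triples hp.pos).1 hα)

/-- Every root of `Φ_p(·, J_c)` is a neighbour. -/
theorem mem_nbrRoots_of_root [NeZero p] (hp : p.Prime) (hM : 0 < M)
    (hζ : IsPrimitiveRoot ζ (p * M))
    {Φp : Polynomial ℤ[X]} (hΦp : Φp.Monic) (hdeg : Φp.natDegree = dedekindPsi p)
    (h : RootsAt k p (ζ ^ (p * M / p)) Φp)
    {c : ℕ × ℕ × ℕ} (hc : c ∈ triples M) {y : LaurentSeries k}
    (hy : Φp.eval₂ (evalJ (Jtriple ζ (p * M) c)) y = 0) : y ∈ nbrRoots ζ p M c := by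
  have hζ1 : ζ ^ (p * M) = 1 := hζ.pow_eq_one
  have hmonic : (Φp.map (evalJ (Jtriple ζ (p * M) c))).Monic := hΦp.map _
  have hcard : (nbrRoots ζ p M c).card = (Φp.map (evalJ (Jtriple ζ (p * M) c))).natDegree := by
    rw [hΦp.natDegree_map, hdeg, card_nbrRoots hp hM hζ hc]
  refine (eval_eq_zero_iff_of_roots hmonic _ hcard ?_ y).1 (by rw [eval_map]; exact hy)
  intro z hz
  rw [eval_map]
  exact root_nbrRoots hp hM hζ1 h hc hz

/-- The product formula `Φ_p(·, J_c) = ∏ (X - J_(α c))`. -/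
theorem map_eq_prod_nbrRoots [NeZero p] (hp : p.Prime) (hM : 0 < M)
    (hζ : IsPrimitiveRoot ζ (p * M))
    {Φp : Polynomial ℤ[X]} (hΦp : Φp.Monic) (hdeg : Φp.natDegree = dedekindPsi p)
    (h : RootsAt k p (ζ ^ (p * M / p)) Φp)
    {c : ℕ × ℕ × ℕ} (hc : c ∈ triples M) :
    Φp.map (evalJ (Jtriple ζ (p * M) c)) = ∏ y ∈ nbrRoots ζ p M c, (X - C y) := by
  have hζ1 : ζ ^ (p * M) = 1 := hζ.pow_eq_one
  have hmonic : (Φp.map (evalJ (Jtriple ζ (p * M) c))).Monic := hΦp.map _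
  have hcard : (nbrRoots ζ p M c).card = (Φp.map (evalJ (Jtriple ζ (p * M) c))).natDegree := by
    rw [hΦp.natDegree_map, hdeg, card_nbrRoots hp hM hζ hc]
  refine eq_prod_of_roots hmonic _ hcard ?_
  intro z hz
  rw [eval_map]
  exact root_nbrRoots hp hM hζ1 h hc hz

end Neighbours

section Orbit

variable {k : Type*} [Field k] {N : ℕ} [NeZero N] {ζ : kˣ}

/-- The `p` bottom neighbours `(a0, b' d0, p d0)`, `b' < p`, of `c0 = (a0, 0, d0)` form one orbit
of `t ↦ ζ^(N/p) t` when the shift `(N/(d0 p)) a0` is prime to `p`; hence they are conjugate over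
`k(J(t^N))`. -/
theorem sameAnn_bot (hζ : ζ ^ N = 1) {p a0 d0 : ℕ} (hp : 0 < p) (hd0 : 0 < d0) (ha0 : 0 < a0)
    (hdiv : d0 * p ∣ N) (hcop : Nat.Coprime (N / (d0 * p) * a0) p) {b' : ℕ} (hb' : b' < p) :
    SameAnn (ratFuncHom (qExpand k N (jqModC k)) (transcendental_qExpand_jqModC N))
      (Jtriple ζ N (a0, 0 + 0 * d0, p * d0)) (Jtriple ζ N (a0, 0 + b' * d0, p * d0)) := by
  have hN0 : 0 < N := Nat.pos_of_ne_zero (NeZero.ne N)
  have hpd : p * d0 ∣ N := by rwa [mul_comm] at hdiv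
  have : NeZero (N / (p * d0) * a0) :=
    ⟨(Nat.mul_pos (Nat.div_pos (Nat.le_of_dvd hN0 hpd) (Nat.mul_pos hp hd0)) ha0).ne'⟩
  set s0 := N / (d0 * p) * a0 with hs0
  have hξ : (ζ ^ (N / p)) ^ N = 1 := by
    rw [← pow_mul, mul_comm, pow_mul, hζ, one_pow]
  have key : ∀ j : ℕ, SameAnn (ratFuncHom (qExpand k N (jqModC k))
      (transcendental_qExpand_jqModC N))
      (Jtriple ζ N (a0, 0 + 0 * d0, p * d0))
      (Jtriple ζ N (a0, 0 + (s0 * j % p) * d0, p * d0)) := by
    intro j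
    induction j with
    | zero =>
      rw [Nat.mul_zero, Nat.zero_mod]
      exact SameAnn.refl _ _
    | succ j ih =>
      refine ih.trans ?_
      have h1 := sameAnn_twist N (ζ ^ (N / p)) hξ
        (Jtriple ζ N (a0, 0 + (s0 * j % p) * d0, p * d0))
      rw [twist_Jtriple_bot hζ hd0 hp hdiv] at h1
      have h2 : (s0 * j % p + N / (d0 * p) * a0) % p = s0 * (j + 1) % p := by
        rw [← hs0, Nat.mod_add_mod]
        congr 1
      rw [h2] at h1
      exact h1
  obtain ⟨j, -, hj⟩ := Nat.exists_mul_mod_eq_of_coprime b' hcop hp.ne'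
  rw [Nat.mod_eq_of_lt hb'] at hj
  have := key j
  rw [hj] at this
  exact this

end Orbit

section Main

open scoped Classical

variable {k : Type} [Field k] {p M : ℕ}

/-- The step from a base point `c0 = (a0, 0, d0) ∈ triples M` whose bottom neighbours form one
twist orbit and whose top neighbour, if it is a root of `Φ_N`, is conjugate to a bottom one. -/
theorem step_of_base (hp : p.Prime) (hM : 0 < M) [hNZ : NeZero (p * M)] [NeZero p] [NeZero M]
    {ζ : kˣ} (hζ : IsPrimitiveRoot ζ (p * M))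
    (DM : ModularPolynomialData M) (Dp : ModularPolynomialData p)
    (D : ModularPolynomialData (p * M))
    (hirrM : Irreducible (redModPoly k DM.Φ))
    (hRM : RootsAt k M (ζ ^ (p * M / M)) DM.Φ)
    (hRp : RootsAt k p (ζ ^ (p * M / p)) Dp.Φ)
    (hRN : RootsAt k (p * M) (ζ ^ (p * M / (p * M))) D.Φ)
    (a0 d0 : ℕ) (hc0 : (a0, 0, d0) ∈ triples M)
    (hcop : Nat.Coprime (p * M / (d0 * p) * a0) p)
    (htop : Jtriple ζ (p * M) (tmul (p, 0, 1) (a0, 0, d0)) ∈ levelRoots ζ (p * M) (p * M) →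
      ∃ b', b' < p ∧ SameAnn (ratFuncHom (qExpand k (p * M) (jqModC k))
        (transcendental_qExpand_jqModC (p * M)))
        (Jtriple ζ (p * M) (tmul (p, 0, 1) (a0, 0, d0)))
        (Jtriple ζ (p * M) (a0, 0 + b' * d0, p * d0))) :
    Irreducible (redModPoly k D.Φ) := by
  have hN0 : 0 < p * M := Nat.mul_pos hp.pos hM
  have hζ1 : ζ ^ (p * M) = 1 := hζ.pow_eq_one
  have hMN : M ∣ p * M := Dvd.intro_left p rfl
  have hcc0 := (mem_triples hM).1 hc0
  obtain ⟨ha0, hd0⟩ := IsPrimTriple.pos hM hcc0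
  have hdiv0 : d0 * p ∣ p * M := by
    rw [mul_comm d0 p]
    exact Nat.mul_dvd_mul_left p (Dvd.intro_left _ hcc0.1)
  -- all roots in the fibre are conjugate to the bottom neighbour `b' = 0`
  have claim : ∀ y ∈ levelRoots ζ (p * M) (p * M),
      Dp.Φ.eval₂ (evalJ (Jtriple ζ (p * M) (a0, 0, d0))) y = 0 →
      SameAnn (ratFuncHom (qExpand k (p * M) (jqModC k)) (transcendental_qExpand_jqModC (p * M)))
        (Jtriple ζ (p * M) (a0, 0 + 0 * d0, p * d0)) y := by
    intro y hyN hy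
    have hmem := mem_nbrRoots_of_root hp hM hζ Dp.monic Dp.natDegree_eq hRp hc0 hy
    rw [nbrRoots] at hmem
    obtain ⟨α, hα, rfl⟩ := Finset.mem_image.1 hmem
    rw [triples_prime hp, Finset.mem_insert, Finset.mem_image] at hα
    rcases hα with rfl | ⟨b', hb', rfl⟩
    · obtain ⟨b', hb', hsame⟩ := htop hyN
      exact (sameAnn_bot hζ1 hp.pos hd0 ha0 hdiv0 hcop hb').trans hsame.symm
    · rw [Finset.mem_range] at hb'
      rw [tmul_bot hd0 hb']
      exact sameAnn_bot hζ1 hp.pos hd0 ha0 hdiv0 hcop hb'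
  refine step_frame (qExpand k (p * M) (jqModC k)) (transcendental_qExpand_jqModC (p * M))
    DM.Φ D.Φ Dp.Φ DM.monic D.monic hirrM (levelRoots ζ (p * M) M)
    (levelRoots ζ (p * M) (p * M)) ?_ ?_ ?_ ?_ ?_ ?_ (Jtriple ζ (p * M) (a0, 0, d0)) ?_ ?_
  · rw [card_levelRoots hζ hM hMN, DM.natDegree_eq]
  · rw [card_levelRoots hζ hN0 dvd_rfl, D.natDegree_eq]
  · intro y hy
    refine (eval₂_hom_congr ?_ _ _).trans (root_levelRoots hMN hRM hy)
    simp [evalJ]
  · intro y hy
    refine (eval₂_hom_congr ?_ _ _).trans (root_levelRoots dvd_rfl hRN hy)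
    simp [evalJ]
  · rw [D.natDegree_eq, ← card_triples _ hN0]
    exact (Finset.card_pos.2 ⟨(p * M, 0, 1),
      (mem_triples hN0).2 ⟨mul_one _, Nat.one_pos, by simp⟩⟩).ne'
  · intro y hy
    rw [levelRoots] at hy
    obtain ⟨g, hg, rfl⟩ := Finset.mem_image.1 hy
    obtain ⟨c, hc, α, hα, rfl⟩ := exists_factor hp hM hg
    refine ⟨Jtriple ζ (p * M) c, Finset.mem_image_of_mem _ hc, ?_⟩
    refine (eval₂_hom_congr ?_ _ _).trans
      (root_nbrRoots hp hM hζ1 hRp hc (Finset.mem_image_of_mem _ hα))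
    simp [evalJ]
  · exact Finset.mem_image_of_mem _ hc0
  · intro y hy y' hy' hr hr'
    have hr2 : Dp.Φ.eval₂ (evalJ (Jtriple ζ (p * M) (a0, 0, d0))) y = 0 :=
      (eval₂_hom_congr (by simp [evalJ]) _ _).trans hr
    have hr2' : Dp.Φ.eval₂ (evalJ (Jtriple ζ (p * M) (a0, 0, d0))) y' = 0 :=
      (eval₂_hom_congr (by simp [evalJ]) _ _).trans hr'
    exact (claim y hy hr2).symm.trans (claim y' hy' hr2')

/-- **THE CONCRETE STEP** (W2e): level `M` ⟹ level `p M`, over an algebraically closed field in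
which `p M ≠ 0`. -/
theorem stepStatement (k : Type) [Field k] [IsAlgClosed k]
    (hmod : ∀ (m : ℕ) [NeZero m], HasModPoly m)
    (hdelta : ∀ (p : ℕ) [NeZero p], p.Prime → ∃ P, IsDeltaQuotPoly p P) :
    H16.StepStatement k := by
  intro p M hp hM hpMk IH hNZ D hD
  have hN0 : 0 < p * M := Nat.mul_pos hp.pos hM
  haveI : NeZero p := ⟨hp.ne_zero⟩
  haveI : NeZero M := ⟨hM.ne'⟩
  haveI : NeZero ((p * M : ℕ) : k) := ⟨hpMk⟩
  have hpk : (p : k) ≠ 0 := by
    intro h0
    apply hpMk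
    rw [Nat.cast_mul, h0, zero_mul]
  -- a primitive `pM`-th root of unity
  obtain ⟨ζ0, hζ0⟩ := HasEnoughRootsOfUnity.exists_primitiveRoot k (p * M)
  obtain ⟨ζ, rfl⟩ := hζ0.isUnit hN0.ne'
  have hζ : IsPrimitiveRoot ζ (p * M) := IsPrimitiveRoot.coe_units_iff.1 hζ0
  have hζ1 : ζ ^ (p * M) = 1 := hζ.pow_eq_one
  -- the modular polynomials of levels `M` and `p`
  obtain ⟨DM, hDM⟩ := hmod M
  obtain ⟨Dp, hDp⟩ := hmod p
  have hirrM : Irreducible (redModPoly k DM.Φ) := IH inferInstance DM hDM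
  have hMN : M ∣ p * M := Dvd.intro_left p rfl
  have hpN : p ∣ p * M := Dvd.intro M rfl
  have hζM := isPrimitiveRoot_pow_div hζ hMN
  have hζp := isPrimitiveRoot_pow_div hζ hpN
  have hRM : RootsAt k M (ζ ^ (p * M / M)) DM.Φ := hDM k _ hζM
  have hRp : RootsAt k p (ζ ^ (p * M / p)) Dp.Φ := hDp k _ hζp
  have hRN : RootsAt k (p * M) (ζ ^ (p * M / (p * M))) D.Φ :=
    hD k _ (isPrimitiveRoot_pow_div hζ dvd_rfl)
  by_cases hpM : p ∣ M
  · -- case `p ∣ M`: base point `(1, 0, M)`, i.e. `J(q^(1/M)) = J(t^p)`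
    have hc0 : ((1, 0, M) : ℕ × ℕ × ℕ) ∈ triples M :=
      (mem_triples hM).2 ⟨one_mul _, hM, by simp⟩
    refine step_of_base hp hM hζ DM Dp D hirrM hRM hRp hRN 1 M hc0 ?_ ?_
    · rw [mul_comm M p, Nat.div_self hN0, mul_one]
      exact Nat.coprime_one_left p
    · intro htop
      exfalso
      rw [levelRoots] at htop
      obtain ⟨g, hg, hgeq⟩ := Finset.mem_image.1 htop
      have hgg := (mem_triples hN0).1 hg
      obtain ⟨hga, hgd⟩ := IsPrimTriple.pos hN0 hgg
      rw [tmul_top, mul_one, mul_zero, Nat.zero_mod] at hgeq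
      obtain ⟨a, b, d⟩ := g
      obtain ⟨h1, h2, h3⟩ := Jtriple_injective hζ hN0 hga hp.pos hgg.1 hgg.2.1 hM
        (Dvd.intro_left _ hgg.1) hMN hgeq
      simp only at h1 h2 h3
      subst h1 h2 h3
      have hmem : tmul (a, 0, 1) ((1, 0, d) : ℕ × ℕ × ℕ) ∈ triples (a * d) := by
        rw [tmul_top, mul_one, mul_zero, Nat.zero_mod]
        exact hg
      exact (tmul_top_mem_iff hp hM hc0).1 hmem hpM
  · -- case `p ∤ M`: base point `(M, 0, 1)`, i.e. `J(q^M)`
    have hc0 : ((M, 0, 1) : ℕ × ℕ × ℕ) ∈ triples M :=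
      (mem_triples hM).2 ⟨mul_one _, Nat.one_pos, by simp⟩
    refine step_of_base hp hM hζ DM Dp D hirrM hRM hRp hRN M 1 hc0 ?_ ?_
    · rw [one_mul, Nat.mul_div_cancel_left M hp.pos]
      have hcop : Nat.Coprime M p := ((Nat.Prime.coprime_iff_not_dvd hp).2 hpM).symm
      exact Nat.Coprime.mul_left hcop hcop
    · intro _
      -- the top neighbour is `J(t^(N p M))`, the base point is `J(t^(N M))`
      have htopeq : Jtriple ζ (p * M) (tmul (p, 0, 1) ((M, 0, 1) : ℕ × ℕ × ℕ)) =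
          qExpand k (p * M * (p * M)) (jqModC k) := by
        rw [tmul_top, mul_zero, Nat.zero_mod, Jtriple_top]
      have hx0eq : Jtriple ζ (p * M) ((M, 0, 1) : ℕ × ℕ × ℕ) =
          qExpand k (p * M * M) (jqModC k) := Jtriple_top ζ (p * M) M
      -- W2c: `J(t^(N p M)) ∉ k(J(t^N), J(t^(N M)))`
      obtain ⟨P, hP⟩ := hdelta p hp
      have hcore := H30.qExpand_jqModC_not_mem_adjoin_of_prime k hp hpk hP
      have hnot := H59.prime_step hp hpM DM.monic
        (DM.natDegree_eq.trans (card_triples M hM).symm) Dp.monic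
        (Dp.natDegree_eq.trans (card_triples p hp.pos).symm) hζM hζp hRM hRp hcore (p * M)
      -- the product formula with the top neighbour split off
      have hprod := map_eq_prod_nbrRoots hp hM hζ Dp.monic Dp.natDegree_eq hRp hc0
      have htopmem : Jtriple ζ (p * M) (tmul (p, 0, 1) ((M, 0, 1) : ℕ × ℕ × ℕ)) ∈
          nbrRoots ζ p M (M, 0, 1) := by
        rw [nbrRoots]
        refine Finset.mem_image_of_mem _ ?_
        rw [triples_prime hp]
        exact Finset.mem_insert_self _ _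
      rw [← Finset.mul_prod_erase _ _ htopmem] at hprod
      obtain ⟨y1, hy1, hsame⟩ := exists_sameAnn_of_not_mem_adjoin
        (qExpand k (p * M) (jqModC k)) (transcendental_qExpand_jqModC (p * M)) Dp.Φ
        (qExpand k (p * M * M) (jqModC k)) (qExpand k (p * M * (p * M)) (jqModC k))
        ((nbrRoots ζ p M (M, 0, 1)).erase (qExpand k (p * M * (p * M)) (jqModC k))).val
        (by
          rw [← htopeq, ← hx0eq]
          refine Eq.trans ?_ hprod
          congr 1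
          exact ringHom_X_ext _ _ (by simp [evalJ])) hnot
      rw [Finset.mem_val, Finset.mem_erase, nbrRoots] at hy1
      obtain ⟨hne, hy1'⟩ := hy1
      obtain ⟨α, hα, rfl⟩ := Finset.mem_image.1 hy1'
      rw [triples_prime hp, Finset.mem_insert, Finset.mem_image] at hα
      rcases hα with rfl | ⟨b', hb', rfl⟩
      · exact absurd htopeq hne
      · rw [Finset.mem_range] at hb'
        refine ⟨b', hb', ?_⟩
        rw [tmul_bot Nat.one_pos hb'] at hsame
        rw [htopeq]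
        exact hsame

end Main

end Fermat.Agent.S28.H50
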