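import Mathlib

/-!
# S28 / W3b-contract (helper69): descent of integrality, `A ∩ ϖB = ϖA`

`P ⊆ O` integrally closed domains with the same fraction field `E`, `ϖ ∈ P` with
`P ∩ ϖO = ϖP`.  If `x` (in a field `F ⊇ E`) is integral over `P`, `y` is integral over `O`
and `x = ϖ y`, then `y` is integral over `P`.

Consequence (the contract `A ∩ ϖB = ϖA` of the Igusa argument): with `A` the integral closure of
`P` and `B` the integral closure of `O` in `F`, an element of `A` which is divisible by `ϖ` in `B`
is divisible by `ϖ` in `A`.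
-/

set_option autoImplicit false
set_option linter.style.haveILetI false

open Polynomial

namespace Fermat.Agent.S28.H69

section Core

variable {P O : Type*} [CommRing P] [CommRing O] [IsDomain O] [Algebra P O]

/-- iterating the contraction hypothesis `P ∩ ϖO = ϖP`. -/
theorem exists_eq_pow_mul_of_cap {ϖ : P}
    (hcap : ∀ (a : P) (o : O), algebraMap P O a = algebraMap P O ϖ * o → ∃ a' : P, a = ϖ * a')
    (hϖO : algebraMap P O ϖ ≠ 0) (k : ℕ) (a : P) (o : O)
    (h : algebraMap P O a = algebraMap P O ϖ ^ k * o) :
    ∃ a' : P, a = ϖ ^ k * a' ∧ algebraMap P O a' = o := by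
  induction k generalizing a o with
  | zero =>
    refine ⟨a, by simp, ?_⟩
    simpa using h
  | succ k ih =>
    have h1 : algebraMap P O a = algebraMap P O ϖ * (algebraMap P O ϖ ^ k * o) := by
      rw [h, pow_succ]; ring
    obtain ⟨a₁, ha₁⟩ := hcap a _ h1
    have h2 : algebraMap P O a₁ = algebraMap P O ϖ ^ k * o := by
      have : algebraMap P O ϖ * algebraMap P O a₁ =
          algebraMap P O ϖ * (algebraMap P O ϖ ^ k * o) := by
        rw [← map_mul, ← ha₁, h1]
      exact mul_left_cancel₀ hϖO this
    obtain ⟨a', ha', hao⟩ := ih a₁ o h2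
    exact ⟨a', by rw [ha₁, ha', pow_succ]; ring, hao⟩

/-- **Descent of integrality (core form).** `E` is the common fraction field of `P` and `O`. -/
theorem isIntegral_of_mul_eq_core [IsDomain P] [IsIntegrallyClosed P] [IsIntegrallyClosed O]
    (E : Type*) {F : Type*}
    [Field E] [Algebra P E] [IsFractionRing P E] [Algebra O E] [IsFractionRing O E]
    [IsScalarTower P O E]
    [Field F] [Algebra E F] [Algebra P F] [Algebra O F] [IsScalarTower P E F]
    [IsScalarTower O E F] {ϖ : P} (hϖ0 : ϖ ≠ 0)
    (hcap : ∀ (a : P) (o : O), algebraMap P O a = algebraMap P O ϖ * o → ∃ a' : P, a = ϖ * a')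
    {x y : F} (hx : IsIntegral P x) (hy : IsIntegral O y)
    (hxy : x = algebraMap P F ϖ * y) : IsIntegral P y := by
  have hinjPE : Function.Injective (algebraMap P E) := IsFractionRing.injective P E
  have hinjOE : Function.Injective (algebraMap O E) := IsFractionRing.injective O E
  have hPOE : ∀ a : P, algebraMap O E (algebraMap P O a) = algebraMap P E a := fun a =>
    (IsScalarTower.algebraMap_apply P O E a).symm
  have hϖO : algebraMap P O ϖ ≠ 0 := by
    intro h
    apply hϖ0
    apply hinjPE
    rw [← hPOE, h, map_zero, map_zero]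
  set c : E := algebraMap P E ϖ with hc
  have hc0 : c ≠ 0 := by
    rw [hc]; exact fun h => hϖ0 (hinjPE (by rw [h, map_zero]))
  -- minimal polynomials over `E`
  set m := minpoly P x with hm
  set μ := minpoly O y with hμ
  have hmE : minpoly E x = m.map (algebraMap P E) :=
    minpoly.isIntegrallyClosed_eq_field_fractions' E hx
  have hμE : minpoly E y = μ.map (algebraMap O E) :=
    minpoly.isIntegrallyClosed_eq_field_fractions' E hy
  have hmmonic : m.Monic := minpoly.monic hx
  have hμmonic : μ.Monic := minpoly.monic hy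
  have hxE : IsIntegral E x := hx.tower_top
  have hyE : IsIntegral E y := hy.tower_top
  have hxy' : x = algebraMap E F c * y := by
    rw [hxy, hc, ← IsScalarTower.algebraMap_apply]
  have hyx : y = algebraMap E F c⁻¹ * x := by
    rw [hxy', ← mul_assoc, ← map_mul, inv_mul_cancel₀ hc0, map_one, one_mul]
  -- `scaleRoots` of the minimal polynomial of `y` kills `x`, and conversely
  have h1 : aeval x ((minpoly E y).scaleRoots c) = 0 := by
    rw [hxy']; exact scaleRoots_aeval_eq_zero (minpoly.aeval E y)
  have h2 : aeval y ((minpoly E x).scaleRoots c⁻¹) = 0 := by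
    rw [hyx]; exact scaleRoots_aeval_eq_zero (minpoly.aeval E x)
  have hd1 : minpoly E x ∣ (minpoly E y).scaleRoots c := minpoly.dvd E x h1
  have hd2 : minpoly E y ∣ (minpoly E x).scaleRoots c⁻¹ := minpoly.dvd E y h2
  have hmon1 : ((minpoly E y).scaleRoots c).Monic :=
    (monic_scaleRoots_iff c).mpr (minpoly.monic hyE)
  have hmon2 : ((minpoly E x).scaleRoots c⁻¹).Monic :=
    (monic_scaleRoots_iff c⁻¹).mpr (minpoly.monic hxE)
  have hle1 : (minpoly E x).natDegree ≤ (minpoly E y).natDegree := by
    have := natDegree_le_of_dvd hd1 hmon1.ne_zero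
    rwa [natDegree_scaleRoots] at this
  have hle2 : (minpoly E y).natDegree ≤ (minpoly E x).natDegree := by
    have := natDegree_le_of_dvd hd2 hmon2.ne_zero
    rwa [natDegree_scaleRoots] at this
  have heq : (minpoly E y).scaleRoots c = minpoly E x :=
    eq_of_monic_of_dvd_of_natDegree_le (minpoly.monic hxE) hmon1 hd1
      (by rw [natDegree_scaleRoots]; exact hle2)
  have hdeg : (minpoly E y).natDegree = μ.natDegree := by
    rw [hμE, hμmonic.natDegree_map]
  -- coefficientwise
  have hcoeff : ∀ i, algebraMap P O (m.coeff i) =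
      algebraMap P O ϖ ^ (μ.natDegree - i) * μ.coeff i := by
    intro i
    apply hinjOE
    have := congrArg (fun q => q.coeff i) heq
    simp only [coeff_scaleRoots, hdeg] at this
    rw [hmE, hμE, coeff_map, coeff_map] at this
    rw [hPOE, map_mul, map_pow, hPOE, ← this, mul_comm]
  -- every coefficient of `μ` comes from `P`
  have hlift : μ ∈ lifts (algebraMap P O) := by
    rw [lifts_iff_coeff_lifts]
    intro i
    obtain ⟨a', -, ha'⟩ := exists_eq_pow_mul_of_cap hcap hϖO _ _ _ (hcoeff i)
    exact ⟨a', ha'⟩
  obtain ⟨μ', hμ', -, hμ'monic⟩ := lifts_and_natDegree_eq_and_monic hlift hμmonic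
  refine ⟨μ', hμ'monic, ?_⟩
  have h3 : aeval y μ = 0 := minpoly.aeval O y
  have htower : (algebraMap O F).comp (algebraMap P O) = algebraMap P F := by
    ext a
    rw [RingHom.comp_apply, IsScalarTower.algebraMap_apply O E F, hPOE,
      ← IsScalarTower.algebraMap_apply P E F]
  rw [← hμ', aeval_def, eval₂_map, htower] at h3
  exact h3

end Core

section Localization

variable {P O : Type*} [CommRing P] [IsDomain P] [CommRing O] [Algebra P O] {ϖ : P}
  [hI : (Ideal.span {ϖ}).IsPrime] [IsLocalization.AtPrime O (Ideal.span {ϖ})]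

omit hI in
theorem primeCompl_span_le_nonZeroDivisors [hI : (Ideal.span {ϖ}).IsPrime] :
    (Ideal.span {ϖ}).primeCompl ≤ nonZeroDivisors P := by
  intro c hc
  rw [mem_nonZeroDivisors_iff_ne_zero]
  rintro rfl
  exact hc (Ideal.zero_mem _)

/-- the contraction property `P ∩ ϖO = ϖP` for `O = P_(ϖ)`, `ϖ` prime. -/
theorem cap_of_isLocalization_atPrime (hϖ : Prime ϖ) (a : P) (o : O)
    (h : algebraMap P O a = algebraMap P O ϖ * o) : ∃ a' : P, a = ϖ * a' := by
  obtain ⟨⟨b, c⟩, hbc⟩ := IsLocalization.surj (Ideal.span {ϖ}).primeCompl o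
  have hinj : Function.Injective (algebraMap P O) :=
    IsLocalization.injective O (primeCompl_span_le_nonZeroDivisors (ϖ := ϖ))
  have h1 : a * c = ϖ * b := by
    apply hinj
    rw [map_mul, map_mul, h, mul_assoc, hbc]
  have hc : ¬ ϖ ∣ (c : P) := by
    intro hdvd
    exact c.2 (Ideal.mem_span_singleton.mpr hdvd)
  have hdvd : ϖ ∣ a * c := ⟨b, h1⟩
  rcases hϖ.dvd_or_dvd hdvd with h2 | h2
  · exact h2
  · exact absurd h2 hc

end Localization

section Final

/-- **Descent of integrality** for `O = P_(ϖ)`: the contract `A ∩ ϖB = ϖA`.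
`P` an integrally closed domain, `ϖ ∈ P` prime, `O` the localization of `P` at `(ϖ)`, `F` a
field containing `P` and `O` compatibly.  If `x` is integral over `P`, `y` is integral over `O`
and `x = ϖ y`, then `y` is integral over `P`. -/
theorem isIntegral_of_mul_eq {P O F : Type*} [CommRing P] [IsDomain P] [IsIntegrallyClosed P]
    [CommRing O] [Algebra P O] {ϖ : P} (hϖ : Prime ϖ)
    [hI : (Ideal.span {ϖ}).IsPrime] [IsLocalization.AtPrime O (Ideal.span {ϖ})]
    [Field F] [Algebra P F] [Algebra O F] [IsScalarTower P O F] [FaithfulSMul P F]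
    {x y : F} (hx : IsIntegral P x) (hy : IsIntegral O y)
    (hxy : x = algebraMap P F ϖ * y) : IsIntegral P y := by
  classical
  have hle : (Ideal.span {ϖ}).primeCompl ≤ nonZeroDivisors P :=
    primeCompl_span_le_nonZeroDivisors (ϖ := ϖ)
  haveI : IsDomain O := IsLocalization.isDomain_of_le_nonZeroDivisors O hle
  haveI : IsIntegrallyClosed O := isIntegrallyClosed_of_isLocalization O _ hle
  -- the common fraction field
  let E := FractionRing P
  letI : Algebra E F := FractionRing.liftAlgebra P F
  haveI : IsScalarTower P E F := FractionRing.isScalarTower_liftAlgebra P F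
  -- `O → E`
  have hunit : ∀ c : (Ideal.span {ϖ}).primeCompl, IsUnit (algebraMap P E (c : P)) := by
    intro c
    apply IsUnit.mk0
    intro h0
    have : (c : P) = 0 := IsFractionRing.injective P E (by rw [h0, map_zero])
    exact c.2 (this ▸ Ideal.zero_mem _)
  let φ : O →+* E := IsLocalization.lift (M := (Ideal.span {ϖ}).primeCompl) hunit
  letI : Algebra O E := φ.toAlgebra
  haveI : IsScalarTower P O E := IsScalarTower.of_algebraMap_eq fun a => by
    rw [RingHom.algebraMap_toAlgebra]
    exact (IsLocalization.lift_eq hunit a).symm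
  haveI : IsFractionRing O E :=
    IsFractionRing.isFractionRing_of_isDomain_of_isLocalization (Ideal.span {ϖ}).primeCompl O E
  haveI : IsScalarTower O E F := IsScalarTower.of_algebraMap_eq' (by
    apply IsLocalization.ringHom_ext (Ideal.span {ϖ}).primeCompl
    ext a
    rw [RingHom.comp_apply, RingHom.comp_apply, RingHom.comp_apply,
      ← IsScalarTower.algebraMap_apply P O F, ← IsScalarTower.algebraMap_apply P O E,
      ← IsScalarTower.algebraMap_apply P E F])
  exact isIntegral_of_mul_eq_core E hϖ.ne_zero (cap_of_isLocalization_atPrime hϖ) hx hy hxy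

end Final

end Fermat.Agent.S28.H69
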