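import Mathlib
import Fermat.Prelude.Def_ModularCurve_IgusaScheme
import Fermat.Agent.S28.H69_Contract

/-!
# S28 / W3d-setup (helper69): the charts of the Igusa scheme as integral closures of `ℤ_(ℓ)[X]`

For `s : F = modularFunctionFieldFull N` (in practice `s = j` or `s = 1/j`):

* `mem_chartAlg_singleton_iff` : `x ∈ chartAlg N ℓ {s}` iff `x` is integral over `ℤ_(ℓ)[X]`
  acting through `X ↦ s`;
* `mem_chartAlg_of_mul_eq` : the contract `A ∩ ℓB = ℓA` for the chart `A = chartAlg N ℓ {s}`: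
  if `x ∈ A`, `x = ℓ y` and `y` is integral over the Gauss localization `O = ℤ_(ℓ)[X]_(ℓ)` (acting
  on `F` through any ring hom extending `X ↦ s`), then `y ∈ A`.
-/

set_option autoImplicit false
set_option linter.style.haveILetI false

open Polynomial ModularCurve ModularCurve.IgusaScheme

namespace Fermat.Agent.S28.H69

section Generic

variable {R A : Type*} [CommRing R] [CommRing A] [Algebra R A]

/-- integrality over the range of an algebra hom `φ : R[X] →ₐ[R] A` is integrality along `φ`. -/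
theorem isIntegral_range_iff (φ : R[X] →ₐ[R] A) (x : A) :
    IsIntegral φ.range x ↔ φ.toRingHom.IsIntegralElem x := by
  constructor
  · rintro ⟨p, hmonic, hp⟩
    -- lift the coefficients along the surjection `R[X] → φ.range`
    have hsurj : Function.Surjective φ.rangeRestrict := φ.rangeRestrict_surjective
    have hlift : p ∈ lifts φ.rangeRestrict.toRingHom := by
      rw [lifts_iff_coeff_lifts]
      intro n
      obtain ⟨r, hr⟩ := hsurj (p.coeff n)
      exact ⟨r, hr⟩
    obtain ⟨q, hq, -, hqmonic⟩ := lifts_and_natDegree_eq_and_monic hlift hmonic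
    refine ⟨q, hqmonic, ?_⟩
    rw [← hq, eval₂_map] at hp
    exact hp
  · rintro ⟨q, hqmonic, hq⟩
    refine ⟨q.map φ.rangeRestrict.toRingHom, hqmonic.map _, ?_⟩
    rw [eval₂_map]
    exact hq

end Generic

section Charts

variable (N : ℕ) [NeZero N] (ℓ : ℕ) [Fact ℓ.Prime]

set_option quotPrecheck false in
local notation "ℤℓ" => ↥(GaloisRep.ratLocalizedAt ℓ)
set_option quotPrecheck false in
local notation "F" => ↥(modularFunctionFieldFull N)

/-- `x ∈ chartAlg N ℓ {s}` iff `x` is integral over `ℤ_(ℓ)[X]` acting through `X ↦ s`. -/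
theorem mem_chartAlg_singleton_iff (s x : F) :
    x ∈ chartAlg N ℓ {s} ↔ (aeval (R := ℤℓ) s).toRingHom.IsIntegralElem x := by
  rw [mem_chartAlg_iff, Algebra.adjoin_singleton_eq_range_aeval]
  exact isIntegral_range_iff (aeval (R := ℤℓ) s) x

/-- **The contract `A ∩ ℓB = ℓA` for a chart.**  `O` is the Gauss localization of `ℤ_(ℓ)[X]` at
`(ℓ)`, acting on `F` through a ring hom `ι` extending `X ↦ s` (`s` transcendental).  If
`x ∈ chartAlg N ℓ {s}`, `x = ℓ y` and `y` is integral over `O`, then `y ∈ chartAlg N ℓ {s}`. -/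
theorem mem_chartAlg_of_mul_eq (s : F) (hs : Function.Injective (aeval (R := ℤℓ) s))
    [IsIntegrallyClosed ℤℓ[X]] (hprime : Prime (C ((ℓ : ℕ) : ℤℓ) : ℤℓ[X]))
    {O : Type*} [CommRing O] [Algebra ℤℓ[X] O]
    [hI : (Ideal.span {(C ((ℓ : ℕ) : ℤℓ) : ℤℓ[X])}).IsPrime]
    [IsLocalization.AtPrime O (Ideal.span {(C ((ℓ : ℕ) : ℤℓ) : ℤℓ[X])})]
    (ι : O →+* F) (hι : ∀ p : ℤℓ[X], ι (algebraMap ℤℓ[X] O p) = aeval s p)
    {x y : F} (hx : x ∈ chartAlg N ℓ {s}) (hy : ι.IsIntegralElem y)
    (hxy : x = ((ℓ : ℕ) : F) * y) : y ∈ chartAlg N ℓ {s} := by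
  rw [mem_chartAlg_singleton_iff] at hx ⊢
  letI : Algebra ℤℓ[X] F := (aeval (R := ℤℓ) s).toRingHom.toAlgebra
  letI : Algebra O F := ι.toAlgebra
  haveI : IsScalarTower ℤℓ[X] O F := IsScalarTower.of_algebraMap_eq fun p => (hι p).symm
  haveI : FaithfulSMul ℤℓ[X] F := (faithfulSMul_iff_algebraMap_injective ℤℓ[X] F).mpr hs
  have hx' : IsIntegral ℤℓ[X] x := hx
  have hy' : IsIntegral O y := hy
  have hxy' : x = algebraMap ℤℓ[X] F (C ((ℓ : ℕ) : ℤℓ)) * y := by
    rw [hxy]
    congr 1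
    change _ = aeval s (C ((ℓ : ℕ) : ℤℓ))
    rw [aeval_C, map_natCast]
  exact isIntegral_of_mul_eq hprime hx' hy' hxy'

/-- `j_N = j(q^N)` as an element of `F`. -/
noncomputable def jNFull : F := ⟨qExpand ℚ N jq, jqd_mem_full N dvd_rfl⟩

@[simp] theorem coe_jNFull : (jNFull N : LaurentSeries ℚ) = jqN N := rfl

/-- any ring hom `ℤ[X] → F` with `X ↦ j` becomes the prelude's `evalAtJ` in `ℚ((q))`. -/
theorem subtype_comp_eq_evalAtJ (ψ : ℤ[X] →+* F) (hψ : ψ X = jFull N) :
    ((modularFunctionFieldFull N).val : F →+* LaurentSeries ℚ).comp ψ = evalAtJ := by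
  apply Polynomial.ringHom_ext
  · intro a
    simp only [evalAtJ, eq_intCast, map_intCast]
  · rw [RingHom.comp_apply, hψ, evalAtJ_X]
    rfl

/-- **(iii)** The modular polynomial of a `ModularPolynomialData N`, pushed to `F` along any ring
hom `ψ : ℤ[X] → F` with `ψ X = j`, kills `j_N` (in `F`, not only in `ℚ((q))`). -/
theorem eval₂_jNFull_eq_zero (D : ModularPolynomialData N) (ψ : ℤ[X] →+* F)
    (hψ : ψ X = jFull N) : D.Φ.eval₂ ψ (jNFull N) = 0 := by
  apply Subtype.val_injective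
  have h := D.eval_eq_zero
  rw [← subtype_comp_eq_evalAtJ N ψ hψ] at h
  have h2 : ((modularFunctionFieldFull N).val : F →+* LaurentSeries ℚ)
      (D.Φ.eval₂ ψ (jNFull N)) = D.Φ.eval₂
        (((modularFunctionFieldFull N).val : F →+* LaurentSeries ℚ).comp ψ) (jqN N) := by
    rw [Polynomial.hom_eval₂]
    rfl
  change ((modularFunctionFieldFull N).val : F →+* LaurentSeries ℚ)
      (D.Φ.eval₂ ψ (jNFull N)) = 0
  rw [h2, h]

/-- the same statement as a root of the mapped polynomial. -/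
theorem aeval_jNFull_map_eq_zero (D : ModularPolynomialData N) {O : Type*} [CommRing O]
    [Algebra O F] (φ : ℤ[X] →+* O) (hφ : algebraMap O F (φ X) = jFull N) :
    aeval (jNFull N) (D.Φ.map φ) = 0 := by
  rw [aeval_def, eval₂_map]
  exact eval₂_jNFull_eq_zero N D ((algebraMap O F).comp φ) hφ

end Charts

end Fermat.Agent.S28.H69
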