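import Mathlib
import Fermat.Prelude.Def_ModularCurve_IgusaScheme
import Fermat.Agent.S28.H69_ChartSetup

/-!
# S28 / W3d (helper69): generation of `F` by `j_N` over `ℤ_(ℓ)[s]`, `s = j` or `s = 1/j`

From the prelude proposition `FunctionFieldGeneration N` (every `j(q^d)`, `d ∣ N`, lies in
`ℚ(j, j_N)`) and a `ModularPolynomialData N` (algebraicity of `j_N` over `ℚ(j)`): every `x ∈ F`
satisfies `c(s) · x = g(s, j_N)` for some non-zero `c ∈ ℤ_(ℓ)[X]` and `g ∈ ℤ_(ℓ)[X][Y]`, for any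
`s ∈ F` generating `ℚ(j)` over `ℚ` (in particular `s = j` and `s = 1/j`).

Main results (`F = modularFunctionFieldFull N`, `ℤℓ = GaloisRep.ratLocalizedAt ℓ`):

* `exists_gen_frac` : the general statement for `s : F` with `ℚ⟮(s : ℚ((q)))⟯ = ℚ⟮jq⟯`;
* `exists_gen_frac_jFull`, `exists_gen_frac_jFull_inv` : the two charts;
* `exists_mul_mem_adjoin_jFull`, `exists_mul_mem_adjoin_jFull_inv` : the same in the form
  `aeval s c * x ∈ Algebra.adjoin ℤℓ[X] {j_N}` for the algebra structure `X ↦ s`.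
-/

set_option autoImplicit false
set_option linter.style.haveILetI false

open Polynomial ModularCurve ModularCurve.IgusaScheme IntermediateField

namespace Fermat.Agent.S28.H69

section Ambient

variable (N : ℕ) [NeZero N] (s : LaurentSeries ℚ)

/-- the ring hom `ℤ[X] → ℚ((q))`, `X ↦ s`. -/
noncomputable def evalAtS : ℤ[X] →+* LaurentSeries ℚ := (aeval (R := ℤ) s).toRingHom

@[simp] theorem evalAtS_X : evalAtS s X = s := by simp [evalAtS]

@[simp] theorem evalAtS_C (a : ℤ) : evalAtS s (C a) = algebraMap ℚ (LaurentSeries ℚ) (a : ℚ) := by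
  simp [evalAtS]

theorem evalAtS_jq : evalAtS jq = evalAtJ := rfl

/-- the predicate "`c(s) y = g(s, j_N)` with integer polynomials". -/
def IsGenFrac (y : LaurentSeries ℚ) : Prop :=
  ∃ c : ℤ[X], c ≠ 0 ∧ ∃ g : ℤ[X][X], evalAtS s c * y = g.eval₂ (evalAtS s) (jqN N)

theorem isAlgebraic_jqN (D : ModularPolynomialData N) : IsAlgebraic ℚ⟮jq⟯ (jqN N) := by
  refine ⟨D.toAdjoin, D.toAdjoin_monic.ne_zero, ?_⟩
  rw [ModularPolynomialData.toAdjoin, aeval_def, eval₂_map, algebraMap_comp_evalAtJGen]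
  exact D.eval_eq_zero

theorem evalAtS_eq_aeval_map (p : ℤ[X]) :
    evalAtS s p = aeval (R := ℚ) s (p.map (algebraMap ℤ ℚ)) := by
  have h : evalAtS s = ((aeval (R := ℚ) s).toRingHom.comp (mapRingHom (algebraMap ℤ ℚ))) := by
    apply Polynomial.ringHom_ext
    · intro a
      simp [evalAtS]
    · simp [evalAtS]
  rw [h]
  rfl

theorem zsmul_poly_eq (b : ℤ) (r : ℚ[X]) : b • r = C (b : ℚ) * r := by
  ext n
  simp

variable {s}

theorem isGenFrac_of_mem_adjoin_simple {u : LaurentSeries ℚ} (hu : u ∈ ℚ⟮s⟯) :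
    IsGenFrac N s u := by
  obtain ⟨r, t, rfl⟩ := (mem_adjoin_simple_iff ℚ u).mp hu
  by_cases ht : aeval s t = 0
  · refine ⟨1, one_ne_zero, 0, ?_⟩
    rw [ht, div_zero, mul_zero, eval₂_zero]
  · obtain ⟨br, hbr, hr⟩ := IsLocalization.integerNormalization_spec (nonZeroDivisors ℤ) r
    obtain ⟨bt, hbt, htt⟩ := IsLocalization.integerNormalization_spec (nonZeroDivisors ℤ) t
    set r' := IsLocalization.integerNormalization (nonZeroDivisors ℤ) r with hr'
    set t' := IsLocalization.integerNormalization (nonZeroDivisors ℤ) t with ht'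
    have hbr0 : (br : ℤ) ≠ 0 := nonZeroDivisors.ne_zero hbr
    have hbt0 : (bt : ℤ) ≠ 0 := nonZeroDivisors.ne_zero hbt
    have hEr : evalAtS s r' = algebraMap ℚ (LaurentSeries ℚ) (br : ℚ) * aeval s r := by
      rw [evalAtS_eq_aeval_map, hr, zsmul_poly_eq, map_mul, aeval_C]
    have hEt : evalAtS s t' = algebraMap ℚ (LaurentSeries ℚ) (bt : ℚ) * aeval s t := by
      rw [evalAtS_eq_aeval_map, htt, zsmul_poly_eq, map_mul, aeval_C]
    have hbtQ : algebraMap ℚ (LaurentSeries ℚ) (bt : ℚ) ≠ 0 := by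
      rw [Ne, map_eq_zero]
      exact_mod_cast hbt0
    have ht'0 : t' ≠ 0 := by
      intro h
      rw [h, map_zero] at hEt
      exact (mul_ne_zero hbtQ ht) hEt.symm
    refine ⟨C br * t', mul_ne_zero (by simpa using hbr0) ht'0, C (C bt * r'), ?_⟩
    rw [eval₂_C, map_mul, map_mul, hEr, hEt, evalAtS_C, evalAtS_C]
    field_simp

variable (s)

theorem IsGenFrac.add {y z : LaurentSeries ℚ} (hy : IsGenFrac N s y) (hz : IsGenFrac N s z) :
    IsGenFrac N s (y + z) := by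
  obtain ⟨c₁, hc₁, g₁, h₁⟩ := hy
  obtain ⟨c₂, hc₂, g₂, h₂⟩ := hz
  refine ⟨c₁ * c₂, mul_ne_zero hc₁ hc₂, C c₂ * g₁ + C c₁ * g₂, ?_⟩
  rw [eval₂_add, eval₂_mul, eval₂_mul, eval₂_C, eval₂_C, ← h₁, ← h₂, map_mul]
  ring

theorem IsGenFrac.mul {y z : LaurentSeries ℚ} (hy : IsGenFrac N s y) (hz : IsGenFrac N s z) :
    IsGenFrac N s (y * z) := by
  obtain ⟨c₁, hc₁, g₁, h₁⟩ := hy
  obtain ⟨c₂, hc₂, g₂, h₂⟩ := hz
  refine ⟨c₁ * c₂, mul_ne_zero hc₁ hc₂, g₁ * g₂, ?_⟩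
  rw [eval₂_mul, ← h₁, ← h₂, map_mul]
  ring

theorem isGenFrac_jqN : IsGenFrac N s (jqN N) :=
  ⟨1, one_ne_zero, X, by rw [map_one, one_mul, eval₂_X]⟩

/-- every element of `ℚ(j, j_N)` is `g(s, j_N) / c(s)`, for any generator `s` of `ℚ(j)`. -/
theorem isGenFrac_of_mem_adjoin_pair (D : ModularPolynomialData N) (hs : ℚ⟮s⟯ = ℚ⟮jq⟯)
    {y : LaurentSeries ℚ} (hy : y ∈ ℚ⟮jq, jqN N⟯) : IsGenFrac N s y := by
  rw [← adjoin_simple_adjoin_simple ℚ jq (jqN N)] at hy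
  have hy' : y ∈ (ℚ⟮jq⟯⟮jqN N⟯).toSubalgebra := hy
  rw [adjoin_simple_toSubalgebra_of_isAlgebraic (isAlgebraic_jqN N D)] at hy'
  clear hy
  induction hy' using Algebra.adjoin_induction with
  | mem x hx =>
    rw [Set.mem_singleton_iff] at hx
    rw [hx]
    exact isGenFrac_jqN N s
  | algebraMap u =>
    have hu : (u : LaurentSeries ℚ) ∈ ℚ⟮s⟯ := by
      rw [hs]
      exact u.2
    exact isGenFrac_of_mem_adjoin_simple N hu
  | add x z _ _ hx hz => exact IsGenFrac.add N s hx hz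
  | mul x z _ _ hx hz => exact IsGenFrac.mul N s hx hz

/-- `FunctionFieldGeneration N` says `F = ℚ(j, j_N)`. -/
theorem modularFunctionFieldFull_le_of_generation (hG : FunctionFieldGeneration N) :
    modularFunctionFieldFull N ≤ ℚ⟮jq, jqN N⟯ := by
  rw [modularFunctionFieldFull, adjoin_le_iff]
  rintro x ⟨d, hne, hdvd, rfl⟩
  exact hG d hdvd hne

theorem adjoin_simple_inv_eq (x : LaurentSeries ℚ) : ℚ⟮x⁻¹⟯ = ℚ⟮x⟯ := by
  apply le_antisymm
  · rw [adjoin_simple_le_iff]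
    exact inv_mem (mem_adjoin_simple_self ℚ x)
  · rw [adjoin_simple_le_iff]
    have h := inv_mem (mem_adjoin_simple_self ℚ x⁻¹)
    rwa [inv_inv] at h

end Ambient

section Charts

variable (N : ℕ) [NeZero N] (ℓ : ℕ) [Fact ℓ.Prime]

set_option quotPrecheck false in
local notation "ℤℓ" => ↥(GaloisRep.ratLocalizedAt ℓ)
set_option quotPrecheck false in
local notation "F" => ↥(modularFunctionFieldFull N)

omit [NeZero N] in
/-- any ring hom `ℤ[X] → F` with `X ↦ s` becomes `evalAtS s` in `ℚ((q))`. -/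
theorem subtype_comp_eq_evalAtS (s : F) (ψ : ℤ[X] →+* F) (hψ : ψ X = s) :
    ((modularFunctionFieldFull N).val : F →+* LaurentSeries ℚ).comp ψ
      = evalAtS (s : LaurentSeries ℚ) := by
  apply Polynomial.ringHom_ext
  · intro a
    simp only [eq_intCast, map_intCast]
  · rw [RingHom.comp_apply, hψ, evalAtS_X]
    rfl

omit [Fact ℓ.Prime] in
/-- **(ii)**, general form: if `s ∈ F` generates `ℚ(j)`, every `x ∈ F` is `g(s, j_N) / c(s)` with
`c ∈ ℤ_(ℓ)[X]` non-zero and `g ∈ ℤ_(ℓ)[X][Y]`. -/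
theorem exists_gen_frac (D : ModularPolynomialData N) (hG : FunctionFieldGeneration N)
    (s : F) (hs : ℚ⟮(s : LaurentSeries ℚ)⟯ = ℚ⟮jq⟯) (x : F) :
    ∃ c : ℤℓ[X], c ≠ 0 ∧ ∃ g : ℤℓ[X][X],
      aeval (R := ℤℓ) s c * x = g.eval₂ (aeval (R := ℤℓ) s).toRingHom (jNFull N) := by
  obtain ⟨c, hc, g, hg⟩ := isGenFrac_of_mem_adjoin_pair N (s : LaurentSeries ℚ) D hs
    (modularFunctionFieldFull_le_of_generation N hG x.2)
  set φ : ℤ[X] →+* ℤℓ[X] := mapRingHom (Int.castRingHom ℤℓ) with hφ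
  set ψ : ℤ[X] →+* F := (aeval (R := ℤℓ) s).toRingHom.comp φ with hψ
  have hψX : ψ X = s := by
    simp [hψ, hφ]
  have hcomp := subtype_comp_eq_evalAtS N s ψ hψX
  have hinj : Function.Injective (Int.castRingHom ℤℓ) := by
    intro a b hab
    have h2 : ((Int.castRingHom ℤℓ a : ℤℓ) : ℚ) = ((Int.castRingHom ℤℓ b : ℤℓ) : ℚ) := by rw [hab]
    simpa using h2
  refine ⟨φ c, ?_, g.map φ, ?_⟩
  · rw [hφ, coe_mapRingHom, Ne, ← Polynomial.map_zero (Int.castRingHom ℤℓ)]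
    exact fun h => hc (Polynomial.map_injective _ hinj h)
  · rw [eval₂_map]
    apply Subtype.val_injective
    change ((modularFunctionFieldFull N).val : F →+* LaurentSeries ℚ)
        (aeval (R := ℤℓ) s (φ c) * x) =
      ((modularFunctionFieldFull N).val : F →+* LaurentSeries ℚ) (g.eval₂ ψ (jNFull N))
    rw [Polynomial.hom_eval₂, hcomp, map_mul]
    have h1 : ((modularFunctionFieldFull N).val : F →+* LaurentSeries ℚ)
        (aeval (R := ℤℓ) s (φ c)) = evalAtS (s : LaurentSeries ℚ) c := by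
      rw [← hcomp]
      rfl
    rw [h1]
    exact hg

omit [Fact ℓ.Prime] in
/-- **(ii)** in the `Algebra.adjoin` form, for any algebra structure `ℤ_(ℓ)[X] → F` which is
`X ↦ s`: `F = Frac(ℤ_(ℓ)[s])(j_N)` with denominators cleared. -/
theorem exists_mul_mem_adjoin (D : ModularPolynomialData N) (hG : FunctionFieldGeneration N)
    (s : F) (hs : ℚ⟮(s : LaurentSeries ℚ)⟯ = ℚ⟮jq⟯) [Algebra ℤℓ[X] F]
    (halg : ∀ p : ℤℓ[X], algebraMap ℤℓ[X] F p = aeval (R := ℤℓ) s p) (x : F) :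
    ∃ c : ℤℓ[X], c ≠ 0 ∧ algebraMap ℤℓ[X] F c * x ∈ Algebra.adjoin ℤℓ[X] {jNFull N} := by
  obtain ⟨c, hc, g, hg⟩ := exists_gen_frac N ℓ D hG s hs x
  refine ⟨c, hc, ?_⟩
  have hmap : algebraMap ℤℓ[X] F = (aeval (R := ℤℓ) s).toRingHom := RingHom.ext halg
  rw [halg, hg, Algebra.adjoin_singleton_eq_range_aeval]
  refine ⟨g, ?_⟩
  rw [← hmap]
  exact aeval_def _ _

omit [Fact ℓ.Prime] in
/-- the finite chart `s = j`. -/
theorem exists_gen_frac_jFull (D : ModularPolynomialData N) (hG : FunctionFieldGeneration N)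
    (x : F) :
    ∃ c : ℤℓ[X], c ≠ 0 ∧ ∃ g : ℤℓ[X][X],
      aeval (R := ℤℓ) (jFull N) c * x
        = g.eval₂ (aeval (R := ℤℓ) (jFull N)).toRingHom (jNFull N) :=
  exists_gen_frac N ℓ D hG (jFull N) rfl x

theorem coe_jFull_inv : (((jFull N)⁻¹ : F) : LaurentSeries ℚ) = jq⁻¹ := rfl

omit [Fact ℓ.Prime] in
/-- the chart at infinity `s = 1/j`. -/
theorem exists_gen_frac_jFull_inv (D : ModularPolynomialData N)
    (hG : FunctionFieldGeneration N) (x : F) :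
    ∃ c : ℤℓ[X], c ≠ 0 ∧ ∃ g : ℤℓ[X][X],
      aeval (R := ℤℓ) (jFull N)⁻¹ c * x
        = g.eval₂ (aeval (R := ℤℓ) (jFull N)⁻¹).toRingHom (jNFull N) :=
  exists_gen_frac N ℓ D hG (jFull N)⁻¹ (by rw [coe_jFull_inv, adjoin_simple_inv_eq]) x

omit [Fact ℓ.Prime] in
/-- the finite chart, `Algebra.adjoin` form. -/
theorem exists_mul_mem_adjoin_jFull (D : ModularPolynomialData N)
    (hG : FunctionFieldGeneration N) [Algebra ℤℓ[X] F]
    (halg : ∀ p : ℤℓ[X], algebraMap ℤℓ[X] F p = aeval (R := ℤℓ) (jFull N) p) (x : F) :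
    ∃ c : ℤℓ[X], c ≠ 0 ∧ algebraMap ℤℓ[X] F c * x ∈ Algebra.adjoin ℤℓ[X] {jNFull N} :=
  exists_mul_mem_adjoin N ℓ D hG (jFull N) rfl halg x

omit [Fact ℓ.Prime] in
/-- the chart at infinity, `Algebra.adjoin` form. -/
theorem exists_mul_mem_adjoin_jFull_inv (D : ModularPolynomialData N)
    (hG : FunctionFieldGeneration N) [Algebra ℤℓ[X] F]
    (halg : ∀ p : ℤℓ[X], algebraMap ℤℓ[X] F p = aeval (R := ℤℓ) (jFull N)⁻¹ p) (x : F) :
    ∃ c : ℤℓ[X], c ≠ 0 ∧ algebraMap ℤℓ[X] F c * x ∈ Algebra.adjoin ℤℓ[X] {jNFull N} :=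
  exists_mul_mem_adjoin N ℓ D hG (jFull N)⁻¹ (by rw [coe_jFull_inv, adjoin_simple_inv_eq]) halg x

end Charts

end Fermat.Agent.S28.H69
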