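import Mathlib
import Fermat.Prelude.Def_ModularCurve_X0ModL
import Fermat.Agent.S28.Defs
import Fermat.Agent.S28.Interface
import Fermat.Agent.S24.H15_Conjugates
import Fermat.Agent.S24.H17_QSum

/-!
S28 / W1c (helper9): generic tools.

* `IsQSum` under `τ ↦ m τ` (`qExpand`) and `τ ↦ τ + x` (`twist`), powers, polynomials;
* a generic bridge `HasSum` for `single k 1 * ofPowerSeries E`;
* the predicate `IsIntQ S m f`: `τ ↦ f (m τ)` is the sum of a Laurent `q`-series with
  coefficients in the subring `S ⊆ ℂ` (closed under ring operations);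
* coefficient descent for polynomials in `j`;
* integrality descent from algebraic-integer coefficients to `ℤ`.
-/

set_option autoImplicit false

noncomputable section

namespace Fermat.Agent.S28.H9

open UpperHalfPlane ModularCurve HahnSeries Polynomial
open Fermat.Agent.S24.H15 Fermat.Agent.S24.H17

local notation "𝕢" => Function.Periodic.qParam

/-! ### `IsQSum` calculus: extra rules -/

theorem qParam_one_aff_mul (m : ℕ) (hm : 0 < m) (τ : ℍ) :
    𝕢 1 (aff m 0 1 hm one_pos τ : ℂ) = 𝕢 1 (τ : ℂ) ^ m := by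
  have h := qParam_aff m 0 1 hm one_pos τ
  simpa using h

/-- `f(q) ↦ f(q^m)` on the analytic side is `τ ↦ m τ`. -/
theorem IsQSum.comp_aff_mul {X : LaurentSeries ℂ} {f : ℍ → ℂ} (hX : IsQSum X f)
    (m : ℕ) [NeZero m] (hm : 0 < m) :
    IsQSum (qExpand ℂ m X) (fun τ => f (aff m 0 1 hm one_pos τ)) := by
  intro τ
  have h := hX (aff m 0 1 hm one_pos τ)
  rw [qParam_one_aff_mul] at h
  have hinj : Function.Injective (fun n : ℤ => (m : ℤ) * n) := by
    intro a b hab
    have hm' : (m : ℤ) ≠ 0 := by exact_mod_cast hm.ne'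
    exact mul_left_cancel₀ hm' hab
  have h0 : ∀ k : ℤ, k ∉ Set.range (fun n : ℤ => (m : ℤ) * n) →
      (qExpand ℂ m X).coeff k * 𝕢 1 (τ : ℂ) ^ k = 0 := by
    intro k hk
    rw [qExpand_coeff_of_not_dvd m X (k := k) (fun ⟨c, hc⟩ => hk ⟨c, hc.symm⟩), zero_mul]
  rw [← hinj.hasSum_iff h0]
  convert h using 2 with n
  simp only [Function.comp]
  rw [qExpand_coeff_mul, zpow_mul, zpow_natCast]

/-- `f(q) ↦ f(ξ q)` on the analytic side is `τ ↦ τ + x`, `ξ = exp (2π i x)`. -/
theorem IsQSum.comp_vadd {X : LaurentSeries ℂ} {f : ℍ → ℂ} (hX : IsQSum X f)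
    (x : ℝ) (ξ : ℂˣ) (hξ : (ξ : ℂ) = Complex.exp (2 * Real.pi * Complex.I * x)) :
    IsQSum (twist ξ X) (fun τ => f (x +ᵥ τ)) := by
  intro τ
  have h := hX (x +ᵥ τ)
  have hq : 𝕢 1 ((x +ᵥ τ : ℍ) : ℂ) = (ξ : ℂ) * 𝕢 1 (τ : ℂ) := by
    rw [hξ, Function.Periodic.qParam, Function.Periodic.qParam, ← Complex.exp_add,
      UpperHalfPlane.coe_vadd]
    congr 1
    push_cast
    ring
  rw [hq] at h
  convert h using 2 with n
  rw [twist_coeff, mul_zpow, Units.val_zpow_eq_zpow_val]
  ring

theorem IsQSum.pow {X : LaurentSeries ℂ} {g : ℍ → ℂ} (hX : IsQSum X g) (n : ℕ) :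
    IsQSum (X ^ n) (g ^ n) := by
  induction n with
  | zero => simpa using IsQSum.one
  | succ n ih => rw [pow_succ, pow_succ]; exact ih.mul hX

theorem IsQSum.C (c : ℂ) : IsQSum (HahnSeries.C c) (fun _ => c) :=
  IsQSum.single_zero c

theorem IsQSum.congr {X : LaurentSeries ℂ} {g g' : ℍ → ℂ} (hX : IsQSum X g) (h : g = g') :
    IsQSum X g' := h ▸ hX

/-- Polynomials in a `q`-sum. -/
theorem IsQSum.aeval {X : LaurentSeries ℂ} {g : ℍ → ℂ} (hX : IsQSum X g) (P : ℂ[X]) :
    IsQSum (Polynomial.aeval X P) (fun τ => P.eval (g τ)) := by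
  induction P using Polynomial.induction_on with
  | C a =>
    rw [Polynomial.aeval_C]
    have : algebraMap ℂ (LaurentSeries ℂ) a = HahnSeries.C a := by
      rw [algebraMap_laurentSeries_eq_single]; rfl
    rw [this]
    simpa using IsQSum.C a
  | add p q hp hq =>
    rw [map_add]
    refine IsQSum.congr (IsQSum.add hp hq) ?_
    funext τ
    simp
  | monomial n a ih =>
    rw [pow_succ, ← mul_assoc, map_mul, Polynomial.aeval_X]
    refine IsQSum.congr (IsQSum.mul ih hX) ?_
    funext τ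
    simp [mul_assoc]

/-! ### The generic bridge for `single k 1 * ofPowerSeries E` -/

theorem coeff_single_mul_ofPowerSeries_add (E : PowerSeries ℂ) (k : ℤ) (m : ℕ) :
    (HahnSeries.single k (1 : ℂ) * HahnSeries.ofPowerSeries ℤ ℂ E).coeff ((m : ℤ) + k) =
      E.coeff m := by
  rw [HahnSeries.coeff_single_mul, one_mul, add_sub_cancel_right,
    HahnSeries.ofPowerSeries_apply_coeff]

theorem coeff_single_mul_ofPowerSeries_of_lt' (E : PowerSeries ℂ) (k : ℤ) {n : ℤ} (hn : n < k) :
    (HahnSeries.single k (1 : ℂ) * HahnSeries.ofPowerSeries ℤ ℂ E).coeff n = 0 := by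
  rw [HahnSeries.coeff_single_mul, one_mul]
  exact ofPowerSeries_coeff_of_neg _ (by omega)

theorem hasSum_single_mul_ofPowerSeries (E : PowerSeries ℂ) (k : ℤ) {q s : ℂ} (hq : q ≠ 0)
    (h : HasSum (fun m : ℕ => E.coeff m * q ^ m) s) :
    HasSum (fun n : ℤ => (HahnSeries.single k (1 : ℂ) *
      HahnSeries.ofPowerSeries ℤ ℂ E).coeff n * q ^ n) (q ^ k * s) := by
  have hinj : Function.Injective (fun m : ℕ => (m : ℤ) + k) := by
    intro a b hab
    simp only [add_left_inj] at hab
    exact_mod_cast hab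
  have h0 : ∀ n : ℤ, n ∉ Set.range (fun m : ℕ => (m : ℤ) + k) →
      (HahnSeries.single k (1 : ℂ) * HahnSeries.ofPowerSeries ℤ ℂ E).coeff n * q ^ n = 0 := by
    intro n hn
    rw [coeff_single_mul_ofPowerSeries_of_lt', zero_mul]
    by_contra hlt
    rw [not_lt] at hlt
    exact hn ⟨(n - k).toNat, by simp only; rw [Int.toNat_of_nonneg (by omega)]; ring⟩
  rw [← hinj.hasSum_iff h0]
  have h2 := h.mul_left (q ^ k)
  have e : ((fun n : ℤ => (HahnSeries.single k (1 : ℂ) *
      HahnSeries.ofPowerSeries ℤ ℂ E).coeff n * q ^ n) ∘ fun m : ℕ => (m : ℤ) + k) =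
      fun i : ℕ => q ^ k * (E.coeff i * q ^ i) := by
    funext m
    simp only [Function.comp]
    rw [coeff_single_mul_ofPowerSeries_add, zpow_add₀ hq, zpow_natCast]
    ring
  rw [e]
  exact h2


/-! ### Laurent series with coefficients in a subring -/

/-- All coefficients of `X` lie in the subring `S`. -/
def CoeffIn (S : Subring ℂ) (X : LaurentSeries ℂ) : Prop := ∀ n : ℤ, X.coeff n ∈ S

namespace CoeffIn

variable {S : Subring ℂ} {X Y : LaurentSeries ℂ}

theorem zero : CoeffIn S 0 := fun n => by simp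

theorem add (hX : CoeffIn S X) (hY : CoeffIn S Y) : CoeffIn S (X + Y) := fun n => by
  rw [HahnSeries.coeff_add]; exact S.add_mem (hX n) (hY n)

theorem neg (hX : CoeffIn S X) : CoeffIn S (-X) := fun n => by
  rw [HahnSeries.coeff_neg]; exact S.neg_mem (hX n)

theorem sub (hX : CoeffIn S X) (hY : CoeffIn S Y) : CoeffIn S (X - Y) := by
  rw [sub_eq_add_neg]; exact hX.add hY.neg

theorem mul (hX : CoeffIn S X) (hY : CoeffIn S Y) : CoeffIn S (X * Y) := fun n => by
  rw [HahnSeries.coeff_mul]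
  exact S.sum_mem fun ij _ => S.mul_mem (hX _) (hY _)

theorem single {c : ℂ} (hc : c ∈ S) (k : ℤ) : CoeffIn S (HahnSeries.single k c) := fun n => by
  rw [HahnSeries.coeff_single]
  split_ifs
  · exact hc
  · exact S.zero_mem

theorem C {c : ℂ} (hc : c ∈ S) : CoeffIn S (HahnSeries.C c) := single hc 0

theorem one : CoeffIn S 1 := C S.one_mem

theorem pow (hX : CoeffIn S X) (n : ℕ) : CoeffIn S (X ^ n) := by
  induction n with
  | zero => rw [pow_zero]; exact one
  | succ n ih => rw [pow_succ]; exact ih.mul hX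

theorem natCast (n : ℕ) : CoeffIn S (n : LaurentSeries ℂ) := by
  have : ((n : ℕ) : LaurentSeries ℂ) = HahnSeries.C (n : ℂ) := by rw [map_natCast]
  rw [this]
  exact C (natCast_mem S n)

/-- integer series. -/
theorem coeffMap_int (Z : LaurentSeries ℤ) : CoeffIn S (coeffMap (Int.castRingHom ℂ) Z) :=
  fun n => by rw [coeffMap_coeff]; exact intCast_mem S _

theorem qExpand (hX : CoeffIn S X) (m : ℕ) [NeZero m] : CoeffIn S (qExpand ℂ m X) := fun n => by
  by_cases hn : (m : ℤ) ∣ n
  · obtain ⟨k, rfl⟩ := hn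
    rw [qExpand_coeff_mul]; exact hX k
  · rw [qExpand_coeff_of_not_dvd m X hn]; exact S.zero_mem

theorem twist (hX : CoeffIn S X) (ξ : ℂˣ) (hξ : ∀ n : ℤ, ((ξ ^ n : ℂˣ) : ℂ) ∈ S) :
    CoeffIn S (twist ξ X) := fun n => by
  rw [twist_coeff]; exact S.mul_mem (hξ n) (hX n)

end CoeffIn

/-- `τ ↦ f (m τ)` is the sum of a Laurent `q`-series with coefficients in `S`
(i.e. `f` has a `q^(1/m)`-expansion with coefficients in `S`). -/
def IsIntQ (S : Subring ℂ) (m : ℕ) (hm : 0 < m) (f : ℍ → ℂ) : Prop :=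
  ∃ X : LaurentSeries ℂ, CoeffIn S X ∧ IsQSum X (fun τ => f (aff m 0 1 hm one_pos τ))

namespace IsIntQ

variable {S : Subring ℂ} {m : ℕ} {hm : 0 < m} {f g : ℍ → ℂ}

theorem const {c : ℂ} (hc : c ∈ S) : IsIntQ S m hm (fun _ => c) :=
  ⟨HahnSeries.C c, CoeffIn.C hc, IsQSum.C c⟩

theorem zero : IsIntQ S m hm (fun _ => 0) := const S.zero_mem

theorem one : IsIntQ S m hm (fun _ => 1) := const S.one_mem

theorem add (hf : IsIntQ S m hm f) (hg : IsIntQ S m hm g) :
    IsIntQ S m hm (fun τ => f τ + g τ) := by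
  obtain ⟨X, hX, hXf⟩ := hf
  obtain ⟨Y, hY, hYg⟩ := hg
  exact ⟨X + Y, hX.add hY, IsQSum.add hXf hYg⟩

theorem mul (hf : IsIntQ S m hm f) (hg : IsIntQ S m hm g) :
    IsIntQ S m hm (fun τ => f τ * g τ) := by
  obtain ⟨X, hX, hXf⟩ := hf
  obtain ⟨Y, hY, hYg⟩ := hg
  exact ⟨X * Y, hX.mul hY, IsQSum.mul hXf hYg⟩

theorem neg (hf : IsIntQ S m hm f) : IsIntQ S m hm (fun τ => -f τ) := by
  obtain ⟨X, hX, hXf⟩ := hf
  exact ⟨-X, hX.neg, IsQSum.neg hXf⟩

theorem sub (hf : IsIntQ S m hm f) (hg : IsIntQ S m hm g) :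
    IsIntQ S m hm (fun τ => f τ - g τ) := by
  obtain ⟨X, hX, hXf⟩ := hf
  obtain ⟨Y, hY, hYg⟩ := hg
  exact ⟨X - Y, hX.sub hY, IsQSum.sub hXf hYg⟩

theorem congr (hf : IsIntQ S m hm f) (h : ∀ τ, f τ = g τ) : IsIntQ S m hm g := by
  have : f = g := funext h
  rwa [← this]

end IsIntQ

/-- The coefficients of `∏ x ∈ s, (X - C (g x τ))` have `S`-integral expansions if the `g x` do. -/
theorem isIntQ_prod_X_sub_C_coeff {ι : Type*} [DecidableEq ι] (S : Subring ℂ) (m : ℕ)
    (hm : 0 < m) (g : ι → ℍ → ℂ) (s : Finset ι) (hg : ∀ x ∈ s, IsIntQ S m hm (g x)) :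
    ∀ k : ℕ, IsIntQ S m hm
      (fun τ => (∏ x ∈ s, (Polynomial.X - Polynomial.C (g x τ))).coeff k) := by
  induction s using Finset.induction_on with
  | empty =>
    intro k
    simp only [Finset.prod_empty, Polynomial.coeff_one]
    split_ifs
    · exact IsIntQ.one
    · exact IsIntQ.zero
  | insert a s ha ih =>
    have ih' := ih fun x hx => hg x (Finset.mem_insert_of_mem hx)
    have hga := hg a (Finset.mem_insert_self a s)
    intro k
    cases k with
    | zero =>
      refine ((hga.mul (ih' 0)).neg).congr fun τ => ?_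
      rw [Finset.prod_insert ha, sub_mul, Polynomial.coeff_sub, Polynomial.coeff_X_mul_zero,
        Polynomial.coeff_C_mul, zero_sub]
    | succ k =>
      refine ((ih' k).sub (hga.mul (ih' (k + 1)))).congr fun τ => ?_
      rw [Finset.prod_insert ha, Polynomial.coeff_X_sub_C_mul]

/-! ### Coefficient descent for polynomials in `j` -/

theorem jqModC_complex_eq : jqModC ℂ = coeffMap (algebraMap ℚ ℂ) jq := by
  have h := map_jqModC (K := ℚ) (K' := ℂ) (algebraMap ℚ ℂ)
  rw [jqModC_rat] at h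
  exact h.symm

theorem jqModC_complex_eq_int : jqModC ℂ = coeffMap (Int.castRingHom ℂ) (jqModC ℤ) :=
  (map_jqModC (K := ℤ) (K' := ℂ) (Int.castRingHom ℂ)).symm

theorem coeff_jC_pow_self (n : ℕ) : ((jqModC ℂ) ^ n).coeff (-(n : ℤ)) = 1 := by
  rw [jqModC_complex_eq, ← map_pow, coeffMap_coeff, coeff_jq_pow_self, map_one]

theorem coeff_jC_pow_of_lt {n : ℕ} {k : ℤ} (hk : k < -(n : ℤ)) :
    ((jqModC ℂ) ^ n).coeff k = 0 := by
  rw [jqModC_complex_eq, ← map_pow, coeffMap_coeff, coeff_jq_pow_of_lt hk, map_zero]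

theorem coeffIn_jC_pow (S : Subring ℂ) (n : ℕ) : CoeffIn S ((jqModC ℂ) ^ n) := by
  rw [jqModC_complex_eq_int, ← map_pow]
  exact CoeffIn.coeffMap_int _

/-- If `P(j)` has all its `q`-coefficients in the subring `S`, then `P ∈ S[Y]`. -/
theorem coeff_mem_of_coeffIn_aeval_j (S : Subring ℂ) :
    ∀ (n : ℕ) (P : ℂ[X]), P.natDegree ≤ n → CoeffIn S (Polynomial.aeval (jqModC ℂ) P) →
      ∀ i, P.coeff i ∈ S := by
  intro n
  induction n with
  | zero =>
    intro P hP hS i
    rw [Polynomial.eq_C_of_natDegree_le_zero hP] at hS ⊢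
    have h0 := hS 0
    rw [Polynomial.aeval_C, algebraMap_laurentSeries_eq_single, HahnSeries.coeff_single_same] at h0
    rw [Polynomial.coeff_C]
    split_ifs
    · exact h0
    · exact S.zero_mem
  | succ n ih =>
    intro P hP hS i
    set a := P.coeff (n + 1) with ha
    -- the leading coefficient
    have hlead : (Polynomial.aeval (jqModC ℂ) P).coeff (-((n + 1 : ℕ) : ℤ)) = a := by
      rw [Polynomial.aeval_eq_sum_range' (Nat.lt_succ_of_le hP), HahnSeries.coeff_sum]
      rw [Finset.sum_eq_single (n + 1)]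
      · rw [Algebra.smul_def, algebraMap_laurentSeries_eq_single, HahnSeries.coeff_single_mul,
          sub_zero, coeff_jC_pow_self, mul_one]
      · intro b hb hbn
        rw [Algebra.smul_def, algebraMap_laurentSeries_eq_single, HahnSeries.coeff_single_mul,
          sub_zero, coeff_jC_pow_of_lt, mul_zero]
        have : b < n + 1 := lt_of_le_of_ne (Nat.lt_succ_iff.mp (Finset.mem_range.mp hb)) hbn
        push_cast
        omega
      · intro h
        exact absurd (Finset.mem_range.mpr (Nat.lt_succ_self _)) h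
    have haS : a ∈ S := hlead ▸ hS _
    set P' := P - Polynomial.C a * Polynomial.X ^ (n + 1) with hP'
    have hdeg : P'.natDegree ≤ n := by
      rw [Polynomial.natDegree_le_iff_coeff_eq_zero]
      intro N hN
      rw [hP', Polynomial.coeff_sub, Polynomial.coeff_C_mul, Polynomial.coeff_X_pow]
      rcases Nat.lt_or_ge (n + 1) N with h | h
      · rw [Polynomial.coeff_eq_zero_of_natDegree_lt (lt_of_le_of_lt hP h),
          if_neg (by omega), mul_zero, sub_zero]
      · have : N = n + 1 := by omega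
        rw [this, if_pos rfl, mul_one, sub_self]
    have hS' : CoeffIn S (Polynomial.aeval (jqModC ℂ) P') := by
      rw [hP', map_sub, map_mul, Polynomial.aeval_C, map_pow, Polynomial.aeval_X,
        algebraMap_laurentSeries_eq_single]
      exact hS.sub ((CoeffIn.single haS 0).mul (coeffIn_jC_pow S _))
    have h1 := ih P' hdeg hS' i
    have h2 : P.coeff i = P'.coeff i + (Polynomial.C a * Polynomial.X ^ (n + 1)).coeff i := by
      rw [hP', Polynomial.coeff_sub, sub_add_cancel]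
    rw [h2]
    refine S.add_mem h1 ?_
    rw [Polynomial.coeff_C_mul, Polynomial.coeff_X_pow]
    split_ifs
    · rw [mul_one]; exact haS
    · rw [mul_zero]; exact S.zero_mem

theorem coeff_mem_of_coeffIn_aeval_j' (S : Subring ℂ) (P : ℂ[X])
    (h : CoeffIn S (Polynomial.aeval (jqModC ℂ) P)) (i : ℕ) : P.coeff i ∈ S :=
  coeff_mem_of_coeffIn_aeval_j S P.natDegree P le_rfl h i


/-! ### Integrality descent: algebraic-integer coefficients to `ℤ` -/

/-- If `w` is a root of a monic polynomial over `ℂ[j]` all of whose coefficients are algebraic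
integers, then `w` is a root of a monic polynomial over `ℤ[j]`. (No Galois theory:
transitivity of integrality.) -/
theorem exists_int_poly_of_monic_algInt {L : Type*} [CommRing L] [Nontrivial L] [Algebra ℂ L]
    (j w : L) (P : Polynomial (Polynomial ℂ)) (hP : P.Monic)
    (hcoef : ∀ k i, (P.coeff k).coeff i ∈ integralClosure ℤ ℂ)
    (h0 : P.eval₂ ((Polynomial.aeval j).toRingHom : ℂ[X] →+* L) w = 0) :
    ∃ Q : Polynomial (Polynomial ℤ), Q.Monic ∧
      ∀ ψ : ℤ[X] →+* L, ψ Polynomial.X = j → Q.eval₂ ψ w = 0 := by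
  classical
  let R : Subalgebra ℤ L := Algebra.adjoin ℤ {j}
  let T : Set L := (algebraMap ℂ L) '' (integralClosure ℤ ℂ : Set ℂ)
  have hT : ∀ t ∈ T, IsIntegral R t := by
    rintro t ⟨c, hc, rfl⟩
    have h1 : IsIntegral ℤ c := hc
    have h2 : IsIntegral ℤ (algebraMap ℂ L c) := h1.algebraMap
    exact h2.tower_top
  let A : Subalgebra R L := Algebra.adjoin R T
  have : Algebra.IsIntegral R A := Algebra.IsIntegral.adjoin hT
  let φ : ℂ[X] →+* L := (Polynomial.aeval j).toRingHom
  have hjA : j ∈ A := by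
    have hjR : j ∈ R := Algebra.subset_adjoin (Set.mem_singleton j)
    exact A.algebraMap_mem ⟨j, hjR⟩
  have hφA : ∀ k, φ (P.coeff k) ∈ A := by
    intro k
    change (Polynomial.aeval j) (P.coeff k) ∈ A
    rw [Polynomial.aeval_eq_sum_range]
    refine A.sum_mem fun i _ => ?_
    rw [Algebra.smul_def]
    exact A.mul_mem (Algebra.subset_adjoin ⟨_, hcoef k i, rfl⟩) (A.pow_mem hjA i)
  have hlift : P.map φ ∈ Polynomial.lifts (algebraMap A L) := by
    rw [Polynomial.lifts_iff_coeff_lifts]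
    intro k
    rw [Polynomial.coeff_map]
    exact ⟨⟨_, hφA k⟩, rfl⟩
  obtain ⟨q, hq1, -, hq3⟩ := Polynomial.lifts_and_degree_eq_and_monic hlift (hP.map φ)
  have hwA : IsIntegral A w := by
    refine ⟨q, hq3, ?_⟩
    rw [Polynomial.eval₂_eq_eval_map, hq1, Polynomial.eval_map]
    exact h0
  have hwR : IsIntegral R w := isIntegral_trans (A := A) w hwA
  obtain ⟨r, hr1, hr2⟩ := hwR
  let ψ : ℤ[X] →+* L := (Polynomial.aeval j).toRingHom
  have hlift2 : r.map (algebraMap R L) ∈ Polynomial.lifts ψ := by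
    rw [Polynomial.lifts_iff_coeff_lifts]
    intro k
    rw [Polynomial.coeff_map]
    have hmem : (algebraMap R L (r.coeff k)) ∈ (Algebra.adjoin ℤ {j} : Subalgebra ℤ L) :=
      (r.coeff k).2
    rw [Algebra.adjoin_singleton_eq_range_aeval] at hmem
    obtain ⟨u, hu⟩ := hmem
    exact ⟨u, hu⟩
  obtain ⟨Q, hQ1, -, hQ3⟩ := Polynomial.lifts_and_degree_eq_and_monic hlift2
    (hr1.map (algebraMap R L))
  refine ⟨Q, hQ3, fun ψ' hψ' => ?_⟩
  have hψ : ψ' = ψ := by
    apply Polynomial.ringHom_ext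
    · intro a
      simp [ψ]
    · simp [ψ, hψ']
  rw [hψ, Polynomial.eval₂_eq_eval_map]
  change Polynomial.eval w (Q.map ψ) = 0
  rw [hQ1, Polynomial.eval_map]
  exact hr2

/-! ### Transfer `ℤ → ℂ` -/

theorem coeffMap_int_injective : Function.Injective (coeffMap (Int.castRingHom ℂ)) := by
  intro x y h
  ext n
  have := congrArg (fun z => z.coeff n) h
  simp only [coeffMap_coeff] at this
  exact Int.cast_injective this

theorem coeffMap_comp_evalJ {R S : Type*} [CommRing R] [CommRing S] (f : R →+* S)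
    (x : LaurentSeries R) : (coeffMap f).comp (evalJ x) = evalJ (coeffMap f x) := by
  apply Polynomial.ringHom_ext
  · intro a
    simp [evalJ]
  · simp [evalJ]

theorem coeffMap_eval₂_evalJ {R S : Type*} [CommRing R] [CommRing S] (f : R →+* S)
    (x w : LaurentSeries R) (Q : Polynomial ℤ[X]) :
    coeffMap f (Q.eval₂ (evalJ x) w) = Q.eval₂ (evalJ (coeffMap f x)) (coeffMap f w) := by
  rw [Polynomial.hom_eval₂, coeffMap_comp_evalJ]

end Fermat.Agent.S28.H9
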