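import Mathlib
import Fermat.Agent.S28.H9_QSumTools
import Fermat.Agent.S24.H6_KeyA
import Fermat.Agent.S24.H15_ConjExpansion
import Fermat.Agent.S24.H24_Group
import Fermat.Agent.S24.H28_JBridge

/-!
S28 / W1c (helper9): `p^12 Δ(q^p)/Δ(q)` is integral over `ℤ[j]`.
-/

set_option autoImplicit false

noncomputable section

namespace Fermat.Agent.S28.H9

open UpperHalfPlane ModularForm ModularCurve HahnSeries Metric Matrix.SpecialLinearGroup
open Fermat.Agent.S24 Fermat.Agent.S24.H15 Fermat.Agent.S24.H17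
open scoped MatrixGroups Manifold

local notation "𝕢" => Function.Periodic.qParam
local notation "Δ" => ModularForm.discriminant

/-! ### `Δ` on the unit disc -/

/-- `∏ (1 - x^n)^24` on the unit disc. -/
def phi24 (x : ℂ) : ℂ := H28.eulerPhi x ^ 24

theorem differentiableOn_phi24 : DifferentiableOn ℂ phi24 (ball 0 1) :=
  H28.differentiableOn_eulerPhi.pow 24

theorem phi24_ne_zero {x : ℂ} (hx : ‖x‖ < 1) : phi24 x ≠ 0 :=
  pow_ne_zero _ (H28.eulerPhi_ne_zero hx)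

theorem differentiableOn_phi24_inv : DifferentiableOn ℂ (fun x => (phi24 x)⁻¹) (ball 0 1) :=
  differentiableOn_phi24.inv fun _ hx => phi24_ne_zero (mem_ball_zero_iff.mp hx)

theorem norm_qParam_lt_one (τ : ℍ) : ‖𝕢 1 (τ : ℂ)‖ < 1 :=
  Function.Periodic.norm_qParam_lt_one one_pos τ.im_pos

theorem discriminant_eq (τ : ℍ) : Δ τ = 𝕢 1 τ * phi24 (𝕢 1 τ) := by
  rw [discriminant_eq_q_prod, phi24, H28.eulerPhi]
  congr 1
  exact (multipliableLocallyUniformlyOn_eta.multipliable τ.2).tprod_pow 24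

theorem taylorPS_phi24 : H28.taylorPS phi24 = dedekindEtaUnit.map (Int.castRingHom ℂ) := by
  have hφ := H28.analyticAt_zero_of_differentiableOn_ball H28.differentiableOn_eulerPhi
  have : phi24 = H28.eulerPhi ^ 24 := rfl
  rw [this, H28.taylorPS_pow hφ, H28.taylorPS_eulerPhi, dedekindEtaUnit, map_pow]

theorem taylorPS_one : H28.taylorPS (1 : ℂ → ℂ) = 1 := by
  have h := H28.taylorPS_pow (f := fun x : ℂ => x) analyticAt_id 0
  simpa using h

theorem taylorPS_phi24_inv :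
    H28.taylorPS (fun x => (phi24 x)⁻¹) = dedekindEtaUnitInv.map (Int.castRingHom ℂ) := by
  have h1 := H28.analyticAt_zero_of_differentiableOn_ball differentiableOn_phi24
  have h2 := H28.analyticAt_zero_of_differentiableOn_ball differentiableOn_phi24_inv
  have hmul : H28.taylorPS (fun x => (phi24 x)⁻¹) * H28.taylorPS phi24 = 1 := by
    rw [← H28.taylorPS_mul h2 h1, ← taylorPS_one]
    refine H28.taylorPS_congr ?_
    filter_upwards [ball_mem_nhds (0 : ℂ) one_pos] with x hx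
    simp only [Pi.mul_apply, Pi.one_apply]
    exact inv_mul_cancel₀ (phi24_ne_zero (mem_ball_zero_iff.mp hx))
  have hinv : dedekindEtaUnit.map (Int.castRingHom ℂ) *
      dedekindEtaUnitInv.map (Int.castRingHom ℂ) = 1 := by
    rw [← map_mul, dedekindEtaUnit_mul_inv, map_one]
  rw [taylorPS_phi24] at hmul
  calc H28.taylorPS (fun x => (phi24 x)⁻¹)
      = H28.taylorPS (fun x => (phi24 x)⁻¹) * (dedekindEtaUnit.map (Int.castRingHom ℂ) *
        dedekindEtaUnitInv.map (Int.castRingHom ℂ)) := by rw [hinv, mul_one]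
    _ = (H28.taylorPS (fun x => (phi24 x)⁻¹) * dedekindEtaUnit.map (Int.castRingHom ℂ)) *
        dedekindEtaUnitInv.map (Int.castRingHom ℂ) := by ring
    _ = _ := by rw [hmul, one_mul]

/-! ### The basic `q`-sums -/

theorem isQSum_Delta : IsQSum (DeltaS ℂ) (fun τ => Δ τ) := by
  intro τ
  have hq : 𝕢 1 (τ : ℂ) ≠ 0 := Function.Periodic.qParam_ne_zero _
  have h := H28.hasSum_taylorPS differentiableOn_phi24 (norm_qParam_lt_one τ)
  rw [taylorPS_phi24] at h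
  have h2 := hasSum_single_mul_ofPowerSeries _ 1 hq h
  rw [zpow_one, ← discriminant_eq] at h2
  exact h2

theorem isQSum_DeltaInv : IsQSum (DeltaSInv ℂ) (fun τ => (Δ τ)⁻¹) := by
  intro τ
  have hq : 𝕢 1 (τ : ℂ) ≠ 0 := Function.Periodic.qParam_ne_zero _
  have h := H28.hasSum_taylorPS differentiableOn_phi24_inv (norm_qParam_lt_one τ)
  rw [taylorPS_phi24_inv] at h
  have h2 := hasSum_single_mul_ofPowerSeries _ (-1) hq h
  have e : (Δ τ)⁻¹ = 𝕢 1 (τ : ℂ) ^ (-1 : ℤ) * (phi24 (𝕢 1 τ))⁻¹ := by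
    rw [discriminant_eq, mul_inv, zpow_neg_one]
  show HasSum _ ((Δ τ)⁻¹)
  rw [e]
  exact h2

theorem isQSum_J : IsQSum (jqModC ℂ) H28.J := by
  intro τ
  have hq : 𝕢 1 (τ : ℂ) ≠ 0 := Function.Periodic.qParam_ne_zero _
  have h := H28.hasSum_jNum τ
  have h' : HasSum (fun m : ℕ => (jNum.map (Int.castRingHom ℂ)).coeff m * 𝕢 1 (τ : ℂ) ^ m)
      (𝕢 1 τ * H28.J τ) := by
    simpa using h
  have h2 := hasSum_single_mul_ofPowerSeries _ (-1) hq h'
  have e : H28.J τ = 𝕢 1 (τ : ℂ) ^ (-1 : ℤ) * (𝕢 1 τ * H28.J τ) := by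
    rw [zpow_neg_one, inv_mul_cancel_left₀ hq]
  rw [e]
  exact h2

/-! ### The conjugates of `p^12 Δ(pτ)/Δ(τ)` -/

theorem Delta_smul (γ : SL(2, ℤ)) (τ : ℍ) :
    Δ (γ • τ) = (((γ 1 0 : ℤ) : ℂ) * τ + ((γ 1 1 : ℤ) : ℂ)) ^ 12 * Δ τ := by
  have hmem : (mapGL ℝ γ : GL (Fin 2) ℝ) ∈ 𝒮ℒ := ⟨γ, rfl⟩
  have h := SlashInvariantForm.slash_action_eqn'' CuspForm.discriminant hmem τ
  have hsm : (mapGL ℝ γ : GL (Fin 2) ℝ) • τ = γ • τ := rfl
  rw [hsm] at h
  change Δ (γ • τ) = _ at h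
  rw [h]
  congr 1

/-- `a^12 Δ((aτ+b)/d) / Δ(τ)`. -/
def Gabd (a b d : ℕ) (ha : 0 < a) (hd : 0 < d) (τ : ℍ) : ℂ :=
  (a : ℂ) ^ 12 * Δ (aff a b d ha hd τ) / Δ τ

theorem Gabd_smul (p : ℕ) (hp : 0 < p) (γ γ' : SL(2, ℤ)) (a b d : ℕ) (ha : 0 < a) (hd : 0 < d)
    (had : a * d = p)
    (h : !![(p : ℤ), 0; 0, 1] * (γ : Matrix (Fin 2) (Fin 2) ℤ) =
        (γ' : Matrix (Fin 2) (Fin 2) ℤ) * !![(a : ℤ), (b : ℤ); 0, (d : ℤ)]) (τ : ℍ) :
    Gabd p 0 1 hp one_pos (γ • τ) = Gabd a b d ha hd τ := by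
  have h10 := congr_fun (congr_fun h 1) 0
  have h11 := congr_fun (congr_fun h 1) 1
  simp only [Matrix.mul_apply, Fin.sum_univ_two, Matrix.of_apply, Matrix.cons_val',
    Matrix.cons_val_zero, Matrix.cons_val_one, Matrix.empty_val', Matrix.cons_val_fin_one,
    zero_mul, one_mul, add_zero, zero_add, mul_zero] at h10 h11
  have e10 : ((γ 1 0 : ℤ) : ℂ) = ((γ' 1 0 : ℤ) : ℂ) * a := by
    have := congrArg (fun z : ℤ => (z : ℂ)) h10
    simpa using this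
  have e11 : ((γ 1 1 : ℤ) : ℂ) = ((γ' 1 0 : ℤ) : ℂ) * b + ((γ' 1 1 : ℤ) : ℂ) * d := by
    have := congrArg (fun z : ℤ => (z : ℂ)) h11
    simpa using this
  have hd' : (d : ℂ) ≠ 0 := by exact_mod_cast hd.ne'
  have hpad : (p : ℂ) = (a : ℂ) * d := by exact_mod_cast had.symm
  unfold Gabd
  rw [aff_smul_eq p hp γ γ' a b d ha hd h τ, Delta_smul γ' (aff a b d ha hd τ), Delta_smul γ τ,
    e10, e11, coe_aff]
  have hΔ := discriminant_ne_zero τ
  have hden : ((γ' 1 0 : ℤ) : ℂ) * (((a : ℂ) * τ + b) / d) + ((γ' 1 1 : ℤ) : ℂ) ≠ 0 := by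
    have := UpperHalfPlane.denom_ne_zero (mapGL ℝ γ' : GL (Fin 2) ℝ) (aff a b d ha hd τ)
    simpa [denom] using this
  have hden2 : ((γ' 1 0 : ℤ) : ℂ) * a * τ + (((γ' 1 0 : ℤ) : ℂ) * b + ((γ' 1 1 : ℤ) : ℂ) * d) =
      d * (((γ' 1 0 : ℤ) : ℂ) * (((a : ℂ) * τ + b) / d) + ((γ' 1 1 : ℤ) : ℂ)) := by
    field_simp
    ring
  rw [hden2, hpad]
  generalize ((γ' 1 0 : ℤ) : ℂ) * (((a : ℂ) * τ + b) / d) + ((γ' 1 1 : ℤ) : ℂ) = D' at hden ⊢
  field_simp


/-- `G τ = p^12 Δ(pτ)/Δ(τ)`. -/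
def Gp (p : ℕ) (hp : 0 < p) : ℍ → ℂ := Gabd p 0 1 hp one_pos

theorem Gp_smul_of_mem_Gamma0 (p : ℕ) (hp : 0 < p) (δ : SL(2, ℤ))
    (hδ : δ ∈ CongruenceSubgroup.Gamma0 p) (τ : ℍ) : Gp p hp (δ • τ) = Gp p hp τ := by
  obtain ⟨δ', hδ'⟩ := exists_diag_comm_of_mem_Gamma0 p δ hδ
  exact Gabd_smul p hp δ δ' p 0 1 hp one_pos (mul_one p) hδ' τ

/-- The conjugates of `G`, indexed by `SL(2,ℤ) ⧸ Γ₀(p)`: `GX [γ] τ = G (γ⁻¹ τ)`. -/
def GX (p : ℕ) (hp : 0 < p) (x : H24.XN p) : ℍ → ℂ :=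
  Quotient.liftOn' x (fun γ τ => Gp p hp (γ⁻¹ • τ)) (by
    intro γ₁ γ₂ h
    rw [QuotientGroup.leftRel_apply] at h
    funext τ
    have h2 : γ₂⁻¹ = (γ₁⁻¹ * γ₂)⁻¹ * γ₁⁻¹ := by group
    show Gp p hp (γ₁⁻¹ • τ) = Gp p hp (γ₂⁻¹ • τ)
    rw [h2, mul_smul, Gp_smul_of_mem_Gamma0 p hp _ (inv_mem h)])

theorem GX_mk (p : ℕ) (hp : 0 < p) (γ : SL(2, ℤ)) (τ : ℍ) :
    GX p hp (QuotientGroup.mk γ : H24.XN p) τ = Gp p hp (γ⁻¹ • τ) := rfl

theorem GX_one (p : ℕ) (hp : 0 < p) (τ : ℍ) :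
    GX p hp (QuotientGroup.mk (1 : SL(2, ℤ)) : H24.XN p) τ = Gp p hp τ := by
  rw [GX_mk, inv_one, one_smul]

theorem GX_smul (p : ℕ) (hp : 0 < p) (γ : SL(2, ℤ)) (x : H24.XN p) (τ : ℍ) :
    GX p hp (γ • x) τ = GX p hp x (γ⁻¹ • τ) := by
  induction x using QuotientGroup.induction_on with
  | H γ' =>
    rw [MulAction.Quotient.smul_mk, GX_mk, GX_mk, smul_eq_mul, _root_.mul_inv_rev, mul_smul]

theorem exists_GX_eq (p : ℕ) (hp : 0 < p) (x : H24.XN p) :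
    ∃ (a b d : ℕ) (ha : 0 < a) (hd : 0 < d), a * d = p ∧ b < d ∧
      GX p hp x = Gabd a b d ha hd := by
  induction x using QuotientGroup.induction_on with
  | H γ =>
    obtain ⟨γ', a, b, d, had, hbd, h⟩ := exists_hermite p hp γ⁻¹
    have ha : 0 < a := by
      rcases Nat.eq_zero_or_pos a with h0 | h0
      · rw [h0, zero_mul] at had; omega
      · exact h0
    have hd : 0 < d := by omega
    refine ⟨a, b, d, ha, hd, had, hbd, ?_⟩
    funext τ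
    rw [GX_mk]
    exact Gabd_smul p hp γ⁻¹ γ' a b d ha hd had h τ

/-! ### Holomorphy and growth -/

theorem Delta_mdiff : MDiff (fun τ : ℍ => Δ τ) := ModularFormClass.holo CuspForm.discriminant

theorem Gabd_mdiff (a b d : ℕ) (ha : 0 < a) (hd : 0 < d) : MDiff (Gabd a b d ha hd) := by
  have h1 : MDiff (fun τ : ℍ => Δ (aff a b d ha hd τ)) :=
    mdiff_conj (fun τ => Δ τ) Delta_mdiff a b d ha hd
  have h2 := Delta_mdiff
  rw [UpperHalfPlane.mdifferentiable_iff] at h1 h2 ⊢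
  refine (((differentiableOn_const ((a : ℂ) ^ 12)).mul h1).div h2
    fun z hz => discriminant_ne_zero _).congr fun z hz => ?_
  simp [Gabd, Function.comp]

theorem norm_qParam_one' (τ : ℍ) : ‖𝕢 1 (τ : ℂ)‖ = Real.exp (-2 * Real.pi * τ.im) := by
  rw [Function.Periodic.norm_qParam]
  simp

theorem norm_qParam_le {c : ℝ} (τ : ℍ) (hτ : c ≤ τ.im) :
    ‖𝕢 1 (τ : ℂ)‖ ≤ Real.exp (-2 * Real.pi * c) := by
  rw [norm_qParam_one']
  apply Real.exp_le_exp.mpr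
  have : 2 * Real.pi * c ≤ 2 * Real.pi * τ.im :=
    mul_le_mul_of_nonneg_left hτ (by positivity)
  linarith

theorem exp_neg_lt_one {c : ℝ} (hc : 0 < c) : Real.exp (-2 * Real.pi * c) < 1 := by
  rw [Real.exp_lt_one_iff]
  have : 0 < 2 * Real.pi * c := by positivity
  linarith

/-- `Δ` is bounded on `Im τ ≥ c > 0`. -/
theorem exists_norm_Delta_le {c : ℝ} (hc : 0 < c) :
    ∃ C : ℝ, 0 ≤ C ∧ ∀ τ : ℍ, c ≤ τ.im → ‖Δ τ‖ ≤ C := by
  set r : ℝ := Real.exp (-2 * Real.pi * c) with hr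
  have hr1 : r < 1 := exp_neg_lt_one hc
  have hcont : ContinuousOn (fun x : ℂ => x * phi24 x) (closedBall 0 r) :=
    (continuousOn_id.mul differentiableOn_phi24.continuousOn).mono (closedBall_subset_ball hr1)
  obtain ⟨C, hC⟩ := (isCompact_closedBall (0 : ℂ) r).exists_bound_of_continuousOn hcont
  refine ⟨max C 0, le_max_right _ _, fun τ hτ => ?_⟩
  have hq : ‖𝕢 1 (τ : ℂ)‖ ≤ r := norm_qParam_le τ hτ
  have := hC (𝕢 1 τ) (by simpa using hq)
  rw [discriminant_eq]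
  exact this.trans (le_max_left _ _)

/-- `1/Δ` grows at most like `exp (2π Im τ)` on `Im τ ≥ c > 0`. -/
theorem exists_norm_Delta_inv_le {c : ℝ} (hc : 0 < c) :
    ∃ C : ℝ, 0 ≤ C ∧ ∀ τ : ℍ, c ≤ τ.im → ‖(Δ τ)⁻¹‖ ≤ C * Real.exp (2 * Real.pi * τ.im) := by
  set r : ℝ := Real.exp (-2 * Real.pi * c) with hr
  have hr1 : r < 1 := exp_neg_lt_one hc
  have hcont : ContinuousOn (fun x : ℂ => (phi24 x)⁻¹) (closedBall 0 r) :=
    differentiableOn_phi24_inv.continuousOn.mono (closedBall_subset_ball hr1)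
  obtain ⟨C, hC⟩ := (isCompact_closedBall (0 : ℂ) r).exists_bound_of_continuousOn hcont
  refine ⟨max C 0, le_max_right _ _, fun τ hτ => ?_⟩
  have hq : ‖𝕢 1 (τ : ℂ)‖ ≤ r := norm_qParam_le τ hτ
  have h1 := hC (𝕢 1 τ) (by simpa using hq)
  rw [discriminant_eq, mul_inv, norm_mul, norm_inv, norm_qParam_one', ← Real.exp_neg, mul_comm]
  have : -(-2 * Real.pi * τ.im) = 2 * Real.pi * τ.im := by ring
  rw [this]
  exact mul_le_mul_of_nonneg_right (h1.trans (le_max_left _ _)) (Real.exp_pos _).le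

theorem exists_norm_Gabd_le (a b d : ℕ) (ha : 0 < a) (hd : 0 < d) :
    ∃ C : ℝ, 0 ≤ C ∧ ∀ τ : ℍ, 1 ≤ τ.im →
      ‖Gabd a b d ha hd τ‖ ≤ C * Real.exp (2 * Real.pi * (1 : ℕ) * τ.im) := by
  have hd' : (0 : ℝ) < d := by exact_mod_cast hd
  have ha' : (1 : ℝ) ≤ a := by exact_mod_cast ha
  obtain ⟨C₁, hC₁, h₁⟩ := exists_norm_Delta_le (c := 1 / (d : ℝ)) (by positivity)
  obtain ⟨C₂, hC₂, h₂⟩ := exists_norm_Delta_inv_le (c := 1) one_pos
  refine ⟨(a : ℝ) ^ 12 * C₁ * C₂, by positivity, fun τ hτ => ?_⟩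
  have him : 1 / (d : ℝ) ≤ (aff a b d ha hd τ).im := by
    rw [im_aff, div_mul_eq_mul_div, div_le_div_iff_of_pos_right hd']
    nlinarith
  have e : Gabd a b d ha hd τ = (a : ℂ) ^ 12 * Δ (aff a b d ha hd τ) * (Δ τ)⁻¹ := by
    rw [Gabd, div_eq_mul_inv]
  rw [e, norm_mul, norm_mul, norm_pow, Complex.norm_natCast]
  have h3 := h₁ _ him
  have h4 := h₂ τ hτ
  calc (a : ℝ) ^ 12 * ‖Δ (aff a b d ha hd τ)‖ * ‖(Δ τ)⁻¹‖
      ≤ (a : ℝ) ^ 12 * C₁ * (C₂ * Real.exp (2 * Real.pi * τ.im)) := by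
        apply mul_le_mul _ h4 (norm_nonneg _) (by positivity)
        exact mul_le_mul_of_nonneg_left h3 (by positivity)
    _ = (a : ℝ) ^ 12 * C₁ * C₂ * Real.exp (2 * Real.pi * (1 : ℕ) * τ.im) := by
        push_cast
        ring_nf

/-! ### coefficient maps of the `Δ`-series -/

theorem coeffMap_DeltaS {R S : Type*} [CommRing R] [CommRing S] (f : R →+* S) :
    coeffMap f (DeltaS R) = DeltaS S := by
  rw [DeltaS, map_mul, coeffMap_single, map_one, coeffMap_ofPowerSeries,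
    ← RingHom.comp_apply (PowerSeries.map f) (PowerSeries.map (Int.castRingHom R)),
    ← PowerSeries.map_comp, RingHom.ext_int (f.comp (Int.castRingHom R)) (Int.castRingHom S)]
  rfl

theorem coeffMap_DeltaSInv {R S : Type*} [CommRing R] [CommRing S] (f : R →+* S) :
    coeffMap f (DeltaSInv R) = DeltaSInv S := by
  rw [DeltaSInv, map_mul, coeffMap_single, map_one, coeffMap_ofPowerSeries,
    ← RingHom.comp_apply (PowerSeries.map f) (PowerSeries.map (Int.castRingHom R)),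
    ← PowerSeries.map_comp, RingHom.ext_int (f.comp (Int.castRingHom R)) (Int.castRingHom S)]
  rfl

theorem coeffMap_DeltaQuot {R S : Type*} [CommRing R] [CommRing S] (f : R →+* S)
    (p : ℕ) [NeZero p] : coeffMap f (DeltaQuot R p) = DeltaQuot S p := by
  rw [DeltaQuot, map_mul, coeffMap_qExpand, coeffMap_DeltaS, coeffMap_DeltaSInv, DeltaQuot]

/-- The ring of algebraic integers in `ℂ`. -/
def Zbar : Subring ℂ := (integralClosure ℤ ℂ).toSubring

theorem mem_Zbar {z : ℂ} : z ∈ Zbar ↔ IsIntegral ℤ z := Iff.rfl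

theorem coeffIn_DeltaS (S : Subring ℂ) : CoeffIn S (DeltaS ℂ) := by
  rw [← coeffMap_DeltaS (Int.castRingHom ℂ)]
  exact CoeffIn.coeffMap_int _

theorem coeffIn_DeltaSInv (S : Subring ℂ) : CoeffIn S (DeltaSInv ℂ) := by
  rw [← coeffMap_DeltaSInv (Int.castRingHom ℂ)]
  exact CoeffIn.coeffMap_int _

/-! ### the two kinds of conjugates have algebraic-integer `q^(1/p)`-expansions -/

theorem isIntQ_Gabd_p (S : Subring ℂ) (p : ℕ) [NeZero p] (hp : 0 < p) :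
    IsIntQ S p hp (Gabd p 0 1 hp one_pos) := by
  refine ⟨HahnSeries.C ((p : ℂ) ^ 12) * qExpand ℂ p (qExpand ℂ p (DeltaS ℂ)) *
    qExpand ℂ p (DeltaSInv ℂ), ?_, ?_⟩
  · refine ((CoeffIn.C ?_).mul (((coeffIn_DeltaS S).qExpand p).qExpand p)).mul
      ((coeffIn_DeltaSInv S).qExpand p)
    exact S.pow_mem (natCast_mem S p) 12
  · have h1 := IsQSum.comp_aff_mul (IsQSum.comp_aff_mul isQSum_Delta p hp) p hp
    have h2 := IsQSum.comp_aff_mul isQSum_DeltaInv p hp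
    refine IsQSum.congr (((IsQSum.C ((p : ℂ) ^ 12)).mul h1).mul h2) ?_
    funext τ
    simp [Gabd, div_eq_mul_inv]

/-- the root of unity `exp (2π i b/p)` as a unit. -/
def zetaUnit (b p : ℕ) : ℂˣ :=
  Units.mk0 (Complex.exp (2 * Real.pi * Complex.I * (((b : ℝ) / (p : ℝ) : ℝ) : ℂ)))
    (Complex.exp_ne_zero _)

theorem zetaUnit_pow (b p : ℕ) (hp : 0 < p) : (zetaUnit b p) ^ p = 1 := by
  apply Units.ext
  rw [Units.val_pow_eq_pow_val, zetaUnit, Units.val_mk0, ← Complex.exp_nat_mul, Units.val_one]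
  have hp' : (p : ℂ) ≠ 0 := by exact_mod_cast hp.ne'
  have : (p : ℂ) * (2 * Real.pi * Complex.I * (((b : ℝ) / (p : ℝ) : ℝ) : ℂ)) =
      (b : ℂ) * (2 * Real.pi * Complex.I) := by
    push_cast
    field_simp
  rw [this]
  exact_mod_cast Complex.exp_nat_mul_two_pi_mul_I b

theorem zetaUnit_zpow_mem_Zbar (b p : ℕ) (hp : 0 < p) (n : ℤ) :
    (((zetaUnit b p) ^ n : ℂˣ) : ℂ) ∈ Zbar := by
  rw [mem_Zbar]
  refine IsIntegral.of_pow hp ?_
  have : ((((zetaUnit b p) ^ n : ℂˣ) : ℂ)) ^ p = 1 := by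
    rw [← Units.val_pow_eq_pow_val, ← zpow_natCast, ← zpow_mul, mul_comm, zpow_mul, zpow_natCast,
      zetaUnit_pow b p hp, one_zpow, Units.val_one]
  rw [this]
  exact isIntegral_one

theorem aff_one_aff (b p : ℕ) (hp : 0 < p) (τ : ℍ) :
    aff 1 b p one_pos hp (aff p 0 1 hp one_pos τ) = (((b : ℝ) / (p : ℝ) : ℝ)) +ᵥ τ := by
  apply UpperHalfPlane.ext
  have hp' : (p : ℂ) ≠ 0 := by exact_mod_cast hp.ne'
  simp only [coe_aff, UpperHalfPlane.coe_vadd]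
  push_cast
  field_simp
  ring

theorem isIntQ_Gabd_one (b p : ℕ) [NeZero p] (hp : 0 < p) :
    IsIntQ Zbar p hp (Gabd 1 b p one_pos hp) := by
  refine ⟨twist (zetaUnit b p) (DeltaS ℂ) * qExpand ℂ p (DeltaSInv ℂ), ?_, ?_⟩
  · exact ((coeffIn_DeltaS Zbar).twist _ (zetaUnit_zpow_mem_Zbar b p hp)).mul
      ((coeffIn_DeltaSInv Zbar).qExpand p)
  · have h1 := IsQSum.comp_vadd isQSum_Delta ((b : ℝ) / (p : ℝ)) (zetaUnit b p) rfl
    have h2 := IsQSum.comp_aff_mul isQSum_DeltaInv p hp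
    refine IsQSum.congr (h1.mul h2) ?_
    funext τ
    simp [Gabd, div_eq_mul_inv, aff_one_aff]

theorem isIntQ_GX (p : ℕ) [NeZero p] (hp : p.Prime) (x : H24.XN p) :
    IsIntQ Zbar p hp.pos (GX p hp.pos x) := by
  obtain ⟨a, b, d, ha, hd, had, hbd, hx⟩ := exists_GX_eq p hp.pos x
  rw [hx]
  rcases hp.eq_one_or_self_of_dvd a (Dvd.intro d had) with h1 | h1
  · subst h1
    rw [one_mul] at had
    subst had
    exact isIntQ_Gabd_one b d hd
  · subst h1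
    have hd1 : d = 1 := by
      have := Nat.eq_of_mul_eq_mul_left ha (had.trans (mul_one a).symm)
      exact this
    subst hd1
    have hb0 : b = 0 := by omega
    subst hb0
    exact isIntQ_Gabd_p Zbar a ha

/-! ### two-variable polynomials in `q`-sums -/

theorem IsQSum.eval₂_aeval {Xj Xw : LaurentSeries ℂ} {J G : ℍ → ℂ} (hj : IsQSum Xj J)
    (hw : IsQSum Xw G) (P : Polynomial (Polynomial ℂ)) :
    IsQSum (P.eval₂ ((Polynomial.aeval Xj).toRingHom : Polynomial ℂ →+* LaurentSeries ℂ) Xw)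
      (fun τ => (P.map (Polynomial.evalRingHom (J τ))).eval (G τ)) := by
  induction P using Polynomial.induction_on with
  | C a =>
    rw [Polynomial.eval₂_C]
    refine IsQSum.congr (IsQSum.aeval hj a) ?_
    funext τ
    simp
  | add p q hp hq =>
    rw [Polynomial.eval₂_add]
    refine IsQSum.congr (IsQSum.add hp hq) ?_
    funext τ
    simp
  | monomial n a ih =>
    rw [pow_succ, ← mul_assoc, Polynomial.eval₂_mul, Polynomial.eval₂_X]
    refine IsQSum.congr (IsQSum.mul ih hw) ?_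
    funext τ
    simp [mul_assoc]

/-! ### the analytic polynomial -/

theorem GX_mdiff (p : ℕ) (hp : 0 < p) (x : H24.XN p) : MDiff (GX p hp x) := by
  obtain ⟨a, b, d, ha, hd, -, -, hx⟩ := exists_GX_eq p hp x
  rw [hx]
  exact Gabd_mdiff a b d ha hd

theorem exists_GX_growth (p : ℕ) [NeZero p] (hp : 0 < p) :
    ∃ C : ℝ, ∀ (x : H24.XN p) (τ : ℍ), 1 ≤ τ.im →
      ‖GX p hp x τ‖ ≤ C * Real.exp (2 * Real.pi * (1 : ℕ) * τ.im) := by
  have hx : ∀ x : H24.XN p, ∃ C : ℝ, 0 ≤ C ∧ ∀ τ : ℍ, 1 ≤ τ.im →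
      ‖GX p hp x τ‖ ≤ C * Real.exp (2 * Real.pi * (1 : ℕ) * τ.im) := by
    intro x
    obtain ⟨a, b, d, ha, hd, -, -, hx⟩ := exists_GX_eq p hp x
    rw [hx]
    exact exists_norm_Gabd_le a b d ha hd
  choose C hC0 hC using hx
  refine ⟨∑ x, C x, fun x τ hτ => (hC x τ hτ).trans ?_⟩
  apply mul_le_mul_of_nonneg_right _ (Real.exp_pos _).le
  exact Finset.single_le_sum (f := C) (fun y _ => hC0 y) (Finset.mem_univ x)

/-- KEY-a for the `Δ`-quotient. -/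
theorem exists_analytic_poly (p : ℕ) [NeZero p] (hp : 0 < p) :
    ∃ P : Polynomial (Polynomial ℂ), P.Monic ∧
      ∀ τ : ℍ, P.map (Polynomial.evalRingHom (H28.J τ)) =
        ∏ x : H24.XN p, (Polynomial.X - Polynomial.C (GX p hp x τ)) := by
  obtain ⟨C, hC⟩ := exists_GX_growth p hp
  obtain ⟨P, hP1, -, -, hP4⟩ := H6.exists_charpoly_of_conjugates' H28.J (fun _ => rfl)
    (GX p hp) (GX_mdiff p hp) (fun γ x τ => GX_smul p hp γ x τ) 1 C hC
  exact ⟨P, hP1, hP4⟩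


/-- The coefficients of the analytic polynomial are algebraic integers. -/
theorem coeff_coeff_mem_Zbar (p : ℕ) [NeZero p] (hp : p.Prime) (P : Polynomial (Polynomial ℂ))
    (hP : ∀ τ : ℍ, P.map (Polynomial.evalRingHom (H28.J τ)) =
      ∏ x : H24.XN p, (Polynomial.X - Polynomial.C (GX p hp.pos x τ))) (k i : ℕ) :
    (P.coeff k).coeff i ∈ integralClosure ℤ ℂ := by
  have h1 := isIntQ_prod_X_sub_C_coeff Zbar p hp.pos (GX p hp.pos) Finset.univ
    (fun x _ => isIntQ_GX p hp x) k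
  obtain ⟨Xk, hXk, hsum⟩ := h1
  have h2 : IsQSum (Polynomial.aeval (qExpand ℂ p (jqModC ℂ)) (P.coeff k))
      (fun τ => (P.coeff k).eval (H28.J (aff p 0 1 hp.pos one_pos τ))) :=
    IsQSum.aeval (IsQSum.comp_aff_mul isQSum_J p hp.pos) (P.coeff k)
  have hfun : (fun τ => (P.coeff k).eval (H28.J (aff p 0 1 hp.pos one_pos τ))) =
      fun τ => (∏ x : H24.XN p, (Polynomial.X -
        Polynomial.C (GX p hp.pos x (aff p 0 1 hp.pos one_pos τ)))).coeff k := by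
    funext τ
    rw [← hP, Polynomial.coeff_map, Polynomial.coe_evalRingHom]
  rw [hfun] at h2
  have h3 : Polynomial.aeval (qExpand ℂ p (jqModC ℂ)) (P.coeff k) = Xk :=
    IsQSum.series_unique h2 hsum
  have h4 : Polynomial.aeval (qExpand ℂ p (jqModC ℂ)) (P.coeff k) =
      qExpand ℂ p (Polynomial.aeval (jqModC ℂ) (P.coeff k)) :=
    Polynomial.aeval_algHom_apply (qExpandAlgHomC ℂ p) (jqModC ℂ) (P.coeff k)
  have h5 : CoeffIn Zbar (Polynomial.aeval (jqModC ℂ) (P.coeff k)) := by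
    intro n
    have := hXk ((p : ℤ) * n)
    rwa [← h3, h4, qExpand_coeff_mul] at this
  exact coeff_mem_of_coeffIn_aeval_j' Zbar (P.coeff k) h5 i

theorem isQSum_Gp (p : ℕ) [NeZero p] (hp : 0 < p) :
    IsQSum ((p : LaurentSeries ℂ) ^ 12 * DeltaQuot ℂ p) (Gp p hp) := by
  have hC : ((p : ℕ) : LaurentSeries ℂ) = HahnSeries.C (p : ℂ) := by rw [map_natCast]
  rw [hC, DeltaQuot]
  refine IsQSum.congr (IsQSum.mul (IsQSum.pow (IsQSum.C (p : ℂ)) 12)
    (IsQSum.mul (IsQSum.comp_aff_mul isQSum_Delta p hp) isQSum_DeltaInv)) ?_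
  funext τ
  simp [Gp, Gabd, div_eq_mul_inv, mul_assoc]

theorem eval₂_analytic_poly_eq_zero (p : ℕ) [NeZero p] (hp : 0 < p)
    (P : Polynomial (Polynomial ℂ))
    (hP : ∀ τ : ℍ, P.map (Polynomial.evalRingHom (H28.J τ)) =
      ∏ x : H24.XN p, (Polynomial.X - Polynomial.C (GX p hp x τ))) :
    P.eval₂ ((Polynomial.aeval (jqModC ℂ)).toRingHom : Polynomial ℂ →+* LaurentSeries ℂ)
      ((p : LaurentSeries ℂ) ^ 12 * DeltaQuot ℂ p) = 0 := by
  have h := IsQSum.eval₂_aeval isQSum_J (isQSum_Gp p hp) P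
  have hfun : (fun τ => (P.map (Polynomial.evalRingHom (H28.J τ))).eval (Gp p hp τ)) = 0 := by
    funext τ
    rw [hP τ, Polynomial.eval_prod]
    apply Finset.prod_eq_zero (Finset.mem_univ (QuotientGroup.mk (1 : SL(2, ℤ)) : H24.XN p))
    rw [Polynomial.eval_sub, Polynomial.eval_X, Polynomial.eval_C, GX_one, sub_self]
  rw [hfun] at h
  exact IsQSum.eq_zero h

/-- **W1c**: `p^12 Δ(q^p)/Δ(q)` is integral over `ℤ[j]` (as formal Laurent series over `ℤ`). -/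
theorem exists_deltaQuotPoly (p : ℕ) [NeZero p] (hp : p.Prime) :
    ∃ P : Polynomial (Polynomial ℤ), IsDeltaQuotPoly p P := by
  obtain ⟨P, hP1, hP2⟩ := exists_analytic_poly p hp.pos
  have h0 := eval₂_analytic_poly_eq_zero p hp.pos P hP2
  obtain ⟨Q, hQ1, hQ2⟩ := exists_int_poly_of_monic_algInt (jqModC ℂ)
    ((p : LaurentSeries ℂ) ^ 12 * DeltaQuot ℂ p) P hP1 (coeff_coeff_mem_Zbar p hp P hP2) h0
  refine ⟨Q, hQ1, ?_⟩
  apply coeffMap_int_injective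
  rw [map_zero, coeffMap_eval₂_evalJ, coeffMap_jqModC, map_mul, map_pow, map_natCast,
    coeffMap_DeltaQuot]
  exact hQ2 (evalJ (jqModC ℂ)) (evalJ_X _)

end Fermat.Agent.S28.H9
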