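/-
S28, package W5 (helper99): degree of the function field of `X₀(N)` over `ℚ(j)`.

`[ℚ(j_d : d ∣ N) : ℚ(j)] = ψ(N)` and `ℚ(j_d : d ∣ N) = ℚ(j, j_N)`, by descent from the landed
`Qbar`-statements of S24 (`H40.finrank_FN`, distinct conjugates of `j_N`) through linear
disjointness of `Qbar` and `ℚ((q))` over `ℚ`.
-/
import Mathlib
import Fermat.Agent.S24.Defs
import Fermat.Agent.S24.H40_Transcendental
import Fermat.Agent.S24.H40_Generation
import Fermat.Agent.S24.H40_M123
import Fermat.Agent.S20.H78_Index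

set_option autoImplicit false

noncomputable section

namespace Fermat.Agent.S28.H99

open ModularCurve IntermediateField Polynomial

/-! ## Linear disjointness of `L` and `ℚ((q))` over `ℚ` inside `L((q))` -/

section LD

theorem algebraMap_rat_eq_C (a : ℚ) : algebraMap ℚ (LaurentSeries ℚ) a = HahnSeries.C a := by
  rw [algebraMap_apply_eq_single]
  rfl

variable (L : Type*) [Field L]

theorem algebraMap_eq_C (a : L) : algebraMap L (LaurentSeries L) a = HahnSeries.C a := by
  rw [algebraMap_laurentSeries_eq_single]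
  rfl

variable [Algebra ℚ L]

theorem coeff_C_mul' {R : Type*} [CommRing R] (a : R) (X : LaurentSeries R) (n : ℤ) :
    (HahnSeries.C a * X).coeff n = a * X.coeff n := by
  show (HahnSeries.single 0 a * X).coeff n = a * X.coeff n
  rw [HahnSeries.coeff_single_zero_mul]

/-- Finite form of: a `ℚ`-linearly independent family of Laurent series with rational
coefficients stays linearly independent over `L` in `L((q))`. -/
theorem eq_zero_of_sum_C_mul_coeffEmb {ι : Type*} (v : ι → LaurentSeries ℚ) (s : Finset ι)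
    (hv : ∀ r : ι → ℚ, ∑ i ∈ s, HahnSeries.C (r i) * v i = 0 → ∀ i ∈ s, r i = 0)
    (g : ι → L) (hg : ∑ i ∈ s, HahnSeries.C (g i) * coeffEmb L (v i) = 0) :
    ∀ i ∈ s, g i = 0 := by
  intro i hi
  -- apply an arbitrary `ℚ`-linear functional coefficientwise
  rw [← Module.forall_dual_apply_eq_zero_iff ℚ]
  intro φ
  have hφ : ∑ i ∈ s, HahnSeries.C (φ (g i)) * v i = 0 := by
    ext n
    rw [HahnSeries.coeff_sum, HahnSeries.coeff_zero]
    have h1 := congrArg (fun x : LaurentSeries L => φ (x.coeff n)) hg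
    simp only [HahnSeries.coeff_sum, HahnSeries.coeff_zero, map_zero, map_sum] at h1
    rw [← h1]
    refine Finset.sum_congr rfl fun i _ => ?_
    rw [coeff_C_mul', coeff_C_mul', coeffEmb_coeff,
      mul_comm (g i), ← Algebra.smul_def, map_smul, smul_eq_mul, mul_comm]
  exact hv (fun i => φ (g i)) hφ i hi

end LD

/-! ## Transfer of linear independence from `ℚ(j)` to `L(j)` -/

section Transfer

open scoped IntermediateField.algebraAdjoinAdjoin

/-- `jq` is transcendental over `ℚ`. -/
theorem transcendental_jq : Transcendental ℚ jq := by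
  have h := S24.H40.transcendental_coeffEmb_jq ℚ
  have e : coeffEmb ℚ jq = jq := by
    rw [coeffEmb]
    have : algebraMap ℚ ℚ = RingHom.id ℚ := rfl
    rw [this, coeffMap_id]
  rwa [e] at h

/-- If `v` is linearly independent over `ℚ(j)` then the family `j ^ m * v i` is linearly
independent over `ℚ` (finite form, product index sets). -/
theorem eq_zero_of_sum_C_mul_pow_mul {ι : Type*} {v : ι → LaurentSeries ℚ}
    (hv : LinearIndependent ℚ⟮jq⟯ v) (s : Finset ι) (M : ℕ) (r : ℕ × ι → ℚ)
    (hr : ∑ p ∈ Finset.range M ×ˢ s, HahnSeries.C (r p) * (jq ^ p.1 * v p.2) = 0) :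
    ∀ p ∈ Finset.range M ×ˢ s, r p = 0 := by
  classical
  let P : ι → ℚ[X] := fun i => ∑ m ∈ Finset.range M, Polynomial.monomial m (r (m, i))
  have hPmem : ∀ i, Polynomial.aeval jq (P i) ∈ ℚ⟮jq⟯ := fun i =>
    algebra_adjoin_le_adjoin ℚ {jq} (Polynomial.aeval_mem_adjoin_singleton ℚ jq)
  have hPval : ∀ i, Polynomial.aeval jq (P i) =
      ∑ m ∈ Finset.range M, HahnSeries.C (r (m, i)) * jq ^ m := by
    intro i
    simp only [P, map_sum, Polynomial.aeval_monomial, algebraMap_rat_eq_C]
  have hsum : ∑ i ∈ s, (⟨Polynomial.aeval jq (P i), hPmem i⟩ : ℚ⟮jq⟯) • v i = 0 := by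
    rw [← hr, Finset.sum_product_right]
    refine Finset.sum_congr rfl fun i _ => ?_
    show Polynomial.aeval jq (P i) * v i = _
    rw [hPval, Finset.sum_mul]
    refine Finset.sum_congr rfl fun m _ => ?_
    rw [mul_assoc]
  have h0 := (linearIndependent_iff'.mp hv) s _ hsum
  rintro ⟨m, i⟩ hp
  obtain ⟨hm, hi⟩ := Finset.mem_product.mp hp
  have h1 : Polynomial.aeval jq (P i) = 0 := congrArg Subtype.val (h0 i hi)
  have h2 : P i = 0 := (transcendental_iff.mp transcendental_jq) _ h1
  have h3 := congrArg (fun p : ℚ[X] => p.coeff m) h2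
  simp only [P, Polynomial.finsetSum_coeff, Polynomial.coeff_monomial, Polynomial.coeff_zero,
    Finset.sum_ite_eq', hm, if_true] at h3
  exact h3

variable (L : Type*) [Field L] [Algebra ℚ L]

/-- A family of Laurent series with rational coefficients which is linearly independent over
`ℚ(j)` stays linearly independent over `L(j)` in `L((q))`. -/
theorem linearIndependent_coeffEmb_adjoin {ι : Type*} {v : ι → LaurentSeries ℚ}
    (hv : LinearIndependent ℚ⟮jq⟯ v) :
    LinearIndependent L⟮coeffEmb L jq⟯ (fun i => coeffEmb L (v i)) := by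
  classical
  rw [← LinearIndependent.iff_fractionRing (Algebra.adjoin L {coeffEmb L jq}) L⟮coeffEmb L jq⟯]
  rw [linearIndependent_iff']
  intro s g hg i hi
  have hP : ∀ i, ∃ P : L[X], Polynomial.aeval (coeffEmb L jq) P = (g i : LaurentSeries L) := by
    intro i
    have h : (g i : LaurentSeries L) ∈ (Polynomial.aeval (R := L) (coeffEmb L jq)).range := by
      rw [← Algebra.adjoin_singleton_eq_range_aeval]
      exact (g i).2
    exact h
  choose P hP using hP
  set M := (s.sup fun i => (P i).natDegree) + 1 with hM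
  have hdeg : ∀ i ∈ s, (P i).natDegree < M := fun i hi =>
    Nat.lt_succ_of_le (Finset.le_sup (f := fun i => (P i).natDegree) hi)
  have hsum : ∑ p ∈ Finset.range M ×ˢ s, HahnSeries.C ((P p.2).coeff p.1) *
      coeffEmb L (jq ^ p.1 * v p.2) = 0 := by
    rw [Finset.sum_product_right]
    rw [← hg]
    refine Finset.sum_congr rfl fun i hi => ?_
    have h1 : g i • coeffEmb L (v i) = (g i : LaurentSeries L) * coeffEmb L (v i) := rfl
    rw [h1, ← hP i, Polynomial.aeval_eq_sum_range' (hdeg i hi), Finset.sum_mul]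
    refine Finset.sum_congr rfl fun m _ => ?_
    rw [map_mul, map_pow, Algebra.smul_def, mul_assoc, algebraMap_eq_C]
  have h0 := eq_zero_of_sum_C_mul_coeffEmb L (fun p : ℕ × ι => jq ^ p.1 * v p.2)
    (Finset.range M ×ˢ s) (eq_zero_of_sum_C_mul_pow_mul hv s M)
    (fun p => (P p.2).coeff p.1) hsum
  have hPi : P i = 0 := by
    ext m
    rw [Polynomial.coeff_zero]
    by_cases hm : m < M
    · exact h0 (m, i) (Finset.mem_product.mpr ⟨Finset.mem_range.mpr hm, hi⟩)
    · exact Polynomial.coeff_eq_zero_of_natDegree_lt (lt_of_lt_of_le (hdeg i hi) (not_lt.mp hm))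
  apply Subtype.ext
  rw [← hP i, hPi, map_zero]
  rfl

end Transfer

/-! ## Transport between an intermediate field and its lift -/

section Lift

variable {k E : Type*} [Field k] [Field E] [Algebra k E] {F : IntermediateField k E}
  (K : IntermediateField k F)

theorem linearIndependent_lift {ι : Type*} {u : ι → F} (hu : LinearIndependent K u) :
    LinearIndependent (IntermediateField.lift K) (fun i => (u i : E)) := by
  rw [linearIndependent_iff'] at hu ⊢
  intro s g hg i hi
  have hmem : ∀ i, (⟨(g i : E), IntermediateField.lift_le K (g i).2⟩ : F) ∈ K := fun i =>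
    (IntermediateField.mem_lift _).mp (g i).2
  have h0 := hu s (fun i => ⟨⟨(g i : E), IntermediateField.lift_le K (g i).2⟩, hmem i⟩) (by
    apply Subtype.ext
    rw [AddSubmonoidClass.coe_finsetSum, ZeroMemClass.coe_zero, ← hg]
    rfl) i hi
  apply Subtype.ext
  exact congrArg (fun x : K => ((x : F) : E)) h0

theorem linearIndependent_of_lift {ι : Type*} {u : ι → F}
    (hu : LinearIndependent (IntermediateField.lift K) (fun i => (u i : E))) :
    LinearIndependent K u := by
  rw [linearIndependent_iff'] at hu ⊢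
  intro s g hg i hi
  have h0 := hu s (fun i => ⟨((g i : F) : E), (IntermediateField.mem_lift _).mpr (g i).2⟩) (by
    have := congrArg (fun x : F => (x : E)) hg
    simp only [AddSubmonoidClass.coe_finsetSum, ZeroMemClass.coe_zero] at this
    rw [← this]
    rfl) i hi
  apply Subtype.ext
  apply Subtype.ext
  exact congrArg (fun x : IntermediateField.lift K => (x : E)) h0

theorem linearIndependent_lift_eq {K' : IntermediateField k E}
    (hK : IntermediateField.lift K = K') {ι : Type*} {u : ι → F} (hu : LinearIndependent K u) :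
    LinearIndependent K' (fun i => (u i : E)) := by
  subst hK
  exact linearIndependent_lift K hu

theorem linearIndependent_of_lift_eq {K' : IntermediateField k E}
    (hK : IntermediateField.lift K = K') {ι : Type*} {u : ι → F}
    (hu : LinearIndependent K' (fun i => (u i : E))) : LinearIndependent K u := by
  subst hK
  exact linearIndependent_of_lift K hu

end Lift

/-! ## The degree of `ℚ(j_d : d ∣ N)` over `ℚ(j)` -/

section Degree

open Fermat.Agent.S24 UpperHalfPlane
open scoped Manifold MatrixGroups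

variable (N : ℕ) [NeZero N]

/-- `jd N N` is integral over `Qbar[j]`. -/
theorem isIntegral_jd :
    IsIntegral (Algebra.adjoin Qbar {jBar N}) (jd N N dvd_rfl) := by
  obtain ⟨P, hmon, -, hev⟩ := (S24.H40.thetaData N).key_weak (S24.H17.jd_mem_A N N dvd_rfl)
  let φ : Polynomial Qbar →+* Algebra.adjoin Qbar {jBar N} :=
    (Polynomial.aeval (⟨jBar N, Algebra.self_mem_adjoin_singleton Qbar (jBar N)⟩ :
      Algebra.adjoin Qbar {jBar N})).toRingHom
  refine ⟨P.map φ, hmon.map _, ?_⟩
  rw [Polynomial.eval₂_map]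
  have h2 : (algebraMap (Algebra.adjoin Qbar {jBar N}) (FN N)).comp φ =
      ((Polynomial.aeval (jBar N)).toRingHom : Polynomial Qbar →+* FN N) := by
    ext p
    · simp [φ]
    · simp [φ]
  rw [h2]
  exact hev

/-- The conjugates of `j_N` are distinct: the minimal polynomial of `j_N` over `Qbar(j)` has
degree at least `#X_N`. -/
theorem card_XN_le_natDegree_minpoly :
    Nat.card (S24.H24.XN N) ≤ (minpoly Qbar⟮jBar N⟯ (jd N N dvd_rfl)).natDegree := by
  classical
  let θ : S24.H24.XN N → (S24.H40.AN N →+* (ℍ → ℂ)) := fun x => S24.H17.thetaXHom N x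
  let f0 : S24.H40.AN N := ⟨jd N N dvd_rfl, S24.H40.jd_mem_AN N N dvd_rfl⟩
  have hmdiff : ∀ x, MDiff (θ x f0) := fun x =>
    S24.H17.thetaConj_mdiff N (S24.H17.jd_mem_A N N dvd_rfl) (Quotient.out x)
  have hdist : Function.Injective fun x => θ x f0 := S24.H17.thetaX_jd_injective N
  obtain ⟨τ₁, hτ₁⟩ := S24.H40.exists_injective_eval (fun x => θ x f0) hmdiff hdist
  have hinv : ∀ (x : S24.H24.XN N) (c : S24.H40.AN N),
      (c : FN N) ∈ Algebra.adjoin Qbar {jBar N} →
      θ x c = θ (QuotientGroup.mk 1 : S24.H24.XN N) c := by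
    intro x c hc
    show S24.H17.thetaConj N (Quotient.out x) c.1 = S24.H17.thetaConj N (Quotient.out _) c.1
    rw [S24.H17.thetaConj_of_mem_adjoin_jBar N hc, S24.H17.thetaConj_of_mem_adjoin_jBar N hc]
  rw [Nat.card_eq_fintype_card]
  exact S24.H40.card_le_natDegree_minpoly (jBar N) (S24.H40.transcendental_jBar N)
    (S24.H40.AN N) (S24.H40.jBar_mem_AN N) θ (QuotientGroup.mk 1 : S24.H24.XN N) hinv
    (Pi.evalRingHom (fun _ : ℍ => ℂ) τ₁) f0 hτ₁ (isIntegral_jd N)

end Degree

/-! ## Main results -/

section Main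

open Fermat.Agent.S24

variable (N : ℕ) [NeZero N]

theorem lift_adjoin_jBar :
    IntermediateField.lift (Qbar⟮jBar N⟯) = Qbar⟮coeffEmb Qbar jq⟯ := by
  rw [IntermediateField.lift_adjoin_simple]
  rfl

theorem natCard_XN : Nat.card (S24.H24.XN N) = dedekindPsi N :=
  S20.H78.card_quotient_Gamma0 N

/-- UPPER BOUND: a family in `ℚ(j_d : d ∣ N)` which is linearly independent over `ℚ(j)` has at
most `ψ(N)` elements. -/
theorem card_le_of_linearIndependent {ι : Type*} [Fintype ι] {v : ι → LaurentSeries ℚ}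
    (hmem : ∀ i, v i ∈ modularFunctionFieldFull N) (hv : LinearIndependent ℚ⟮jq⟯ v) :
    Fintype.card ι ≤ dedekindPsi N := by
  have h1 := linearIndependent_coeffEmb_adjoin Qbar hv
  let u : ι → FN N := fun i =>
    ⟨coeffEmb Qbar (v i), coeffEmb_mem_laurentBaseChange Qbar (hmem i)⟩
  have h2 : LinearIndependent Qbar⟮jBar N⟯ u :=
    linearIndependent_of_lift_eq _ (lift_adjoin_jBar N) h1
  have := (S24.H40.finrank_FN N).1
  have h3 := h2.fintype_card_le_finrank
  rw [(S24.H40.finrank_FN N).2, natCard_XN] at h3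
  exact h3

/-- LOWER BOUND: the first `ψ(N)` powers of `j_N` are linearly independent over `ℚ(j)`. -/
theorem linearIndependent_pow_jqN :
    LinearIndependent ℚ⟮jq⟯ (fun m : Fin (dedekindPsi N) => (jqN N) ^ (m : ℕ)) := by
  have hdeg := card_XN_le_natDegree_minpoly N
  rw [natCard_XN] at hdeg
  have h1 := linearIndependent_pow (K := Qbar⟮jBar N⟯) (jd N N dvd_rfl)
  have h2 : LinearIndependent Qbar⟮jBar N⟯
      (fun m : Fin (dedekindPsi N) => (jd N N dvd_rfl) ^ (m : ℕ)) :=
    h1.comp (Fin.castLE hdeg) (Fin.castLE_injective hdeg)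
  have h3 := linearIndependent_lift_eq _ (lift_adjoin_jBar N) h2
  rw [linearIndependent_iff'] at h3 ⊢
  intro s g hg i hi
  have hgmem : ∀ i, coeffEmb Qbar (g i : LaurentSeries ℚ) ∈ Qbar⟮coeffEmb Qbar jq⟯ := fun i => by
    have := S24.H40.coeffEmb_mem_adjoin_image Qbar {jq} (g i).2
    rwa [Set.image_singleton] at this
  have h0 := h3 s (fun i => ⟨coeffEmb Qbar (g i : LaurentSeries ℚ), hgmem i⟩) (by
    have := congrArg (coeffEmb Qbar) hg
    rw [map_sum, map_zero] at this
    rw [← this]
    refine Finset.sum_congr rfl fun m _ => ?_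
    show coeffEmb Qbar (g m : LaurentSeries ℚ) *
        ((jd N N dvd_rfl ^ (m : ℕ) : FN N) : LaurentSeries Qbar) =
      coeffEmb Qbar ((g m : LaurentSeries ℚ) * jqN N ^ (m : ℕ))
    rw [map_mul, map_pow, SubmonoidClass.coe_pow]
    rfl) i hi
  have h5 : coeffEmb Qbar (g i : LaurentSeries ℚ) = 0 := congrArg Subtype.val h0
  apply Subtype.ext
  exact (coeffEmb Qbar).injective (h5.trans (map_zero _).symm)

theorem adjoin_jq_le_full : ℚ⟮jq⟯ ≤ modularFunctionFieldFull N :=
  (adjoin_jq_le N).trans (modularFunctionField_le_full N)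

/-- `ℚ(j_d : d ∣ N)` as an intermediate field of `ℚ((q))` over `ℚ(j)`. -/
def fullOver : IntermediateField ℚ⟮jq⟯ (LaurentSeries ℚ) :=
  IntermediateField.extendScalars (adjoin_jq_le_full N)

theorem mem_fullOver {x : LaurentSeries ℚ} : x ∈ fullOver N ↔ x ∈ modularFunctionFieldFull N :=
  Iff.rfl

theorem rank_fullOver_le : Module.rank ℚ⟮jq⟯ (fullOver N) ≤ dedekindPsi N := by
  apply rank_le
  intro s hs
  have h1 : LinearIndependent ℚ⟮jq⟯ (fun i : s => (((i : fullOver N)) : LaurentSeries ℚ)) :=
    hs.map' (fullOver N).val.toLinearMap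
      (LinearMap.ker_eq_bot.mpr (fullOver N).val.toRingHom.injective)
  have h2 := card_le_of_linearIndependent N (ι := s)
    (v := fun i : s => (((i : fullOver N)) : LaurentSeries ℚ)) (fun i => (i : fullOver N).2) h1
  rwa [Fintype.card_coe] at h2

instance finiteDimensional_fullOver : FiniteDimensional ℚ⟮jq⟯ (fullOver N) := by
  rw [FiniteDimensional, ← Module.rank_lt_aleph0_iff]
  exact lt_of_le_of_lt (rank_fullOver_le N) Cardinal.natCast_lt_aleph0

theorem finrank_fullOver_le : Module.finrank ℚ⟮jq⟯ (fullOver N) ≤ dedekindPsi N :=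
  Module.finrank_le_of_rank_le (rank_fullOver_le N)

theorem jqN_mem_fullOver : jqN N ∈ fullOver N := jqd_mem_full N dvd_rfl

theorem isIntegral_jqN : IsIntegral ℚ⟮jq⟯ (jqN N) := by
  have h : IsIntegral ℚ⟮jq⟯ (⟨jqN N, jqN_mem_fullOver N⟩ : fullOver N) :=
    Algebra.IsIntegral.isIntegral _
  exact h.map (fullOver N).val

/-- **W5 (degree of the minimal polynomial).** -/
theorem natDegree_minpoly_jqN : (minpoly ℚ⟮jq⟯ (jqN N)).natDegree = dedekindPsi N := by
  apply le_antisymm
  · have hle : ℚ⟮jq⟯⟮jqN N⟯ ≤ fullOver N := by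
      rw [IntermediateField.adjoin_simple_le_iff]
      exact jqN_mem_fullOver N
    have h1 := IntermediateField.finrank_le_of_le_right hle
    rw [IntermediateField.adjoin.finrank (isIntegral_jqN N)] at h1
    exact h1.trans (finrank_fullOver_le N)
  · by_contra hlt
    rw [not_le] at hlt
    -- the powers `0, …, d` are dependent, but `d < ψ(N)`
    have h1 := linearIndependent_pow_jqN N
    rw [Fintype.linearIndependent_iff] at h1
    set P := minpoly ℚ⟮jq⟯ (jqN N) with hP
    have hmon : P.Monic := minpoly.monic (isIntegral_jqN N)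
    have h2 := h1 (fun m => P.coeff (m : ℕ)) (by
      have h3 := minpoly.aeval ℚ⟮jq⟯ (jqN N)
      rw [← hP, Polynomial.aeval_eq_sum_range' hlt] at h3
      rw [← h3, Finset.sum_range]) ⟨P.natDegree, hlt⟩
    simp only at h2
    rw [hmon.coeff_natDegree] at h2
    exact one_ne_zero h2

/-- **W5 (generation).** `ℚ(j_d : d ∣ N)` is generated by `j_N` over `ℚ(j)`. -/
theorem adjoin_jqN_eq_fullOver : ℚ⟮jq⟯⟮jqN N⟯ = fullOver N := by
  have hle : ℚ⟮jq⟯⟮jqN N⟯ ≤ fullOver N := by
    rw [IntermediateField.adjoin_simple_le_iff]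
    exact jqN_mem_fullOver N
  apply IntermediateField.eq_of_le_of_finrank_le hle
  rw [IntermediateField.adjoin.finrank (isIntegral_jqN N), natDegree_minpoly_jqN]
  exact finrank_fullOver_le N

/-- **W5 (degree).** `[ℚ(j_d : d ∣ N) : ℚ(j)] = ψ(N)`. -/
theorem finrank_fullOver : Module.finrank ℚ⟮jq⟯ (fullOver N) = dedekindPsi N := by
  rw [← adjoin_jqN_eq_fullOver, IntermediateField.adjoin.finrank (isIntegral_jqN N),
    natDegree_minpoly_jqN]

/-- **W5 (generation over `ℚ`).** -/
theorem modularFunctionField_eq_full : modularFunctionField N = modularFunctionFieldFull N := by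
  apply le_antisymm (modularFunctionField_le_full N)
  intro x hx
  have h1 : x ∈ fullOver N := hx
  rw [← adjoin_jqN_eq_fullOver] at h1
  have hle : ℚ⟮jq⟯⟮jqN N⟯ ≤ IntermediateField.extendScalars (adjoin_jq_le N) := by
    rw [IntermediateField.adjoin_simple_le_iff]
    exact jqN_mem N
  exact hle h1

theorem functionFieldGeneration : FunctionFieldGeneration N := by
  intro d hd hne
  have h := @jqd_mem_full N d hne hd
  rw [← modularFunctionField_eq_full] at h
  exact h

end Main

end Fermat.Agent.S28.H99
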