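/-
S28 / W4 (helper33): scheme glue.

From "the two chart rings tensored with `K` are domains and the middle chart tensored with `K`
is nontrivial" we deduce that the base change of the Igusa scheme to `K` is an integral scheme.
Only the frozen prelude definitions and Mathlib are used.
-/
import Mathlib
import Fermat.Prelude.Def_ModularCurve_IgusaScheme

set_option autoImplicit false

open AlgebraicGeometry CategoryTheory CategoryTheory.Limits ModularCurve ModularCurve.IgusaScheme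
open scoped TensorProduct

noncomputable section

namespace Fermat.Agent.S28.H33

universe u

/-! ### General topology: two irreducible opens with a common point -/

theorem irreducibleSpace_of_two_opens {X : Type*} [TopologicalSpace X] {U₁ U₂ : Set X}
    (h₁ : IsIrreducible U₁) (h₂ : IsIrreducible U₂) (o₁ : IsOpen U₁) (o₂ : IsOpen U₂)
    (hne : (U₁ ∩ U₂).Nonempty) (hcov : ∀ x, x ∈ U₁ ∨ x ∈ U₂) : IrreducibleSpace X := by
  have key : ∀ U : Set X, IsOpen U → U.Nonempty → (U ∩ (U₁ ∩ U₂)).Nonempty := by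
    intro U hU ⟨x, hx⟩
    rcases hcov x with hx1 | hx2
    · obtain ⟨y, hy1, hyU, hy2⟩ := h₁.2 U U₂ hU o₂ ⟨x, hx1, hx⟩
        (by obtain ⟨z, hz1, hz2⟩ := hne; exact ⟨z, hz1, hz2⟩)
      exact ⟨y, hyU, hy1, hy2⟩
    · obtain ⟨y, hy2, hyU, hy1⟩ := h₂.2 U U₁ hU o₁ ⟨x, hx2, hx⟩
        (by obtain ⟨z, hz1, hz2⟩ := hne; exact ⟨z, hz2, hz1⟩)
      exact ⟨y, hyU, hy1, hy2⟩
  have hpre : PreirreducibleSpace X := by
    refine PreirreducibleSpace.of_forall_nonempty_inter ?_
    intro U V hU hV hUne hVne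
    obtain ⟨a, haU, ha1, ha2⟩ := key U hU hUne
    obtain ⟨b, hbV, hb1, hb2⟩ := key V hV hVne
    obtain ⟨c, hc1, hcU, hcV⟩ := h₁.2 U V hU hV ⟨a, ha1, haU⟩ ⟨b, hb1, hbV⟩
    exact ⟨c, hcU, hcV⟩
  obtain ⟨z, -, -⟩ := hne
  exact { toPreirreducibleSpace := hpre, toNonempty := ⟨z⟩ }

/-! ### General scheme lemma: two integral charts with a common point -/

theorem isIntegral_of_two_charts {P X₁ X₂ : Scheme.{u}} (f₁ : X₁ ⟶ P) (f₂ : X₂ ⟶ P)
    [IsOpenImmersion f₁] [IsOpenImmersion f₂] [IsIntegral X₁] [IsIntegral X₂]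
    (hcov : ∀ x : P, x ∈ Set.range f₁ ∨ x ∈ Set.range f₂)
    (hne : (Set.range f₁ ∩ Set.range f₂).Nonempty) : IsIntegral P := by
  have hirr : IrreducibleSpace P := by
    refine irreducibleSpace_of_two_opens (U₁ := Set.range f₁) (U₂ := Set.range f₂)
      ?_ ?_ f₁.isOpenEmbedding.isOpen_range f₂.isOpenEmbedding.isOpen_range hne hcov
    · rw [← Set.image_univ]
      exact (IrreducibleSpace.isIrreducible_univ X₁).image _ f₁.continuous.continuousOn
    · rw [← Set.image_univ]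
      exact (IrreducibleSpace.isIrreducible_univ X₂).image _ f₂.continuous.continuousOn
  have hred : IsReduced P := by
    let 𝒰 : P.OpenCover := Scheme.Cover.mkOfCovers Bool (fun b => if b then X₁ else X₂)
      (fun b => by
        cases b
        · exact f₂
        · exact f₁)
      (fun x => by
        rcases hcov x with ⟨y, hy⟩ | ⟨y, hy⟩
        · exact ⟨true, y, hy⟩
        · exact ⟨false, y, hy⟩)
      (fun b => by
        cases b
        · exact inferInstanceAs (IsOpenImmersion f₂)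
        · exact inferInstanceAs (IsOpenImmersion f₁))
    have : ∀ i, IsReduced (𝒰.X i) := by
      intro b
      cases b
      · exact inferInstanceAs (IsReduced X₂)
      · exact inferInstanceAs (IsReduced X₁)
    exact IsReduced.of_openCover P 𝒰
  exact isIntegral_of_irreducibleSpace_of_isReduced P

/-! ### The concrete glue for the Igusa scheme -/

section Igusa

variable (N : ℕ) [NeZero N] (ℓ : ℕ) [Fact ℓ.Prime]
variable (K : Type) [Field K] [Algebra ↥(GaloisRep.ratLocalizedAt ℓ) K]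

set_option quotPrecheck false in
local notation "ℤℓ" => ↥(GaloisRep.ratLocalizedAt ℓ)

/-- The base-change morphism `Spec K ⟶ Spec ℤ_(ℓ)`. -/
abbrev toBase : Spec (CommRingCat.of K) ⟶ Spec (CommRingCat.of ℤℓ) :=
  Spec.map (CommRingCat.ofHom (algebraMap ℤℓ K))

/-- The two-chart open cover of the Igusa scheme. -/
def igusaOpenCover : (ModularCurve.IgusaScheme N ℓ).OpenCover :=
  Scheme.Cover.mkOfCovers Bool
    (fun b => if b then XFin N ℓ else XInf N ℓ)
    (fun b => by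
      cases b
      · exact ιInf N ℓ
      · exact ιFin N ℓ)
    (fun x => by
      rcases mem_range_ιFin_or_mem_range_ιInf N ℓ x with ⟨y, hy⟩ | ⟨y, hy⟩
      · exact ⟨true, y, hy⟩
      · exact ⟨false, y, hy⟩)
    (fun b => by
      cases b
      · exact inferInstanceAs (IsOpenImmersion (ιInf N ℓ))
      · exact inferInstanceAs (IsOpenImmersion (ιFin N ℓ)))

/-- The chart of the base change lying over the finite chart. -/
abbrev chartFinK : pullback (ιFin N ℓ ≫ igusaTo N ℓ) (toBase ℓ K) ⟶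
    pullback (igusaTo N ℓ) (toBase ℓ K) :=
  pullback.map _ _ _ _ (ιFin N ℓ) (𝟙 _) (𝟙 _) (by simp) (by simp)

/-- The chart of the base change lying over the chart at infinity. -/
abbrev chartInfK : pullback (ιInf N ℓ ≫ igusaTo N ℓ) (toBase ℓ K) ⟶
    pullback (igusaTo N ℓ) (toBase ℓ K) :=
  pullback.map _ _ _ _ (ιInf N ℓ) (𝟙 _) (𝟙 _) (by simp) (by simp)

instance isOpenImmersion_chartFinK : IsOpenImmersion (chartFinK N ℓ K) :=
  (Scheme.Pullback.openCoverOfLeft (igusaOpenCover N ℓ) (igusaTo N ℓ) (toBase ℓ K)).map_prop true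

instance isOpenImmersion_chartInfK : IsOpenImmersion (chartInfK N ℓ K) :=
  (Scheme.Pullback.openCoverOfLeft (igusaOpenCover N ℓ) (igusaTo N ℓ) (toBase ℓ K)).map_prop false

theorem mem_range_chartFinK_or_chartInfK (x : ↥(pullback (igusaTo N ℓ) (toBase ℓ K))) :
    x ∈ Set.range (chartFinK N ℓ K) ∨ x ∈ Set.range (chartInfK N ℓ K) := by
  obtain ⟨b, y, hy⟩ :=
    (Scheme.Pullback.openCoverOfLeft (igusaOpenCover N ℓ) (igusaTo N ℓ) (toBase ℓ K)).exists_eq x
  cases b
  · exact Or.inr ⟨y, hy⟩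
  · exact Or.inl ⟨y, hy⟩

/-- The finite chart of the base change is the spectrum of `chartAlgFin ⊗ K`. -/
def chartFinKIso : pullback (ιFin N ℓ ≫ igusaTo N ℓ) (toBase ℓ K) ≅
    Spec (CommRingCat.of (↥(chartAlgFin N ℓ) ⊗[ℤℓ] K)) :=
  pullback.congrHom (ιFin_igusaTo N ℓ) rfl ≪≫ pullbackSpecIso ℤℓ ↥(chartAlgFin N ℓ) K

/-- The chart at infinity of the base change is the spectrum of `chartAlgInf ⊗ K`. -/
def chartInfKIso : pullback (ιInf N ℓ ≫ igusaTo N ℓ) (toBase ℓ K) ≅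
    Spec (CommRingCat.of (↥(chartAlgInf N ℓ) ⊗[ℤℓ] K)) :=
  pullback.congrHom (ιInf_igusaTo N ℓ) rfl ≪≫ pullbackSpecIso ℤℓ ↥(chartAlgInf N ℓ) K

theorem fFin_ιFin_igusaTo : fFin N ℓ ≫ ιFin N ℓ ≫ igusaTo N ℓ =
    Spec.map (CommRingCat.ofHom (algebraMap ℤℓ ↥(chartAlgMid N ℓ))) := by
  rw [ιFin_igusaTo, ← Spec.map_comp, ← CommRingCat.ofHom_comp]
  rfl

/-- The overlap of the two charts of the base change is the spectrum of `chartAlgMid ⊗ K`. -/
def chartMidKIso : pullback (fFin N ℓ ≫ ιFin N ℓ ≫ igusaTo N ℓ) (toBase ℓ K) ≅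
    Spec (CommRingCat.of (↥(chartAlgMid N ℓ) ⊗[ℤℓ] K)) :=
  pullback.congrHom (fFin_ιFin_igusaTo N ℓ) rfl ≪≫ pullbackSpecIso ℤℓ ↥(chartAlgMid N ℓ) K

set_option backward.isDefEq.respectTransparency false in
/-- **Scheme glue for S28.** If the two chart rings tensored with `K` are domains and the
middle chart ring tensored with `K` is nontrivial, the base change of the Igusa scheme to `K`
is integral. -/
theorem isIntegral_pullback_igusaTo_of_charts
    (hFin : IsDomain (↥(chartAlgFin N ℓ) ⊗[ℤℓ] K))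
    (hInf : IsDomain (↥(chartAlgInf N ℓ) ⊗[ℤℓ] K))
    (hMid : Nontrivial (↥(chartAlgMid N ℓ) ⊗[ℤℓ] K)) :
    IsIntegral ↑(pullback (igusaTo N ℓ)
      (Spec.map (CommRingCat.ofHom (algebraMap ℤℓ K)))) := by
  have h1 : IsIntegral (pullback (ιFin N ℓ ≫ igusaTo N ℓ) (toBase ℓ K)) := by
    have : IsDomain ↑(CommRingCat.of (↥(chartAlgFin N ℓ) ⊗[ℤℓ] K)) := hFin
    exact IsIntegral.of_isIso (chartFinKIso N ℓ K).inv
  have h2 : IsIntegral (pullback (ιInf N ℓ ≫ igusaTo N ℓ) (toBase ℓ K)) := by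
    have : IsDomain ↑(CommRingCat.of (↥(chartAlgInf N ℓ) ⊗[ℤℓ] K)) := hInf
    exact IsIntegral.of_isIso (chartInfKIso N ℓ K).inv
  have h0 : Nonempty ↥(pullback (fFin N ℓ ≫ ιFin N ℓ ≫ igusaTo N ℓ) (toBase ℓ K)) := by
    have : Nontrivial ↑(CommRingCat.of (↥(chartAlgMid N ℓ) ⊗[ℤℓ] K)) := hMid
    have hne : Nonempty ↥(Spec (CommRingCat.of (↥(chartAlgMid N ℓ) ⊗[ℤℓ] K))) :=
      inferInstanceAs (Nonempty (PrimeSpectrum _))
    exact hne.map (chartMidKIso N ℓ K).inv
  refine isIntegral_of_two_charts (chartFinK N ℓ K) (chartInfK N ℓ K)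
    (mem_range_chartFinK_or_chartInfK N ℓ K) ?_
  obtain ⟨z⟩ := h0
  let m₁ : pullback (fFin N ℓ ≫ ιFin N ℓ ≫ igusaTo N ℓ) (toBase ℓ K) ⟶
      pullback (ιFin N ℓ ≫ igusaTo N ℓ) (toBase ℓ K) :=
    pullback.map _ _ _ _ (fFin N ℓ) (𝟙 _) (𝟙 _) (by simp) (by simp)
  let m₂ : pullback (fFin N ℓ ≫ ιFin N ℓ ≫ igusaTo N ℓ) (toBase ℓ K) ⟶
      pullback (ιInf N ℓ ≫ igusaTo N ℓ) (toBase ℓ K) :=
    pullback.map _ _ _ _ (fInf N ℓ) (𝟙 _) (𝟙 _)
      (by rw [Category.comp_id, ← Category.assoc, ← Category.assoc, glue_condition]) (by simp)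
  have hm : m₁ ≫ chartFinK N ℓ K = m₂ ≫ chartInfK N ℓ K := by
    apply pullback.hom_ext
    · simp [m₁, m₂, chartFinK, chartInfK, glue_condition]
    · simp [m₁, m₂, chartFinK, chartInfK]
  refine ⟨chartFinK N ℓ K (m₁ z), ⟨_, rfl⟩, m₂ z, ?_⟩
  rw [← Scheme.Hom.comp_apply, ← Scheme.Hom.comp_apply, hm]

end Igusa

end Fermat.Agent.S28.H33
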