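import Mathlib
import Fermat.Agent.S28.Defs
import Fermat.Agent.S28.Interface
import Fermat.Agent.S28.H33_Glue

/-!
S28 / W6 (helper16): the assembly of S28 from the final statements of the packages, with the package
outputs as hypotheses (so that the shapes are fixed and checked now).
-/

set_option autoImplicit false

open AlgebraicGeometry CategoryTheory CategoryTheory.Limits ModularCurve ModularCurve.IgusaScheme
open scoped TensorProduct

noncomputable section

namespace Fermat.Agent.S28.H16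

open Fermat.Agent.S28

set_option quotPrecheck false in
local notation "ℤℓ[" ℓ "]" => ↥(GaloisRep.ratLocalizedAt ℓ)

/-- The statement that W3 has to deliver for a given `(N, ℓ, K)`. -/
def ChartsOK (N : ℕ) [NeZero N] (ℓ : ℕ) [Fact ℓ.Prime] (K : Type) [Field K]
    [Algebra ↥(GaloisRep.ratLocalizedAt ℓ) K] : Prop :=
  IsDomain (↥(chartAlgFin N ℓ) ⊗[↥(GaloisRep.ratLocalizedAt ℓ)] K) ∧
    IsDomain (↥(chartAlgInf N ℓ) ⊗[↥(GaloisRep.ratLocalizedAt ℓ)] K) ∧
    Nontrivial (↥(chartAlgMid N ℓ) ⊗[↥(GaloisRep.ratLocalizedAt ℓ)] K)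

set_option maxHeartbeats 4000000 in
set_option synthInstance.maxHeartbeats 400000 in
/-- S28 from the package outputs. -/
theorem result_of_packages
    (N : ℕ) [NeZero N] (ℓ : ℕ) [Fact ℓ.Prime] (hℓN : ¬ ℓ ∣ N)
    (K : Type) [Field K] [CharP K ℓ] [Algebra ↥(GaloisRep.ratLocalizedAt ℓ) K]
    (hW1 : HasModPoly N)
    (hW2 : ∀ D : ModularPolynomialData N,
      (∀ (k : Type) [Field k] (ζ : kˣ), IsPrimitiveRoot ζ N → RootsAt k N ζ D.Φ) →
        IrredCharL ℓ D.Φ)
    (hW3 : ∀ D : ModularPolynomialData N, IrredCharL ℓ D.Φ → ChartsOK N ℓ K) :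
    IsIntegral ↑(pullback (igusaTo N ℓ)
      (Spec.map (CommRingCat.ofHom (algebraMap ↥(GaloisRep.ratLocalizedAt ℓ) K)))) := by
  have _ := hℓN
  obtain ⟨D, hD⟩ := hW1
  obtain ⟨hFin, hInf, hMid⟩ := hW3 D (hW2 D hD)
  exact H33.isIntegral_pullback_igusaTo_of_charts N ℓ K hFin hInf hMid

end Fermat.Agent.S28.H16
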