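import Mathlib
import Fermat.Agent.S28.H40_Degree
import Fermat.Agent.S28.H69_ChartSetup

/-!
S28 / W3 `hgen` (helper40, hedge of helper69 (ii)): every element of the full function field `F`
becomes, after multiplication by a nonzero polynomial in `j` (resp. `1/j`) with integer
coefficients, a polynomial in `θ = j_N` with coefficients in `ℤ[j]` (resp. `ℤ[1/j]`).
-/

set_option autoImplicit false

noncomputable section

namespace Fermat.Agent.S28.H40

open ModularCurve Polynomial IntermediateField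
open ModularCurve.IgusaScheme

/-! ### Clearing integer denominators of a finite family of rational polynomials -/

theorem exists_int_multiple {ι : Type*} [Fintype ι] (Q : ι → ℚ[X]) :
    ∃ d : ℤ, d ≠ 0 ∧ ∀ i, ∃ P : ℤ[X], P.map (Int.castRingHom ℚ) = (d : ℚ) • Q i := by
  classical
  choose b hb using fun i =>
    IsLocalization.integerNormalization_map_to_map (nonZeroDivisors ℤ) (Q i)
  refine ⟨∏ i, (b i : ℤ), Finset.prod_ne_zero_iff.mpr fun i _ => nonZeroDivisors.coe_ne_zero (b i),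
    fun i => ⟨(∏ k ∈ Finset.univ.erase i, (b k : ℤ)) •
      IsLocalization.integerNormalization (nonZeroDivisors ℤ) (Q i), ?_⟩⟩
  have h1 := hb i
  rw [algebraMap_int_eq] at h1
  rw [Polynomial.map_smul, h1, eq_intCast, ← Int.cast_smul_eq_zsmul ℚ (b i : ℤ), smul_smul,
    ← Int.cast_mul, mul_comm,
    Finset.mul_prod_erase Finset.univ (fun k => (b k : ℤ)) (Finset.mem_univ i)]


variable (N : ℕ) [NeZero N]

set_option quotPrecheck false in
local notation "F" => ↥(modularFunctionFieldFull N)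

omit [NeZero N] in
theorem aeval_map_intCast (s : F) (P : ℤ[X]) :
    aeval s (P.map (Int.castRingHom ℚ)) = eval₂ (Int.castRingHom F) s P := by
  rw [aeval_def, eval₂_map]
  congr 1

/-- `ℚ[X]`-version: `c(j) y = ∑ Pᵢ(j) θ^i`. -/
theorem exists_rat_rel (y : F) :
    ∃ (c : ℚ[X]) (P : Fin (dedekindPsi N) → ℚ[X]), c ≠ 0 ∧
      aeval (jFull N) c * y = ∑ i, aeval (jFull N) (P i) * (jNFull N) ^ (i : ℕ) := by
  have hA : PolyIndep ℚ (jFull N) (fun i : Fin (dedekindPsi N) => (jNFull N) ^ (i : ℕ)) := by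
    rw [polyIndep_full_iff]
    exact polyIndep_jqN_pow N
  have hB : ¬ PolyIndep ℚ (jFull N) (Fin.snoc (α := fun _ => F)
      (fun i : Fin (dedekindPsi N) => (jNFull N) ^ (i : ℕ)) y) := by
    rw [polyIndep_full_iff]
    exact not_polyIndep_of_mem_full N _ (fun i => (Fin.snoc (α := fun _ => _) _ y i).2)
  unfold PolyIndep at hB
  push Not at hB
  obtain ⟨Q, hQ, i₀, hi₀⟩ := hB
  rw [Fin.sum_univ_castSucc] at hQ
  simp only [Fin.snoc_castSucc, Fin.snoc_last] at hQ
  have hlast : Q (Fin.last _) ≠ 0 := by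
    intro h0
    rw [h0, map_zero, zero_mul, add_zero] at hQ
    have h1 := hA (fun i => Q (Fin.castSucc i)) hQ
    exact hi₀ (Fin.lastCases h0 (fun i => h1 i) i₀)
  refine ⟨Q (Fin.last _), fun i => - Q (Fin.castSucc i), hlast, ?_⟩
  simp only [map_neg, neg_mul, Finset.sum_neg_distrib]
  linear_combination hQ

/-- `ℤ[X]`-version for `s = j`. -/
theorem exists_int_rel (y : F) :
    ∃ (c : ℤ[X]) (P : Fin (dedekindPsi N) → ℤ[X]), c ≠ 0 ∧
      eval₂ (Int.castRingHom F) (jFull N) c * y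
        = ∑ i, eval₂ (Int.castRingHom F) (jFull N) (P i) * (jNFull N) ^ (i : ℕ) := by
  obtain ⟨c, P, hc, h⟩ := exists_rat_rel N y
  obtain ⟨d, hd, hdP⟩ := exists_int_multiple (fun o : Option (Fin (dedekindPsi N)) => o.elim c P)
  obtain ⟨c', hc'⟩ := hdP none
  choose P' hP' using fun i => hdP (some i)
  simp only [Option.elim] at hc' hP'
  refine ⟨c', P', ?_, ?_⟩
  · intro h0
    rw [h0, Polynomial.map_zero] at hc'
    rcases smul_eq_zero.mp hc'.symm with h1 | h1
    · exact hd (by exact_mod_cast h1)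
    · exact hc h1
  · simp only [← aeval_map_intCast, hc', hP', map_smul, smul_mul_assoc, ← Finset.smul_sum, h]

/-- `ℤ[X]`-version for `s = 1/j`. -/
theorem exists_int_rel_inv (y : F) :
    ∃ (c : ℤ[X]) (P : Fin (dedekindPsi N) → ℤ[X]), c ≠ 0 ∧
      eval₂ (Int.castRingHom F) (jFull N)⁻¹ c * y
        = ∑ i, eval₂ (Int.castRingHom F) (jFull N)⁻¹ (P i) * (jNFull N) ^ (i : ℕ) := by
  obtain ⟨c, P, hc, h⟩ := exists_int_rel N y
  set n : ℕ := c.natDegree + ∑ i, (P i).natDegree with hn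
  have hcn : c.natDegree ≤ n := Nat.le_add_right _ _
  have hPn : ∀ i, (P i).natDegree ≤ n := fun i =>
    (Finset.single_le_sum (f := fun i => (P i).natDegree) (fun _ _ => Nat.zero_le _)
      (Finset.mem_univ i)).trans (Nat.le_add_left _ _)
  have hj : jFull N ≠ 0 := jFull_ne_zero N
  let _ : Invertible (jFull N) := invertibleOfNonzero hj
  have key : ∀ p : ℤ[X], p.natDegree ≤ n → eval₂ (Int.castRingHom F) (jFull N) p
      = eval₂ (Int.castRingHom F) (jFull N)⁻¹ (reflect n p) * (jFull N) ^ n := by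
    intro p hp
    rw [← invOf_eq_inv, eval₂_reflect_mul_pow _ _ n p hp]
  refine ⟨reflect n c, fun i => reflect n (P i), fun h0 => hc (reflect_eq_zero_iff.mp h0), ?_⟩
  have hjn : (jFull N) ^ n ≠ 0 := pow_ne_zero _ hj
  apply mul_right_cancel₀ hjn
  rw [Finset.sum_mul]
  calc eval₂ (Int.castRingHom F) (jFull N)⁻¹ (reflect n c) * y * jFull N ^ n
      = eval₂ (Int.castRingHom F) (jFull N) c * y := by rw [key c hcn]; ring
    _ = ∑ i, eval₂ (Int.castRingHom F) (jFull N) (P i) * (jNFull N) ^ (i : ℕ) := h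
    _ = _ := Finset.sum_congr rfl fun i _ => by rw [key (P i) (hPn i)]; ring

section Ell

variable (ℓ : ℕ) [Fact ℓ.Prime]

set_option quotPrecheck false in
local notation "ℤℓ" => ↥(GaloisRep.ratLocalizedAt ℓ)

omit [Fact ℓ.Prime] in
theorem intCast_ratLoc_injective : Function.Injective (Int.castRingHom ℤℓ) := by
  intro a b hab
  have h := congrArg Subtype.val hab
  simpa using h

/-- From the `ℤ[X]`-relation to helper69's / helper61's `hgen` shape over `ℤ_(ℓ)[X]`. -/
theorem hgen_of_int (s x : F)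
    (h : ∃ (c : ℤ[X]) (P : Fin (dedekindPsi N) → ℤ[X]), c ≠ 0 ∧
      eval₂ (Int.castRingHom F) s c * x
        = ∑ i, eval₂ (Int.castRingHom F) s (P i) * (jNFull N) ^ (i : ℕ)) :
    ∃ c : ℤℓ[X], c ≠ 0 ∧ ∃ g : ℤℓ[X][X],
      aeval s c * x = eval₂ (aeval (R := ℤℓ) s).toRingHom (jNFull N) g := by
  obtain ⟨c, P, hc, h⟩ := h
  have key : ∀ p : ℤ[X], aeval s (p.map (Int.castRingHom ℤℓ)) = eval₂ (Int.castRingHom F) s p := by
    intro p
    rw [aeval_def, eval₂_map]
    congr 1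
  refine ⟨c.map (Int.castRingHom ℤℓ),
    (Polynomial.map_ne_zero_iff (intCast_ratLoc_injective ℓ)).mpr hc,
    ∑ i : Fin (dedekindPsi N), C ((P i).map (Int.castRingHom ℤℓ)) * X ^ (i : ℕ), ?_⟩
  rw [key, h, eval₂_finset_sum]
  refine Finset.sum_congr rfl fun i _ => ?_
  rw [eval₂_mul, eval₂_C, eval₂_pow, eval₂_X]
  show _ = aeval s ((P i).map (Int.castRingHom ℤℓ)) * _
  rw [key]

/-- **hgen, finite chart** (`s = j`). -/
theorem hgen_fin (x : F) :
    ∃ c : ℤℓ[X], c ≠ 0 ∧ ∃ g : ℤℓ[X][X],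
      aeval (jFull N) c * x = eval₂ (aeval (R := ℤℓ) (jFull N)).toRingHom (jNFull N) g :=
  hgen_of_int N ℓ (jFull N) x (exists_int_rel N x)

/-- **hgen, chart at infinity** (`s = 1/j`). -/
theorem hgen_inf (x : F) :
    ∃ c : ℤℓ[X], c ≠ 0 ∧ ∃ g : ℤℓ[X][X],
      aeval (jFull N)⁻¹ c * x
        = eval₂ (aeval (R := ℤℓ) (jFull N)⁻¹).toRingHom (jNFull N) g :=
  hgen_of_int N ℓ (jFull N)⁻¹ x (exists_int_rel_inv N x)

theorem jNFull_eq_H69 : jNFull N = H69.jNFull N := rfl

end Ell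

end Fermat.Agent.S28.H40
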