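import Fermat.Agent.S28.H61_Charts
import Fermat.Agent.S28.H40_Hgen

/-!
S28 / W3 closed (helper40): helper61's `H61.chartsOK` with its two `HGen` inputs discharged by
`H40.hgen_fin` / `H40.hgen_inf` (W5). This is the `hW3` hypothesis of `H16.result_of_packages`.
-/

set_option autoImplicit false

namespace Fermat.Agent.S28.H40

open ModularCurve ModularCurve.IgusaScheme

theorem hGen_fin (N : ℕ) [NeZero N] (ℓ : ℕ) [Fact ℓ.Prime] : H61.HGen N ℓ (jFull N) :=
  hgen_fin N ℓ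

theorem hGen_inf (N : ℕ) [NeZero N] (ℓ : ℕ) [Fact ℓ.Prime] : H61.HGen N ℓ (jFull N)⁻¹ :=
  hgen_inf N ℓ

/-- **W3 final, hypothesis-free** (given the W2 output `IrredCharL`). -/
theorem chartsOK (N : ℕ) [NeZero N] (ℓ : ℕ) [Fact ℓ.Prime] (K : Type) [Field K] [CharP K ℓ]
    [Algebra ↥(GaloisRep.ratLocalizedAt ℓ) K] (D : ModularPolynomialData N)
    (hirr : IrredCharL ℓ D.Φ) : H16.ChartsOK N ℓ K :=
  H61.chartsOK K (hgen_fin N ℓ) (hgen_inf N ℓ) D hirr

end Fermat.Agent.S28.H40
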