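import Mathlib
import Fermat.Agent.S28.Defs
import Fermat.Agent.S28.H17_FormalIdentity
import Fermat.Agent.S24.H15_Conjugates
import Fermat.Agent.S24.H17_Theta

/-!
S28 package W1b, step (B) (helper15): transfer of the analytic product identity
`Φ(J(τ), X) = ∏_{x ∈ triples m} (X - J((aτ+b)/d))` to the formal identity in
`(LaurentSeries ℂ)[X]` in the variable `t = q^(1/m)`:
`Φ(J(t^m), X) = ∏_x (X - J(ζ^(ab) t^(a²)))`, `ζ = exp(2πi/m)`.
-/

set_option autoImplicit false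

noncomputable section

namespace Fermat.Agent.S28.H15

open UpperHalfPlane hiding I
open Complex ModularCurve Polynomial
open Fermat.Agent.S24.H17 (IsQSum mulD qParam_mulD)
open Fermat.Agent.S24
open scoped Real

local notation "𝕢" => Function.Periodic.qParam

/-! ### `IsQSum` calculus: finite sums, constants, substitution -/

theorem isQSum_finset_sum {ι : Type*} (s : Finset ι) (X : ι → LaurentSeries ℂ) (g : ι → ℍ → ℂ)
    (h : ∀ i ∈ s, IsQSum (X i) (g i)) : IsQSum (∑ i ∈ s, X i) (fun τ => ∑ i ∈ s, g i τ) := by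
  classical
  induction s using Finset.induction_on with
  | empty =>
    simp only [Finset.sum_empty]
    exact H17.IsQSum.zero
  | insert a s ha ih =>
    rw [Finset.sum_insert ha]
    have h1 := h a (Finset.mem_insert_self a s)
    have h2 := ih (fun i hi => h i (Finset.mem_insert_of_mem hi))
    have h3 := H17.IsQSum.add h1 h2
    convert h3 using 1
    funext τ
    simp [Finset.sum_insert ha]

theorem isQSum_C (c : ℂ) : IsQSum (HahnSeries.C c) (fun _ => c) :=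
  H17.IsQSum.single_zero c

theorem isQSum_pow' {X : LaurentSeries ℂ} {g : ℍ → ℂ} (hX : IsQSum X g) (n : ℕ) :
    IsQSum (X ^ n) (fun τ => g τ ^ n) := by
  induction n with
  | zero =>
    simp only [pow_zero]
    exact H17.IsQSum.one
  | succ n ih =>
    simp only [pow_succ]
    exact H17.IsQSum.mul ih hX

/-- Evaluating a complex polynomial at a `q`-sum. -/
theorem isQSum_eval₂ {X : LaurentSeries ℂ} {g : ℍ → ℂ} (hX : IsQSum X g) (P : Polynomial ℂ) :
    IsQSum (Polynomial.eval₂ HahnSeries.C X P) (fun τ => P.eval (g τ)) := by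
  rw [Polynomial.eval₂_eq_sum_range]
  have h := isQSum_finset_sum (Finset.range (P.natDegree + 1))
    (fun i => HahnSeries.C (P.coeff i) * X ^ i) (fun i τ => P.coeff i * g τ ^ i)
    (fun i _ => H17.IsQSum.mul (isQSum_C (P.coeff i)) (isQSum_pow' hX i))
  convert h using 1
  funext τ
  rw [Polynomial.eval_eq_sum_range]

/-- Substitution `q ↦ ξ t^e` on the formal side corresponds to any self-map `φ` of `ℍ` with
`q(φ τ) = ξ q(τ)^e`. -/
theorem isQSum_subst {Y : LaurentSeries ℂ} {g : ℍ → ℂ} (h : IsQSum Y g) (ξ : ℂˣ) (e : ℕ) [NeZero e]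
    (φ : ℍ → ℍ) (hφ : ∀ τ : ℍ, 𝕢 1 (φ τ : ℂ) = (ξ : ℂ) * 𝕢 1 (τ : ℂ) ^ e) :
    IsQSum (subst ξ e Y) (fun τ => g (φ τ)) := by
  intro τ
  have h1 := h (φ τ)
  rw [hφ] at h1
  have hinj : Function.Injective (fun k : ℤ => (e : ℤ) * k) :=
    mul_right_injective₀ (by exact_mod_cast NeZero.ne e)
  have h0 : ∀ x : ℤ, x ∉ Set.range (fun k : ℤ => (e : ℤ) * k) →
      (subst ξ e Y).coeff x * 𝕢 1 (τ : ℂ) ^ x = 0 := by
    intro x hx
    rw [subst_coeff_of_not_dvd ξ e Y (fun ⟨c, hc⟩ => hx ⟨c, hc.symm⟩), zero_mul]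
  rw [← hinj.hasSum_iff h0]
  have e' : ((fun x : ℤ => (subst ξ e Y).coeff x * 𝕢 1 (τ : ℂ) ^ x) ∘ fun k : ℤ => (e : ℤ) * k) =
      fun k : ℤ => Y.coeff k * ((ξ : ℂ) * 𝕢 1 (τ : ℂ) ^ e) ^ k := by
    funext k
    simp only [Function.comp_apply]
    rw [subst_coeff_mul, zpow_mul, zpow_natCast, mul_zpow, Units.val_zpow_eq_zpow_val]
    ring
  rw [e']
  exact h1

/-! ### The conjugates of `J` attached to the primitive triples -/

/-- `exp (2πi/m)` as a unit of `ℂ`. -/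
def zetaC (m : ℕ) : ℂˣ := Units.mk0 (cexp (2 * π * I / m)) (Complex.exp_ne_zero _)

theorem coe_zetaC (m : ℕ) : ((zetaC m : ℂˣ) : ℂ) = cexp (2 * π * I / m) := rfl

theorem isPrimitiveRoot_zetaC (m : ℕ) [NeZero m] : IsPrimitiveRoot (zetaC m) m := by
  have h := Complex.isPrimitiveRoot_exp m (NeZero.ne m)
  rw [← coe_zetaC] at h
  exact IsPrimitiveRoot.coe_units_iff.mp h

/-- The conjugate function `τ ↦ J((aτ+b)/d)` of a triple `x = (a,b,d)` (junk `0` if `a = 0` or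
`d = 0`). -/
def conjFun (x : ℕ × ℕ × ℕ) (τ : ℍ) : ℂ :=
  if h : 0 < x.1 ∧ 0 < x.2.2 then H28.J (S24.H15.aff x.1 x.2.1 x.2.2 h.1 h.2 τ) else 0

theorem conjFun_eq (x : ℕ × ℕ × ℕ) (ha : 0 < x.1) (hd : 0 < x.2.2) (τ : ℍ) :
    conjFun x τ = H28.J (S24.H15.aff x.1 x.2.1 x.2.2 ha hd τ) := by
  rw [conjFun, dif_pos ⟨ha, hd⟩]

/-- The formal conjugate `J(ζ^(ab) t^(a²))` of the triple `x = (a,b,d)` in the level-`m`
variable `t = q^(1/m)` (same body as helper96's `JT`). -/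
def JT (R : Type*) [CommRing R] (zeta : Rˣ) (x : ℕ × ℕ × ℕ) : LaurentSeries R :=
  if h : x.1 = 0 then 0 else
    (haveI : NeZero (x.1 * x.1) := ⟨mul_ne_zero h h⟩; Jconj R (zeta ^ (x.1 * x.2.1)) (x.1 * x.1))

theorem JT_eq (R : Type*) [CommRing R] (zeta : Rˣ) (x : ℕ × ℕ × ℕ) (h : x.1 ≠ 0)
    [NeZero (x.1 * x.1)] :
    JT R zeta x = Jconj R (zeta ^ (x.1 * x.2.1)) (x.1 * x.1) := by
  rw [JT, dif_neg h]

/-- `q` of the conjugate point, in the variable `q(τ)` after scaling `τ` by `m`. -/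
theorem qParam_aff_mulD (m : ℕ) [NeZero m] (a b d : ℕ) (ha : 0 < a) (hd : 0 < d)
    (hm : a * d = m) (τ : ℍ) :
    𝕢 1 (S24.H15.aff a b d ha hd (mulD m τ) : ℂ) =
      (((zetaC m) ^ (a * b) : ℂˣ) : ℂ) * 𝕢 1 (τ : ℂ) ^ (a * a) := by
  have hd' : (d : ℂ) ≠ 0 := by exact_mod_cast hd.ne'
  have ha' : (a : ℂ) ≠ 0 := by exact_mod_cast ha.ne'
  have hm' : (m : ℂ) = (a : ℂ) * d := by exact_mod_cast hm.symm
  rw [S24.H15.coe_aff, Units.val_pow_eq_pow_val, coe_zetaC, ← Complex.exp_nat_mul,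
    Function.Periodic.qParam, Function.Periodic.qParam, ← Complex.exp_nat_mul, ← Complex.exp_add]
  congr 1
  have hmul : ((mulD m τ : ℍ) : ℂ) = (m : ℂ) * τ := by
    rw [S24.H15.coe_aff]
    simp
  rw [hmul, hm']
  push_cast
  field_simp
  ring

/-- **(B2)** the formal conjugate is the `q`-expansion of the analytic conjugate (after scaling
`τ` by `m`). -/
theorem isQSum_JT (m : ℕ) [NeZero m] (x : ℕ × ℕ × ℕ) (hx : x ∈ triples m) :
    IsQSum (JT ℂ (zetaC m) x) (fun τ => conjFun x (mulD m τ)) := by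
  have hm : 0 < m := Nat.pos_of_ne_zero (NeZero.ne m)
  obtain ⟨had, hbd, -⟩ := (mem_triples hm).mp hx
  have ha : 0 < x.1 := Nat.pos_of_ne_zero fun h => by rw [h, zero_mul] at had; omega
  have hd : 0 < x.2.2 := Nat.pos_of_ne_zero fun h => by rw [h, mul_zero] at had; omega
  have : NeZero (x.1 * x.1) := ⟨mul_ne_zero ha.ne' ha.ne'⟩
  rw [JT_eq ℂ (zetaC m) x ha.ne']
  have h := isQSum_subst H17.isQSum_J ((zetaC m) ^ (x.1 * x.2.1)) (x.1 * x.1)
    (fun τ => S24.H15.aff x.1 x.2.1 x.2.2 ha hd (mulD m τ))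
    (fun τ => qParam_aff_mulD m x.1 x.2.1 x.2.2 ha hd had τ)
  have hfun : (fun τ => conjFun x (mulD m τ)) =
      fun τ => H28.J (S24.H15.aff x.1 x.2.1 x.2.2 ha hd (mulD m τ)) := by
    funext τ
    exact conjFun_eq x ha hd _
  rw [hfun]
  exact h

/-! ### `q`-sums of polynomials, coefficientwise -/

/-- `Q ∈ (LaurentSeries ℂ)[X]` is coefficientwise the `q`-expansion of the family `G τ ∈ ℂ[X]`. -/
def IsQSumPoly (Q : Polynomial (LaurentSeries ℂ)) (G : ℍ → Polynomial ℂ) : Prop :=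
  ∀ k : ℕ, IsQSum (Q.coeff k) (fun τ => (G τ).coeff k)

theorem IsQSumPoly.one : IsQSumPoly 1 (fun _ => 1) := by
  intro k
  simp only [Polynomial.coeff_one]
  split_ifs
  · exact H17.IsQSum.one
  · exact H17.IsQSum.zero

theorem IsQSumPoly.mul {P Q : Polynomial (LaurentSeries ℂ)} {F G : ℍ → Polynomial ℂ}
    (hP : IsQSumPoly P F) (hQ : IsQSumPoly Q G) : IsQSumPoly (P * Q) (fun τ => F τ * G τ) := by
  intro k
  rw [Polynomial.coeff_mul]
  have h := isQSum_finset_sum (Finset.HasAntidiagonal.antidiagonal k)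
    (fun ij => P.coeff ij.1 * Q.coeff ij.2) (fun ij τ => (F τ).coeff ij.1 * (G τ).coeff ij.2)
    (fun ij _ => H17.IsQSum.mul (hP ij.1) (hQ ij.2))
  convert h using 1
  funext τ
  rw [Polynomial.coeff_mul]

theorem IsQSumPoly.X_sub_C {Y : LaurentSeries ℂ} {g : ℍ → ℂ} (h : IsQSum Y g) :
    IsQSumPoly (X - C Y) (fun τ => X - C (g τ)) := by
  intro k
  simp only [Polynomial.coeff_sub, Polynomial.coeff_X, Polynomial.coeff_C]
  refine H17.IsQSum.sub ?_ ?_
  · split_ifs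
    · exact H17.IsQSum.one
    · exact H17.IsQSum.zero
  · split_ifs
    · exact h
    · exact H17.IsQSum.zero

theorem IsQSumPoly.prod {ι : Type*} (s : Finset ι) (P : ι → Polynomial (LaurentSeries ℂ))
    (F : ι → ℍ → Polynomial ℂ) (h : ∀ i ∈ s, IsQSumPoly (P i) (F i)) :
    IsQSumPoly (∏ i ∈ s, P i) (fun τ => ∏ i ∈ s, F i τ) := by
  classical
  induction s using Finset.induction_on with
  | empty =>
    simp only [Finset.prod_empty]
    exact IsQSumPoly.one
  | insert a s ha ih =>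
    simp only [Finset.prod_insert ha]
    exact IsQSumPoly.mul (h a (Finset.mem_insert_self a s))
      (ih (fun i hi => h i (Finset.mem_insert_of_mem hi)))

theorem IsQSumPoly.eq {P Q : Polynomial (LaurentSeries ℂ)} {F : ℍ → Polynomial ℂ}
    (hP : IsQSumPoly P F) (hQ : IsQSumPoly Q F) : P = Q :=
  Polynomial.ext fun k => H17.IsQSum.series_unique (hP k) (hQ k)

/-- Evaluating the inner variable of `Φ ∈ ℂ[Y][X]` at a `q`-sum. -/
theorem isQSumPoly_map_eval₂ {Y : LaurentSeries ℂ} {g : ℍ → ℂ} (hY : IsQSum Y g)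
    (Φ : Polynomial (Polynomial ℂ)) :
    IsQSumPoly (Φ.map (Polynomial.eval₂RingHom HahnSeries.C Y))
      (fun τ => Φ.map (Polynomial.evalRingHom (g τ))) := by
  intro k
  simp only [Polynomial.coeff_map, Polynomial.coe_eval₂RingHom, Polynomial.coe_evalRingHom]
  exact isQSum_eval₂ hY (Φ.coeff k)

/-! ### (B3) the transfer theorem -/

/-- **(B3)** If `Φ ∈ ℂ[Y][X]` satisfies the pointwise product identity
`Φ(J(τ), X) = ∏_{x ∈ triples m} (X - J((aτ+b)/d))` on the upper half plane, then the formal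
identity `Φ(J(t^m), X) = ∏_x (X - J(ζ^(ab) t^(a²)))` holds in `(LaurentSeries ℂ)[X]`,
`ζ = exp(2πi/m)`. -/
theorem formal_of_analytic (m : ℕ) [NeZero m] (Φ : Polynomial (Polynomial ℂ))
    (hΦ : ∀ τ : ℍ, Φ.map (Polynomial.evalRingHom (H28.J τ)) =
      ∏ x ∈ triples m, (X - C (conjFun x τ))) :
    Φ.map (Polynomial.eval₂RingHom HahnSeries.C (qExpand ℂ m (jqModC ℂ))) =
      ∏ x ∈ triples m, (X - C (JT ℂ (zetaC m) x)) := by
  have hJ : IsQSum (qExpand ℂ m (jqModC ℂ)) (fun τ => H28.J (mulD m τ)) :=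
    H17.IsQSum.scale H17.isQSum_J m
  have h1 := isQSumPoly_map_eval₂ hJ Φ
  have h2 : IsQSumPoly (∏ x ∈ triples m, (X - C (JT ℂ (zetaC m) x)))
      (fun τ => ∏ x ∈ triples m, (X - C (conjFun x (mulD m τ)))) :=
    IsQSumPoly.prod (triples m) _ _ (fun x hx => IsQSumPoly.X_sub_C (isQSum_JT m x hx))
  have h3 : (fun τ => Φ.map (Polynomial.evalRingHom (H28.J (mulD m τ)))) =
      fun τ => ∏ x ∈ triples m, (X - C (conjFun x (mulD m τ))) := by
    funext τ
    exact hΦ (mulD m τ)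
  rw [h3] at h1
  exact h1.eq h2

end Fermat.Agent.S28.H15
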