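import Mathlib

/-!
S28 (helper17): rationality / integrality by Galois invariance in cyclotomic fields, in a
polynomial form that needs no Galois group on the consumer side.
-/

set_option autoImplicit false

noncomputable section

namespace Fermat.Agent.S28.H17

open Polynomial

/-- **Rationality by Galois invariance** (cyclotomic fields): a polynomial expression `g(ζ)` in a
primitive `m`-th root of unity of a characteristic-zero field which is unchanged under
`ζ ↦ ζ^s` for all `s` prime to `m` is rational. -/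
theorem exists_rat_of_forall_coprime {L : Type*} [Field L] [CharZero L] (m : ℕ) [NeZero m]
    {ζ : L} (hζ : IsPrimitiveRoot ζ m) (g : ℚ[X])
    (h : ∀ s : ℕ, s.Coprime m → aeval (ζ ^ s) g = aeval ζ g) :
    ∃ r : ℚ, aeval ζ g = algebraMap ℚ L r := by
  set K : IntermediateField ℚ L := IntermediateField.adjoin ℚ {ζ} with hK
  have hint : IsIntegral ℚ ζ := (hζ.isIntegral (NeZero.pos m)).tower_top
  have hcyc : IsCyclotomicExtension {m} ℚ K := by
    change IsCyclotomicExtension {m} ℚ (IntermediateField.adjoin ℚ {ζ}).toSubalgebra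
    rw [IntermediateField.adjoin_simple_toSubalgebra_of_isAlgebraic hint.isAlgebraic]
    exact hζ.adjoin_isCyclotomicExtension ℚ
  have hfin : FiniteDimensional ℚ K := IsCyclotomicExtension.finiteDimensional {m} ℚ K
  have hgal : IsGalois ℚ K := IsCyclotomicExtension.isGalois {m} ℚ K
  set ζK : K := ⟨ζ, IntermediateField.mem_adjoin_simple_self ℚ ζ⟩ with hζK
  have hζK' : IsPrimitiveRoot ζK m := by
    have : (algebraMap K L) ζK = ζ := rfl
    exact IsPrimitiveRoot.of_map_of_injective (f := algebraMap K L) (by rw [this]; exact hζ)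
      (algebraMap K L).injective
  set c : K := aeval ζK g with hc
  have hcL : algebraMap K L c = aeval ζ g := by
    rw [hc, ← Polynomial.aeval_algebraMap_apply]
    rfl
  have hfix : ∀ f : Gal(K/ℚ), f c = c := by
    intro f
    have h1 : IsPrimitiveRoot (f ζK) m := hζK'.map_of_injective f.injective
    obtain ⟨i, -, hi, hpow⟩ := (hζK'.isPrimitiveRoot_iff).mp h1
    have h2 : f c = aeval (f ζK) g := by
      rw [hc, ← Polynomial.aeval_algHom_apply]
    rw [h2, ← hpow]
    apply (algebraMap K L).injective
    rw [← Polynomial.aeval_algebraMap_apply, map_pow, hcL]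
    exact h i hi
  obtain ⟨r, hr⟩ := (IsGalois.mem_range_algebraMap_iff_fixed c).mpr hfix
  refine ⟨r, ?_⟩
  rw [← hcL, ← hr]
  rfl

/-- **Integrality by Galois invariance**: an integral polynomial expression `g(ζ)`, `g ∈ ℤ[X]`,
unchanged under `ζ ↦ ζ^s` for all `s` prime to `m`, is an integer. -/
theorem exists_int_of_forall_coprime {L : Type*} [Field L] [CharZero L] (m : ℕ) [NeZero m]
    {ζ : L} (hζ : IsPrimitiveRoot ζ m) (g : ℤ[X])
    (h : ∀ s : ℕ, s.Coprime m → aeval (ζ ^ s) g = aeval ζ g) :
    ∃ n : ℤ, aeval ζ g = (n : L) := by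
  have hmap : ∀ x : L, aeval x (g.map (Int.castRingHom ℚ)) = aeval x g := by
    intro x
    rw [Polynomial.aeval_def, Polynomial.aeval_def, Polynomial.eval₂_map]
    congr 1
    exact Subsingleton.elim _ _
  obtain ⟨r, hr⟩ := exists_rat_of_forall_coprime m hζ (g.map (Int.castRingHom ℚ))
    (fun s hs => by rw [hmap, hmap]; exact h s hs)
  rw [hmap] at hr
  have hζint : IsIntegral ℤ ζ := hζ.isIntegral (NeZero.pos m)
  have hint : IsIntegral ℤ (aeval ζ g) := by
    have hle : Algebra.adjoin ℤ {ζ} ≤ integralClosure ℤ L :=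
      Algebra.adjoin_le (Set.singleton_subset_iff.mpr hζint)
    apply hle
    rw [Algebra.adjoin_singleton_eq_range_aeval]
    exact ⟨g, rfl⟩
  rw [hr] at hint
  have hint' : IsIntegral ℤ r := by
    refine (isIntegral_algHom_iff (IsScalarTower.toAlgHom ℤ ℚ L) (algebraMap ℚ L).injective).mp ?_
    exact hint
  obtain ⟨n, hn⟩ := IsIntegrallyClosed.isIntegral_iff.mp hint'
  refine ⟨n, ?_⟩
  rw [hr, ← hn]
  simp

end Fermat.Agent.S28.H17
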