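import Mathlib
import Fermat.Agent.S24.H15_Grow
import Fermat.Agent.S24.H15_JConj
import Fermat.Agent.S24.H6_KeyA
import Fermat.Agent.S28.Defs

/-!
S28 / W1b (helper41), part A (analytic): the modular polynomial over the complex numbers.

For every level `m` the functions `τ ↦ J((aτ+b)/d)`, `(a,b,d)` a primitive triple of determinant
`m`, are permuted by the modular group, hence the product of the `X - J((aτ+b)/d)` is a polynomial
in `J τ`.
-/

set_option autoImplicit false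

noncomputable section

namespace Fermat.Agent.S28.H41

open Matrix MatrixGroups UpperHalfPlane Fermat.Agent.S24 Fermat.Agent.S24.H15
open scoped Manifold

/-- Hermite normal form (row operations) of an integer `2 × 2` matrix of positive determinant. -/
theorem exists_hermite_gen (m : ℕ) (hm : 0 < m) (x y r s : ℤ) (hdet : x * s - y * r = m) :
    ∃ (γ' : SL(2, ℤ)) (a b d : ℕ), a * d = m ∧ b < d ∧
      !![x, y; r, s] = (γ' : Matrix (Fin 2) (Fin 2) ℤ) * !![(a : ℤ), (b : ℤ); 0, (d : ℤ)] := by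
  set g : ℕ := Int.gcd x r with hg
  have hg0 : g ≠ 0 := by
    intro h0
    rw [hg, Int.gcd_eq_zero_iff] at h0
    obtain ⟨h1, h2⟩ := h0
    rw [h1, h2] at hdet
    have : (0 : ℤ) < m := by exact_mod_cast hm
    simp at hdet
    omega
  have hgpos : (0 : ℤ) < g := by exact_mod_cast Nat.pos_of_ne_zero hg0
  obtain ⟨x', hx'⟩ : (g : ℤ) ∣ x := Int.gcd_dvd_left x r
  obtain ⟨y', hy'⟩ : (g : ℤ) ∣ r := Int.gcd_dvd_right x r
  set u := Int.gcdA x r with hu
  set v := Int.gcdB x r with hv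
  have hbez : (g : ℤ) = x * u + r * v := Int.gcd_eq_gcd_ab x r
  have hbez' : x' * u + y' * v = 1 := by
    have h1 : (g : ℤ) * (x' * u + y' * v) = (g : ℤ) * 1 := by
      calc (g : ℤ) * (x' * u + y' * v) = (g * x') * u + (g * y') * v := by ring
        _ = x * u + r * v := by rw [← hx', ← hy']
        _ = (g : ℤ) * 1 := by rw [← hbez, mul_one]
    exact mul_left_cancel₀ hgpos.ne' h1
  set d0 : ℤ := x' * s - y' * y with hd0
  have hgd : (g : ℤ) * d0 = m := by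
    calc (g : ℤ) * d0 = (g * x') * s - (g * y') * y := by rw [hd0]; ring
      _ = x * s - r * y := by rw [← hx', ← hy']
      _ = m := by rw [← hdet]; ring
  have hd0pos : 0 < d0 := by
    have hMpos : (0 : ℤ) < m := by exact_mod_cast hm
    by_contra hneg
    rw [not_lt] at hneg
    have : (g : ℤ) * d0 ≤ 0 := mul_nonpos_of_nonneg_of_nonpos hgpos.le hneg
    omega
  set b' : ℤ := u * y + v * s with hb'
  set t : ℤ := b' / d0 with ht
  set b0 : ℤ := b' % d0 with hb0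
  have hb0nn : 0 ≤ b0 := Int.emod_nonneg _ hd0pos.ne'
  have hb0lt : b0 < d0 := Int.emod_lt_of_pos _ hd0pos
  have hbdecomp : b' = b0 + d0 * t := by
    rw [hb0, ht]; exact (Int.emod_add_mul_ediv b' d0).symm
  have hdet' : Matrix.det !![x', x' * t - v; y', y' * t + u] = 1 := by
    rw [Matrix.det_fin_two_of]
    linear_combination hbez'
  refine ⟨⟨!![x', x' * t - v; y', y' * t + u], hdet'⟩, g, b0.toNat, d0.toNat, ?_, ?_, ?_⟩
  · have h1 : ((g * d0.toNat : ℕ) : ℤ) = (m : ℤ) := by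
      push_cast
      rw [Int.toNat_of_nonneg hd0pos.le, hgd]
    exact_mod_cast h1
  · have : (b0.toNat : ℤ) < (d0.toNat : ℤ) := by
      rw [Int.toNat_of_nonneg hd0pos.le, Int.toNat_of_nonneg hb0nn]
      exact hb0lt
    exact_mod_cast this
  · rw [Int.toNat_of_nonneg hd0pos.le, Int.toNat_of_nonneg hb0nn]
    simp only [Matrix.mul_fin_two]
    ext i j
    fin_cases i <;> fin_cases j
    · simp
      rw [mul_comm x' (g : ℤ), ← hx']
    · simp
      have : b0 = b' - d0 * t := by rw [hbdecomp]; ring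
      rw [this, hb', hd0]
      linear_combination (-y) * hbez'
    · simp
      rw [mul_comm y' (g : ℤ), ← hy']
    · simp
      have : b0 = b' - d0 * t := by rw [hbdecomp]; ring
      rw [this, hb', hd0]
      linear_combination (-s) * hbez'

/-- `((a γτ + b)/d) = γ' • ((a' τ + b')/d')` from the Hermite normal form. -/
theorem aff_smul_eq_gen (γ γ' : SL(2, ℤ)) (a b d a' b' d' : ℕ) (ha : 0 < a) (hd : 0 < d)
    (ha' : 0 < a') (hd' : 0 < d')
    (h : !![(a : ℤ), (b : ℤ); 0, (d : ℤ)] * (γ : Matrix (Fin 2) (Fin 2) ℤ) =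
        (γ' : Matrix (Fin 2) (Fin 2) ℤ) * !![(a' : ℤ), (b' : ℤ); 0, (d' : ℤ)]) (τ : ℍ) :
    aff a b d ha hd (γ • τ) = γ' • aff a' b' d' ha' hd' τ := by
  have h00 := congr_fun (congr_fun h 0) 0
  have h01 := congr_fun (congr_fun h 0) 1
  have h10 := congr_fun (congr_fun h 1) 0
  have h11 := congr_fun (congr_fun h 1) 1
  simp only [Matrix.mul_apply, Fin.sum_univ_two, Matrix.of_apply, Matrix.cons_val',
    Matrix.cons_val_zero, Matrix.cons_val_one, Matrix.empty_val', Matrix.cons_val_fin_one,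
    zero_mul, add_zero, zero_add, mul_zero] at h00 h01 h10 h11
  apply UpperHalfPlane.ext
  rw [coe_aff, coe_specialLinearGroup_apply, coe_specialLinearGroup_apply, coe_aff]
  have hdc : (d : ℂ) ≠ 0 := by exact_mod_cast hd.ne'
  have hdc' : (d' : ℂ) ≠ 0 := by exact_mod_cast hd'.ne'
  have hden1 := UpperHalfPlane.denom_ne_zero (γ : GL (Fin 2) ℝ) τ
  have hden2 := UpperHalfPlane.denom_ne_zero (γ' : GL (Fin 2) ℝ) (aff a' b' d' ha' hd' τ)
  have hD2 : ((algebraMap ℤ ℝ (γ' 1 0) : ℝ) : ℂ) * (((a' : ℂ) * τ + b') / d')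
      + ((algebraMap ℤ ℝ (γ' 1 1) : ℝ) : ℂ) ≠ 0 := by
    simpa [denom] using hden2
  have hD1 : ((algebraMap ℤ ℝ (γ 1 0) : ℝ) : ℂ) * τ + ((algebraMap ℤ ℝ (γ 1 1) : ℝ) : ℂ) ≠ 0 := by
    simpa [denom] using hden1
  have e00 : (a : ℂ) * ((algebraMap ℤ ℝ (γ 0 0) : ℝ) : ℂ) + (b : ℂ) * ((algebraMap ℤ ℝ (γ 1 0) : ℝ) : ℂ)
      = ((algebraMap ℤ ℝ (γ' 0 0) : ℝ) : ℂ) * a' := by
    have := congrArg (fun z : ℤ => (z : ℂ)) h00
    simpa using this
  have e01 : (a : ℂ) * ((algebraMap ℤ ℝ (γ 0 1) : ℝ) : ℂ) + (b : ℂ) * ((algebraMap ℤ ℝ (γ 1 1) : ℝ) : ℂ)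
      = ((algebraMap ℤ ℝ (γ' 0 0) : ℝ) : ℂ) * b' + ((algebraMap ℤ ℝ (γ' 0 1) : ℝ) : ℂ) * d' := by
    have := congrArg (fun z : ℤ => (z : ℂ)) h01
    simpa using this
  have e10 : (d : ℂ) * ((algebraMap ℤ ℝ (γ 1 0) : ℝ) : ℂ)
      = ((algebraMap ℤ ℝ (γ' 1 0) : ℝ) : ℂ) * a' := by
    have := congrArg (fun z : ℤ => (z : ℂ)) h10
    simpa using this
  have e11 : (d : ℂ) * ((algebraMap ℤ ℝ (γ 1 1) : ℝ) : ℂ)
      = ((algebraMap ℤ ℝ (γ' 1 0) : ℝ) : ℂ) * b' + ((algebraMap ℤ ℝ (γ' 1 1) : ℝ) : ℂ) * d' := by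
    have := congrArg (fun z : ℤ => (z : ℂ)) h11
    simpa using this
  generalize ((algebraMap ℤ ℝ (γ 0 0) : ℝ) : ℂ) = P at *
  generalize ((algebraMap ℤ ℝ (γ 0 1) : ℝ) : ℂ) = Q at *
  generalize ((algebraMap ℤ ℝ (γ 1 0) : ℝ) : ℂ) = R at *
  generalize ((algebraMap ℤ ℝ (γ 1 1) : ℝ) : ℂ) = S at *
  generalize ((algebraMap ℤ ℝ (γ' 0 0) : ℝ) : ℂ) = P' at *
  generalize ((algebraMap ℤ ℝ (γ' 0 1) : ℝ) : ℂ) = Q' at *
  generalize ((algebraMap ℤ ℝ (γ' 1 0) : ℝ) : ℂ) = R' at *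
  generalize ((algebraMap ℤ ℝ (γ' 1 1) : ℝ) : ℂ) = S' at *
  -- LHS = (a (Pτ+Q)/(Rτ+S) + b)/d ; RHS = (P' w + Q')/(R' w + S'), w = (a'τ+b')/d'
  have hR2 : R' * ((a' : ℂ) * τ + b') + S' * d' ≠ 0 := by
    intro h0
    apply hD2
    field_simp
    linear_combination h0
  have key : ((a : ℂ) * ((P * τ + Q) / (R * τ + S)) + b) / d =
      ((a : ℂ) * (P * τ + Q) + b * (R * τ + S)) / (d * (R * τ + S)) := by
    have h1 : (a : ℂ) * ((P * τ + Q) / (R * τ + S)) + b =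
        ((a : ℂ) * (P * τ + Q) + b * (R * τ + S)) / (R * τ + S) := by
      rw [mul_div_assoc', div_add' _ _ _ hD1]
    rw [h1, div_div, mul_comm (R * τ + S)]
  have key2 : (P' * (((a' : ℂ) * τ + b') / d') + Q') / (R' * (((a' : ℂ) * τ + b') / d') + S') =
      (P' * ((a' : ℂ) * τ + b') + Q' * d') / (R' * ((a' : ℂ) * τ + b') + S' * d') := by
    field_simp
  rw [key, key2]
  have hden : (d : ℂ) * (R * τ + S) = R' * ((a' : ℂ) * τ + b') + S' * d' := by
    linear_combination τ * e10 + e11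
  have hnum : (a : ℂ) * (P * τ + Q) + b * (R * τ + S) = P' * ((a' : ℂ) * τ + b') + Q' * d' := by
    linear_combination τ * e00 + e01
  rw [hden, hnum]


theorem coe_mul_coe_inv (γ : SL(2, ℤ)) : (γ : Matrix (Fin 2) (Fin 2) ℤ) *
    ((γ⁻¹ : SL(2, ℤ)) : Matrix (Fin 2) (Fin 2) ℤ) = 1 := by
  rw [← Matrix.SpecialLinearGroup.coe_mul, mul_inv_cancel, Matrix.SpecialLinearGroup.coe_one]

theorem coe_inv_mul_coe (γ : SL(2, ℤ)) : ((γ⁻¹ : SL(2, ℤ)) : Matrix (Fin 2) (Fin 2) ℤ) *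
    (γ : Matrix (Fin 2) (Fin 2) ℤ) = 1 := by
  rw [← Matrix.SpecialLinearGroup.coe_mul, inv_mul_cancel, Matrix.SpecialLinearGroup.coe_one]

/-- The upper triangular integer matrix attached to a triple `(a,b,d)`. -/
def triMat (x : ℕ × ℕ × ℕ) : Matrix (Fin 2) (Fin 2) ℤ :=
  !![(x.1 : ℤ), (x.2.1 : ℤ); 0, (x.2.2 : ℤ)]

theorem dvd_mul_left_entries (g : ℤ) (A M : Matrix (Fin 2) (Fin 2) ℤ) (h : ∀ i j, g ∣ M i j) :
    ∀ i j, g ∣ (A * M) i j := by
  intro i j
  rw [Matrix.mul_apply]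
  exact Finset.dvd_sum fun k _ => dvd_mul_of_dvd_right (h k j) _

theorem dvd_mul_right_entries (g : ℤ) (M A : Matrix (Fin 2) (Fin 2) ℤ) (h : ∀ i j, g ∣ M i j) :
    ∀ i j, g ∣ (M * A) i j := by
  intro i j
  rw [Matrix.mul_apply]
  exact Finset.dvd_sum fun k _ => dvd_mul_of_dvd_left (h i k) _

/-- Primitivity is preserved by the Hermite reduction. -/
theorem gcd_eq_one_of_hermite (γ γ' : SL(2, ℤ)) (x y : ℕ × ℕ × ℕ)
    (h : triMat x * (γ : Matrix (Fin 2) (Fin 2) ℤ) = (γ' : Matrix (Fin 2) (Fin 2) ℤ) * triMat y)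
    (hprim : Nat.gcd x.1 (Nat.gcd x.2.1 x.2.2) = 1) :
    Nat.gcd y.1 (Nat.gcd y.2.1 y.2.2) = 1 := by
  set g : ℕ := Nat.gcd y.1 (Nat.gcd y.2.1 y.2.2) with hg
  have h1 : g ∣ y.1 := Nat.gcd_dvd_left _ _
  have h2 : g ∣ y.2.1 := (Nat.gcd_dvd_right _ _).trans (Nat.gcd_dvd_left _ _)
  have h3 : g ∣ y.2.2 := (Nat.gcd_dvd_right _ _).trans (Nat.gcd_dvd_right _ _)
  have hy : ∀ i j, (g : ℤ) ∣ triMat y i j := by
    intro i j
    fin_cases i <;> fin_cases j
    · simpa [triMat] using Int.natCast_dvd_natCast.mpr h1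
    · simpa [triMat] using Int.natCast_dvd_natCast.mpr h2
    · simp [triMat]
    · simpa [triMat] using Int.natCast_dvd_natCast.mpr h3
  have hx : triMat x = (γ' : Matrix (Fin 2) (Fin 2) ℤ) * triMat y *
      ((γ⁻¹ : SL(2, ℤ)) : Matrix (Fin 2) (Fin 2) ℤ) := by
    rw [← h, Matrix.mul_assoc, coe_mul_coe_inv, Matrix.mul_one]
  have hxd : ∀ i j, (g : ℤ) ∣ triMat x i j := by
    rw [hx]
    exact dvd_mul_right_entries _ _ _ (dvd_mul_left_entries _ _ _ hy)
  have k1 : g ∣ x.1 := by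
    have := hxd 0 0
    simpa [triMat] using Int.natCast_dvd_natCast.mp (by simpa [triMat] using this)
  have k2 : g ∣ x.2.1 := by
    have := hxd 0 1
    simpa [triMat] using Int.natCast_dvd_natCast.mp (by simpa [triMat] using this)
  have k3 : g ∣ x.2.2 := by
    have := hxd 1 1
    simpa [triMat] using Int.natCast_dvd_natCast.mp (by simpa [triMat] using this)
  have : g ∣ 1 := hprim ▸ Nat.dvd_gcd k1 (Nat.dvd_gcd k2 k3)
  exact Nat.dvd_one.mp this

/-- Uniqueness of the Hermite normal form. -/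
theorem hermite_unique (δ δ' : SL(2, ℤ)) (x y : ℕ × ℕ × ℕ) (hx1 : 0 < x.1)
    (hy1 : 0 < y.1) (hxb : x.2.1 < x.2.2) (hyb : y.2.1 < y.2.2)
    (h : (δ : Matrix (Fin 2) (Fin 2) ℤ) * triMat x = (δ' : Matrix (Fin 2) (Fin 2) ℤ) * triMat y) :
    x = y := by
  set ε : SL(2, ℤ) := δ'⁻¹ * δ with hε
  have hε' : (ε : Matrix (Fin 2) (Fin 2) ℤ) * triMat x = triMat y := by
    rw [hε, Matrix.SpecialLinearGroup.coe_mul, Matrix.mul_assoc, h, ← Matrix.mul_assoc,
      coe_inv_mul_coe, Matrix.one_mul]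
  have e00 := congr_fun (congr_fun hε' 0) 0
  have e01 := congr_fun (congr_fun hε' 0) 1
  have e10 := congr_fun (congr_fun hε' 1) 0
  have e11 := congr_fun (congr_fun hε' 1) 1
  simp only [triMat, Matrix.mul_apply, Fin.sum_univ_two, Matrix.of_apply, Matrix.cons_val',
    Matrix.cons_val_zero, Matrix.cons_val_one, Matrix.empty_val', Matrix.cons_val_fin_one,
    mul_zero, add_zero] at e00 e01 e10 e11
  have hdet : ε 0 0 * ε 1 1 - ε 0 1 * ε 1 0 = 1 := by
    have := ε.det_coe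
    rwa [Matrix.det_fin_two] at this
  obtain ⟨a, b, d⟩ := x
  obtain ⟨a', b', d'⟩ := y
  simp only at hx1 hy1 hxb hyb e00 e01 e10 e11
  have ha : (0 : ℤ) < a := by exact_mod_cast hx1
  have ha' : (0 : ℤ) < a' := by exact_mod_cast hy1
  have hb : (b : ℤ) < d := by exact_mod_cast hxb
  have hb' : (b' : ℤ) < d' := by exact_mod_cast hyb
  have hb0 : (0 : ℤ) ≤ b := Int.natCast_nonneg b
  have hb0' : (0 : ℤ) ≤ b' := Int.natCast_nonneg b'
  generalize ε 0 0 = p at *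
  generalize ε 0 1 = q at *
  generalize ε 1 0 = r at *
  generalize ε 1 1 = s at *
  have hr : r = 0 := by
    rcases mul_eq_zero.mp e10 with h0 | h0
    · exact h0
    · omega
  subst hr
  have hps : p * s = 1 := by linarith
  have hp : 0 < p := by
    by_contra hneg
    rw [not_lt] at hneg
    have : p * (a : ℤ) ≤ 0 := mul_nonpos_of_nonpos_of_nonneg hneg ha.le
    omega
  have hp1 : p = 1 := by
    rcases Int.eq_one_or_neg_one_of_mul_eq_one hps with h1 | h1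
    · exact h1
    · omega
  subst hp1
  have hs1 : s = 1 := by linarith
  subst hs1
  have hd : (d : ℤ) = d' := by linarith
  have hq : q = 0 := by
    by_contra hq0
    rcases lt_or_gt_of_ne hq0 with hlt | hgt
    · have : q * (d : ℤ) ≤ -1 * d := by
        apply mul_le_mul_of_nonneg_right _ (by omega)
        omega
      omega
    · have : 1 * (d : ℤ) ≤ q * d := by
        apply mul_le_mul_of_nonneg_right _ (by omega)
        omega
      omega
  subst hq
  have h1 : a = a' := by exact_mod_cast (by linarith : (a : ℤ) = a')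
  have h2 : b = b' := by exact_mod_cast (by linarith : (b : ℤ) = b')
  have h3 : d = d' := by exact_mod_cast hd
  rw [h1, h2, h3]


theorem pos_of_mem_triples {m : ℕ} [NeZero m] {x : ℕ × ℕ × ℕ} (hx : x ∈ triples m) :
    0 < x.1 ∧ 0 < x.2.2 := by
  have hm : 0 < m := Nat.pos_of_ne_zero (NeZero.ne m)
  obtain ⟨h1, -, -⟩ := (mem_triples hm).mp hx
  constructor
  · rcases Nat.eq_zero_or_pos x.1 with h0 | h0
    · rw [h0, zero_mul] at h1; omega
    · exact h0
  · rcases Nat.eq_zero_or_pos x.2.2 with h0 | h0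
    · rw [h0, mul_zero] at h1; omega
    · exact h0

/-- The set of primitive triples of determinant `m`, as a type. -/
def TripleSet (m : ℕ) : Type := {x : ℕ × ℕ × ℕ // x ∈ triples m}

instance (m : ℕ) : Fintype (TripleSet m) := inferInstanceAs (Fintype {x // x ∈ triples m})

instance (m : ℕ) : DecidableEq (TripleSet m) :=
  inferInstanceAs (DecidableEq {x // x ∈ triples m})

/-- The underlying triple. -/
def TripleSet.val {m : ℕ} (x : TripleSet m) : ℕ × ℕ × ℕ := Subtype.val x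

theorem TripleSet.mem {m : ℕ} (x : TripleSet m) : x.val ∈ triples m := Subtype.property x

theorem TripleSet.ext {m : ℕ} {x y : TripleSet m} (h : x.val = y.val) : x = y := Subtype.ext h

variable (m : ℕ) [NeZero m]

theorem exists_act (γ : SL(2, ℤ)) (x : TripleSet m) :
    ∃ (y : TripleSet m) (γ' : SL(2, ℤ)),
      triMat x.val * (γ : Matrix (Fin 2) (Fin 2) ℤ) =
        (γ' : Matrix (Fin 2) (Fin 2) ℤ) * triMat y.val := by
  have hm : 0 < m := Nat.pos_of_ne_zero (NeZero.ne m)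
  obtain ⟨hdet, hb, hprim⟩ := (mem_triples hm).mp x.mem
  set M : Matrix (Fin 2) (Fin 2) ℤ := triMat x.val * (γ : Matrix (Fin 2) (Fin 2) ℤ) with hM
  have hMdet : M 0 0 * M 1 1 - M 0 1 * M 1 0 = m := by
    have h1 : M.det = (triMat x.val).det * (γ : Matrix (Fin 2) (Fin 2) ℤ).det := by
      rw [hM, Matrix.det_mul]
    rw [γ.det_coe, mul_one, Matrix.det_fin_two, Matrix.det_fin_two] at h1
    rw [h1]
    simp only [triMat, Matrix.of_apply, Matrix.cons_val', Matrix.cons_val_zero,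
      Matrix.cons_val_one, Matrix.empty_val', Matrix.cons_val_fin_one, mul_zero, sub_zero]
    exact_mod_cast hdet
  obtain ⟨γ', a, b, d, had, hbd, hmat⟩ := exists_hermite_gen m hm (M 0 0) (M 0 1) (M 1 0) (M 1 1)
    hMdet
  have hMeq : M = (γ' : Matrix (Fin 2) (Fin 2) ℤ) * triMat (a, b, d) := by
    have h2 : triMat (a, b, d) = !![(a : ℤ), (b : ℤ); 0, (d : ℤ)] := rfl
    rw [h2, ← hmat]
    exact Matrix.eta_fin_two M
  have hprim' : Nat.gcd a (Nat.gcd b d) = 1 :=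
    gcd_eq_one_of_hermite γ γ' x.val (a, b, d) hMeq hprim
  have hy : (a, b, d) ∈ triples m := (mem_triples hm).mpr ⟨had, hbd, hprim'⟩
  exact ⟨⟨(a, b, d), hy⟩, γ', hMeq⟩

/-- The action of the modular group on primitive triples. -/
def act (γ : SL(2, ℤ)) (x : TripleSet m) : TripleSet m :=
  Classical.choose (exists_act m γ⁻¹ x)

theorem act_spec (γ : SL(2, ℤ)) (x : TripleSet m) :
    ∃ γ' : SL(2, ℤ), triMat x.val * ((γ⁻¹ : SL(2, ℤ)) : Matrix (Fin 2) (Fin 2) ℤ) =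
        (γ' : Matrix (Fin 2) (Fin 2) ℤ) * triMat (act m γ x).val :=
  Classical.choose_spec (exists_act m γ⁻¹ x)

theorem act_unique (γ γ' : SL(2, ℤ)) (x y : TripleSet m)
    (h : triMat x.val * ((γ⁻¹ : SL(2, ℤ)) : Matrix (Fin 2) (Fin 2) ℤ) =
        (γ' : Matrix (Fin 2) (Fin 2) ℤ) * triMat y.val) : act m γ x = y := by
  have hm : 0 < m := Nat.pos_of_ne_zero (NeZero.ne m)
  obtain ⟨γ'', h'⟩ := act_spec m γ x
  apply TripleSet.ext
  have hz := (mem_triples hm).mp (act m γ x).mem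
  have hy := (mem_triples hm).mp y.mem
  exact hermite_unique γ'' γ' _ _ (pos_of_mem_triples (act m γ x).mem).1
    (pos_of_mem_triples y.mem).1 hz.2.1 hy.2.1 (h'.symm.trans h)

instance : MulAction SL(2, ℤ) (TripleSet m) where
  smul := act m
  one_smul x := by
    refine act_unique m 1 1 x x ?_
    rw [inv_one, Matrix.SpecialLinearGroup.coe_one, Matrix.mul_one, Matrix.one_mul]
  mul_smul γ₁ γ₂ x := by
    obtain ⟨δ₂, h2⟩ := act_spec m γ₂ x
    obtain ⟨δ₁, h1⟩ := act_spec m γ₁ (act m γ₂ x)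
    refine act_unique m (γ₁ * γ₂) (δ₂ * δ₁) x (act m γ₁ (act m γ₂ x)) ?_
    rw [_root_.mul_inv_rev, Matrix.SpecialLinearGroup.coe_mul, ← Matrix.mul_assoc, h2, Matrix.mul_assoc,
      h1, ← Matrix.mul_assoc, ← Matrix.SpecialLinearGroup.coe_mul]

theorem smul_def (γ : SL(2, ℤ)) (x : TripleSet m) : γ • x = act m γ x := rfl


/-- The conjugate function `τ ↦ J((aτ+b)/d)` of a triple (zero for degenerate triples). -/
def conjT (x : ℕ × ℕ × ℕ) (τ : ℍ) : ℂ :=
  if h : 0 < x.1 ∧ 0 < x.2.2 then H28.J (aff x.1 x.2.1 x.2.2 h.1 h.2 τ) else 0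

theorem conjT_eq (x : ℕ × ℕ × ℕ) (h1 : 0 < x.1) (h2 : 0 < x.2.2) (τ : ℍ) :
    conjT x τ = H28.J (aff x.1 x.2.1 x.2.2 h1 h2 τ) := by
  rw [conjT, dif_pos ⟨h1, h2⟩]

theorem mdiff_conjT (x : ℕ × ℕ × ℕ) : MDiff (conjT x) := by
  by_cases h : 0 < x.1 ∧ 0 < x.2.2
  · have : conjT x = fun τ => H28.J (aff x.1 x.2.1 x.2.2 h.1 h.2 τ) := by
      funext τ
      exact conjT_eq x h.1 h.2 τ
    rw [this]
    exact mdiff_conj H28.J H28.J_mdiff _ _ _ h.1 h.2
  · have : conjT x = fun _ => 0 := by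
      funext τ
      rw [conjT, dif_neg h]
    rw [this]
    exact mdifferentiable_const

theorem conjT_equivariant (γ : SL(2, ℤ)) (x : TripleSet m) (τ : ℍ) :
    conjT (γ • x).val τ = conjT x.val (γ⁻¹ • τ) := by
  obtain ⟨γ', h⟩ := act_spec m γ x
  have hx := pos_of_mem_triples x.mem
  have hy := pos_of_mem_triples (act m γ x).mem
  rw [smul_def, conjT_eq _ hy.1 hy.2, conjT_eq _ hx.1 hx.2,
    aff_smul_eq_gen γ⁻¹ γ' _ _ _ _ _ _ hx.1 hx.2 hy.1 hy.2 h τ, H28.J_smul]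

theorem exists_growth_conjT :
    ∃ C : ℝ, ∀ (x : TripleSet m) (τ : ℍ), 1 ≤ τ.im →
      ‖conjT x.val τ‖ ≤ C * Real.exp (2 * Real.pi * m * τ.im) := by
  have hm : 0 < m := Nat.pos_of_ne_zero (NeZero.ne m)
  have hm' : (0 : ℝ) < (m : ℝ) := by exact_mod_cast hm
  obtain ⟨C, hC, hbd⟩ := H28.exists_norm_J_le (c := 1 / (m : ℝ)) (by positivity)
  refine ⟨C, fun x τ hτ => ?_⟩
  have hx := pos_of_mem_triples x.mem
  obtain ⟨hdet, -, -⟩ := (mem_triples hm).mp x.mem
  rw [conjT_eq _ hx.1 hx.2]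
  have ha : (1 : ℝ) ≤ (x.val.1 : ℝ) := by exact_mod_cast hx.1
  have hd : (1 : ℝ) ≤ (x.val.2.2 : ℝ) := by exact_mod_cast hx.2
  have hmad : (m : ℝ) = (x.val.1 : ℝ) * (x.val.2.2 : ℝ) := by exact_mod_cast hdet.symm
  have h1 : 1 / (m : ℝ) * (x.val.2.2 : ℝ) / (x.val.1 : ℝ) ≤ τ.im := by
    refine le_trans ?_ hτ
    rw [hmad, div_le_one (by positivity)]
    rw [div_mul_eq_mul_div, one_mul, div_le_iff₀ (by positivity)]
    nlinarith
  refine (norm_conj_le H28.J _ C hbd _ _ _ hx.1 hx.2 τ h1).trans ?_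
  apply mul_le_mul_of_nonneg_left _ hC
  apply Real.exp_le_exp.mpr
  have h2 : (x.val.1 : ℝ) / (x.val.2.2 : ℝ) ≤ m := by
    rw [div_le_iff₀ (by positivity), hmad]
    nlinarith
  have hpi := Real.pi_pos
  have him : 0 ≤ τ.im := le_trans zero_le_one hτ
  have : 2 * Real.pi * ((x.val.1 : ℝ) / (x.val.2.2 : ℝ)) * τ.im ≤ 2 * Real.pi * m * τ.im := by
    apply mul_le_mul_of_nonneg_right _ him
    apply mul_le_mul_of_nonneg_left h2
    positivity
  exact this

/-- **Part A**: the modular polynomial over `ℂ`, as an identity of functions on `ℍ`. -/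
theorem exists_modPoly_analytic :
    ∃ P : Polynomial (Polynomial ℂ), P.Monic ∧ P.natDegree = (triples m).card ∧
      ∀ τ : ℍ, P.map (Polynomial.evalRingHom (H28.J τ)) =
        ∏ x ∈ triples m, (Polynomial.X - Polynomial.C (conjT x τ)) := by
  obtain ⟨C, hC⟩ := exists_growth_conjT m
  obtain ⟨P, h1, h2, -, h4⟩ := H6.exists_charpoly_of_conjugates' H28.J H28.J_def
    (fun (x : TripleSet m) => conjT x.val) (fun x => mdiff_conjT x.val)
    (fun γ x τ => conjT_equivariant m γ x τ) m C hC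
  refine ⟨P, h1, ?_, fun τ => ?_⟩
  · rw [h2]
    exact Fintype.card_coe (triples m)
  · rw [h4 τ]
    exact Finset.prod_coe_sort (triples m)
      (fun x => (Polynomial.X - Polynomial.C (conjT x τ) : Polynomial ℂ))

end Fermat.Agent.S28.H41

end
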