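import Mathlib
import Fermat.Agent.S24.H17_Theta
import Fermat.Agent.S28.H41_ModPolyA
import Fermat.Agent.S28.Interface

/-!
S28 / W1b (helper41), part B (formal): the product formula for the modular polynomial in
`LaurentSeries ℂ`.
-/

set_option autoImplicit false

noncomputable section

namespace Fermat.Agent.S28.H41

open MatrixGroups UpperHalfPlane Fermat.Agent.S24 Fermat.Agent.S24.H15 Fermat.Agent.S24.H17
open ModularCurve Polynomial
open scoped Manifold

local notation "𝕢" => Function.Periodic.qParam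

/-- Substitution `q ↦ ξ q^e` on `q`-sums. -/
theorem IsQSum.subst' {Y : LaurentSeries ℂ} {g : ℍ → ℂ} (h : IsQSum Y g) (ξ : ℂˣ) (e : ℕ)
    [NeZero e] (w : ℍ → ℍ) (hw : ∀ τ : ℍ, 𝕢 1 (w τ : ℂ) = (ξ : ℂ) * 𝕢 1 (τ : ℂ) ^ e) :
    IsQSum (subst ξ e Y) (fun τ => g (w τ)) := by
  intro τ
  have h1 := h (w τ)
  rw [hw] at h1
  have hinj : Function.Injective (fun k : ℤ => (e : ℤ) * k) :=
    mul_right_injective₀ (by exact_mod_cast NeZero.ne e)
  have h0 : ∀ x : ℤ, x ∉ Set.range (fun k : ℤ => (e : ℤ) * k) →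
      (subst ξ e Y).coeff x * 𝕢 1 (τ : ℂ) ^ x = 0 := by
    intro x hx
    rw [subst_coeff_of_not_dvd ξ e Y (fun ⟨c, hc⟩ => hx ⟨c, hc.symm⟩), zero_mul]
  rw [← hinj.hasSum_iff h0]
  have e' : ((fun x : ℤ => (subst ξ e Y).coeff x * 𝕢 1 (τ : ℂ) ^ x) ∘ fun k : ℤ => (e : ℤ) * k) =
      fun k : ℤ => Y.coeff k * ((ξ : ℂ) * 𝕢 1 (τ : ℂ) ^ e) ^ k := by
    funext k
    simp only [Function.comp_apply]
    rw [subst_coeff_mul, zpow_mul, zpow_natCast, mul_zpow, Units.val_zpow_eq_zpow_val]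
    ring
  rw [e']
  exact h1


/-- The standard primitive `m`-th root of unity `exp (2πi/m)`, as a unit of `ℂ`. -/
def zetaC (m : ℕ) : ℂˣ :=
  Units.mk0 (Complex.exp (2 * Real.pi * Complex.I / m)) (Complex.exp_ne_zero _)

theorem coe_zetaC (m : ℕ) : ((zetaC m : ℂˣ) : ℂ) = Complex.exp (2 * Real.pi * Complex.I / m) := rfl

theorem isPrimitiveRoot_zetaC (m : ℕ) [NeZero m] : IsPrimitiveRoot (zetaC m) m := by
  rw [← IsPrimitiveRoot.coe_units_iff, coe_zetaC]
  exact Complex.isPrimitiveRoot_exp m (NeZero.ne m)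

/-- The formal conjugate `J(ζ^(ab) t^(a^2))` attached to a triple `x = (a,b,d)`
(zero for degenerate triples). -/
def JT (R : Type*) [CommRing R] (ζ : Rˣ) (x : ℕ × ℕ × ℕ) : LaurentSeries R :=
  if h : x.1 = 0 then 0 else
    (haveI : NeZero (x.1 * x.1) := ⟨mul_ne_zero h h⟩
     Jconj R (ζ ^ (x.1 * x.2.1)) (x.1 * x.1))

theorem JT_eq (R : Type*) [CommRing R] (ζ : Rˣ) (x : ℕ × ℕ × ℕ) [NeZero (x.1 * x.1)] :
    JT R ζ x = Jconj R (ζ ^ (x.1 * x.2.1)) (x.1 * x.1) := by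
  have h : x.1 ≠ 0 := fun h0 => by
    have := NeZero.ne (x.1 * x.1)
    rw [h0] at this
    exact this rfl
  rw [JT, dif_neg h]

theorem qParam_conj_mulD (m a b d : ℕ) [NeZero m] (ha : 0 < a) (hd : 0 < d) (hm : a * d = m)
    (τ : ℍ) :
    𝕢 1 (aff a b d ha hd (mulD m τ) : ℂ) =
      ((zetaC m ^ (a * b) : ℂˣ) : ℂ) * 𝕢 1 (τ : ℂ) ^ (a * a) := by
  have hdc : (d : ℂ) ≠ 0 := by exact_mod_cast hd.ne'
  have hac : (a : ℂ) ≠ 0 := by exact_mod_cast ha.ne'
  have hmc : (m : ℂ) = (a : ℂ) * d := by exact_mod_cast hm.symm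
  rw [Units.val_pow_eq_pow_val, coe_zetaC, ← Complex.exp_nat_mul, Function.Periodic.qParam,
    Function.Periodic.qParam, ← Complex.exp_nat_mul, ← Complex.exp_add, coe_aff, coe_aff, hmc]
  congr 1
  push_cast
  field_simp
  ring

theorem coeffMap_jq_eq : coeffMap (algebraMap ℚ ℂ) jq = jqModC ℂ := by
  rw [← jqModC_rat, coeffMap_jqModC]

theorem isQSum_JT (m : ℕ) [NeZero m] {x : ℕ × ℕ × ℕ} (hx : x ∈ triples m) :
    IsQSum (JT ℂ (zetaC m) x) (fun τ => conjT x (mulD m τ)) := by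
  have hm : 0 < m := Nat.pos_of_ne_zero (NeZero.ne m)
  obtain ⟨ha, hd⟩ := pos_of_mem_triples hx
  obtain ⟨hdet, -, -⟩ := (mem_triples hm).mp hx
  have : NeZero (x.1 * x.1) := ⟨mul_ne_zero ha.ne' ha.ne'⟩
  rw [JT_eq]
  have h1 : IsQSum (jqModC ℂ) H28.J := coeffMap_jq_eq ▸ isQSum_J
  have h2 := IsQSum.subst' h1 (zetaC m ^ (x.1 * x.2.1)) (x.1 * x.1)
    (fun τ => aff x.1 x.2.1 x.2.2 ha hd (mulD m τ))
    (fun τ => qParam_conj_mulD m x.1 x.2.1 x.2.2 ha hd hdet τ)
  have h3 : (fun τ => conjT x (mulD m τ)) =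
      fun τ => H28.J (aff x.1 x.2.1 x.2.2 ha hd (mulD m τ)) := by
    funext τ
    exact conjT_eq x ha hd _
  rw [h3]
  exact h2


theorem IsQSum.finset_sum {ι : Type*} (s : Finset ι) (Y : ι → LaurentSeries ℂ) (g : ι → ℍ → ℂ)
    (h : ∀ i ∈ s, IsQSum (Y i) (g i)) : IsQSum (∑ i ∈ s, Y i) (fun τ => ∑ i ∈ s, g i τ) := by
  classical
  induction s using Finset.induction_on with
  | empty =>
    simp only [Finset.sum_empty]
    exact IsQSum.zero
  | insert a s ha ih =>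
    simp only [Finset.sum_insert ha]
    exact (h a (Finset.mem_insert_self a s)).add (ih fun i hi => h i (Finset.mem_insert_of_mem hi))

/-- Coefficientwise `q`-sums of polynomials. -/
def IsQSumPoly (P : Polynomial (LaurentSeries ℂ)) (p : ℍ → Polynomial ℂ) : Prop :=
  ∀ k : ℕ, IsQSum (P.coeff k) (fun τ => (p τ).coeff k)

theorem IsQSumPoly.one : IsQSumPoly 1 (fun _ => 1) := by
  intro k
  simp only [Polynomial.coeff_one]
  split_ifs
  · exact IsQSum.one
  · exact IsQSum.zero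

theorem IsQSumPoly.mul {P Q : Polynomial (LaurentSeries ℂ)} {p q : ℍ → Polynomial ℂ}
    (hP : IsQSumPoly P p) (hQ : IsQSumPoly Q q) : IsQSumPoly (P * Q) (fun τ => p τ * q τ) := by
  intro k
  simp only [Polynomial.coeff_mul]
  exact IsQSum.finset_sum _ _ _ fun ij _ => (hP ij.1).mul (hQ ij.2)

theorem IsQSumPoly.X_sub_C {Y : LaurentSeries ℂ} {g : ℍ → ℂ} (h : IsQSum Y g) :
    IsQSumPoly (Polynomial.X - Polynomial.C Y) (fun τ => Polynomial.X - Polynomial.C (g τ)) := by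
  intro k
  simp only [Polynomial.coeff_sub, Polynomial.coeff_X, Polynomial.coeff_C]
  refine IsQSum.sub ?_ ?_
  · split_ifs
    · exact IsQSum.one
    · exact IsQSum.zero
  · split_ifs
    · exact h
    · exact IsQSum.zero

theorem IsQSumPoly.prod {ι : Type*} (s : Finset ι) (Y : ι → LaurentSeries ℂ) (g : ι → ℍ → ℂ)
    (h : ∀ i ∈ s, IsQSum (Y i) (g i)) :
    IsQSumPoly (∏ i ∈ s, (Polynomial.X - Polynomial.C (Y i)))
      (fun τ => ∏ i ∈ s, (Polynomial.X - Polynomial.C (g i τ))) := by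
  classical
  induction s using Finset.induction_on with
  | empty =>
    simp only [Finset.prod_empty]
    exact IsQSumPoly.one
  | insert a s ha ih =>
    simp only [Finset.prod_insert ha]
    exact (IsQSumPoly.X_sub_C (h a (Finset.mem_insert_self a s))).mul
      (ih fun i hi => h i (Finset.mem_insert_of_mem hi))

theorem isQSum_eval₂ {Y : LaurentSeries ℂ} {g : ℍ → ℂ} (h : IsQSum Y g) (c : Polynomial ℂ) :
    IsQSum (c.eval₂ HahnSeries.C Y) (fun τ => c.eval (g τ)) := by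
  induction c using Polynomial.induction_on with
  | C a =>
    simp only [Polynomial.eval₂_C, Polynomial.eval_C]
    exact IsQSum.single_zero a
  | add p q hp hq =>
    simp only [Polynomial.eval₂_add, Polynomial.eval_add]
    exact hp.add hq
  | monomial n a ih =>
    simp only [pow_succ, ← mul_assoc, Polynomial.eval₂_mul, Polynomial.eval₂_X,
      Polynomial.eval_mul, Polynomial.eval_X] at ih ⊢
    exact ih.mul h

theorem IsQSumPoly.map {Y : LaurentSeries ℂ} {g : ℍ → ℂ} (h : IsQSum Y g)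
    (P : Polynomial (Polynomial ℂ)) :
    IsQSumPoly (P.map (Polynomial.eval₂RingHom HahnSeries.C Y))
      (fun τ => P.map (Polynomial.evalRingHom (g τ))) := by
  intro k
  simp only [Polynomial.coeff_map, Polynomial.coe_eval₂RingHom, Polynomial.coe_evalRingHom]
  exact isQSum_eval₂ h _

theorem IsQSumPoly.unique {P Q : Polynomial (LaurentSeries ℂ)} {p : ℍ → Polynomial ℂ}
    (hP : IsQSumPoly P p) (hQ : IsQSumPoly Q p) : P = Q := by
  ext1 k
  exact (hP k).series_unique (hQ k)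


/-- **Part B**: the modular polynomial over `ℂ` with its formal product formula in the variable
`t = q^(1/m)`: `Φ(X, J(t^m)) = ∏ (X - J(ζ^(ab) t^(a^2)))`, `ζ = exp (2πi/m)`. -/
theorem exists_modPoly_formal (m : ℕ) [NeZero m] :
    ∃ P : Polynomial (Polynomial ℂ), P.Monic ∧ P.natDegree = (triples m).card ∧
      P.map (Polynomial.eval₂RingHom HahnSeries.C (qExpand ℂ m (jqModC ℂ))) =
        ∏ x ∈ triples m, (Polynomial.X - Polynomial.C (JT ℂ (zetaC m) x)) := by
  obtain ⟨P, h1, h2, h3⟩ := exists_modPoly_analytic m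
  refine ⟨P, h1, h2, ?_⟩
  have hJ1 : IsQSum (jqModC ℂ) H28.J := coeffMap_jq_eq ▸ isQSum_J
  have hJ : IsQSum (qExpand ℂ m (jqModC ℂ)) (fun τ => H28.J (mulD m τ)) := hJ1.scale m
  have hL := IsQSumPoly.map hJ P
  have hR := IsQSumPoly.prod (triples m) (JT ℂ (zetaC m)) (fun x τ => conjT x (mulD m τ))
    (fun x hx => isQSum_JT m hx)
  have e : (fun τ => P.map (Polynomial.evalRingHom (H28.J (mulD m τ)))) =
      fun τ => ∏ x ∈ triples m, (Polynomial.X - Polynomial.C (conjT x (mulD m τ))) :=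
    funext fun τ => h3 _
  rw [e] at hL
  exact hL.unique hR

end Fermat.Agent.S28.H41

end
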