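import Fermat.Agent.S28.H96_ModPolyTail
import Fermat.Agent.S28.H41_ModPolyB
import Fermat.Agent.S28.H64_Triples

/-!
# S28 / W1-final: `HasModPoly m` for every `m`

Glue of helper41's `exists_modPoly_formal` (analytic + formal part of W1b) with helper96's
`hasModPoly_of_product` (integrality/rationality tail) and helper64's `card_triples`.
-/

namespace Fermat.Agent.S28.H17

open Fermat.Agent.S28

theorem JT41_eq_JT96 (R : Type*) [CommRing R] (ζ : Rˣ) (x : ℕ × ℕ × ℕ) :
    H41.JT R ζ x = H96.JT R ζ x := rfl

/-- **W1 complete**: the modular polynomial package exists at every level `m`. -/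
theorem hasModPoly (m : ℕ) [NeZero m] : HasModPoly m := by
  obtain ⟨P, hmonic, -, hprod⟩ := H41.exists_modPoly_formal m
  refine H96.hasModPoly_of_product (m := m) (H41.zetaC m) (H41.isPrimitiveRoot_zetaC m) P hmonic ?_
    (H64.card_triples m (NeZero.pos m))
  rw [H96.conjProd]
  exact hprod

end Fermat.Agent.S28.H17
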