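import Fermat.Agent.S28.H17_FormalIdentity
import Fermat.Agent.S28.Interface
import Fermat.Agent.S24.H6_KeyAssembly
import Fermat.Agent.S24.H24_Comb

/-!
S28 package W1b over `ℂ` (helper17, partner/hedge of helper41): the modular polynomial `P ∈ ℂ[Y][X]`
of level `m` with the PRODUCT FORMULA in `LaurentSeries ℂ` (variable `t`, `q = t^m`):
`P(X, J(t^m)) = ∏_{(a,b,d) ∈ triples m} (X - J(ζ^(ab) t^(a²)))`, `ζ = exp(2πi/m)`.

* `poly_transfer`: function identity on `ℍ` ⟹ identity of polynomials over `LaurentSeries ℂ`;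
* `isQSum_subst`, `isQSum_Jconj_aff`: the `q`-expansion of `J ((a (mτ) + b)/d)` is `Jconj ℂ (ζ^(ab)) (a²)`;
* `exists_modPoly_analytic`: KEY-a of S24 reindexed by the primitive triples (Hermite normal form);
* `exists_modPoly_complex`: the product formula;  `rootsAt_complex`: `RootsAt ℂ m ζ Φ`.
-/

set_option autoImplicit false

noncomputable section

namespace Fermat.Agent.S28.H17

open UpperHalfPlane hiding I
open Complex ModularCurve Polynomial
open Fermat.Agent.S24.H17 (IsQSum)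
open Fermat.Agent.S24
open scoped MatrixGroups Manifold Real

local notation "𝕢" => Function.Periodic.qParam

/-! ### Formal transfer -/

/-- Evaluation `ℂ[Y] →+* LaurentSeries ℂ`, `Y ↦ y`, constants via `HahnSeries.C`. -/
def evalCC (y : LaurentSeries ℂ) : ℂ[X] →+* LaurentSeries ℂ :=
  Polynomial.eval₂RingHom HahnSeries.C y

theorem isQSum_C (c : ℂ) : IsQSum (HahnSeries.C c) (fun _ => c) :=
  H17.IsQSum.single_zero c

theorem isQSum_evalCC {y : LaurentSeries ℂ} {f : ℍ → ℂ} (hy : IsQSum y f) (p : ℂ[X]) :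
    IsQSum (evalCC y p) (fun τ => p.eval (f τ)) := by
  induction p using Polynomial.induction_on' with
  | add p q hp hq =>
    rw [map_add]
    have := H17.IsQSum.add hp hq
    have e : (fun τ => (p + q).eval (f τ)) =
        (fun τ => p.eval (f τ)) + fun τ => q.eval (f τ) := by
      funext τ
      simp
    rw [e]
    exact this
  | monomial n a =>
    have h1 : evalCC y (Polynomial.monomial n a) = HahnSeries.C a * y ^ n := by
      simp [evalCC, Polynomial.eval₂_monomial]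
    rw [h1]
    have := H17.IsQSum.mul (isQSum_C a) (isQSum_pow hy n)
    have e : (fun τ => (Polynomial.monomial n a).eval (f τ)) = (fun _ => a) * f ^ n := by
      funext τ
      simp [Polynomial.eval_monomial]
    rw [e]
    exact this

/-- coefficients of `∏ (X - C (Y x))` are `q`-sums of the coefficients of `∏ (X - C (g x τ))`. -/
theorem isQSum_prod_coeff {ι : Type*} [DecidableEq ι] (s : Finset ι) (Y : ι → LaurentSeries ℂ)
    (g : ι → ℍ → ℂ) (hY : ∀ x ∈ s, IsQSum (Y x) (g x)) (k : ℕ) :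
    IsQSum ((∏ x ∈ s, (X - C (Y x))).coeff k)
      (fun τ => (∏ x ∈ s, (X - C (g x τ))).coeff k) := by
  induction s using Finset.induction_on generalizing k with
  | empty =>
    simp only [Finset.prod_empty, Polynomial.coeff_one]
    split_ifs
    · exact H17.IsQSum.one
    · exact H17.IsQSum.zero
  | insert a s ha ih =>
    have hs : ∀ x ∈ s, IsQSum (Y x) (g x) := fun x hx => hY x (Finset.mem_insert_of_mem hx)
    have hYa := hY a (Finset.mem_insert_self a s)
    simp only [Finset.prod_insert ha]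
    cases k with
    | zero =>
      simp only [Polynomial.mul_coeff_zero, Polynomial.coeff_sub, Polynomial.coeff_X_zero,
        Polynomial.coeff_C_zero, zero_sub]
      have := H17.IsQSum.mul (H17.IsQSum.neg hYa) (ih hs 0)
      exact this
    | succ k =>
      have e1 : ∀ (R : Type) [CommRing R] (y : R) (Q : R[X]),
          ((X - C y) * Q).coeff (k + 1) = Q.coeff k - y * Q.coeff (k + 1) := by
        intro R _ y Q
        rw [sub_mul, Polynomial.coeff_sub, Polynomial.coeff_X_mul, Polynomial.coeff_C_mul]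
      have e2 : (fun τ => ((X - C (g a τ)) * ∏ x ∈ s, (X - C (g x τ))).coeff (k + 1)) =
          (fun τ => (∏ x ∈ s, (X - C (g x τ))).coeff k) -
            g a * (fun τ => (∏ x ∈ s, (X - C (g x τ))).coeff (k + 1)) := by
        funext τ
        simp only [Pi.sub_apply, Pi.mul_apply]
        exact e1 ℂ (g a τ) _
      rw [e2]
      rw [e1 (LaurentSeries ℂ) (Y a) _]
      exact H17.IsQSum.sub (ih hs k) (H17.IsQSum.mul hYa (ih hs (k + 1)))

/-- **Formal transfer**: a polynomial identity between functions on `ℍ` with `q`-expansions is an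
identity of polynomials over `LaurentSeries ℂ`. -/
theorem poly_transfer {ι : Type*} [DecidableEq ι] (s : Finset ι) (P : Polynomial (Polynomial ℂ))
    {Jm : LaurentSeries ℂ} {Jf : ℍ → ℂ} (hJ : IsQSum Jm Jf)
    (Y : ι → LaurentSeries ℂ) (g : ι → ℍ → ℂ) (hY : ∀ x ∈ s, IsQSum (Y x) (g x))
    (hP : ∀ τ : ℍ, P.map (Polynomial.evalRingHom (Jf τ)) = ∏ x ∈ s, (X - C (g x τ))) :
    P.map (evalCC Jm) = ∏ x ∈ s, (X - C (Y x)) := by
  ext k : 1
  rw [Polynomial.coeff_map]
  have h1 := isQSum_evalCC hJ (P.coeff k)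
  have h2 := isQSum_prod_coeff s Y g hY k
  have e : (fun τ => (P.coeff k).eval (Jf τ)) =
      fun τ => (∏ x ∈ s, (X - C (g x τ))).coeff k := by
    funext τ
    rw [← hP τ, Polynomial.coeff_map, Polynomial.coe_evalRingHom]
  rw [e] at h1
  exact H17.IsQSum.series_unique h1 h2

/-! ### Expansions of the conjugates -/

/-- substitution `q ↦ ξ q^e` on `q`-sums. -/
theorem isQSum_subst {Y : LaurentSeries ℂ} {g : ℍ → ℂ} (hY : IsQSum Y g) (ξ : ℂˣ) (e : ℕ)
    [NeZero e] (φ : ℍ → ℍ) (hφ : ∀ τ : ℍ, 𝕢 1 (φ τ : ℂ) = (ξ : ℂ) * 𝕢 1 (τ : ℂ) ^ e) :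
    IsQSum (subst ξ e Y) (fun τ => g (φ τ)) := by
  intro τ
  have h1 := hY (φ τ)
  rw [hφ] at h1
  have hinj : Function.Injective (fun k : ℤ => (e : ℤ) * k) :=
    mul_right_injective₀ (by exact_mod_cast NeZero.ne e)
  have h0 : ∀ x : ℤ, x ∉ Set.range (fun k : ℤ => (e : ℤ) * k) →
      (subst ξ e Y).coeff x * 𝕢 1 (τ : ℂ) ^ x = 0 := by
    intro x hx
    rw [subst_coeff_of_not_dvd ξ e Y (fun ⟨c, hc⟩ => hx ⟨c, hc.symm⟩), zero_mul]
  rw [← hinj.hasSum_iff h0]
  have e' : ((fun x : ℤ => (subst ξ e Y).coeff x * 𝕢 1 (τ : ℂ) ^ x) ∘ fun k : ℤ => (e : ℤ) * k) =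
      fun k : ℤ => Y.coeff k * ((ξ : ℂ) * 𝕢 1 (τ : ℂ) ^ e) ^ k := by
    funext k
    simp only [Function.comp_apply]
    rw [subst_coeff_mul, zpow_mul, zpow_natCast, mul_zpow, Units.val_zpow_eq_zpow_val]
    ring
  rw [e']
  exact h1

/-- the standard primitive `m`-th root of unity `exp (2πi/m)` of `ℂ`, as a unit. -/
def zetaC (m : ℕ) : ℂˣ := Units.mk0 (cexp (2 * π * I / m)) (Complex.exp_ne_zero _)

@[simp]
theorem coe_zetaC (m : ℕ) : (zetaC m : ℂ) = cexp (2 * π * I / m) := rfl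

theorem isPrimitiveRoot_zetaC (m : ℕ) [NeZero m] : IsPrimitiveRoot (zetaC m) m := by
  rw [← IsPrimitiveRoot.coe_units_iff]
  exact Complex.isPrimitiveRoot_exp m (NeZero.ne m)

/-- `q`-parameter of `(a (m τ) + b) / d` for `a d = m`. -/
theorem qParam_aff_mulD (a b d : ℕ) (ha : 0 < a) (hd : 0 < d) (m : ℕ) [NeZero m] (hm : a * d = m)
    (τ : ℍ) :
    𝕢 1 (H15.aff a b d ha hd (H17.mulD m τ) : ℂ) =
      ((zetaC m ^ (a * b) : ℂˣ) : ℂ) * 𝕢 1 (τ : ℂ) ^ (a * a) := by
  have hd' : (d : ℂ) ≠ 0 := by exact_mod_cast hd.ne'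
  have ha' : (a : ℂ) ≠ 0 := by exact_mod_cast ha.ne'
  rw [Units.val_pow_eq_pow_val, coe_zetaC, ← Complex.exp_nat_mul, Function.Periodic.qParam,
    Function.Periodic.qParam, ← Complex.exp_nat_mul, ← Complex.exp_add, H15.coe_aff]
  congr 1
  have : ((H17.mulD m τ : ℍ) : ℂ) = (m : ℂ) * τ := by
    simp [H17.mulD]
  rw [this, ← hm]
  push_cast
  field_simp
  ring

theorem isQSum_Jconj_aff (a b d : ℕ) (ha : 0 < a) (hd : 0 < d) (m : ℕ) [NeZero m]
    (hm : a * d = m) [NeZero (a * a)] :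
    IsQSum (Jconj ℂ (zetaC m ^ (a * b)) (a * a))
      (fun τ => H28.J (H15.aff a b d ha hd (H17.mulD m τ))) :=
  isQSum_subst isQSum_J _ _ _ (qParam_aff_mulD a b d ha hd m hm)

theorem isQSum_J_mulD (m : ℕ) [NeZero m] :
    IsQSum (qExpand ℂ m (jqModC ℂ)) (fun τ => H28.J (H17.mulD m τ)) :=
  H17.IsQSum.scale isQSum_J m

/-! ### Hermite triples of the cosets -/

/-- total version of `H15.aff` on triples. -/
def affT (x : ℕ × ℕ × ℕ) (τ : ℍ) : ℍ :=
  if h : 0 < x.1 ∧ 0 < x.2.2 then H15.aff x.1 x.2.1 x.2.2 h.1 h.2 τ else τ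

theorem affT_eq (a b d : ℕ) (ha : 0 < a) (hd : 0 < d) (τ : ℍ) :
    affT (a, b, d) τ = H15.aff a b d ha hd τ := by
  simp [affT, ha, hd]

/-- Hermite normal form with primitivity. -/
theorem exists_hermite_prim (M : ℕ) (hM : 0 < M) (γ : SL(2, ℤ)) :
    ∃ (γ' : SL(2, ℤ)) (a b d : ℕ), IsPrimTriple M a b d ∧
      !![(M : ℤ), 0; 0, 1] * (γ : Matrix (Fin 2) (Fin 2) ℤ) =
        (γ' : Matrix (Fin 2) (Fin 2) ℤ) * !![(a : ℤ), (b : ℤ); 0, (d : ℤ)] := by
  obtain ⟨γ', a, b, d, had, hbd, h⟩ := H15.exists_hermite M hM γ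
  refine ⟨γ', a, b, d, ⟨had, hbd, ?_⟩, h⟩
  -- primitivity
  set g : ℕ := Nat.gcd a (Nat.gcd b d) with hg
  have hga : (g : ℤ) ∣ a := by exact_mod_cast Nat.gcd_dvd_left a _
  have hgb : (g : ℤ) ∣ b := by
    exact_mod_cast (Nat.gcd_dvd_right a _).trans (Nat.gcd_dvd_left b d)
  have hgd : (g : ℤ) ∣ d := by
    exact_mod_cast (Nat.gcd_dvd_right a _).trans (Nat.gcd_dvd_right b d)
  have h10 := congr_fun (congr_fun h 1) 0
  have h11 := congr_fun (congr_fun h 1) 1
  simp [Matrix.mul_apply, Fin.sum_univ_two] at h10 h11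
  have hr : (g : ℤ) ∣ γ 1 0 := by rw [h10]; exact Dvd.dvd.mul_left hga _
  have hs : (g : ℤ) ∣ γ 1 1 := by
    rw [h11]; exact dvd_add (Dvd.dvd.mul_left hgb _) (Dvd.dvd.mul_left hgd _)
  have hdet : γ 0 0 * γ 1 1 - γ 0 1 * γ 1 0 = 1 := by
    have := γ.det_coe
    rw [Matrix.det_fin_two] at this
    exact this
  have h1 : (g : ℤ) ∣ 1 := by
    rw [← hdet]
    exact dvd_sub (Dvd.dvd.mul_left hs _) (Dvd.dvd.mul_left hr _)
  have : g ∣ 1 := by exact_mod_cast h1
  exact Nat.dvd_one.mp this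

variable (m : ℕ) [NeZero m]

/-- the Hermite triple of the coset `x`. -/
def tripleX (x : H24.XN m) : ℕ × ℕ × ℕ :=
  let h := exists_hermite_prim m (Nat.pos_of_ne_zero (NeZero.ne m)) (Quotient.out x)⁻¹
  (h.choose_spec.choose, h.choose_spec.choose_spec.choose,
    h.choose_spec.choose_spec.choose_spec.choose)

theorem tripleX_spec (x : H24.XN m) :
    IsPrimTriple m (tripleX m x).1 (tripleX m x).2.1 (tripleX m x).2.2 ∧
      ∃ γ' : SL(2, ℤ), !![(m : ℤ), 0; 0, 1] * ((Quotient.out x)⁻¹ : SL(2, ℤ)).1 =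
        (γ' : Matrix (Fin 2) (Fin 2) ℤ) *
          !![((tripleX m x).1 : ℤ), ((tripleX m x).2.1 : ℤ); 0, ((tripleX m x).2.2 : ℤ)] := by
  have h := exists_hermite_prim m (Nat.pos_of_ne_zero (NeZero.ne m)) (Quotient.out x)⁻¹
  have h3 := h.choose_spec.choose_spec.choose_spec.choose_spec
  exact ⟨h3.1, h.choose, h3.2⟩

theorem isPrimTriple_pos {a b d : ℕ} (h : IsPrimTriple m a b d) : 0 < a ∧ 0 < d := by
  have hm : 0 < m := Nat.pos_of_ne_zero (NeZero.ne m)
  obtain ⟨h1, h2, -⟩ := h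
  constructor
  · rcases Nat.eq_zero_or_pos a with h0 | h0
    · rw [h0, zero_mul] at h1; omega
    · exact h0
  · omega

theorem tripleX_mem (x : H24.XN m) : tripleX m x ∈ triples m :=
  (mem_triples (Nat.pos_of_ne_zero (NeZero.ne m))).mpr (tripleX_spec m x).1

theorem thetaX_jd_eq (x : H24.XN m) (τ : ℍ) :
    H17.thetaX m x (jd m m dvd_rfl) τ = H28.J (affT (tripleX m x) τ) := by
  obtain ⟨hprim, γ', hγ'⟩ := tripleX_spec m x
  obtain ⟨ha, hd⟩ := isPrimTriple_pos m hprim
  have hm : 0 < m := Nat.pos_of_ne_zero (NeZero.ne m)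
  unfold H17.thetaX
  rw [H17.thetaConj_jd]
  have := H15.conj_eq H28.J H28.J_smul m hm (Quotient.out x)⁻¹ γ' _ _ _ ha hd hγ' τ
  rw [this]
  congr 1
  exact (affT_eq _ _ _ ha hd τ).symm

theorem tripleX_injective : Function.Injective (tripleX m) := by
  intro x y hxy
  apply H17.thetaX_jd_injective m
  funext τ
  simp only
  rw [thetaX_jd_eq, thetaX_jd_eq, hxy]

theorem image_tripleX (hcard : (triples m).card = dedekindPsi m) :
    Finset.univ.image (tripleX m) = triples m := by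
  apply Finset.eq_of_subset_of_card_le
  · intro t ht
    obtain ⟨x, -, rfl⟩ := Finset.mem_image.mp ht
    exact tripleX_mem m x
  · rw [Finset.card_image_of_injective _ (tripleX_injective m), Finset.card_univ,
      H24.card_XN_eq_dedekindPsi, hcard]

/-- **W1b analytic**: the modular polynomial over `ℂ`, as an identity of functions on `ℍ`,
indexed by the primitive triples. -/
theorem exists_modPoly_analytic (hcard : (triples m).card = dedekindPsi m) :
    ∃ P : Polynomial (Polynomial ℂ), P.Monic ∧ P.natDegree = dedekindPsi m ∧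
      ∀ τ : ℍ, P.map (Polynomial.evalRingHom (H28.J τ)) =
        ∏ t ∈ triples m, (X - C (H28.J (affT t τ))) := by
  obtain ⟨P, hmon, hdeg, hP⟩ := (H6.thetaData_H17 m).key_charpoly (H17.jd_mem_A m m dvd_rfl)
  refine ⟨P, hmon, by rw [hdeg, H24.card_XN_eq_dedekindPsi], fun τ => ?_⟩
  rw [hP τ, ← image_tripleX m hcard, Finset.prod_image (fun x _ y _ h => tripleX_injective m h)]
  refine Finset.prod_congr rfl fun x _ => ?_
  rw [thetaX_jd_eq]

/-! ### The product formula -/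

/-- the formal conjugate attached to a triple (total version; `0` if `a = 0`). -/
def JTc (ζ : ℂˣ) (x : ℕ × ℕ × ℕ) : LaurentSeries ℂ :=
  if h : x.1 = 0 then 0 else
    (haveI : NeZero (x.1 * x.1) := ⟨mul_ne_zero h h⟩; Jconj ℂ (ζ ^ (x.1 * x.2.1)) (x.1 * x.1))

theorem JTc_eq (ζ : ℂˣ) (a b d : ℕ) [NeZero (a * a)] :
    JTc ζ (a, b, d) = Jconj ℂ (ζ ^ (a * b)) (a * a) := by
  have ha : a ≠ 0 := fun h => by
    have := NeZero.ne (a * a)
    simp [h] at this
  simp [JTc, ha]

theorem isQSum_JTc {t : ℕ × ℕ × ℕ} (ht : t ∈ triples m) :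
    IsQSum (JTc (zetaC m) t) (fun τ => H28.J (affT t (H17.mulD m τ))) := by
  obtain ⟨a, b, d⟩ := t
  have hprim := (mem_triples (Nat.pos_of_ne_zero (NeZero.ne m))).mp ht
  obtain ⟨ha, hd⟩ := isPrimTriple_pos m hprim
  have : NeZero (a * a) := ⟨(Nat.mul_pos ha ha).ne'⟩
  rw [JTc_eq]
  have h := isQSum_Jconj_aff a b d ha hd m hprim.1
  have e : (fun τ => H28.J (affT (a, b, d) (H17.mulD m τ))) =
      fun τ => H28.J (H15.aff a b d ha hd (H17.mulD m τ)) := by
    funext τ
    rw [affT_eq _ _ _ ha hd]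
  rw [e]
  exact h

/-- **W1b over `ℂ`**: the modular polynomial with the product formula in `LaurentSeries ℂ`
(variable `t`, `q = t^m`). -/
theorem exists_modPoly_complex (hcard : (triples m).card = dedekindPsi m) :
    ∃ P : Polynomial (Polynomial ℂ), P.Monic ∧ P.natDegree = dedekindPsi m ∧
      P.map (evalCC (qExpand ℂ m (jqModC ℂ))) =
        ∏ t ∈ triples m, (X - C (JTc (zetaC m) t)) := by
  obtain ⟨P, hmon, hdeg, hP⟩ := exists_modPoly_analytic m hcard
  refine ⟨P, hmon, hdeg, ?_⟩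
  exact poly_transfer (triples m) P (isQSum_J_mulD m) (JTc (zetaC m))
    (fun t τ => H28.J (affT t (H17.mulD m τ))) (fun t ht => isQSum_JTc m ht)
    (fun τ => hP (H17.mulD m τ))

theorem evalJ_eq_comp (y : LaurentSeries ℂ) :
    evalJ y = (evalCC y).comp (Polynomial.mapRingHom (Int.castRingHom ℂ)) := by
  apply Polynomial.ringHom_ext
  · intro n
    simp [evalJ, evalCC]
  · simp [evalJ, evalCC]

/-- `RootsAt` over `ℂ` from the product formula, for an integral model `Φ` of `P`. -/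
theorem rootsAt_complex (Φ : Polynomial ℤ[X]) (P : Polynomial (Polynomial ℂ))
    (hΦ : Φ.map (Polynomial.mapRingHom (Int.castRingHom ℂ)) = P)
    (hprod : P.map (evalCC (qExpand ℂ m (jqModC ℂ))) =
        ∏ t ∈ triples m, (X - C (JTc (zetaC m) t))) :
    RootsAt ℂ m (zetaC m) Φ := by
  intro a b d hprim hne
  rw [Polynomial.eval₂_eq_eval_map, evalJ_eq_comp, ← Polynomial.map_map, hΦ, hprod,
    Polynomial.eval_prod]
  have hmem : (a, b, d) ∈ triples m :=
    (mem_triples (Nat.pos_of_ne_zero (NeZero.ne m))).mpr hprim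
  apply Finset.prod_eq_zero hmem
  rw [JTc_eq, Polynomial.eval_sub, Polynomial.eval_X, Polynomial.eval_C, sub_self]

end Fermat.Agent.S28.H17
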