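import Fermat.Agent.S28.H17_ModPolyC
import Fermat.Agent.S28.H64_Triples

/-!
S28 package W1b over `ℂ` (helper17): hypothesis-free forms of `H17_ModPolyC`
(using helper64's `card_triples`).
-/

set_option autoImplicit false

noncomputable section

namespace Fermat.Agent.S28.H17

open UpperHalfPlane hiding I
open Complex ModularCurve Polynomial
open Fermat.Agent.S24

variable (m : ℕ) [NeZero m]

theorem card_triples_eq : (triples m).card = dedekindPsi m :=
  H64.card_triples m (Nat.pos_of_ne_zero (NeZero.ne m))

/-- **W1b over `ℂ`, analytic form** (no hypothesis). -/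
theorem exists_modPoly_analytic' :
    ∃ P : Polynomial (Polynomial ℂ), P.Monic ∧ P.natDegree = dedekindPsi m ∧
      ∀ τ : ℍ, P.map (Polynomial.evalRingHom (H28.J τ)) =
        ∏ t ∈ triples m, (X - C (H28.J (affT t τ))) :=
  exists_modPoly_analytic m (card_triples_eq m)

/-- **W1b over `ℂ`, product formula in `LaurentSeries ℂ`** (no hypothesis). -/
theorem exists_modPoly_complex' :
    ∃ P : Polynomial (Polynomial ℂ), P.Monic ∧ P.natDegree = dedekindPsi m ∧
      P.map (evalCC (qExpand ℂ m (jqModC ℂ))) =
        ∏ t ∈ triples m, (X - C (JTc (zetaC m) t)) :=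
  exists_modPoly_complex m (card_triples_eq m)

end Fermat.Agent.S28.H17
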