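/-
S28 / W1c support (helper33): the norm polynomial of a Laurent series in `t` over the
subring of series in `t ^ p`, without Galois theory.
-/
import Mathlib
import Fermat.Agent.S28.Defs
import Fermat.Agent.S28.Interface

set_option autoImplicit false

noncomputable section

namespace Fermat.Agent.S28.H33

open ModularCurve HahnSeries Polynomial

variable {R : Type*} [CommRing R] (p : ℕ) [NeZero p]

/-- The `i`-th residue component of a Laurent series: the coefficients at exponents `p n + i`. -/
def residuePart (i : ℕ) (T : LaurentSeries R) : LaurentSeries R :=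
  HahnSeries.ofSuppBddBelow (fun n : ℤ => T.coeff ((p : ℤ) * n + i))
    (⟨min T.order 0 - i, by
      intro m hm
      by_contra hlt
      rw [not_le] at hlt
      apply hm
      show T.coeff ((p : ℤ) * m + i) = 0
      apply HahnSeries.coeff_eq_zero_of_lt_order
      have hp : (1 : ℤ) ≤ (p : ℤ) := by exact_mod_cast Nat.pos_of_ne_zero (NeZero.ne p)
      have h1 : m + i < min T.order 0 := by linarith
      have hm0 : m < 0 := by
        have : (0 : ℤ) ≤ (i : ℤ) := Int.natCast_nonneg i
        have := min_le_right T.order 0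
        linarith
      have h2 : (p : ℤ) * m ≤ m := by nlinarith
      have := min_le_left T.order 0
      linarith⟩)

@[simp]
theorem residuePart_coeff (i : ℕ) (T : LaurentSeries R) (n : ℤ) :
    (residuePart p i T).coeff n = T.coeff ((p : ℤ) * n + i) := rfl

/-- Every Laurent series in `t` is a combination of `1, t, …, t^(p-1)` with coefficients series
in `t ^ p`. -/
theorem eq_sum_residueParts (T : LaurentSeries R) :
    T = ∑ i ∈ Finset.range p,
      HahnSeries.single (i : ℤ) (1 : R) * qExpand R p (residuePart p i T) := by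
  have hp : (0 : ℤ) < (p : ℤ) := by exact_mod_cast Nat.pos_of_ne_zero (NeZero.ne p)
  ext m
  rw [HahnSeries.coeff_sum]
  simp only [HahnSeries.coeff_single_mul, one_mul]
  have hi₀ : (m % (p : ℤ)).toNat ∈ Finset.range p := by
    rw [Finset.mem_range]
    have h1 := Int.emod_nonneg m hp.ne'
    have h2 := Int.emod_lt_of_pos m hp
    omega
  rw [Finset.sum_eq_single_of_mem _ hi₀]
  · have h1 := Int.emod_nonneg m hp.ne'
    have hcast : (((m % (p : ℤ)).toNat : ℕ) : ℤ) = m % (p : ℤ) := Int.toNat_of_nonneg h1
    rw [hcast]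
    have hm : m - m % (p : ℤ) = (p : ℤ) * (m / (p : ℤ)) := by
      have := Int.emod_add_mul_ediv m (p : ℤ)
      linarith
    rw [hm, qExpand_coeff_mul, residuePart_coeff, hcast]
    congr 1
    have := Int.emod_add_mul_ediv m (p : ℤ)
    linarith
  · intro i hi hne
    apply qExpand_coeff_of_not_dvd
    rintro ⟨c, hc⟩
    apply hne
    rw [Finset.mem_range] at hi
    have h2 : m % (p : ℤ) = i := by
      have : m = (i : ℤ) + (p : ℤ) * c := by linarith
      rw [this, Int.add_mul_emod_self_left]
      exact Int.emod_eq_of_lt (Int.natCast_nonneg i) (by exact_mod_cast hi)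
    rw [h2]
    simp

/-! ### The norm polynomial -/

section Norm

variable (R)

/-- `X ^ p - q`, a monic polynomial over the ring of series in `q`. -/
def gPoly : (LaurentSeries R)[X] :=
  Polynomial.X ^ p - Polynomial.C (HahnSeries.single (1 : ℤ) (1 : R))

theorem gPoly_monic : (gPoly R p).Monic := monic_X_pow_sub_C _ (NeZero.ne p)

omit [NeZero p] in
theorem gPoly_natDegree [Nontrivial R] : (gPoly R p).natDegree = p :=
  natDegree_X_pow_sub_C

/-- The ring `R((q))[Y]/(Y^p - q)`. -/
abbrev BRing : Type _ := AdjoinRoot (gPoly R p)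

omit [NeZero p] in
theorem single_one_pow : (HahnSeries.single (1 : ℤ) (1 : R)) ^ p = HahnSeries.single (p : ℤ) 1 := by
  rw [HahnSeries.single_pow, one_pow]
  simp

/-- `R((q))[Y]/(Y^p - q) → R((t))`, `q ↦ t^p`, `Y ↦ t`. -/
def toL : BRing R p →+* LaurentSeries R :=
  AdjoinRoot.lift (qExpand R p) (HahnSeries.single (1 : ℤ) (1 : R)) (by
    rw [gPoly, eval₂_sub, eval₂_pow, eval₂_X, eval₂_C, qExpand_single, mul_one, single_one_pow,
      sub_self])

@[simp]
theorem toL_of (a : LaurentSeries R) : toL R p (AdjoinRoot.of (gPoly R p) a) = qExpand R p a := by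
  simp [toL]

@[simp]
theorem toL_root : toL R p (AdjoinRoot.root (gPoly R p)) = HahnSeries.single (1 : ℤ) (1 : R) := by
  simp [toL]

variable {R}

/-- A preimage in `R((q))[Y]/(Y^p - q)` of a Laurent series in `t`. -/
def liftB (T : LaurentSeries R) : BRing R p :=
  ∑ i ∈ Finset.range p, AdjoinRoot.root (gPoly R p) ^ i *
    AdjoinRoot.of (gPoly R p) (residuePart p i T)

theorem toL_liftB (T : LaurentSeries R) : toL R p (liftB p T) = T := by
  conv_rhs => rw [eq_sum_residueParts p T]
  rw [liftB, map_sum]
  refine Finset.sum_congr rfl fun i _ => ?_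
  rw [map_mul, map_pow, toL_root, toL_of, HahnSeries.single_pow, one_pow]
  simp

/-- **Norm polynomial.** For every Laurent series `T` in `t` there is a monic polynomial of degree
`p` with coefficients series in `q` which, read in `t` via `q = t ^ p`, kills `T`. -/
theorem exists_normPoly [Nontrivial R] (T : LaurentSeries R) :
    ∃ Q : (LaurentSeries R)[X], Q.Monic ∧ Q.natDegree = p ∧
      (Q.map (qExpand R p)).eval T = 0 := by
  have hg := gPoly_monic R p
  have : Module.Free (LaurentSeries R) (BRing R p) := hg.free_adjoinRoot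
  have : Module.Finite (LaurentSeries R) (BRing R p) := hg.finite_adjoinRoot
  set f : BRing R p →ₗ[LaurentSeries R] BRing R p :=
    Algebra.lmul (LaurentSeries R) (BRing R p) (liftB p T) with hf
  refine ⟨f.charpoly, f.charpoly_monic, ?_, ?_⟩
  · rw [LinearMap.charpoly_natDegree]
    have := (AdjoinRoot.powerBasis' hg).finrank
    rw [this, AdjoinRoot.powerBasis'_dim, gPoly_natDegree]
  · have h0 : aeval f f.charpoly = 0 := f.aeval_self_charpoly
    have h1 : aeval (liftB p T) f.charpoly = 0 := by
      have h2 : aeval f f.charpoly =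
          Algebra.lmul (LaurentSeries R) (BRing R p) (aeval (liftB p T) f.charpoly) := by
        rw [hf, ← Polynomial.aeval_algHom_apply]
      rw [h2] at h0
      have h3 := congrArg (fun φ : BRing R p →ₗ[LaurentSeries R] BRing R p => φ 1) h0
      simpa using h3
    have h4 := congrArg (toL R p) h1
    rw [map_zero] at h4
    rw [← h4, eval_map, aeval_def, Polynomial.hom_eval₂, toL_liftB]
    congr 1
    ext a
    simp [AdjoinRoot.algebraMap_eq]

end Norm

/-! ### Transport along twists by `p`-th roots of unity -/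

section Twist

variable {S : Type*} [CommRing S]

theorem twist_qExpand_of_pow_eq_one (ξ : Sˣ) (hξ : ξ ^ p = 1) (x : LaurentSeries S) :
    twist ξ (qExpand S p x) = qExpand S p x := by
  ext n
  rw [twist_coeff]
  by_cases hn : (p : ℤ) ∣ n
  · obtain ⟨m, rfl⟩ := hn
    have h1 : ξ ^ ((p : ℤ) * m) = 1 := by
      rw [zpow_mul, zpow_natCast, hξ, one_zpow]
    rw [h1, Units.val_one, one_mul]
  · rw [qExpand_coeff_of_not_dvd p _ hn, mul_zero]

/-- All twists by `p`-th roots of unity of (the image over `S` of) `T` are roots of the image of a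
polynomial over the series in `q = t ^ p` which kills `T`. -/
theorem eval_twist_eq_zero (f : R →+* S) (ξ : Sˣ) (hξ : ξ ^ p = 1) (T : LaurentSeries R)
    (Q : (LaurentSeries R)[X]) (hQ : (Q.map (qExpand R p)).eval T = 0) :
    (Q.map ((qExpand S p).comp (coeffMap f))).eval (twist ξ (coeffMap f T)) = 0 := by
  set χ : LaurentSeries R →+* LaurentSeries S := (twist ξ).comp (coeffMap f) with hχ
  have hcomp : (qExpand S p).comp (coeffMap f) = χ.comp (qExpand R p) := by
    ext1 x
    simp only [RingHom.comp_apply, hχ]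
    rw [coeffMap_qExpand, twist_qExpand_of_pow_eq_one p ξ hξ]
  have h1 := congrArg χ hQ
  rw [map_zero, eval_map, Polynomial.hom_eval₂] at h1
  rw [hcomp, eval_map]
  exact h1

end Twist

/-! ### Two monic polynomials with enough common roots are equal -/

theorem eq_of_monic_of_common_roots {F : Type*} [CommRing F] [IsDomain F] {P₁ P₂ : F[X]}
    (h₁ : P₁.Monic) (h₂ : P₂.Monic) (s : Finset F) (hd₁ : P₁.natDegree = s.card)
    (hd₂ : P₂.natDegree = s.card) (hr₁ : ∀ r ∈ s, P₁.eval r = 0) (hr₂ : ∀ r ∈ s, P₂.eval r = 0) :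
    P₁ = P₂ := by
  rw [← sub_eq_zero]
  by_cases hcard : s.card = 0
  · rw [hcard] at hd₁ hd₂
    rw [h₁.natDegree_eq_zero.mp hd₁, h₂.natDegree_eq_zero.mp hd₂, sub_self]
  refine Polynomial.eq_zero_of_natDegree_lt_card_of_eval_eq_zero' (P₁ - P₂) s ?_ ?_
  · intro r hr
    rw [eval_sub, hr₁ r hr, hr₂ r hr, sub_self]
  · by_contra hlt
    rw [not_lt] at hlt
    have hdeg : (P₁ - P₂).degree < P₁.degree :=
      Polynomial.degree_sub_lt_left (by rw [Polynomial.degree_eq_natDegree h₁.ne_zero,
        Polynomial.degree_eq_natDegree h₂.ne_zero, hd₁, hd₂]) h₁.ne_zero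
        (by rw [h₁.leadingCoeff, h₂.leadingCoeff])
    have hne : P₁ - P₂ ≠ 0 := by
      intro h0
      rw [h0, natDegree_zero] at hlt
      omega
    rw [Polynomial.degree_eq_natDegree hne, Polynomial.degree_eq_natDegree h₁.ne_zero,
      hd₁] at hdeg
    have : (P₁ - P₂).natDegree < s.card := by exact_mod_cast hdeg
    omega

/-! ### The leading-coefficient lemma -/

section LeadCoeff

variable {K : Type*} [CommRing K]

/-- Evaluation of a polynomial with coefficients in `K` at a Laurent series over `K`. -/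
def evalK (x : LaurentSeries K) : K[X] →+* LaurentSeries K :=
  Polynomial.eval₂RingHom (HahnSeries.C : K →+* LaurentSeries K) x

@[simp]
theorem evalK_C (x : LaurentSeries K) (a : K) : evalK x (Polynomial.C a) = HahnSeries.C a := by
  simp [evalK]

@[simp]
theorem evalK_X (x : LaurentSeries K) : evalK x Polynomial.X = x := by
  simp [evalK]

theorem coeffMap_C (f : R →+* K) (a : R) :
    coeffMap f (HahnSeries.C a) = HahnSeries.C (f a) := by
  rw [HahnSeries.C_apply, HahnSeries.C_apply]
  exact coeffMap_single f 0 a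

/-- `coeffMap f ∘ evalK x = evalK (coeffMap f x) ∘ map f`. -/
theorem coeffMap_comp_evalK (f : R →+* K) (x : LaurentSeries R) :
    (coeffMap f).comp (evalK x) = (evalK (coeffMap f x)).comp (Polynomial.mapRingHom f) := by
  refine Polynomial.ringHom_ext (fun a => ?_) ?_
  · simp
  · simp

/-- `evalK x` restricted to integer polynomials is `evalJ x`. -/
theorem evalK_comp_map_int (x : LaurentSeries K) :
    (evalK x).comp (Polynomial.mapRingHom (Int.castRingHom K)) = evalJ x := by
  refine Polynomial.ringHom_ext (fun a => ?_) ?_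
  · simp [evalJ]
  · simp [evalJ]

theorem qExpand_comp_evalK (x : LaurentSeries K) :
    (qExpand K p).comp (evalK x) = evalK (qExpand K p x) := by
  refine Polynomial.ringHom_ext (fun a => ?_) ?_
  · simp
  · simp

/-- The coefficient of `q ^ (-n)` in `c(J)` when `natDegree c ≤ n`. -/
theorem coeff_evalK_jqModC (c : K[X]) (n : ℕ) (hn : c.natDegree ≤ n) :
    (evalK (jqModC K) c).coeff (-(n : ℤ)) = c.coeff n := by
  rw [evalK, Polynomial.coe_eval₂RingHom, Polynomial.eval₂_eq_sum_range' _ (n := n + 1) (by omega),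
    HahnSeries.coeff_sum, Finset.sum_eq_single_of_mem n (Finset.mem_range.mpr (by omega))]
  · rw [HahnSeries.C_mul_eq_smul, HahnSeries.coeff_smul, coeff_jqModC_pow_self, smul_eq_mul, mul_one]
  · intro k hk hkn
    rw [HahnSeries.C_mul_eq_smul, HahnSeries.coeff_smul, coeff_jqModC_pow_of_lt, smul_zero]
    rw [Finset.mem_range] at hk
    have : k < n := by omega
    have : (k : ℤ) < n := by exact_mod_cast this
    omega

/-- **Leading-coefficient lemma.** If `f : R → K` is injective and `c(J)` has all its
coefficients in the image of `f`, then `c` has coefficients in the image of `f`. -/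
theorem exists_map_eq_of_evalK_jqModC (f : R →+* K) :
    ∀ (n : ℕ) (c : K[X]) (w : LaurentSeries R), c.natDegree ≤ n →
      evalK (jqModC K) c = coeffMap f w → ∃ c' : R[X], c'.map f = c := by
  intro n
  induction n with
  | zero =>
    intro c w hn hw
    have h0 := coeff_evalK_jqModC c 0 hn
    rw [hw] at h0
    have h0' : f (w.coeff 0) = c.coeff 0 := by simpa using h0
    refine ⟨Polynomial.C (w.coeff 0), ?_⟩
    rw [Polynomial.map_C, h0']
    exact (Polynomial.eq_C_of_natDegree_le_zero hn).symm
  | succ n ih =>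
    intro c w hn hw
    have h0 := coeff_evalK_jqModC c (n + 1) hn
    rw [hw, coeffMap_coeff] at h0
    set a' : R := w.coeff (-((n + 1 : ℕ) : ℤ)) with ha'
    set c₁ : K[X] := c - Polynomial.C (c.coeff (n + 1)) * Polynomial.X ^ (n + 1) with hc₁
    have hdeg : c₁.natDegree ≤ n := by
      rw [Polynomial.natDegree_le_iff_coeff_eq_zero]
      intro k hk
      rw [hc₁, Polynomial.coeff_sub, Polynomial.coeff_C_mul, Polynomial.coeff_X_pow]
      by_cases hk1 : k = n + 1
      · subst hk1; simp
      · rw [if_neg hk1, mul_zero, sub_zero]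
        exact Polynomial.coeff_eq_zero_of_natDegree_lt (by omega)
    have hw₁ : evalK (jqModC K) c₁ =
        coeffMap f (w - HahnSeries.C a' * jqModC R ^ (n + 1)) := by
      rw [hc₁, map_sub, map_sub, hw, map_mul, map_mul, map_pow, map_pow, evalK_C, evalK_X,
        coeffMap_C, coeffMap_jqModC, ← h0]
    obtain ⟨c₁', hc₁'⟩ := ih c₁ _ hdeg hw₁
    refine ⟨c₁' + Polynomial.C a' * Polynomial.X ^ (n + 1), ?_⟩
    rw [Polynomial.map_add, Polynomial.map_mul, Polynomial.map_pow, Polynomial.map_X,
      Polynomial.map_C, hc₁', h0, hc₁]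
    ring

end LeadCoeff

/-! ### The descent -/

section Descent

variable {K : Type*} [Field K] [CharZero K]

theorem coeffMap_intCast_injective :
    Function.Injective (coeffMap (Int.castRingHom K)) := by
  intro x y h
  ext n
  have := congrArg (fun z => HahnSeries.coeff z n) h
  simpa using this

/-- **Descent to `ℤ` without Galois theory.** Let `P ∈ K[J][X]` be monic of degree `p + 1`
such that `P(J(t^p))` has the `p + 1` roots `U₀(t^p)` and `T(ζ^b t)`, `b < p`, where `T, U₀` are
Laurent series with integer coefficients and `T` has coefficient `1` at `t^(1-p)`. Then `P` has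
integer coefficients and kills `U₀` over `ℤ`. -/
theorem descent_of_roots (hp : 2 ≤ p) (ζ : Kˣ) (hζ : IsPrimitiveRoot ζ p)
    (T U₀ : LaurentSeries ℤ) (hT : T.coeff (1 - (p : ℤ)) = 1)
    (P : Polynomial (Polynomial K)) (hP : P.Monic) (hdeg : P.natDegree = p + 1)
    (hroots : ∀ b < p, (P.map (evalK (qExpand K p (jqModC K)))).eval
      (twist (ζ ^ b) (coeffMap (Int.castRingHom K) T)) = 0)
    (hU : (P.map (evalK (qExpand K p (jqModC K)))).eval
      (qExpand K p (coeffMap (Int.castRingHom K) U₀)) = 0) :
    ∃ P' : Polynomial ℤ[X], P'.Monic ∧ P'.natDegree = p + 1 ∧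
      P'.map (Polynomial.mapRingHom (Int.castRingHom K)) = P ∧
      P'.eval₂ (evalJ (jqModC ℤ)) U₀ = 0 := by
  classical
  set ι : ℤ →+* K := Int.castRingHom K with hι
  obtain ⟨Q, hQmonic, hQdeg, hQT⟩ := exists_normPoly p T
  -- the integral polynomial with the same roots
  set W : (LaurentSeries ℤ)[X] := (Polynomial.X - Polynomial.C U₀) * Q with hW
  have hWmonic : W.Monic := (Polynomial.monic_X_sub_C U₀).mul hQmonic
  have hWdeg : W.natDegree = p + 1 := by
    rw [hW, (Polynomial.monic_X_sub_C U₀).natDegree_mul hQmonic, Polynomial.natDegree_X_sub_C,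
      hQdeg, add_comm]
  set φK : LaurentSeries ℤ →+* LaurentSeries K := (qExpand K p).comp (coeffMap ι) with hφK
  set PK : (LaurentSeries K)[X] := P.map (evalK (qExpand K p (jqModC K))) with hPK
  -- the roots
  set r : ℕ → LaurentSeries K := fun b => twist (ζ ^ b) (coeffMap ι T) with hr
  set u : LaurentSeries K := qExpand K p (coeffMap ι U₀) with hu
  have hζp : ζ ^ p = 1 := hζ.pow_eq_one
  have hcoeff_r : ∀ b : ℕ, (r b).coeff (1 - (p : ℤ)) = ((ζ ^ b : Kˣ) : K) := by
    intro b
    simp only [hr, twist_coeff, coeffMap_coeff, hT, map_one, mul_one]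
    congr 1
    rw [zpow_sub, zpow_one, zpow_natCast, ← pow_mul, mul_comm b p, pow_mul, hζp, one_pow,
      inv_one, mul_one]
  have hcoeff_u : u.coeff (1 - (p : ℤ)) = 0 := by
    apply qExpand_coeff_of_not_dvd
    intro hdvd
    have h1 : (p : ℤ) ∣ 1 := by
      have := dvd_add hdvd (dvd_refl (p : ℤ))
      simpa using this
    have : (p : ℤ) ≤ 1 := Int.le_of_dvd one_pos h1
    have : (2 : ℤ) ≤ p := by exact_mod_cast hp
    omega
  have hr_inj : Set.InjOn r (Finset.range p : Set ℕ) := by
    intro b hb b' hb' hbb'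
    have h1 : ((ζ ^ b : Kˣ) : K) = ((ζ ^ b' : Kˣ) : K) := by
      rw [← hcoeff_r b, ← hcoeff_r b', hbb']
    have h2 : ζ ^ b = ζ ^ b' := Units.ext h1
    exact hζ.pow_inj (Finset.mem_range.mp hb) (Finset.mem_range.mp hb') h2
  have hu_notin : u ∉ (Finset.range p).image r := by
    intro hmem
    obtain ⟨b, -, hb⟩ := Finset.mem_image.mp hmem
    have h1 : ((ζ ^ b : Kˣ) : K) = 0 := by rw [← hcoeff_r b, hb, hcoeff_u]
    exact (Units.ne_zero _) h1
  set s : Finset (LaurentSeries K) := insert u ((Finset.range p).image r) with hs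
  have hscard : s.card = p + 1 := by
    rw [hs, Finset.card_insert_of_notMem hu_notin, Finset.card_image_of_injOn hr_inj,
      Finset.card_range]
  -- both polynomials vanish on `s`
  have hPKmonic : PK.Monic := hP.map _
  have hPKdeg : PK.natDegree = s.card := by rw [hPK, hP.natDegree_map, hdeg, hscard]
  have hWKmonic : (W.map φK).Monic := hWmonic.map _
  have hWKdeg : (W.map φK).natDegree = s.card := by rw [hWmonic.natDegree_map, hWdeg, hscard]
  have hPKroots : ∀ x ∈ s, PK.eval x = 0 := by
    intro x hx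
    rcases Finset.mem_insert.mp hx with rfl | hx
    · exact hU
    · obtain ⟨b, hb, rfl⟩ := Finset.mem_image.mp hx
      exact hroots b (Finset.mem_range.mp hb)
  have hWKroots : ∀ x ∈ s, (W.map φK).eval x = 0 := by
    intro x hx
    rw [hW, Polynomial.map_mul, Polynomial.eval_mul]
    rcases Finset.mem_insert.mp hx with rfl | hx
    · rw [Polynomial.map_sub, Polynomial.map_X, Polynomial.map_C, Polynomial.eval_sub,
        Polynomial.eval_X, Polynomial.eval_C]
      simp [hφK, hu]
    · obtain ⟨b, hb, rfl⟩ := Finset.mem_image.mp hx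
      have hb1 : (ζ ^ b) ^ p = 1 := by rw [← pow_mul, mul_comm, pow_mul, hζp, one_pow]
      rw [eval_twist_eq_zero p ι (ζ ^ b) hb1 T Q hQT, mul_zero]
  have hEq : PK = W.map φK :=
    eq_of_monic_of_common_roots hPKmonic hWKmonic s hPKdeg hWKdeg hPKroots hWKroots
  -- undo the substitution `q = t ^ p`
  have hEq' : P.map (evalK (jqModC K)) = W.map (coeffMap ι) := by
    apply Polynomial.map_injective (qExpand K p) (qExpand_injective p)
    rw [Polynomial.map_map, Polynomial.map_map, qExpand_comp_evalK]
    exact hEq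
  -- the coefficients of `P` are integral polynomials
  have hlift : P ∈ Polynomial.lifts (Polynomial.mapRingHom ι) := by
    rw [Polynomial.lifts_iff_coeff_lifts]
    intro k
    have hk := congrArg (fun F : (LaurentSeries K)[X] => F.coeff k) hEq'
    simp only [Polynomial.coeff_map] at hk
    obtain ⟨c', hc'⟩ := exists_map_eq_of_evalK_jqModC ι (P.coeff k).natDegree (P.coeff k)
      (W.coeff k) le_rfl hk
    exact ⟨c', hc'⟩
  obtain ⟨P', hP'map, hP'deg, hP'monic⟩ :=
    Polynomial.lifts_and_natDegree_eq_and_monic hlift hP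
  refine ⟨P', hP'monic, by rw [hP'deg, hdeg], hP'map, ?_⟩
  have hW' : P'.map (evalJ (jqModC ℤ)) = W := by
    apply Polynomial.map_injective (coeffMap ι) coeffMap_intCast_injective
    have hcomp : (coeffMap ι).comp (evalJ (jqModC ℤ)) =
        (evalK (jqModC K)).comp (Polynomial.mapRingHom ι) := by
      rw [evalK_comp_map_int]
      refine Polynomial.ringHom_ext' (Subsingleton.elim _ _) ?_
      simp [evalJ, coeffMap_jqModC]
    rw [Polynomial.map_map, ← hEq', ← hP'map, Polynomial.map_map, hcomp]
  rw [Polynomial.eval₂_eq_eval_map, hW', hW, Polynomial.eval_mul, Polynomial.eval_sub,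
    Polynomial.eval_X, Polynomial.eval_C, sub_self, zero_mul]

end Descent

/-! ### Specialisation to the `Δ`-quotient of the interface -/

section DeltaQuot

theorem coeff_zero_mul_of_nonneg {x y : LaurentSeries R} (hx : ∀ n : ℤ, n < 0 → x.coeff n = 0)
    (hy : ∀ n : ℤ, n < 0 → y.coeff n = 0) : (x * y).coeff 0 = x.coeff 0 * y.coeff 0 := by
  rw [HahnSeries.coeff_mul]
  by_cases h00 : ((0 : ℤ), (0 : ℤ)) ∈ Finset.antidiagonal x.isPWO_support y.isPWO_support 0
  · rw [Finset.sum_eq_single_of_mem _ h00]
    intro ij hij hne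
    rw [Finset.mem_antidiagonal] at hij
    obtain ⟨h1, h2, h3⟩ := hij
    exfalso
    rcases lt_trichotomy ij.1 0 with hlt | heq | hgt
    · exact h1 (hx _ hlt)
    · apply hne
      ext
      · exact heq
      · show ij.2 = 0
        omega
    · exact h2 (hy _ (by omega))
  · rw [Finset.sum_eq_zero]
    · rw [Finset.mem_antidiagonal] at h00
      by_contra hne
      apply h00
      refine ⟨?_, ?_, by simp⟩
      · intro h
        apply hne
        change x.coeff 0 = 0 at h
        rw [h, zero_mul]
      · intro h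
        apply hne
        change y.coeff 0 = 0 at h
        rw [h, mul_zero]
    · intro ij hij
      rw [Finset.mem_antidiagonal] at hij
      obtain ⟨h1, h2, h3⟩ := hij
      exfalso
      rcases lt_trichotomy ij.1 0 with hlt | heq | hgt
      · exact h1 (hx _ hlt)
      · apply h00
        rw [Finset.mem_antidiagonal]
        have h2' : ij.2 = 0 := by omega
        refine ⟨?_, ?_, by simp⟩
        · rw [← heq]; exact h1
        · rw [← h2']; exact h2
      · exact h2 (hy _ (by omega))

variable (R) in
/-- `Δ(t)/Δ(t^p)` over `R`. -/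
def deltaT : LaurentSeries R := DeltaS R * qExpand R p (DeltaSInv R)

theorem coeffMap_DeltaS {S : Type*} [CommRing S] (f : R →+* S) :
    coeffMap f (DeltaS R) = DeltaS S := by
  rw [DeltaS, map_mul, coeffMap_single, map_one, coeffMap_ofPowerSeries,
    ← RingHom.comp_apply (PowerSeries.map f) (PowerSeries.map (Int.castRingHom R)),
    ← PowerSeries.map_comp, RingHom.ext_int (f.comp (Int.castRingHom R)) (Int.castRingHom S)]
  rfl

theorem coeffMap_DeltaSInv {S : Type*} [CommRing S] (f : R →+* S) :
    coeffMap f (DeltaSInv R) = DeltaSInv S := by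
  rw [DeltaSInv, map_mul, coeffMap_single, map_one, coeffMap_ofPowerSeries,
    ← RingHom.comp_apply (PowerSeries.map f) (PowerSeries.map (Int.castRingHom R)),
    ← PowerSeries.map_comp, RingHom.ext_int (f.comp (Int.castRingHom R)) (Int.castRingHom S)]
  rfl

theorem coeffMap_deltaT {S : Type*} [CommRing S] (f : R →+* S) :
    coeffMap f (deltaT R p) = deltaT S p := by
  rw [deltaT, map_mul, coeffMap_qExpand, coeffMap_DeltaS, coeffMap_DeltaSInv, deltaT]

theorem coeffMap_DeltaQuot {S : Type*} [CommRing S] (f : R →+* S) :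
    coeffMap f (DeltaQuot R p) = DeltaQuot S p := by
  rw [DeltaQuot, map_mul, coeffMap_qExpand, coeffMap_DeltaS, coeffMap_DeltaSInv, DeltaQuot]

/-- `Δ(t)/Δ(t^p)` has coefficient `1` at `t^(1-p)`. -/
theorem deltaT_coeff : (deltaT ℤ p).coeff (1 - (p : ℤ)) = 1 := by
  have hp : (0 : ℤ) < (p : ℤ) := by exact_mod_cast Nat.pos_of_ne_zero (NeZero.ne p)
  set x : LaurentSeries ℤ :=
    HahnSeries.ofPowerSeries ℤ ℤ (dedekindEtaUnit.map (Int.castRingHom ℤ)) with hx
  set y : LaurentSeries ℤ :=
    qExpand ℤ p (HahnSeries.ofPowerSeries ℤ ℤ (dedekindEtaUnitInv.map (Int.castRingHom ℤ))) with hy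
  have hT : deltaT ℤ p = HahnSeries.single (1 - (p : ℤ)) (1 : ℤ) * (x * y) := by
    rw [deltaT, DeltaS, DeltaSInv, map_mul, qExpand_single, mul_neg, mul_one]
    have h1 : HahnSeries.single (1 - (p : ℤ)) (1 : ℤ) =
        HahnSeries.single (1 : ℤ) (1 : ℤ) * HahnSeries.single (-(p : ℤ)) (1 : ℤ) := by
      rw [HahnSeries.single_mul_single, mul_one]
      congr 1
    rw [h1]
    ring
  rw [hT, HahnSeries.coeff_single_mul, one_mul, sub_self, coeff_zero_mul_of_nonneg]
  · have hx0 : x.coeff 0 = 1 := by
      have := HahnSeries.ofPowerSeries_apply_coeff (Γ := ℤ) (R := ℤ)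
        (dedekindEtaUnit.map (Int.castRingHom ℤ)) 0
      rw [hx]
      simp only [Nat.cast_zero] at this
      rw [this, PowerSeries.coeff_map, PowerSeries.coeff_zero_eq_constantCoeff,
        constantCoeff_dedekindEtaUnit]
      rfl
    have hy0 : y.coeff 0 = 1 := by
      have h0 : (0 : ℤ) = (p : ℤ) * 0 := by ring
      rw [hy, h0, qExpand_coeff_mul]
      have := HahnSeries.ofPowerSeries_apply_coeff (Γ := ℤ) (R := ℤ)
        (dedekindEtaUnitInv.map (Int.castRingHom ℤ)) 0
      simp only [Nat.cast_zero] at this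
      rw [this, PowerSeries.coeff_map, PowerSeries.coeff_zero_eq_constantCoeff,
        constantCoeff_dedekindEtaUnitInv]
      rfl
    rw [hx0, hy0, mul_one]
  · intro n hn
    exact ofPowerSeries_coeff_of_neg _ hn
  · intro n hn
    rw [hy]
    by_cases hdvd : (p : ℤ) ∣ n
    · obtain ⟨m, rfl⟩ := hdvd
      rw [qExpand_coeff_mul]
      apply ofPowerSeries_coeff_of_neg
      by_contra hm
      rw [not_lt] at hm
      have : 0 ≤ (p : ℤ) * m := mul_nonneg hp.le hm
      omega
    · exact qExpand_coeff_of_not_dvd p _ hdvd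

/-- **W1c, formal half.** If `P ∈ K[J][X]` (`K` a field of characteristic zero containing a
primitive `p`-th root of unity `ζ`) is monic of degree `p + 1` and `P(J(t^p))` vanishes at the
`p + 1` formal conjugates `Δ(ζ^b t)/Δ(t^p)` (`b < p`) and `p^12 Δ(t^(p^2))/Δ(t^p)`, then `P` has
integer coefficients and is a `Δ`-quotient polynomial in the sense of the interface. -/
theorem exists_isDeltaQuotPoly_of_roots (hp : 2 ≤ p) {K : Type*} [Field K] [CharZero K]
    (ζ : Kˣ) (hζ : IsPrimitiveRoot ζ p)
    (P : Polynomial (Polynomial K)) (hP : P.Monic) (hdeg : P.natDegree = p + 1)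
    (hroots : ∀ b < p, (P.map (evalK (qExpand K p (jqModC K)))).eval
      (twist (ζ ^ b) (deltaT K p)) = 0)
    (hU : (P.map (evalK (qExpand K p (jqModC K)))).eval
      (qExpand K p ((p : LaurentSeries K) ^ 12 * DeltaQuot K p)) = 0) :
    ∃ P' : Polynomial ℤ[X], IsDeltaQuotPoly p P' ∧ P'.natDegree = p + 1 ∧
      P'.map (Polynomial.mapRingHom (Int.castRingHom K)) = P := by
  obtain ⟨P', h1, h2, h3, h4⟩ := descent_of_roots p hp ζ hζ (deltaT ℤ p)
    ((p : LaurentSeries ℤ) ^ 12 * DeltaQuot ℤ p) (deltaT_coeff p) P hP hdeg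
    (by
      intro b hb
      rw [coeffMap_deltaT]
      exact hroots b hb)
    (by
      rw [map_mul, map_pow, map_natCast, coeffMap_DeltaQuot]
      exact hU)
  exact ⟨P', ⟨h1, h4⟩, h2, h3⟩

end DeltaQuot

end Fermat.Agent.S28.H33
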