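import Fermat.Agent.S28.H39_Dictionary
import Fermat.Agent.S28.H50_Frame
import Fermat.Agent.S28.H59_PrimeStep
import Fermat.Agent.S28.H30_PrimeLevel
import Fermat.Agent.S28.H16_Wrapper

/-!
S28 / W2e (helper39): the CONCRETE induction step `M ⟹ p M`, via helper50's `H50.step_frame`
(one fibre; no counting of embeddings).

Setting: `k` a field, `N = p * M`, `ζ : kˣ` a primitive `N`-th root of unity, `L = k((t))`,
`x = J(t^N)`; the roots of `Φ_m(·, x)` are the `Jtriple ζ N g`, `g ∈ triples m` (`m ∣ N`).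
-/

set_option autoImplicit false

noncomputable section

namespace Fermat.Agent.S28.H39

open ModularCurve HahnSeries Fermat.Agent.S28 Polynomial Fermat.Agent.S28.H64
  Fermat.Agent.S28.H50

variable {k : Type*} [Field k]

/-- The base point `x = J(t^N)`. -/
def xN (k : Type*) [Field k] (N : ℕ) [NeZero N] : LaurentSeries k := qExpand k N (jqModC k)

theorem xN_eq_Jconj (N : ℕ) [NeZero N] : xN k N = Jconj k 1 N := (Jconj_one k N).symm

theorem transcendental_xN (N : ℕ) [NeZero N] : Transcendental k (xN k N) := by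
  rw [xN_eq_Jconj]
  exact transcendental_Jconj 1 N

/-- `evalJ` for an abstract field `L`, elaborated exactly as in `H50_Frame` (integer-algebra
structure `Ring.toIntAlgebra`; the one of `LaurentSeries k` used by `evalJ` is a different,
propositionally equal instance). -/
def evalZ {L : Type*} [Field L] (x : L) : ℤ[X] →+* L := (Polynomial.aeval (R := ℤ) x).toRingHom

theorem evalZ_eq_evalJ (x : LaurentSeries k) : evalZ x = evalJ x := by
  apply Polynomial.ringHom_ext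
  · intro a
    simp [evalZ, evalJ]
  · simp [evalZ, evalJ]

/-- `t ↦ ζ^s t` (with `ζ^N = 1`) moves every series to a `k(J(t^N))`-conjugate. -/
theorem sameAnn_twist {ζ : kˣ} {N : ℕ} [NeZero N] (hζ : ζ ^ N = 1) (s : ℕ)
    (y : LaurentSeries k) :
    SameAnn (ratFuncHom (xN k N) (transcendental_xN N)) y (twist (ζ ^ s) y) := by
  refine sameAnn_ratFuncHom (xN k N) (transcendental_xN N) (twist (ζ ^ s)) ?_ ?_ y
  · intro c
    rw [algebraMap_eq_C, twist_C]
  · rw [xN]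
    exact twist_qExpand_of_pow_eq_one (by rw [← pow_mul, mul_comm, pow_mul, hζ, one_pow]) _

/-- iterated twists. -/
theorem sameAnn_twist_iterate {ζ : kˣ} {N : ℕ} [NeZero N] (hζ : ζ ^ N = 1) (s j : ℕ)
    (y : LaurentSeries k) :
    SameAnn (ratFuncHom (xN k N) (transcendental_xN N)) y ((twist (ζ ^ s))^[j] y) := by
  induction j with
  | zero => exact SameAnn.refl _ _
  | succ j ih =>
    rw [Function.iterate_succ_apply']
    exact ih.trans (sameAnn_twist hζ s _)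

/-- The set of conjugates of level `m` inside `k((t))`, `t^N = q`. -/
def SJ (ζ : kˣ) (N m : ℕ) : Finset (LaurentSeries k) := by
  classical
  exact (triples m).image (Jtriple ζ N)

theorem mem_SJ {ζ : kˣ} {N m : ℕ} {y : LaurentSeries k} :
    y ∈ SJ ζ N m ↔ ∃ g ∈ triples m, Jtriple ζ N g = y := by
  classical
  simp [SJ]

theorem dvd_of_mem_triples {m : ℕ} (hm : 0 < m) {g : ℕ × ℕ × ℕ} (hg : g ∈ triples m) :
    g.2.2 ∣ m :=
  Dvd.intro_left g.1 ((mem_triples hm).mp hg).1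

theorem card_SJ {ζ : kˣ} {N m : ℕ} (hζ : IsPrimitiveRoot ζ N) (hN : 0 < N) (hm : m ∣ N) :
    (SJ ζ N m).card = (triples m).card := by
  classical
  have hm0 : 0 < m := Nat.pos_of_dvd_of_pos hm hN
  rw [SJ]
  apply Finset.card_image_of_injOn
  intro g hg g' hg' h
  exact Jtriple_injOn hζ hN hm0 ((mem_triples hm0).mp hg) ((mem_triples hm0).mp hg')
    ((dvd_of_mem_triples hm0 hg).trans hm) ((dvd_of_mem_triples hm0 hg').trans hm) h

/-- All elements of `SJ ζ N m` are roots of `Φ(·, J(t^N))` when `Φ` has the native level-`m`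
roots. -/
theorem root_of_mem_SJ {ζ : kˣ} {N m : ℕ} [NeZero N] [NeZero m] (hm : m ∣ N)
    {Φ : Polynomial ℤ[X]} (h : RootsAt k m (ζ ^ (N / m)) Φ) {y : LaurentSeries k}
    (hy : y ∈ SJ ζ N m) :
    Φ.eval₂ (Polynomial.aeval (R := ℤ) (xN k N)).toRingHom y = 0 := by
  obtain ⟨⟨a, b, d⟩, hg, rfl⟩ := mem_SJ.mp hy
  have hm0 : 0 < m := Nat.pos_of_ne_zero (NeZero.ne m)
  exact rootsAt_level hm h ((mem_triples hm0).mp hg)


/-! ### the neighbours of a triple and the fibre of `Φ_p` -/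

/-- The `p + 1` neighbours `J_(α c)`, `α ∈ triples p`, of `J_c`. -/
def nbrs (ζ : kˣ) (N p : ℕ) (c : ℕ × ℕ × ℕ) : Finset (LaurentSeries k) := by
  classical
  exact (triples p).image fun α => Jtriple ζ N (tmul α c)

theorem mem_nbrs {ζ : kˣ} {N p : ℕ} {c : ℕ × ℕ × ℕ} {y : LaurentSeries k} :
    y ∈ nbrs ζ N p c ↔ ∃ α ∈ triples p, Jtriple ζ N (tmul α c) = y := by
  classical
  simp [nbrs]

section Nbrs

variable {p M : ℕ} (hp : p.Prime) (hM : 0 < M) {ζ : kˣ} (hζ : IsPrimitiveRoot ζ (p * M))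
include hp hM hζ

theorem card_nbrs {c : ℕ × ℕ × ℕ} (hc : c ∈ triples M) :
    (nbrs ζ (p * M) p c).card = (triples p).card := by
  classical
  have hN0 : 0 < p * M := Nat.mul_pos hp.pos hM
  have hcc := (mem_triples hM).mp hc
  obtain ⟨hc1, hc3⟩ := IsPrimTriple.pos hM hcc
  rw [nbrs]
  apply Finset.card_image_of_injOn
  intro α hα α' hα' h
  have hαα := (mem_triples hp.pos).mp hα
  have hαα' := (mem_triples hp.pos).mp hα'
  obtain ⟨hα1, hα3⟩ := IsPrimTriple.pos hp.pos hαα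
  obtain ⟨hα1', hα3'⟩ := IsPrimTriple.pos hp.pos hαα'
  have hdet : ∀ β : ℕ × ℕ × ℕ, IsPrimTriple p β.1 β.2.1 β.2.2 →
      (tmul β c).1 * (tmul β c).2.2 = p * M := fun β hβ => by
    rw [tmul_det, hβ.1, hcc.1]
  have hdvd : ∀ β : ℕ × ℕ × ℕ, IsPrimTriple p β.1 β.2.1 β.2.2 →
      (tmul β c).2.2 ∣ p * M := fun β hβ =>
    Dvd.intro_left _ (hdet β hβ)
  have h3 := Jtriple_injective (a := (tmul α c).1) (b := (tmul α c).2.1) (d := (tmul α c).2.2)
    (a' := (tmul α' c).1) (b' := (tmul α' c).2.1) (d' := (tmul α' c).2.2) hζ hN0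
    (Nat.mul_pos hα1 hc1) (Nat.mul_pos hα1' hc1) ((hdet α hαα).trans (hdet α' hαα').symm)
    (tmul_lt hα3 hc3) (tmul_lt hα3' hc3) (hdvd α hαα) (hdvd α' hαα') h
  exact tmul_injOn_prime hp hM hc hα hα' (Prod.ext h3.1 (Prod.ext h3.2.1 h3.2.2))

theorem root_of_mem_nbrs [NeZero p] [NeZero (p * M)] {Φp : Polynomial ℤ[X]}
    (hP : RootsAt k p (ζ ^ (p * M / p)) Φp) {c : ℕ × ℕ × ℕ} (hc : c ∈ triples M)
    {y : LaurentSeries k} (hy : y ∈ nbrs ζ (p * M) p c) :
    Φp.eval₂ (Polynomial.aeval (R := ℤ) (Jtriple ζ (p * M) c)).toRingHom y = 0 := by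
  obtain ⟨α, hα, rfl⟩ := mem_nbrs.mp hy
  obtain ⟨a, b, d⟩ := c
  have hcc := (mem_triples hM).mp hc
  obtain ⟨hc1, hc3⟩ := IsPrimTriple.pos hM hcc
  have hdiv : d * p ∣ p * M := by
    rw [mul_comm d p]
    exact Nat.mul_dvd_mul_left p (Dvd.intro_left a hcc.1)
  exact eval₂_Jtriple_tmul hζ.pow_eq_one hP hc1 hc3 hdiv ((mem_triples hp.pos).mp hα)

/-- **The fibre of `Φ_p` over `J_c`** consists exactly of the `p + 1` neighbours. -/
theorem fibre_iff [NeZero p] [NeZero (p * M)] {Φp : Polynomial ℤ[X]} (hΦp : Φp.Monic)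
    (hdeg : Φp.natDegree = (triples p).card)
    (hP : RootsAt k p (ζ ^ (p * M / p)) Φp) {c : ℕ × ℕ × ℕ} (hc : c ∈ triples M)
    (y : LaurentSeries k) :
    Φp.eval₂ (Polynomial.aeval (R := ℤ) (Jtriple ζ (p * M) c)).toRingHom y = 0 ↔
      y ∈ nbrs ζ (p * M) p c := by
  set φ := (Polynomial.aeval (R := ℤ) (Jtriple ζ (p * M) c)).toRingHom with hφ
  have hm : (Φp.map φ).Monic := hΦp.map φ
  have hcard : (nbrs ζ (p * M) p c).card = (Φp.map φ).natDegree := by
    rw [hΦp.natDegree_map, hdeg, card_nbrs hp hM hζ hc]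
  have hroot : ∀ z ∈ nbrs ζ (p * M) p c, (Φp.map φ).eval z = 0 := fun z hz => by
    rw [Polynomial.eval_map]
    exact root_of_mem_nbrs hp hM hζ hP hc hz
  rw [← Polynomial.eval_map]
  exact eval_eq_zero_iff_of_roots hm _ hcard hroot y

/-- `Φ_p(·, J_c)` is the product over the neighbours. -/
theorem map_eq_prod_nbrs [NeZero p] [NeZero (p * M)] {Φp : Polynomial ℤ[X]} (hΦp : Φp.Monic)
    (hdeg : Φp.natDegree = (triples p).card)
    (hP : RootsAt k p (ζ ^ (p * M / p)) Φp) {c : ℕ × ℕ × ℕ} (hc : c ∈ triples M) :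
    Φp.map (Polynomial.aeval (R := ℤ) (Jtriple ζ (p * M) c)).toRingHom =
      ∏ y ∈ nbrs ζ (p * M) p c, (X - Polynomial.C y) := by
  set φ := (Polynomial.aeval (R := ℤ) (Jtriple ζ (p * M) c)).toRingHom with hφ
  have hm : (Φp.map φ).Monic := hΦp.map φ
  have hcard : (nbrs ζ (p * M) p c).card = (Φp.map φ).natDegree := by
    rw [hΦp.natDegree_map, hdeg, card_nbrs hp hM hζ hc]
  have hroot : ∀ z ∈ nbrs ζ (p * M) p c, (Φp.map φ).eval z = 0 := fun z hz => by
    rw [Polynomial.eval_map]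
    exact root_of_mem_nbrs hp hM hζ hP hc hz
  exact eq_prod_of_roots hm _ hcard hroot

end Nbrs


/-! ### the twist orbit of the bottom neighbours -/

section Orbit

variable {ζ : kˣ} {N : ℕ} [NeZero N]

/-- One orbit: `t ↦ ζ^(N/p) t` moves the bottom neighbour `b'` to `b' + j u mod p`,
`u = (N/(d p)) a`. -/
theorem sameAnn_bot_shift (hζ : ζ ^ N = 1) {a b d p : ℕ} (ha : 0 < a) (hb : b < d) (hp : 0 < p)
    (hdiv : d * p ∣ N) (b' j : ℕ) (hb' : b' < p) :
    SameAnn (ratFuncHom (xN k N) (transcendental_xN N))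
      (Jtriple ζ N (a, b + b' * d, p * d))
      (Jtriple ζ N (a, b + (b' + j * (N / (d * p) * a)) % p * d, p * d)) := by
  have hN0 : 0 < N := Nat.pos_of_ne_zero (NeZero.ne N)
  have hd : 0 < d := lt_of_le_of_lt (Nat.zero_le _) hb
  have hpd : p * d ∣ N := by rwa [mul_comm] at hdiv
  have : NeZero (N / (p * d) * a) :=
    ⟨(Nat.mul_pos (Nat.div_pos (Nat.le_of_dvd hN0 hpd) (Nat.mul_pos hp hd)) ha).ne'⟩
  induction j with
  | zero =>
    rw [zero_mul, add_zero, Nat.mod_eq_of_lt hb']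
    exact SameAnn.refl _ _
  | succ j ih =>
    refine ih.trans ?_
    have h1 := sameAnn_twist (k := k) hζ (N / p)
      (Jtriple ζ N (a, b + (b' + j * (N / (d * p) * a)) % p * d, p * d))
    rw [twist_Jtriple_bot hζ hb hp hdiv] at h1
    have h2 : ((b' + j * (N / (d * p) * a)) % p + N / (d * p) * a) % p =
        (b' + (j + 1) * (N / (d * p) * a)) % p := by
      rw [Nat.mod_add_mod]
      congr 1
      ring
    rw [h2] at h1
    exact h1

/-- All `p` bottom neighbours are conjugate when the shift `u = (N/(d p)) a` is prime to `p`. -/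
theorem sameAnn_bot_all (hζ : ζ ^ N = 1) {a b d p : ℕ} (ha : 0 < a) (hb : b < d) (hp : p.Prime)
    (hdiv : d * p ∣ N) (hcop : Nat.Coprime (N / (d * p) * a) p) {b' : ℕ} (hb' : b' < p) :
    SameAnn (ratFuncHom (xN k N) (transcendental_xN N))
      (Jtriple ζ N (a, b + 0 * d, p * d)) (Jtriple ζ N (a, b + b' * d, p * d)) := by
  obtain ⟨v, -, hv⟩ := Nat.exists_mul_mod_eq_of_coprime b' hcop hp.ne_zero
  have h := sameAnn_bot_shift (k := k) hζ ha hb hp.pos hdiv 0 v hp.pos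
  have h2 : (0 + v * (N / (d * p) * a)) % p = b' := by
    rw [zero_add, mul_comm v, hv, Nat.mod_eq_of_lt hb']
  rw [h2] at h
  exact h

end Orbit


/-! ### the step -/

theorem mem_nbrs_cases {p : ℕ} (hp : p.Prime) {ζ : kˣ} {N : ℕ} {c : ℕ × ℕ × ℕ}
    {y : LaurentSeries k} :
    y ∈ nbrs ζ N p c ↔ y = Jtriple ζ N (tmul (p, 0, 1) c) ∨
      ∃ b' < p, y = Jtriple ζ N (tmul (1, b', p) c) := by
  classical
  rw [mem_nbrs]
  constructor
  · rintro ⟨α, hα, rfl⟩
    rw [triples_prime hp, Finset.mem_insert, Finset.mem_image] at hα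
    rcases hα with rfl | ⟨b', hb', rfl⟩
    · exact Or.inl rfl
    · exact Or.inr ⟨b', Finset.mem_range.mp hb', rfl⟩
  · rintro (rfl | ⟨b', hb', rfl⟩)
    · exact ⟨(p, 0, 1), by rw [triples_prime hp]; exact Finset.mem_insert_self _ _, rfl⟩
    · exact ⟨(1, b', p), by
        rw [triples_prime hp]
        exact Finset.mem_insert_of_mem (Finset.mem_image.mpr ⟨b', Finset.mem_range.mpr hb', rfl⟩),
        rfl⟩

theorem top_mem_triples {N : ℕ} (hN : 0 < N) : ((N, 0, 1) : ℕ × ℕ × ℕ) ∈ triples N := by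
  rw [mem_triples hN]
  exact ⟨mul_one N, Nat.one_pos, by simp⟩

theorem cusp0_mem_triples {M : ℕ} (hM : 0 < M) : ((1, 0, M) : ℕ × ℕ × ℕ) ∈ triples M := by
  rw [mem_triples hM]
  exact ⟨one_mul M, hM, by simp⟩

/-- **The concrete step** `M ⟹ p M` over a field with a primitive `(p M)`-th root of unity. -/
theorem irreducible_step {p M : ℕ} [NeZero p] [NeZero M] [NeZero (p * M)] (hp : p.Prime)
    {ζ : kˣ} (hζ : IsPrimitiveRoot ζ (p * M))
    {ΦM ΦN Φp : Polynomial ℤ[X]}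
    (hΦM : ΦM.Monic) (hdM : ΦM.natDegree = (triples M).card)
    (hΦN : ΦN.Monic) (hdN : ΦN.natDegree = (triples (p * M)).card)
    (hΦp : Φp.Monic) (hdp : Φp.natDegree = (triples p).card)
    (hRM : RootsAt k M (ζ ^ (p * M / M)) ΦM) (hRN : RootsAt k (p * M) ζ ΦN)
    (hRp : RootsAt k p (ζ ^ (p * M / p)) Φp)
    (hcore : ¬ p ∣ M → qExpand k p (jqModC k) ∉ IntermediateField.adjoin k {jqModC k})
    (hirr : Irreducible (redModPoly k ΦM)) : Irreducible (redModPoly k ΦN) := by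
  classical
  have hM : 0 < M := Nat.pos_of_ne_zero (NeZero.ne M)
  have hN0 : 0 < p * M := Nat.mul_pos hp.pos hM
  have hζ1 : ζ ^ (p * M) = 1 := hζ.pow_eq_one
  have hMN : M ∣ p * M := Dvd.intro_left p rfl
  have hRN' : RootsAt k (p * M) (ζ ^ (p * M / (p * M))) ΦN := by
    rw [Nat.div_self hN0, pow_one]
    exact hRN
  have hcardM : (SJ ζ (p * M) M).card = ΦM.natDegree := by
    rw [hdM]
    exact card_SJ hζ hN0 hMN
  have hcardN : (SJ ζ (p * M) (p * M)).card = ΦN.natDegree := by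
    rw [hdN]
    exact card_SJ hζ hN0 dvd_rfl
  have hrootM : ∀ y ∈ SJ ζ (p * M) M,
      ΦM.eval₂ (Polynomial.aeval (R := ℤ) (xN k (p * M))).toRingHom y = 0 :=
    fun y hy => root_of_mem_SJ hMN hRM hy
  have hrootN : ∀ y ∈ SJ ζ (p * M) (p * M),
      ΦN.eval₂ (Polynomial.aeval (R := ℤ) (xN k (p * M))).toRingHom y = 0 :=
    fun y hy => root_of_mem_SJ dvd_rfl hRN' hy
  have hNdeg : ΦN.natDegree ≠ 0 := by
    rw [hdN]
    exact (Finset.card_pos.mpr ⟨_, top_mem_triples hN0⟩).ne'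
  have hex : ∀ y ∈ SJ ζ (p * M) (p * M), ∃ x' ∈ SJ ζ (p * M) M,
      Φp.eval₂ (Polynomial.aeval (R := ℤ) x').toRingHom y = 0 := by
    intro y hy
    obtain ⟨g, hg, rfl⟩ := mem_SJ.mp hy
    obtain ⟨c, hc, α, hα, hαc⟩ := exists_factor hp hM hg
    refine ⟨Jtriple ζ (p * M) c, mem_SJ.mpr ⟨c, hc, rfl⟩, ?_⟩
    exact root_of_mem_nbrs hp hM hζ hRp hc (mem_nbrs.mpr ⟨α, hα, by rw [hαc]⟩)
  -- reduction: it suffices to find `c0 ∈ triples M` all of whose neighbours in `SN` are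
  -- conjugate to one series `Y0`
  suffices hkey : ∃ c0 ∈ triples M, ∃ Y0 : LaurentSeries k,
      ∀ y ∈ SJ ζ (p * M) (p * M), y ∈ nbrs ζ (p * M) p c0 →
        SameAnn (ratFuncHom (xN k (p * M)) (transcendental_xN (p * M))) Y0 y by
    obtain ⟨c0, hc0, Y0, hY0⟩ := hkey
    have hrootM' : ∀ y ∈ SJ ζ (p * M) M, ΦM.eval₂ (evalZ (xN k (p * M))) y = 0 := fun y hy => by
      rw [evalZ_eq_evalJ]; exact hrootM y hy
    have hrootN' : ∀ y ∈ SJ ζ (p * M) (p * M), ΦN.eval₂ (evalZ (xN k (p * M))) y = 0 :=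
      fun y hy => by rw [evalZ_eq_evalJ]; exact hrootN y hy
    have hex' : ∀ y ∈ SJ ζ (p * M) (p * M), ∃ x' ∈ SJ ζ (p * M) M,
        Φp.eval₂ (evalZ x') y = 0 := fun y hy => by
      obtain ⟨x', hx', h⟩ := hex y hy
      exact ⟨x', hx', by rw [evalZ_eq_evalJ]; exact h⟩
    refine step_frame (xN k (p * M)) (transcendental_xN (p * M)) ΦM ΦN Φp hΦM hΦN hirr
      (SJ ζ (p * M) M) (SJ ζ (p * M) (p * M)) hcardM hcardN hrootM' hrootN' hNdeg hex'
      (Jtriple ζ (p * M) c0) (mem_SJ.mpr ⟨c0, hc0, rfl⟩) ?_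
    intro y hy y' hy' hr hr'
    have hr1 : Φp.eval₂ (evalZ (Jtriple ζ (p * M) c0)) y = 0 := hr
    have hr1' : Φp.eval₂ (evalZ (Jtriple ζ (p * M) c0)) y' = 0 := hr'
    rw [evalZ_eq_evalJ] at hr1 hr1'
    have h1 := hY0 y hy ((fibre_iff hp hM hζ hΦp hdp hRp hc0 y).mp hr1)
    have h2 := hY0 y' hy' ((fibre_iff hp hM hζ hΦp hdp hRp hc0 y').mp hr1')
    exact h1.symm.trans h2
  by_cases hpM : p ∣ M
  · -- case `p ∣ M`: the cusp `0`, `c0 = (1, 0, M)`
    refine ⟨(1, 0, M), cusp0_mem_triples hM, Jtriple ζ (p * M) (1, 0 + 0 * M, p * M), ?_⟩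
    intro y hy hny
    rcases (mem_nbrs_cases hp).mp hny with rfl | ⟨b', hb', rfl⟩
    · -- the top neighbour `(p, 0, M)` is not primitive, hence not in `SN`
      exfalso
      obtain ⟨⟨a, b, d⟩, hg, hgy⟩ := mem_SJ.mp hy
      have hgg := (mem_triples hN0).mp hg
      obtain ⟨ha, hd⟩ := IsPrimTriple.pos hN0 hgg
      rw [tmul_top] at hgy
      have h3 := Jtriple_injective hζ hN0 ha (Nat.mul_pos hp.pos Nat.one_pos)
        (hgg.1.trans (by ring)) hgg.2.1 (Nat.mod_lt _ hM) (Dvd.intro_left a hgg.1) hMN hgy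
      have h4 := hgg.2.2
      simp only at h4 h3
      rw [h3.1, h3.2.1, h3.2.2, mul_one, mul_zero, Nat.zero_mod, Nat.gcd_zero_left,
        Nat.gcd_eq_left hpM] at h4
      exact hp.one_lt.ne' h4
    · rw [tmul_bot hM hb']
      refine sameAnn_bot_all hζ1 Nat.one_pos hM hp (by rw [mul_comm]) ?_ hb'
      rw [mul_comm M p, Nat.div_self hN0]
      simp
  · -- case `p ∤ M`: the cusp `∞`, `c0 = (M, 0, 1)`
    have hc0 : ((M, 0, 1) : ℕ × ℕ × ℕ) ∈ triples M := top_mem_triples hM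
    have hcop : Nat.Coprime (p * M / (1 * p) * M) p := by
      rw [one_mul, Nat.mul_div_cancel_left M hp.pos]
      have h1 : Nat.Coprime M p := ((Nat.Prime.coprime_iff_not_dvd hp).mpr hpM).symm
      exact Nat.Coprime.mul_left h1 h1
    have hbot : ∀ b' < p, SameAnn (ratFuncHom (xN k (p * M)) (transcendental_xN (p * M)))
        (Jtriple ζ (p * M) (M, 0 + 0 * 1, p * 1)) (Jtriple ζ (p * M) (tmul (1, b', p) (M, 0, 1))) := by
      intro b' hb'
      rw [tmul_bot Nat.one_pos hb']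
      exact sameAnn_bot_all hζ1 hM Nat.one_pos hp (by rw [one_mul]; exact Dvd.intro M rfl) hcop hb'
    refine ⟨(M, 0, 1), hc0, Jtriple ζ (p * M) (M, 0 + 0 * 1, p * 1), ?_⟩
    intro y _ hny
    rcases (mem_nbrs_cases hp).mp hny with rfl | ⟨b', hb', rfl⟩
    · -- the top neighbour `y∞ = J(t^(N p M))`
      set yinf := Jtriple ζ (p * M) (tmul (p, 0, 1) (M, 0, 1)) with hyinf
      have hyinf_mem : yinf ∈ nbrs ζ (p * M) p (M, 0, 1) := hny
      have hx0 : Jtriple ζ (p * M) (M, 0, 1) = qExpand k (p * M * M) (jqModC k) := Jtriple_top ζ _ M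
      have hyinf_eq : yinf = qExpand k (p * M * (p * M)) (jqModC k) := by
        rw [hyinf, tmul_top, mul_zero, Nat.zero_mod]
        exact Jtriple_top ζ _ (p * M)
      have hnot : yinf ∉ IntermediateField.adjoin k {xN k (p * M), Jtriple ζ (p * M) (M, 0, 1)} := by
        rw [hyinf_eq, hx0, xN]
        have hζM : IsPrimitiveRoot (ζ ^ (p * M / M)) M :=
          hζ.pow hN0 (Nat.div_mul_cancel hMN).symm
        have hζp : IsPrimitiveRoot (ζ ^ (p * M / p)) p :=
          hζ.pow hN0 (Nat.div_mul_cancel (Dvd.intro M rfl)).symm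
        exact H59.prime_step hp hpM hΦM hdM hΦp hdp hζM hζp hRM hRp (hcore hpM) (p * M)
      have hh : Φp.map (evalZ (Jtriple ζ (p * M) (M, 0, 1))) =
          (X - Polynomial.C yinf) *
            (((nbrs ζ (p * M) p (M, 0, 1)).erase yinf).val.map fun y => X - Polynomial.C y).prod := by
        rw [evalZ_eq_evalJ]
        have := map_eq_prod_nbrs hp hM hζ hΦp hdp hRp hc0
        rw [show evalJ (Jtriple ζ (p * M) (M, 0, 1)) =
          (Polynomial.aeval (R := ℤ) (Jtriple ζ (p * M) (M, 0, 1))).toRingHom from rfl, this,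
          ← Finset.mul_prod_erase _ (fun y => X - Polynomial.C y) hyinf_mem]
        rfl
      obtain ⟨y, hyS, hsame⟩ := exists_sameAnn_of_not_mem_adjoin (xN k (p * M))
        (transcendental_xN (p * M)) Φp _ yinf _ hh hnot
      have hy1 : y ∈ (nbrs ζ (p * M) p (M, 0, 1)).erase yinf := hyS
      obtain ⟨hne, hymem⟩ := Finset.mem_erase.mp hy1
      rcases (mem_nbrs_cases hp).mp hymem with rfl | ⟨b', hb', rfl⟩
      · exact absurd rfl hne
      · exact (hbot b' hb').trans hsame.symm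
    · exact hbot b' hb'


/-! ### the wrappers -/

/-- A primitive `n`-th root of unity (as a unit) in an algebraically closed field in which
`n ≠ 0`. -/
theorem exists_primitiveRoot_unit (k : Type*) [Field k] [IsAlgClosed k] (n : ℕ)
    (hn : ((n : ℕ) : k) ≠ 0) : ∃ ζ : kˣ, IsPrimitiveRoot ζ n := by
  have : NeZero ((n : ℕ) : k) := ⟨hn⟩
  obtain ⟨ζ0, hζ0⟩ := HasEnoughRootsOfUnity.exists_primitiveRoot k n
  have hn0 : n ≠ 0 := by
    rintro rfl
    exact hn Nat.cast_zero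
  refine ⟨(hζ0.isUnit hn0).unit, IsPrimitiveRoot.coe_units_iff.mp ?_⟩
  rw [IsUnit.unit_spec]
  exact hζ0

/-- **The step in helper50's shape** (`H50.IrredAt`), from W1b (`HasModPoly`) and W1c
(`IsDeltaQuotPoly`). -/
theorem irredAt_step (hmod : ∀ (m : ℕ) [NeZero m], HasModPoly m)
    (hdelta : ∀ (p : ℕ) [NeZero p], p.Prime → ∃ P, IsDeltaQuotPoly p P)
    (k : Type) [Field k] [IsAlgClosed k] (p M : ℕ) [NeZero M] [NeZero (p * M)] (hp : p.Prime)
    (hk : ((p * M : ℕ) : k) ≠ 0) (ih : IrredAt k M) : IrredAt k (p * M) := by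
  intro Φ hΦ hdeg hroots
  have : NeZero p := ⟨hp.ne_zero⟩
  have hM : 0 < M := Nat.pos_of_ne_zero (NeZero.ne M)
  have hN0 : 0 < p * M := Nat.mul_pos hp.pos hM
  obtain ⟨ζ, hζ⟩ := exists_primitiveRoot_unit k (p * M) hk
  obtain ⟨DM, hDM⟩ := hmod M
  obtain ⟨Dp, hDp⟩ := hmod p
  have hζM : IsPrimitiveRoot (ζ ^ (p * M / M)) M :=
    hζ.pow hN0 (Nat.div_mul_cancel (Dvd.intro_left p rfl)).symm
  have hζp : IsPrimitiveRoot (ζ ^ (p * M / p)) p :=
    hζ.pow hN0 (Nat.div_mul_cancel (Dvd.intro M rfl)).symm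
  have hpk : ((p : ℕ) : k) ≠ 0 := by
    intro h
    apply hk
    rw [Nat.cast_mul, h, zero_mul]
  refine irreducible_step hp hζ DM.monic (by rw [DM.natDegree_eq, card_triples M hM])
    hΦ (by rw [hdeg, card_triples _ hN0]) Dp.monic
    (by rw [Dp.natDegree_eq, card_triples p hp.pos]) (hDM k _ hζM) (hroots ζ hζ) (hDp k _ hζp)
    ?_ (ih DM.Φ DM.monic DM.natDegree_eq fun ζ' hζ' => hDM k ζ' hζ')
  intro _
  obtain ⟨P, hP⟩ := hdelta p hp
  exact H30.qExpand_jqModC_not_mem_adjoin_of_prime k hp hpk hP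

/-- **W2 final**: `IrredCharL` for every level prime to `ℓ`, from W1b and W1c. -/
theorem irredCharL (hmod : ∀ (m : ℕ) [NeZero m], HasModPoly m)
    (hdelta : ∀ (p : ℕ) [NeZero p], p.Prime → ∃ P, IsDeltaQuotPoly p P)
    (N : ℕ) [NeZero N] (ℓ : ℕ) [Fact ℓ.Prime] (hℓN : ¬ ℓ ∣ N) (D : ModularPolynomialData N)
    (hD : ∀ (k : Type) [Field k] (ζ : kˣ), IsPrimitiveRoot ζ N → RootsAt k N ζ D.Φ) :
    IrredCharL ℓ D.Φ := by
  refine H50.irredCharL_of_step ℓ N ?_ D hD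
  intro k _ _ _ p M _ _ hp hdvd ih
  refine irredAt_step hmod hdelta k p M hp ?_ ih
  rw [Ne, CharP.cast_eq_zero_iff k ℓ]
  exact fun h => hℓN (h.trans hdvd)

/-- **The step in helper16's shape** (`H16.StepStatement`). -/
theorem stepStatement (hmod : ∀ (m : ℕ) [NeZero m], HasModPoly m)
    (hdelta : ∀ (p : ℕ) [NeZero p], p.Prime → ∃ P, IsDeltaQuotPoly p P)
    (k : Type) [Field k] [IsAlgClosed k] : H16.StepStatement k := by
  intro p M hp hM hk ih hN D hD
  have : NeZero M := ⟨hM.ne'⟩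
  have : NeZero p := ⟨hp.ne_zero⟩
  have hN0 : 0 < p * M := Nat.mul_pos hp.pos hM
  obtain ⟨ζ, hζ⟩ := exists_primitiveRoot_unit k (p * M) hk
  obtain ⟨DM, hDM⟩ := hmod M
  obtain ⟨Dp, hDp⟩ := hmod p
  have hζM : IsPrimitiveRoot (ζ ^ (p * M / M)) M :=
    hζ.pow hN0 (Nat.div_mul_cancel (Dvd.intro_left p rfl)).symm
  have hζp : IsPrimitiveRoot (ζ ^ (p * M / p)) p :=
    hζ.pow hN0 (Nat.div_mul_cancel (Dvd.intro M rfl)).symm
  have hpk : ((p : ℕ) : k) ≠ 0 := by
    intro h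
    apply hk
    rw [Nat.cast_mul, h, zero_mul]
  refine irreducible_step hp hζ DM.monic (by rw [DM.natDegree_eq, card_triples M hM])
    D.monic (by rw [D.natDegree_eq, card_triples _ hN0]) Dp.monic
    (by rw [Dp.natDegree_eq, card_triples p hp.pos]) (hDM k _ hζM) (hD k ζ hζ) (hDp k _ hζp)
    ?_ (ih inferInstance DM fun k' _ ζ' hζ' => hDM k' ζ' hζ')
  intro _
  obtain ⟨P, hP⟩ := hdelta p hp
  exact H30.qExpand_jqModC_not_mem_adjoin_of_prime k hp hpk hP

end Fermat.Agent.S28.H39
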