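import Mathlib
import Fermat.Agent.S28.H96_ModPolyTail
import Fermat.Agent.S28.H17_ModPolyC
import Fermat.Agent.S28.H64_Triples

/-!
S28 / W1-final (helper96): `hasModPoly m : HasModPoly m` for every level `m`, hypothesis-free.

Inputs: the product identity over `ℂ` (helper17, `H17.exists_modPoly_complex`), the count
`card (triples m) = ψ(m)` (helper64), and the algebraic tail `H96.hasModPoly_of_product`
(integrality by Galois invariance, the prelude's `ModularPolynomialData`, transfer to every field).
-/

set_option autoImplicit false

noncomputable section

namespace Fermat.Agent.S28.H96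

open ModularCurve HahnSeries Polynomial

theorem JT_complex_eq (ζ : ℂˣ) (x : ℕ × ℕ × ℕ) : JT ℂ ζ x = H17.JTc ζ x := rfl

theorem evalC_complex_eq (y : LaurentSeries ℂ) : evalC y = H17.evalCC y := rfl

/-- **W1-final.** Every level has a modular polynomial in the sense of `Interface.HasModPoly`. -/
theorem hasModPoly (m : ℕ) [NeZero m] : HasModPoly m := by
  have hcard : (triples m).card = dedekindPsi m := H64.card_triples m (NeZero.pos m)
  obtain ⟨P, hmon, -, hP⟩ := H17.exists_modPoly_complex m hcard
  exact hasModPoly_of_product m (H17.zetaC m) (H17.isPrimitiveRoot_zetaC m) P hmon hP hcard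

end Fermat.Agent.S28.H96
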