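import Fermat.Agent.S28.H39_Step
import Fermat.Agent.S28.H96_HasModPoly
import Fermat.Agent.S28.H9_DeltaQuot

/-!
S28 / W2 FINAL (helper39): the hypothesis-free irreducibility statement
`IrredCharL ℓ D.Φ` for every level `N` prime to `ℓ`.
-/

set_option autoImplicit false

namespace Fermat.Agent.S28.H39

open ModularCurve Fermat.Agent.S28

/-- **W2, unconditional.** -/
theorem irredCharL_final (N : ℕ) [NeZero N] (ℓ : ℕ) [Fact ℓ.Prime] (hℓN : ¬ ℓ ∣ N)
    (D : ModularPolynomialData N)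
    (hD : ∀ (k : Type) [Field k] (ζ : kˣ), IsPrimitiveRoot ζ N → RootsAt k N ζ D.Φ) :
    IrredCharL ℓ D.Φ :=
  irredCharL (fun m _ => H96.hasModPoly m) (fun p _ hp => H9.exists_deltaQuotPoly p hp)
    N ℓ hℓN D hD

/-- W1 + W2 together: there is a modular polynomial datum of level `N` whose `Φ` is irreducible
modulo `ℓ` over `K(J)` for every field `K` of characteristic `ℓ`. -/
theorem exists_data_irredCharL (N : ℕ) [NeZero N] (ℓ : ℕ) [Fact ℓ.Prime] (hℓN : ¬ ℓ ∣ N) :
    ∃ D : ModularPolynomialData N, IrredCharL ℓ D.Φ := by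
  obtain ⟨D, hD⟩ := H96.hasModPoly N
  exact ⟨D, irredCharL_final N ℓ hℓN D hD⟩

end Fermat.Agent.S28.H39
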