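import Mathlib
import Fermat.Agent.S28.H41_ModPolyB
import Fermat.Agent.S28.H96_ModPolyTail
import Fermat.Agent.S28.H64_Triples

/-!
S28 / W1-final wiring (helper41): `HasModPoly m` for every level `m`, from the product formula over
`ℂ` (`H41.exists_modPoly_formal`), helper96's algebraic tail (`H96.hasModPoly_of_product`) and
helper64's count (`H64.card_triples`).
-/

set_option autoImplicit false

namespace Fermat.Agent.S28.H41

/-- **W1-final**: the modular polynomial of every level exists, with all formal conjugates as
roots over every field containing a primitive root of unity. -/
theorem hasModPoly (m : ℕ) [NeZero m] : HasModPoly m := by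
  obtain ⟨P, hmonic, -, hprod⟩ := exists_modPoly_formal m
  exact H96.hasModPoly_of_product m (zetaC m) (isPrimitiveRoot_zetaC m) P hmonic hprod
    (H64.card_triples m (Nat.pos_of_ne_zero (NeZero.ne m)))

end Fermat.Agent.S28.H41
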