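/-
S28 project, package W2e (helper43): the ABSTRACT embedding-count step of the induction
"`Φ_M` irreducible ⇒ `Φ_{pM}` irreducible" (Mathlib only, vocabulary neutral).
-/
import Mathlib

set_option autoImplicit false

open Polynomial IntermediateField

namespace Fermat.Agent.S28.H43

section Prod

variable {F L : Type*} [Field F] [Field L] [Algebra F L]

/-- A polynomial over `F` whose image over `L` is `∏_{b ∈ S} (X - b)`. -/
def SplitsAs (P : F[X]) (S : Finset L) : Prop :=
  P.map (algebraMap F L) = ∏ b ∈ S, (X - C b)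

namespace SplitsAs

variable {P : F[X]} {S : Finset L} (h : SplitsAs P S)
include h

lemma monic : P.Monic := by
  have h1 : (P.map (algebraMap F L)).Monic := by
    rw [h]; exact monic_prod_of_monic _ _ fun b _ => monic_X_sub_C b
  exact (Polynomial.monic_map_iff).1 h1

lemma natDegree_eq : P.natDegree = S.card := by
  have h1 : (P.map (algebraMap F L)).natDegree = S.card := by
    rw [h, natDegree_prod_of_monic _ _ fun b _ => monic_X_sub_C b]
    simp
  rwa [natDegree_map] at h1

lemma ne_zero : P ≠ 0 := h.monic.ne_zero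

lemma aeval_eq_zero_iff (z : L) : aeval z P = 0 ↔ z ∈ S := by
  rw [aeval_def, ← eval_map, h, eval_prod, Finset.prod_eq_zero_iff]
  simp only [eval_sub, eval_X, eval_C, sub_eq_zero]
  constructor
  · rintro ⟨b, hb, rfl⟩; exact hb
  · intro hz; exact ⟨z, hz, rfl⟩

lemma isIntegral {z : L} (hz : z ∈ S) : IsIntegral F z :=
  ⟨P, h.monic, by rw [← aeval_def]; exact (h.aeval_eq_zero_iff z).2 hz⟩

lemma minpoly_dvd {z : L} (hz : z ∈ S) : minpoly F z ∣ P :=
  minpoly.dvd F z ((h.aeval_eq_zero_iff z).2 hz)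

lemma separable : P.Separable := by
  have h1 : (P.map (algebraMap F L)).Separable := by
    rw [h]
    refine separable_prod' ?_ fun b _ => separable_X_sub_C
    intro a ha b hb hab
    exact isCoprime_X_sub_C_of_isUnit_sub (sub_ne_zero.2 hab).isUnit
  exact (separable_map (algebraMap F L)).1 h1

lemma isSeparable {z : L} (hz : z ∈ S) : IsSeparable F z :=
  h.separable.of_dvd (h.minpoly_dvd hz)

lemma splits : (P.map (algebraMap F L)).Splits := by
  rw [h]
  exact Splits.prod fun b _ => Splits.X_sub_C b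

lemma minpoly_splits {z : L} (hz : z ∈ S) : ((minpoly F z).map (algebraMap F L)).Splits :=
  Splits.of_dvd h.splits (map_ne_zero h.ne_zero) (Polynomial.map_dvd _ (h.minpoly_dvd hz))

end SplitsAs

end Prod

section EmbCount

variable {F L : Type*} [Field F] [Field L] [Algebra F L]

/-- (A) The embedding count. `PN` splits in `L` with the distinct roots `SN ∋ y`; if for the
`F`-embeddings `σ` of `F⟮x, y⟯` into `L` the value `σ x` is determined by `σ y`, and
`[F⟮x, y⟯ : F] ≥ #SN`, then `PN` is irreducible. -/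
theorem irreducible_of_embedding_count {PN : F[X]} {SN : Finset L} (hPN : SplitsAs PN SN)
    {x y : L} (hx : IsIntegral F x) (hxs : IsSeparable F x)
    (hxsp : ((minpoly F x).map (algebraMap F L)).Splits) (hy : y ∈ SN)
    (hfun : ∀ σ σ' : F⟮x, y⟯ →ₐ[F] L,
      σ ⟨y, subset_adjoin F _ (by simp)⟩ = σ' ⟨y, subset_adjoin F _ (by simp)⟩ →
      σ ⟨x, subset_adjoin F _ (by simp)⟩ = σ' ⟨x, subset_adjoin F _ (by simp)⟩)
    (hdeg : SN.card ≤ Module.finrank F F⟮x, y⟯) : Irreducible PN := by
  have hyi : IsIntegral F y := hPN.isIntegral hy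
  have hys : IsSeparable F y := hPN.isSeparable hy
  haveI : FiniteDimensional F F⟮x, y⟯ := finiteDimensional_adjoin_pair hx hyi
  haveI : Algebra.IsSeparable F F⟮x, y⟯ := isSeparable_adjoin_pair_of_isSeparable F L hxs hys
  have hsplit : ∀ z : F⟮x, y⟯, ((minpoly F z).map (algebraMap F L)).Splits := by
    intro z
    have h1 : ((minpoly F (z : L)).map (algebraMap F L)).Splits := by
      refine IntermediateField.splits_of_mem_adjoin F L (S := {x, y}) ?_ z.2
      intro w hw
      rcases hw with rfl | hw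
      · exact ⟨hx, hxsp⟩
      · rw [Set.mem_singleton_iff] at hw
        subst hw
        exact ⟨hyi, hPN.minpoly_splits hy⟩
    rwa [← IntermediateField.minpoly_eq] at h1
  have hcard : Nat.card (F⟮x, y⟯ →ₐ[F] L) = Module.finrank F F⟮x, y⟯ :=
    AlgHom.natCard_of_splits F F⟮x, y⟯ L hsplit
  -- the map `σ ↦ σ y` into the roots of `minpoly F y`
  set m := minpoly F y with hm
  have hmne : m ≠ 0 := minpoly.ne_zero hyi
  let Φ : (F⟮x, y⟯ →ₐ[F] L) → m.rootSet L := fun σ =>
    ⟨σ ⟨y, subset_adjoin F _ (by simp)⟩, by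
      have : aeval (⟨y, subset_adjoin F _ (by simp)⟩ : F⟮x, y⟯) m = 0 := by
        apply (algebraMap F⟮x, y⟯ L).injective
        rw [map_zero, ← aeval_algebraMap_apply]
        exact minpoly.aeval F y
      rw [mem_rootSet_of_ne hmne, aeval_algHom_apply, this, map_zero]⟩
  have hΦ : Function.Injective Φ := by
    intro σ σ' h
    have hy' : σ ⟨y, subset_adjoin F _ (by simp)⟩ = σ' ⟨y, subset_adjoin F _ (by simp)⟩ :=
      congrArg Subtype.val h
    have hx' := hfun σ σ' hy'
    apply adjoin_algHom_ext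
    intro w hw
    rcases hw with rfl | hw
    · exact hx'
    · rw [Set.mem_singleton_iff] at hw
      subst hw
      exact hy'
  have h1 : Module.finrank F F⟮x, y⟯ ≤ Nat.card (m.rootSet L) := by
    rw [← hcard]
    exact Nat.card_le_card_of_injective Φ hΦ
  have h2 : Nat.card (m.rootSet L) ≤ m.natDegree := by
    rw [Nat.card_coe_set_eq]
    exact ncard_rootSet_le m L
  have hdvd : m ∣ PN := hPN.minpoly_dvd hy
  have h3 : PN.natDegree ≤ m.natDegree := by
    rw [hPN.natDegree_eq]; omega
  have heq : PN = m := by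
    obtain ⟨c, hc⟩ := hdvd
    have hcm : c.Monic := by
      have := hPN.monic
      rw [hc] at this
      exact (minpoly.monic hyi).of_mul_monic_left this
    have hdeg' : PN.natDegree = m.natDegree + c.natDegree := by
      rw [hc, (minpoly.monic hyi).natDegree_mul hcm]
    have hc0 : c.natDegree = 0 := by omega
    have hc1 : c = 1 := hcm.natDegree_eq_zero.1 hc0
    rw [hc, hc1, mul_one]
  rw [heq]
  exact minpoly.irreducible hyi

end EmbCount

section Orbit

variable {L : Type*} [Field L]

/-- If `τ` fixes the coefficients of `m.map s`, it maps roots to roots. -/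
lemma isRoot_map_of_fixed {E : Type*} [Field E] (m : E[X]) (s : E →+* L) (τ : L →+* L)
    (hτ : ∀ e, τ (s e) = s e) {z : L} (hz : (m.map s).IsRoot z) : (m.map s).IsRoot (τ z) := by
  have h1 : (m.map s).map τ = m.map s := by
    rw [Polynomial.map_map]
    congr 1
    ext e
    exact hτ e
  have h2 : ((m.map s).map τ).eval (τ z) = τ ((m.map s).eval z) := by
    rw [eval_map, eval₂_at_apply]
  rw [IsRoot.def, ← h1, h2, hz.eq_zero, map_zero]

/-- (B) The orbit lemma: `r` distinct elements `o 0 = z, o 1 = τ z, …` of a `τ`-orbit of a root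
of `m.map s` (`τ` fixing `s(E)`) force `r ≤ deg m`. -/
theorem le_natDegree_of_orbit {E : Type*} [Field E] (m : E[X]) (hm : m ≠ 0) (s : E →+* L)
    (τ : L →+* L) (hτ : ∀ e, τ (s e) = s e) (o : ℕ → L) (ho0 : (m.map s).IsRoot (o 0))
    (hoτ : ∀ i, τ (o i) = o (i + 1)) (r : ℕ) (hinj : Set.InjOn o (Finset.range r : Set ℕ)) :
    r ≤ m.natDegree := by
  classical
  have hroot : ∀ i, (m.map s).IsRoot (o i) := by
    intro i
    induction i with
    | zero => exact ho0
    | succ i ih => rw [← hoτ i]; exact isRoot_map_of_fixed m s τ hτ ih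
  have hne : m.map s ≠ 0 := (Polynomial.map_ne_zero_iff s.injective).2 hm
  have h1 : ((Finset.range r).image o).val ⊆ (m.map s).roots := by
    intro w hw
    rw [Finset.mem_val, Finset.mem_image] at hw
    obtain ⟨i, _, rfl⟩ := hw
    exact (mem_roots hne).2 (hroot i)
  have h2 := card_le_degree_of_subset_roots h1
  rw [Finset.card_image_of_injOn hinj, Finset.card_range, natDegree_map] at h2
  exact h2

end Orbit

section DegreeStep

variable {F L : Type*} [Field F] [Field L] [Algebra F L]

/-- (C1) Degree step, case `p ∣ M`: `s : E → L` an `F`-embedding (the cusp-0 embedding),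
`Ψ ∈ E[X]` with `Ψ(y) = 0` whose image under `s` has the distinct roots `T`; every root in
`T ∩ SN` has a `τ`-orbit with `p` distinct elements, `τ` fixing `s(E)`. Then
`p ≤ deg (minpoly E y)`. -/
theorem le_natDegree_minpoly_of_embedding {E : Type*} [Field E] [Algebra F E] [Algebra E L]
    [IsScalarTower F E L] {y : L} (hy : IsIntegral E y) (s : E →ₐ[F] L)
    {Ψ : E[X]} (hΨy : aeval y Ψ = 0) {T : Finset L}
    (hΨ : Ψ.map (s : E →+* L) = ∏ b ∈ T, (X - C b))
    {PN : F[X]} {SN : Finset L} (hPN : SplitsAs PN SN) (hySN : y ∈ SN)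
    (τ : L →+* L) (hτ : ∀ e : E, τ (s e) = s e) (p : ℕ)
    (horb : ∀ z ∈ T, z ∈ SN → ∃ o : ℕ → L, o 0 = z ∧ (∀ i, τ (o i) = o (i + 1)) ∧
      Set.InjOn o (Finset.range p : Set ℕ)) :
    p ≤ (minpoly E y).natDegree := by
  set m := minpoly E y with hm
  have hmne : m ≠ 0 := minpoly.ne_zero hy
  have hdvd1 : m ∣ Ψ := minpoly.dvd E y hΨy
  have hΨne : Ψ.map (s : E →+* L) ≠ 0 := by
    rw [hΨ]
    exact (monic_prod_of_monic _ _ fun b _ => monic_X_sub_C b).ne_zero
  have hsplitΨ : (Ψ.map (s : E →+* L)).Splits := by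
    rw [hΨ]; exact Splits.prod fun b _ => Splits.X_sub_C b
  have hms : (m.map (s : E →+* L)).Splits :=
    Splits.of_dvd hsplitΨ hΨne (Polynomial.map_dvd _ hdvd1)
  have hdeg : (m.map (s : E →+* L)).degree ≠ 0 := by
    rw [degree_map]
    exact (minpoly.degree_pos hy).ne'
  obtain ⟨z, hz⟩ := hms.exists_eval_eq_zero hdeg
  -- `z ∈ T`
  have hzT : z ∈ T := by
    have h1 : (Ψ.map (s : E →+* L)).eval z = 0 := by
      obtain ⟨c, hc⟩ := Polynomial.map_dvd (s : E →+* L) hdvd1
      rw [hc, eval_mul, hz, zero_mul]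
    rw [hΨ, eval_prod, Finset.prod_eq_zero_iff] at h1
    obtain ⟨b, hb, hb0⟩ := h1
    simp only [eval_sub, eval_X, eval_C, sub_eq_zero] at hb0
    rwa [hb0]
  -- `z ∈ SN`
  have hzSN : z ∈ SN := by
    have hdvd2 : m ∣ PN.map (algebraMap F E) := by
      apply minpoly.dvd E y
      rw [aeval_map_algebraMap]
      exact (hPN.aeval_eq_zero_iff y).2 hySN
    have h1 : ((PN.map (algebraMap F E)).map (s : E →+* L)).eval z = 0 := by
      obtain ⟨c, hc⟩ := Polynomial.map_dvd (s : E →+* L) hdvd2
      rw [hc, eval_mul, hz, zero_mul]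
    have h2 : (PN.map (algebraMap F E)).map (s : E →+* L) = PN.map (algebraMap F L) := by
      rw [Polynomial.map_map]
      congr 1
      ext a
      exact s.commutes a
    rw [h2] at h1
    rw [← hPN.aeval_eq_zero_iff, aeval_def, ← eval_map]
    exact h1
  obtain ⟨o, ho0, hoτ, hinj⟩ := horb z hzT hzSN
  exact le_natDegree_of_orbit m hmne (s : E →+* L) τ hτ o (by rw [ho0]; exact hz) hoτ p hinj

/-- (C2) Degree step, case `p ∤ M`: `Ψ ∈ E[X]` has the distinct roots `T ∋ y` in `L`, `y ∉ E`
(the general prime step), `τ` fixes `E` and `y`, every other root has a `τ`-orbit with `p`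
distinct elements. Then `p + 1 ≤ deg (minpoly E y)`. -/
theorem succ_le_natDegree_minpoly_of_orbit {E : Type*} [Field E] [Algebra E L] {y : L}
    (hyE : y ∉ (algebraMap E L).range) {Ψ : E[X]} {T : Finset L} (hΨ : SplitsAs Ψ T)
    (hyT : y ∈ T) (τ : L →+* L) (hτ : ∀ e : E, τ (algebraMap E L e) = algebraMap E L e)
    (hτy : τ y = y) (p : ℕ)
    (horb : ∀ z ∈ T, z ≠ y → ∃ o : ℕ → L, o 0 = z ∧ (∀ i, τ (o i) = o (i + 1)) ∧
      Set.InjOn o (Finset.range p : Set ℕ)) :
    p + 1 ≤ (minpoly E y).natDegree := by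
  classical
  have hy : IsIntegral E y := hΨ.isIntegral hyT
  set m := minpoly E y with hm
  have hmne : m ≠ 0 := minpoly.ne_zero hy
  have hdvd : m ∣ Ψ := hΨ.minpoly_dvd hyT
  have hms : (m.map (algebraMap E L)).Splits := hΨ.minpoly_splits hyT
  have hsep : (m.map (algebraMap E L)).Separable :=
    Polynomial.Separable.map (hΨ.isSeparable hyT)
  have hmne' : m.map (algebraMap E L) ≠ 0 := (Polynomial.map_ne_zero_iff (algebraMap E L).injective).2 hmne
  have hcard : (m.map (algebraMap E L)).roots.card = m.natDegree := by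
    rw [← hms.natDegree_eq_card_roots, natDegree_map]
  have hnodup : (m.map (algebraMap E L)).roots.Nodup := nodup_roots hsep
  have hdeg2 : 2 ≤ m.natDegree := by
    have h1 : m.natDegree ≠ 1 := fun h => hyE (minpoly.natDegree_eq_one_iff.1 h)
    have h0 : 0 < m.natDegree := minpoly.natDegree_pos hy
    omega
  have hyroot : y ∈ (m.map (algebraMap E L)).roots := by
    rw [mem_roots hmne', IsRoot.def, eval_map, ← aeval_def]
    exact minpoly.aeval E y
  -- a root `z ≠ y`
  obtain ⟨z, hzroot, hzy⟩ : ∃ z ∈ (m.map (algebraMap E L)).roots, z ≠ y := by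
    by_contra hcon
    replace hcon : ∀ w ∈ (m.map (algebraMap E L)).roots, w = y := by
      intro w hw
      by_contra hwy
      exact hcon ⟨w, hw, hwy⟩
    have h1 : (m.map (algebraMap E L)).roots.toFinset ⊆ {y} := by
      intro w hw
      rw [Multiset.mem_toFinset] at hw
      rw [Finset.mem_singleton]
      exact hcon w hw
    have h2 := Finset.card_le_card h1
    rw [Multiset.toFinset_card_of_nodup hnodup, hcard, Finset.card_singleton] at h2
    omega
  have hzT : z ∈ T := by
    rw [← hΨ.aeval_eq_zero_iff, aeval_def, ← eval_map]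
    have h1 : (m.map (algebraMap E L)).eval z = 0 := (mem_roots hmne').1 hzroot
    obtain ⟨c, hc⟩ := Polynomial.map_dvd (algebraMap E L) hdvd
    rw [hc, eval_mul, h1, zero_mul]
  obtain ⟨o, ho0, hoτ, hinj⟩ := horb z hzT hzy
  have hroot : ∀ i, (m.map (algebraMap E L)).IsRoot (o i) := by
    intro i
    induction i with
    | zero => rw [ho0]; exact (mem_roots hmne').1 hzroot
    | succ i ih => rw [← hoτ i]; exact isRoot_map_of_fixed m (algebraMap E L) τ hτ ih
  have hoy : ∀ i, o i ≠ y := by
    intro i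
    induction i with
    | zero => rw [ho0]; exact hzy
    | succ i ih =>
      rw [← hoτ i, ← hτy]
      exact fun h => ih (τ.injective h)
  have h1 : (insert y ((Finset.range p).image o)).val ⊆ (m.map (algebraMap E L)).roots := by
    intro w hw
    rw [Finset.mem_val, Finset.mem_insert, Finset.mem_image] at hw
    rcases hw with rfl | ⟨i, _, rfl⟩
    · exact hyroot
    · exact (mem_roots hmne').2 (hroot i)
  have h2 := card_le_degree_of_subset_roots h1
  rw [Finset.card_insert_of_notMem, Finset.card_image_of_injOn hinj, Finset.card_range,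
    natDegree_map] at h2
  · exact h2
  · intro hmem
    rw [Finset.mem_image] at hmem
    obtain ⟨i, _, hi⟩ := hmem
    exact hoy i hi

end DegreeStep

section Step

variable {F L : Type*} [Field F] [Field L] [Algebra F L]

lemma finrank_adjoin_pair {x y : L} (hx : IsIntegral F x) (hy : IsIntegral F y) :
    Module.finrank F F⟮x, y⟯ = (minpoly F x).natDegree * (minpoly F⟮x⟯ y).natDegree := by
  have hy' : IsIntegral F⟮x⟯ y := hy.tower_top
  rw [← adjoin.finrank hx, ← adjoin.finrank hy', ← adjoin_simple_adjoin_simple]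
  exact (Module.finrank_mul_finrank F F⟮x⟯ F⟮x⟯⟮y⟯).symm

/-- (D) One step of the induction: `PM` irreducible with roots `SM ∋ x`, `PN` with roots
`SN ∋ y`, `#SN ≤ #SM * r`, `r ≤ [F⟮x⟯⟮y⟯ : F⟮x⟯]`, and `σ x` determined by `σ y` for the
`F`-embeddings `σ : F⟮x, y⟯ → L`. Then `PN` is irreducible. -/
theorem irreducible_step {PM PN : F[X]} {SM SN : Finset L} (hPM : SplitsAs PM SM)
    (hPN : SplitsAs PN SN) (hirr : Irreducible PM) {x y : L} (hx : x ∈ SM) (hy : y ∈ SN)
    (hfun : ∀ σ σ' : F⟮x, y⟯ →ₐ[F] L,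
      σ ⟨y, subset_adjoin F _ (by simp)⟩ = σ' ⟨y, subset_adjoin F _ (by simp)⟩ →
      σ ⟨x, subset_adjoin F _ (by simp)⟩ = σ' ⟨x, subset_adjoin F _ (by simp)⟩)
    (r : ℕ) (hcard : SN.card ≤ SM.card * r) (hr : r ≤ (minpoly F⟮x⟯ y).natDegree) :
    Irreducible PN := by
  have hxi : IsIntegral F x := hPM.isIntegral hx
  have hyi : IsIntegral F y := hPN.isIntegral hy
  refine irreducible_of_embedding_count hPN hxi (hPM.isSeparable hx) (hPM.minpoly_splits hx) hy
    hfun ?_
  rw [finrank_adjoin_pair hxi hyi]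
  have h1 : PM = minpoly F x :=
    minpoly.eq_of_irreducible_of_monic hirr ((hPM.aeval_eq_zero_iff x).2 hx) hPM.monic
  rw [← h1, hPM.natDegree_eq]
  exact hcard.trans (Nat.mul_le_mul_left _ hr)

end Step

end Fermat.Agent.S28.H43
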