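/-
S28 project, package W2e-concrete (helper43): mini toolkit on the formal conjugates
`Jconj k ξ e = J(ξ t^e)`: coefficients, leading term, injectivity, behaviour under `twist` and
`subst`, and transport of two-variable relations along ring homomorphisms.
-/
import Mathlib
import Fermat.Prelude.Def_ModularCurve_X0ModL
import Fermat.Agent.S28.Defs
import Fermat.Agent.S28.Interface

set_option autoImplicit false

noncomputable section

namespace Fermat.Agent.S28.H43

open ModularCurve HahnSeries Polynomial Fermat.Agent.S28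

section Coeff

variable {R : Type*} [CommRing R]

theorem Jconj_coeff_mul (ξ : Rˣ) (e : ℕ) [NeZero e] (n : ℤ) :
    (Jconj R ξ e).coeff ((e : ℤ) * n) = ((ξ ^ n : Rˣ) : R) * (jqModC R).coeff n := by
  rw [Jconj, subst_coeff_mul]

theorem Jconj_coeff_of_not_dvd (ξ : Rˣ) (e : ℕ) [NeZero e] {n : ℤ} (hn : ¬ (e : ℤ) ∣ n) :
    (Jconj R ξ e).coeff n = 0 := by
  rw [Jconj, subst_coeff_of_not_dvd _ _ _ hn]

theorem Jconj_coeff_neg (ξ : Rˣ) (e : ℕ) [NeZero e] :
    (Jconj R ξ e).coeff (-(e : ℤ)) = ((ξ⁻¹ : Rˣ) : R) := by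
  have h : (-(e : ℤ)) = (e : ℤ) * (-1) := by ring
  rw [h, Jconj_coeff_mul, coeff_jqModC_neg_one, mul_one, zpow_neg_one]

theorem Jconj_coeff_of_lt (ξ : Rˣ) (e : ℕ) [NeZero e] {n : ℤ} (hn : n < -(e : ℤ)) :
    (Jconj R ξ e).coeff n = 0 := by
  by_cases hd : (e : ℤ) ∣ n
  · obtain ⟨m, rfl⟩ := hd
    rw [Jconj_coeff_mul]
    have he : (0 : ℤ) < e := by exact_mod_cast Nat.pos_of_ne_zero (NeZero.ne e)
    have hm : m < -1 := by
      by_contra hcon
      rw [not_lt] at hcon
      have : (e : ℤ) * (-1) ≤ (e : ℤ) * m := mul_le_mul_of_nonneg_left hcon he.le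
      linarith
    rw [coeff_jqModC_of_lt R hm, mul_zero]
  · exact Jconj_coeff_of_not_dvd ξ e hd

/-- `J(ξ t^e)` determines `e` and `ξ`. -/
theorem Jconj_injective [Nontrivial R] {ξ ξ' : Rˣ} {e e' : ℕ} [NeZero e] [NeZero e']
    (h : Jconj R ξ e = Jconj R ξ' e') : e = e' ∧ ξ = ξ' := by
  have key : ∀ {η η' : Rˣ} {f f' : ℕ} [NeZero f] [NeZero f'],
      Jconj R η f = Jconj R η' f' → ¬ f < f' := by
    intro η η' f f' _ _ hJ hlt
    have h1 : (Jconj R η f).coeff (-(f' : ℤ)) = 0 :=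
      Jconj_coeff_of_lt η f (by exact_mod_cast neg_lt_neg (by exact_mod_cast hlt))
    rw [hJ, Jconj_coeff_neg] at h1
    exact (η'⁻¹).ne_zero h1
  have hee : e = e' := by
    rcases lt_trichotomy e e' with hlt | heq | hgt
    · exact (key h hlt).elim
    · exact heq
    · exact (key h.symm hgt).elim
  subst hee
  refine ⟨rfl, ?_⟩
  have h1 := congrArg (fun x => HahnSeries.coeff x (-(e : ℤ))) h
  simp only [Jconj_coeff_neg] at h1
  exact inv_injective (Units.ext h1)

theorem twist_Jconj (η ξ : Rˣ) (e : ℕ) [NeZero e] :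
    twist η (Jconj R ξ e) = Jconj R (ξ * η ^ e) e := by
  ext n
  by_cases hd : (e : ℤ) ∣ n
  · obtain ⟨m, rfl⟩ := hd
    rw [twist_coeff, Jconj_coeff_mul, Jconj_coeff_mul, ← mul_assoc, ← Units.val_mul]
    congr 2
    rw [mul_zpow, ← zpow_natCast, ← zpow_mul, mul_comm]
  · rw [twist_coeff, Jconj_coeff_of_not_dvd _ _ hd, Jconj_coeff_of_not_dvd _ _ hd, mul_zero]

theorem twist_Jconj_of_pow_eq_one (η ξ : Rˣ) (e : ℕ) [NeZero e] (h : η ^ e = 1) :
    twist η (Jconj R ξ e) = Jconj R ξ e := by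
  rw [twist_Jconj, h, mul_one]

theorem qExpand_Jconj (f : ℕ) [NeZero f] (ξ : Rˣ) (e : ℕ) [NeZero e] [NeZero (f * e)] :
    qExpand R f (Jconj R ξ e) = Jconj R ξ (f * e) := by
  rw [Jconj, Jconj, subst_apply, subst_apply, qExpand_qExpand]

/-- `subst η f (J(ξ t^e)) = J(ξ η^e t^(f e))`. -/
theorem subst_Jconj (η : Rˣ) (f : ℕ) [NeZero f] (ξ : Rˣ) (e : ℕ) [NeZero e] [NeZero (f * e)] :
    subst η f (Jconj R ξ e) = Jconj R (ξ * η ^ e) (f * e) := by
  rw [subst_apply, twist_Jconj, qExpand_Jconj]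

theorem Jconj_congr {ξ ξ' : Rˣ} {e e' : ℕ} [NeZero e] [NeZero e'] (hξ : ξ = ξ') (he : e = e') :
    Jconj R ξ e = Jconj R ξ' e' := by
  subst hξ; subst he; rfl

theorem twist_C (η : Rˣ) (c : R) : twist η (HahnSeries.C c) = HahnSeries.C c := by
  ext n
  rw [twist_coeff, HahnSeries.C_apply, HahnSeries.coeff_single]
  split_ifs with h
  · subst h; simp
  · simp

end Coeff

section Rel

/-- Evaluate an integer polynomial at an element of any commutative ring. -/
def evalZ {A : Type*} [CommRing A] (a : A) : ℤ[X] →+* A := (Polynomial.aeval (R := ℤ) a).toRingHom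

theorem evalJ_eq_evalZ {R : Type*} [CommRing R] (x : LaurentSeries R) : evalJ x = evalZ x := by
  refine Polynomial.ringHom_ext' (Subsingleton.elim _ _) ?_
  simp [evalJ, evalZ]

theorem comp_evalZ {A B : Type*} [CommRing A] [CommRing B] (f : A →+* B) (a : A) :
    f.comp (evalZ a) = evalZ (f a) := by
  refine Polynomial.ringHom_ext' (Subsingleton.elim _ _) ?_
  simp [evalZ]

theorem map_evalZ {A B : Type*} [CommRing A] [CommRing B] (f : A →+* B) (a : A) (P : ℤ[X]) :
    f (evalZ a P) = evalZ (f a) P :=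
  congrArg (fun g : ℤ[X] →+* B => g P) (comp_evalZ f a)

/-- Two-variable relations are transported by ring homomorphisms. -/
theorem map_eval₂_evalZ {A B : Type*} [CommRing A] [CommRing B] (f : A →+* B)
    (Φ : Polynomial ℤ[X]) (a b : A) :
    f (Φ.eval₂ (evalZ a) b) = Φ.eval₂ (evalZ (f a)) (f b) := by
  rw [Polynomial.hom_eval₂, comp_evalZ]

theorem map_map_evalZ {A B : Type*} [CommRing A] [CommRing B] (f : A →+* B)
    (Φ : Polynomial ℤ[X]) (a : A) :
    (Φ.map (evalZ a)).map f = Φ.map (evalZ (f a)) := by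
  rw [Polynomial.map_map, comp_evalZ]

end Rel

end Fermat.Agent.S28.H43
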