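/-
S28 project, package W2e-concrete (helper43): the concrete step of the induction
`Φ_M irreducible ⇒ Φ_{pM} irreducible` over `k(J)`, inside `L = k((t))`, `q = t^N`.
-/
import Mathlib
import Fermat.Prelude.Def_ModularCurve_X0ModL
import Fermat.Agent.S28.Defs
import Fermat.Agent.S28.Interface
import Fermat.Agent.S28.H64_Triples
import Fermat.Agent.S28.H43_EmbCount
import Fermat.Agent.S28.H43_Toolkit

set_option autoImplicit false

noncomputable section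

namespace Fermat.Agent.S28.H43

open ModularCurve Polynomial IntermediateField Fermat.Agent.S28

section PolyLemma

/-- A monic polynomial of degree `#S` vanishing on the finite set `S` is `∏_{b ∈ S} (X - b)`. -/
theorem eq_prod_X_sub_C_of_roots {L : Type*} [Field L] {Q : L[X]} (hQ : Q.Monic) (S : Finset L)
    (hcard : Q.natDegree = S.card) (hroot : ∀ b ∈ S, Q.eval b = 0) :
    Q = ∏ b ∈ S, (X - C b) := by
  have hle : S.val ≤ Q.roots := by
    rw [Multiset.le_iff_subset S.nodup]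
    intro b hb
    exact (mem_roots hQ.ne_zero).2 (hroot b hb)
  have hdvd : (S.val.map fun a => X - C a).prod ∣ Q :=
    (Multiset.prod_X_sub_C_dvd_iff_le_roots hQ.ne_zero S.val).2 hle
  have hprod : (S.val.map fun a => X - C a).prod = ∏ b ∈ S, (X - C b) := rfl
  rw [hprod] at hdvd
  have hmonic : (∏ b ∈ S, (X - C b) : L[X]).Monic :=
    monic_prod_of_monic _ _ fun b _ => monic_X_sub_C b
  have hdeg : (∏ b ∈ S, (X - C b) : L[X]).natDegree = S.card := by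
    rw [natDegree_prod_of_monic _ _ fun b _ => monic_X_sub_C b]
    simp
  exact eq_of_monic_of_dvd_of_natDegree_le hmonic hQ hdvd (by rw [hcard, hdeg])

end PolyLemma

section JJ

variable {k : Type*} [Field k]

/-- `J(ξ t^e)`, total in `e` (junk value `0` for `e = 0`). -/
def JJ (ξ : kˣ) (e : ℕ) : LaurentSeries k :=
  if h : e = 0 then 0 else haveI : NeZero e := ⟨h⟩; Jconj k ξ e

theorem JJ_eq (ξ : kˣ) (e : ℕ) [NeZero e] : JJ ξ e = Jconj k ξ e := by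
  unfold JJ; rw [dif_neg (NeZero.ne e)]

theorem JJ_zero (ξ : kˣ) : JJ ξ 0 = 0 := by
  unfold JJ; rw [dif_pos rfl]

theorem JJ_injective {ξ ξ' : kˣ} {e e' : ℕ} (he : e ≠ 0) (he' : e' ≠ 0)
    (h : JJ ξ e = JJ ξ' e') : e = e' ∧ ξ = ξ' := by
  haveI : NeZero e := ⟨he⟩
  haveI : NeZero e' := ⟨he'⟩
  rw [JJ_eq, JJ_eq] at h
  exact Jconj_injective h

theorem twist_JJ (η ξ : kˣ) (e : ℕ) : twist η (JJ ξ e) = JJ (ξ * η ^ e) e := by
  rcases Nat.eq_zero_or_pos e with rfl | he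
  · rw [JJ_zero, JJ_zero, map_zero]
  · haveI : NeZero e := ⟨he.ne'⟩
    rw [JJ_eq, JJ_eq, twist_Jconj]

theorem subst_JJ (η : kˣ) (f : ℕ) [NeZero f] (ξ : kˣ) (e : ℕ) :
    subst η f (JJ ξ e) = JJ (ξ * η ^ e) (f * e) := by
  rcases Nat.eq_zero_or_pos e with rfl | he
  · rw [mul_zero, JJ_zero, JJ_zero, map_zero]
  · haveI : NeZero e := ⟨he.ne'⟩
    haveI : NeZero (f * e) := ⟨mul_ne_zero (NeZero.ne f) he.ne'⟩
    rw [JJ_eq, JJ_eq, subst_Jconj]

theorem subst_one_eq_qExpand (f : ℕ) [NeZero f] (x : LaurentSeries k) :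
    subst 1 f x = qExpand k f x := by
  rw [subst_apply]
  congr 1
  ext n
  simp

theorem JJ_congr {ξ ξ' : kˣ} {e e' : ℕ} (hξ : ξ = ξ') (he : e = e') : JJ ξ e = JJ ξ' e' := by
  subst hξ; subst he; rfl

theorem qExpand_jqModC_eq_JJ (e : ℕ) [NeZero e] : qExpand k e (jqModC k) = JJ 1 e := by
  rw [JJ_eq, Jconj_one]

/-- The conjugate `J(ζ_d^b q^(a/d))`, `q = t^N`, `ζ_d = ζ^(N/d)`, of a Hermite triple
`g = (a, b, d)` with `d ∣ N`. -/
def JN (N : ℕ) (ζ : kˣ) (g : ℕ × ℕ × ℕ) : LaurentSeries k :=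
  JJ (ζ ^ ((N / g.2.2) * g.2.1)) ((N / g.2.2) * g.1)

theorem JN_mk (N : ℕ) (ζ : kˣ) (a b d : ℕ) :
    JN N ζ (a, b, d) = JJ (ζ ^ ((N / d) * b)) ((N / d) * a) := rfl

/-- `g ↦ J_g` is injective on Hermite triples of a fixed determinant `m ∣ N`. -/
theorem JN_injOn {N : ℕ} [NeZero N] {ζ : kˣ} (hζ : IsPrimitiveRoot ζ N) {m : ℕ} (hm : m ∣ N)
    {g g' : ℕ × ℕ × ℕ} (hg : g.1 * g.2.2 = m) (hg' : g'.1 * g'.2.2 = m)
    (hb : g.2.1 < g.2.2) (hb' : g'.2.1 < g'.2.2) (h : JN N ζ g = JN N ζ g') : g = g' := by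
  obtain ⟨a, b, d⟩ := g
  obtain ⟨a', b', d'⟩ := g'
  simp only at hg hg' hb hb'
  have hN : N ≠ 0 := NeZero.ne N
  have hm0 : m ≠ 0 := fun h0 => hN (by rw [h0] at hm; exact Nat.eq_zero_of_zero_dvd hm)
  have ha : a ≠ 0 := fun h0 => hm0 (by rw [← hg, h0, zero_mul])
  have hd : d ≠ 0 := fun h0 => hm0 (by rw [← hg, h0, mul_zero])
  have ha' : a' ≠ 0 := fun h0 => hm0 (by rw [← hg', h0, zero_mul])
  have hd' : d' ≠ 0 := fun h0 => hm0 (by rw [← hg', h0, mul_zero])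
  have hdN : d ∣ N := (Dvd.intro_left a hg).trans hm
  have hdN' : d' ∣ N := (Dvd.intro_left a' hg').trans hm
  obtain ⟨n, hn⟩ := hdN
  obtain ⟨n', hn'⟩ := hdN'
  have hn0 : n ≠ 0 := fun h0 => hN (by rw [hn, h0, mul_zero])
  have hn0' : n' ≠ 0 := fun h0 => hN (by rw [hn', h0, mul_zero])
  have hNd : N / d = n := by rw [hn]; exact Nat.mul_div_cancel_left n (Nat.pos_of_ne_zero hd)
  have hNd' : N / d' = n' := by rw [hn']; exact Nat.mul_div_cancel_left n' (Nat.pos_of_ne_zero hd')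
  rw [JN_mk, JN_mk, hNd, hNd'] at h
  obtain ⟨he, hξ⟩ := JJ_injective (mul_ne_zero hn0 ha) (mul_ne_zero hn0' ha') h
  -- `a d' = a' d`
  have h1 : a * d' = a' * d := by
    have : N * (a * d') = N * (a' * d) := by
      calc N * (a * d') = (n * a) * (d * d') := by rw [hn]; ring
        _ = (n' * a') * (d * d') := by rw [he]
        _ = N * (a' * d) := by rw [hn']; ring
    exact Nat.eq_of_mul_eq_mul_left (Nat.pos_of_ne_zero hN) this
  have haa : a = a' := by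
    have h2 : a * a * (d * d') = a' * a' * (d * d') := by
      calc a * a * (d * d') = (a * d') * (a * d) := by ring
        _ = (a' * d) * (a' * d') := by rw [h1, hg, hg']
        _ = a' * a' * (d * d') := by ring
    have h3 : a * a = a' * a' :=
      Nat.eq_of_mul_eq_mul_right (Nat.pos_of_ne_zero (mul_ne_zero hd hd')) h2
    exact Nat.mul_self_inj.1 h3
  subst haa
  have hdd : d = d' := Nat.eq_of_mul_eq_mul_left (Nat.pos_of_ne_zero ha) (hg.trans hg'.symm)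
  subst hdd
  have hnn : n = n' := Nat.eq_of_mul_eq_mul_left (Nat.pos_of_ne_zero hd) (hn.symm.trans hn')
  subst hnn
  have hlt : n * b < N := by rw [hn, mul_comm d n]; exact Nat.mul_lt_mul_of_pos_left hb (Nat.pos_of_ne_zero hn0)
  have hlt' : n * b' < N := by rw [hn, mul_comm d n]; exact Nat.mul_lt_mul_of_pos_left hb' (Nat.pos_of_ne_zero hn0)
  have h4 : n * b = n * b' := hζ.pow_inj hlt hlt' hξ
  have hbb : b = b' := Nat.eq_of_mul_eq_mul_left (Nat.pos_of_ne_zero hn0) h4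
  subst hbb
  rfl

end JJ

section Field0

variable {k : Type*} [Field k] (N : ℕ) [NeZero N]

/-- `J(t^N) = J(q)`. -/
def J0 : LaurentSeries k := qExpand k N (jqModC k)

theorem J0_eq_JJ : J0 (k := k) N = JJ 1 N := qExpand_jqModC_eq_JJ N

/-- `k(J(q))` inside `k((t))`. -/
abbrev F0 : IntermediateField k (LaurentSeries k) := IntermediateField.adjoin k {J0 (k := k) N}

/-- `J(q)` as an element of `k(J(q))`. -/
def J0F : F0 (k := k) N := ⟨J0 N, IntermediateField.mem_adjoin_simple_self k _⟩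

/-- The image of `Φ ∈ ℤ[Y][X]` in `k(J(q))[X]`. -/
def polyF (Φ : Polynomial ℤ[X]) : Polynomial (F0 (k := k) N) := Φ.map (evalZ (J0F N))

theorem polyF_map (Φ : Polynomial ℤ[X]) :
    (polyF (k := k) N Φ).map (algebraMap (F0 (k := k) N) (LaurentSeries k)) =
      Φ.map (evalZ (J0 (k := k) N)) := by
  rw [polyF, map_map_evalZ]; rfl

theorem polyF_monic {Φ : Polynomial ℤ[X]} (h : Φ.Monic) : (polyF (k := k) N Φ).Monic :=
  h.map _

theorem polyF_natDegree {Φ : Polynomial ℤ[X]} (h : Φ.Monic) :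
    (polyF (k := k) N Φ).natDegree = Φ.natDegree :=
  h.natDegree_map _

variable {N}

/-- Transport of `RootsAt k m (ζ^(N/m)) Φ` (native variable `s`, `s^m = q`) to the variable `t`,
`t^N = q` (`s = t^(N/m)`). -/
theorem eval₂_JN_eq_zero {ζ : kˣ} {m : ℕ} [NeZero m] (hm : m ∣ N) {Φ : Polynomial ℤ[X]}
    (hΦ : RootsAt k m (ζ ^ (N / m)) Φ) {g : ℕ × ℕ × ℕ} (hg : g ∈ triples m) :
    Φ.eval₂ (evalZ (J0 (k := k) N)) (JN N ζ g) = 0 := by
  obtain ⟨a, b, d⟩ := g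
  have hm0 : 0 < m := Nat.pos_of_ne_zero (NeZero.ne m)
  have hprim : IsPrimTriple m a b d := (mem_triples hm0).1 hg
  obtain ⟨ha, hd⟩ := H64.IsPrimTriple.pos hm0 hprim
  obtain ⟨f, hf⟩ := hm
  have hf0 : f ≠ 0 := fun h0 => NeZero.ne N (by rw [hf, h0, mul_zero])
  haveI : NeZero f := ⟨hf0⟩
  have hNm : N / m = f := by rw [hf]; exact Nat.mul_div_cancel_left f hm0
  have had : a * d = m := hprim.1
  have hNd : N / d = f * a := by
    have : N = d * (f * a) := by rw [hf, ← had]; ring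
    rw [this]; exact Nat.mul_div_cancel_left _ hd
  haveI hne : NeZero (a * a) := ⟨mul_ne_zero ha.ne' ha.ne'⟩
  have h1 := hΦ a b d hprim hne
  rw [evalJ_eq_evalZ] at h1
  have h2 := congrArg (qExpand k f) h1
  rw [map_eval₂_evalZ, map_zero, qExpand_qExpand] at h2
  have hJ0 : qExpand k (f * m) (jqModC k) = J0 (k := k) N := by
    unfold J0
    haveI : NeZero (f * m) := ⟨mul_ne_zero hf0 hm0.ne'⟩
    exact qExpand_congr (by rw [hf, mul_comm]) _
  rw [hJ0] at h2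
  have hJg : qExpand k f (Jconj k ((ζ ^ (N / m)) ^ (a * b)) (a * a)) = JN N ζ (a, b, d) := by
    rw [← JJ_eq, ← subst_one_eq_qExpand, subst_JJ, JN_mk, hNd, hNm]
    refine JJ_congr ?_ (by ring)
    rw [one_pow, mul_one, ← pow_mul]
    congr 1
    ring
  rw [hJg] at h2
  exact h2

theorem triples_fst_mul {m : ℕ} (hm : 0 < m) {g : ℕ × ℕ × ℕ} (hg : g ∈ triples m) :
    g.1 * g.2.2 = m ∧ g.2.1 < g.2.2 := by
  have h := (mem_triples hm).1 hg
  exact ⟨h.1, h.2.1⟩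

theorem JN_injOn_triples {ζ : kˣ} (hζ : IsPrimitiveRoot ζ N) {m : ℕ} (hm : m ∣ N) :
    Set.InjOn (JN (k := k) N ζ) (triples m : Set (ℕ × ℕ × ℕ)) := by
  have hm0 : 0 < m := Nat.pos_of_ne_zero fun h0 =>
    NeZero.ne N (by rw [h0] at hm; exact Nat.eq_zero_of_zero_dvd hm)
  intro g hg g' hg' h
  obtain ⟨h1, h2⟩ := triples_fst_mul hm0 hg
  obtain ⟨h1', h2'⟩ := triples_fst_mul hm0 hg'
  exact JN_injOn hζ hm h1 h1' h2 h2' h

variable (N) in
/-- The finite set of level-`m` conjugates `J_g`, `g ∈ triples m`. -/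
def conjSet (ζ : kˣ) (m : ℕ) : Finset (LaurentSeries k) := by
  classical exact (triples m).image (JN N ζ)

theorem mem_conjSet {ζ : kˣ} {m : ℕ} {z : LaurentSeries k} :
    z ∈ conjSet N ζ m ↔ ∃ g ∈ triples m, JN N ζ g = z := by
  classical
  unfold conjSet
  rw [Finset.mem_image]

theorem JN_mem_conjSet {ζ : kˣ} {m : ℕ} {g : ℕ × ℕ × ℕ} (hg : g ∈ triples m) :
    JN N ζ g ∈ conjSet (k := k) N ζ m := mem_conjSet.2 ⟨g, hg, rfl⟩

theorem card_conjSet {ζ : kˣ} (hζ : IsPrimitiveRoot ζ N) {m : ℕ} (hm : m ∣ N) :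
    (conjSet (k := k) N ζ m).card = (triples m).card := by
  classical
  unfold conjSet
  exact Finset.card_image_of_injOn (JN_injOn_triples hζ hm)

/-- The level-`m` polynomial splits in `k((t))` with the distinct roots `J_g`, `g ∈ triples m`. -/
theorem splitsAs_level {ζ : kˣ} (hζ : IsPrimitiveRoot ζ N) {m : ℕ} [NeZero m] (hm : m ∣ N)
    {Φ : Polynomial ℤ[X]} (hmonic : Φ.Monic) (hdeg : Φ.natDegree = (triples m).card)
    (hΦ : RootsAt k m (ζ ^ (N / m)) Φ) :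
    SplitsAs (polyF (k := k) N Φ) (conjSet N ζ m) := by
  unfold SplitsAs
  rw [polyF_map]
  refine eq_prod_X_sub_C_of_roots (hmonic.map _) _ ?_ ?_
  · rw [hmonic.natDegree_map, hdeg, card_conjSet hζ hm]
  · intro z hz
    obtain ⟨g, hg, rfl⟩ := mem_conjSet.1 hz
    rw [eval_map]
    exact eval₂_JN_eq_zero hm hΦ hg

/-- The roots of `Φ_p(X, J_c)`: for `c ∈ triples M`, `p M ∣ N`, `α ∈ triples p` the conjugate
`J_{α c}` is a root (transport of `RootsAt k p ζ_p Φ_p` along `s ↦ ζ_{pd}^b t^(N a/(p d))`). -/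
theorem eval₂_JN_tmul_eq_zero {ζ : kˣ} (hζ : IsPrimitiveRoot ζ N) {p M : ℕ} [NeZero p]
    (hp : p.Prime) (hpM : p * M ∣ N) {Φp : Polynomial ℤ[X]} (hΦp : RootsAt k p (ζ ^ (N / p)) Φp)
    {c : ℕ × ℕ × ℕ} (hc : c ∈ triples M) {α : ℕ × ℕ × ℕ} (hα : α ∈ triples p) :
    Φp.eval₂ (evalZ (JN (k := k) N ζ c)) (JN N ζ (H64.tmul α c)) = 0 := by
  obtain ⟨a, b, d⟩ := c
  have hN : N ≠ 0 := NeZero.ne N
  have hM0 : 0 < M := Nat.pos_of_ne_zero fun h0 =>
    hN (by rw [h0, mul_zero] at hpM; exact Nat.eq_zero_of_zero_dvd hpM)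
  have hprim : IsPrimTriple M a b d := (mem_triples hM0).1 hc
  obtain ⟨ha, hd⟩ := H64.IsPrimTriple.pos hM0 hprim
  have had : a * d = M := hprim.1
  have hb : b < d := hprim.2.1
  -- `N = p * d * n₀`
  have hpdN : p * d ∣ N := (Nat.mul_dvd_mul_left p (Dvd.intro_left a had)).trans hpM
  obtain ⟨n₀, hn₀⟩ := hpdN
  have hn₀0 : n₀ ≠ 0 := fun h0 => hN (by rw [hn₀, h0, mul_zero])
  have hNd : N / d = p * n₀ := by
    have : N = d * (p * n₀) := by rw [hn₀]; ring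
    rw [this]; exact Nat.mul_div_cancel_left _ hd
  have hNp : N / p = d * n₀ := by
    have : N = p * (d * n₀) := by rw [hn₀]; ring
    rw [this]; exact Nat.mul_div_cancel_left _ hp.pos
  have hNpd : N / (p * d) = n₀ := by
    rw [hn₀]; exact Nat.mul_div_cancel_left _ (Nat.mul_pos hp.pos hd)
  have hζN : ζ ^ N = 1 := hζ.pow_eq_one
  -- the substitution `s ↦ ξ t^e`
  set ξ : kˣ := ζ ^ (n₀ * b) with hξ
  set e : ℕ := n₀ * a with he
  have he0 : e ≠ 0 := mul_ne_zero hn₀0 ha.ne'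
  haveI : NeZero e := ⟨he0⟩
  -- the image of `J(s^p)` is `J_c`
  have hbase : subst ξ e (qExpand k p (jqModC k)) = JN N ζ (a, b, d) := by
    rw [qExpand_jqModC_eq_JJ, subst_JJ, JN_mk, hNd]
    refine JJ_congr ?_ (by rw [he]; ring)
    rw [one_mul, hξ, ← pow_mul]
    congr 1
    ring
  have hαprim : IsPrimTriple p α.1 α.2.1 α.2.2 := (mem_triples hp.pos).1 hα
  obtain ⟨a', b', d'⟩ := α
  simp only at hαprim
  have ha'0 : a' ≠ 0 := (H64.IsPrimTriple.pos hp.pos hαprim).1.ne'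
  haveI hne : NeZero (a' * a') := ⟨mul_ne_zero ha'0 ha'0⟩
  have h1 := hΦp a' b' d' hαprim hne
  rw [evalJ_eq_evalZ] at h1
  have h2 := congrArg (subst ξ e) h1
  rw [map_eval₂_evalZ, map_zero, hbase] at h2
  convert h2 using 2
  -- identify the image of the root
  rw [← JJ_eq, subst_JJ]
  rcases (H64.isPrimTriple_prime_iff hp).1 hαprim with ⟨h1, h2, h3⟩ | ⟨h1, hb', h3⟩
  · -- `α = (p, 0, 1)`
    subst a' b' d'
    rw [H64.tmul_top, JN_mk, hNd]
    refine JJ_congr ?_ (by rw [he]; ring)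
    rw [mul_zero, pow_zero, one_mul, hξ, ← pow_mul]
    -- `ζ^(p n₀ ((p b) % d)) = ζ^(n₀ b p p)`
    have hmod : p * b = d * (p * b / d) + p * b % d := (Nat.div_add_mod _ _).symm
    have h3 : p * n₀ * (p * b) = N * (p * b / d) + p * n₀ * (p * b % d) := by
      conv_lhs => rw [hmod]
      rw [hn₀]; ring
    have h4 : ζ ^ (p * n₀ * (p * b)) = ζ ^ (p * n₀ * (p * b % d)) := by
      rw [h3, pow_add, pow_mul, hζN, one_pow, one_mul]
    rw [← h4]
    congr 1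
    ring
  · -- `α = (1, b', p)`
    subst a' d'
    rw [H64.tmul_bot hb hb', JN_mk, hNpd]
    refine JJ_congr ?_ (by rw [he]; ring)
    rw [hNp, hξ, one_mul, mul_one, pow_one, ← pow_mul, ← pow_add]
    congr 1
    ring

variable (N) in
/-- The finite set of roots `J_{α c}`, `α ∈ triples p`, of `Φ_p(X, J_c)`. -/
def nbrSet (ζ : kˣ) (p : ℕ) (c : ℕ × ℕ × ℕ) : Finset (LaurentSeries k) := by
  classical exact (triples p).image (fun α => JN N ζ (H64.tmul α c))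

theorem mem_nbrSet {ζ : kˣ} {p : ℕ} {c : ℕ × ℕ × ℕ} {z : LaurentSeries k} :
    z ∈ nbrSet N ζ p c ↔ ∃ α ∈ triples p, JN N ζ (H64.tmul α c) = z := by
  classical
  unfold nbrSet
  rw [Finset.mem_image]

theorem tmul_hermite {p M : ℕ} (hp : p.Prime) (hM : 0 < M) {c α : ℕ × ℕ × ℕ}
    (hc : c ∈ triples M) (hα : α ∈ triples p) :
    (H64.tmul α c).1 * (H64.tmul α c).2.2 = p * M ∧ (H64.tmul α c).2.1 < (H64.tmul α c).2.2 := by
  obtain ⟨h1, h2⟩ := triples_fst_mul hM hc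
  obtain ⟨h1', h2'⟩ := triples_fst_mul hp.pos hα
  refine ⟨by rw [H64.tmul_det, h1, h1'], H64.tmul_lt ?_ ?_⟩
  · exact Nat.pos_of_ne_zero fun h0 => by rw [h0] at h2'; exact Nat.not_lt_zero _ h2'
  · exact Nat.pos_of_ne_zero fun h0 => by rw [h0] at h2; exact Nat.not_lt_zero _ h2

theorem JN_tmul_injOn {ζ : kˣ} (hζ : IsPrimitiveRoot ζ N) {p M : ℕ} (hp : p.Prime)
    (hpM : p * M ∣ N) {c : ℕ × ℕ × ℕ} (hc : c ∈ triples M) :
    Set.InjOn (fun α => JN (k := k) N ζ (H64.tmul α c)) (triples p : Set (ℕ × ℕ × ℕ)) := by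
  have hM0 : 0 < M := Nat.pos_of_ne_zero fun h0 =>
    NeZero.ne N (by rw [h0, mul_zero] at hpM; exact Nat.eq_zero_of_zero_dvd hpM)
  intro α hα α' hα' h
  obtain ⟨h1, h2⟩ := tmul_hermite hp hM0 hc hα
  obtain ⟨h1', h2'⟩ := tmul_hermite hp hM0 hc hα'
  have h3 : H64.tmul α c = H64.tmul α' c := JN_injOn hζ hpM h1 h1' h2 h2' h
  exact H64.tmul_injOn_prime hp hM0 hc hα hα' h3

/-- `Φ_p(X, J_c) = ∏_{α ∈ triples p} (X - J_{α c})`. -/
theorem map_evalZ_JN_eq_prod {ζ : kˣ} (hζ : IsPrimitiveRoot ζ N) {p M : ℕ} [NeZero p]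
    (hp : p.Prime) (hpM : p * M ∣ N) {Φp : Polynomial ℤ[X]} (hmonic : Φp.Monic)
    (hdeg : Φp.natDegree = (triples p).card) (hΦp : RootsAt k p (ζ ^ (N / p)) Φp)
    {c : ℕ × ℕ × ℕ} (hc : c ∈ triples M) :
    Φp.map (evalZ (JN (k := k) N ζ c)) = ∏ z ∈ nbrSet N ζ p c, (X - C z) := by
  classical
  refine eq_prod_X_sub_C_of_roots (hmonic.map _) _ ?_ ?_
  · rw [hmonic.natDegree_map, hdeg]
    unfold nbrSet
    exact (Finset.card_image_of_injOn (JN_tmul_injOn hζ hp hpM hc)).symm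
  · intro z hz
    obtain ⟨α, hα, rfl⟩ := mem_nbrSet.1 hz
    rw [eval_map]
    exact eval₂_JN_tmul_eq_zero hζ hp hpM hΦp hc hα

theorem mem_nbrSet_of_eval₂_eq_zero {ζ : kˣ} (hζ : IsPrimitiveRoot ζ N) {p M : ℕ} [NeZero p]
    (hp : p.Prime) (hpM : p * M ∣ N) {Φp : Polynomial ℤ[X]} (hmonic : Φp.Monic)
    (hdeg : Φp.natDegree = (triples p).card) (hΦp : RootsAt k p (ζ ^ (N / p)) Φp)
    {c : ℕ × ℕ × ℕ} (hc : c ∈ triples M) {z : LaurentSeries k}
    (hz : Φp.eval₂ (evalZ (JN (k := k) N ζ c)) z = 0) : z ∈ nbrSet N ζ p c := by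
  have h1 : (Φp.map (evalZ (JN (k := k) N ζ c))).eval z = 0 := by rw [eval_map]; exact hz
  rw [map_evalZ_JN_eq_prod hζ hp hpM hmonic hdeg hΦp hc, eval_prod,
    Finset.prod_eq_zero_iff] at h1
  obtain ⟨w, hw, hw0⟩ := h1
  simp only [eval_sub, eval_X, eval_C, sub_eq_zero] at hw0
  rwa [hw0]

end Field0

section Pair

variable {k : Type*} [Field k] {N : ℕ} [NeZero N]

/-- `x = J(q^M)`. -/
def xM (N : ℕ) (ζ : kˣ) (M : ℕ) : LaurentSeries k := JN N ζ (M, 0, 1)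

theorem tmul_top_base (p M : ℕ) : H64.tmul (p, 0, 1) (M, 0, 1) = (p * M, 0, 1) := by
  rw [H64.tmul_top]; simp

theorem base_mem_triples {m : ℕ} (hm : 0 < m) : ((m, 0, 1) : ℕ × ℕ × ℕ) ∈ triples m := by
  rw [mem_triples hm]
  exact ⟨mul_one m, Nat.one_pos, by simp⟩

/-- `Φ_p(J(q^(pM)), J(q^M)) = 0`. -/
theorem eval₂_xM {ζ : kˣ} (hζ : IsPrimitiveRoot ζ N) {p M : ℕ} [NeZero p]
    (hp : p.Prime) (hpM : p * M ∣ N) {Φp : Polynomial ℤ[X]}
    (hΦp : RootsAt k p (ζ ^ (N / p)) Φp) :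
    Φp.eval₂ (evalZ (xM (k := k) N ζ M)) (xM N ζ (p * M)) = 0 := by
  have hM0 : 0 < M := Nat.pos_of_ne_zero fun h0 =>
    NeZero.ne N (by rw [h0, mul_zero] at hpM; exact Nat.eq_zero_of_zero_dvd hpM)
  have h := eval₂_JN_tmul_eq_zero hζ hp hpM hΦp (base_mem_triples hM0)
    (base_mem_triples hp.pos)
  rw [tmul_top_base] at h
  exact h

/-- The image of `(x, y) = (J(q^M), J(q^(pM)))` under a `k(J)`-embedding of `k(J)(x, y)` into
`k((t))` is `(J_c, J_{α c})` with `c ∈ triples M`, `α ∈ triples p` and `α c` primitive. -/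
theorem embedding_pair {ζ : kˣ} (hζ : IsPrimitiveRoot ζ N) {p M : ℕ} [NeZero p]
    (hp : p.Prime) (hpM : p * M ∣ N) {ΦM ΦN Φp : Polynomial ℤ[X]}
    (hSM : SplitsAs (polyF (k := k) N ΦM) (conjSet N ζ M))
    (hSN : SplitsAs (polyF (k := k) N ΦN) (conjSet N ζ (p * M)))
    (hmonic : Φp.Monic) (hdeg : Φp.natDegree = (triples p).card)
    (hΦp : RootsAt k p (ζ ^ (N / p)) Φp)
    (σ : (F0 (k := k) N)⟮xM N ζ M, xM N ζ (p * M)⟯ →ₐ[F0 (k := k) N] LaurentSeries k) :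
    ∃ c ∈ triples M, ∃ α ∈ triples p, H64.tmul α c ∈ triples (p * M) ∧
      σ ⟨xM N ζ M, subset_adjoin _ _ (by simp)⟩ = JN N ζ c ∧
      σ ⟨xM N ζ (p * M), subset_adjoin _ _ (by simp)⟩ = JN N ζ (H64.tmul α c) := by
  have hM0 : 0 < M := Nat.pos_of_ne_zero fun h0 =>
    NeZero.ne N (by rw [h0, mul_zero] at hpM; exact Nat.eq_zero_of_zero_dvd hpM)
  have hpM0 : 0 < p * M := Nat.mul_pos hp.pos hM0
  have hxmem : xM N ζ M ∈ (F0 (k := k) N)⟮xM N ζ M, xM N ζ (p * M)⟯ :=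
    subset_adjoin _ _ (by simp)
  have hymem : xM N ζ (p * M) ∈ (F0 (k := k) N)⟮xM N ζ M, xM N ζ (p * M)⟯ :=
    subset_adjoin _ _ (by simp)
  change ∃ c ∈ triples M, ∃ α ∈ triples p, H64.tmul α c ∈ triples (p * M) ∧
      σ ⟨xM N ζ M, hxmem⟩ = JN N ζ c ∧ σ ⟨xM N ζ (p * M), hymem⟩ = JN N ζ (H64.tmul α c)
  generalize hxE : (⟨xM N ζ M, hxmem⟩ : (F0 (k := k) N)⟮xM N ζ M, xM N ζ (p * M)⟯) = xE
  generalize hyE : (⟨xM N ζ (p * M), hymem⟩ : (F0 (k := k) N)⟮xM N ζ M, xM N ζ (p * M)⟯) = yE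
  have hxEv : (xE : LaurentSeries k) = xM N ζ M := by rw [← hxE]
  have hyEv : (yE : LaurentSeries k) = xM N ζ (p * M) := by rw [← hyE]
  -- roots are mapped to roots
  have hroot : ∀ (Φ : Polynomial ℤ[X]) (S : Finset (LaurentSeries k))
      (hS : SplitsAs (polyF (k := k) N Φ) S)
      (z : (F0 (k := k) N)⟮xM N ζ M, xM N ζ (p * M)⟯), (z : LaurentSeries k) ∈ S → σ z ∈ S := by
    intro Φ S hS z hz
    rw [← hS.aeval_eq_zero_iff] at hz ⊢
    have h1 : aeval z (polyF (k := k) N Φ) = 0 := by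
      apply (algebraMap (F0 (k := k) N)⟮xM N ζ M, xM N ζ (p * M)⟯ (LaurentSeries k)).injective
      rw [map_zero, ← aeval_algebraMap_apply]
      exact hz
    rw [aeval_algHom_apply, h1, map_zero]
  have hx : σ xE ∈ conjSet N ζ M :=
    hroot ΦM _ hSM xE (by rw [hxEv]; exact JN_mem_conjSet (base_mem_triples hM0))
  have hy : σ yE ∈ conjSet N ζ (p * M) :=
    hroot ΦN _ hSN yE (by rw [hyEv]; exact JN_mem_conjSet (base_mem_triples hpM0))
  obtain ⟨c, hc, hcx⟩ := mem_conjSet.1 hx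
  obtain ⟨g, hg, hgy⟩ := mem_conjSet.1 hy
  -- the relation
  have hrelE : Φp.eval₂ (evalZ xE) yE = 0 := by
    apply (algebraMap (F0 (k := k) N)⟮xM N ζ M, xM N ζ (p * M)⟯ (LaurentSeries k)).injective
    rw [map_zero, map_eval₂_evalZ]
    change Φp.eval₂ (evalZ (xE : LaurentSeries k)) (yE : LaurentSeries k) = 0
    rw [hxEv, hyEv]
    exact eval₂_xM hζ hp hpM hΦp
  have hrel : Φp.eval₂ (evalZ (σ xE)) (σ yE) = 0 := by
    have := congrArg σ hrelE
    rw [map_zero] at this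
    rw [← this]
    exact (map_eval₂_evalZ
      (σ : (F0 (k := k) N)⟮xM N ζ M, xM N ζ (p * M)⟯ →+* LaurentSeries k) Φp xE yE).symm
  rw [← hcx] at hrel
  obtain ⟨α, hα, hαy⟩ := mem_nbrSet.1
    (mem_nbrSet_of_eval₂_eq_zero hζ hp hpM hmonic hdeg hΦp hc hrel)
  -- `g = α c`
  obtain ⟨h1, h2⟩ := tmul_hermite hp hM0 hc hα
  obtain ⟨h1', h2'⟩ := triples_fst_mul hpM0 hg
  have hgα : H64.tmul α c = g := JN_injOn hζ hpM h1 h1' h2 h2' (hαy.trans hgy.symm)
  exact ⟨c, hc, α, hα, hgα ▸ hg, hcx.symm, hαy.symm⟩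

/-- (hfun) for the concrete pair: `σ x` is determined by `σ y`. -/
theorem hfun_concrete {ζ : kˣ} (hζ : IsPrimitiveRoot ζ N) {p M : ℕ} [NeZero p]
    (hp : p.Prime) (hpM : p * M ∣ N) {ΦM ΦN Φp : Polynomial ℤ[X]}
    (hSM : SplitsAs (polyF (k := k) N ΦM) (conjSet N ζ M))
    (hSN : SplitsAs (polyF (k := k) N ΦN) (conjSet N ζ (p * M)))
    (hmonic : Φp.Monic) (hdeg : Φp.natDegree = (triples p).card)
    (hΦp : RootsAt k p (ζ ^ (N / p)) Φp)
    (σ σ' : (F0 (k := k) N)⟮xM N ζ M, xM N ζ (p * M)⟯ →ₐ[F0 (k := k) N] LaurentSeries k)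
    (h : σ ⟨xM N ζ (p * M), subset_adjoin _ _ (by simp)⟩ =
      σ' ⟨xM N ζ (p * M), subset_adjoin _ _ (by simp)⟩) :
    σ ⟨xM N ζ M, subset_adjoin _ _ (by simp)⟩ = σ' ⟨xM N ζ M, subset_adjoin _ _ (by simp)⟩ := by
  have hM0 : 0 < M := Nat.pos_of_ne_zero fun h0 =>
    NeZero.ne N (by rw [h0, mul_zero] at hpM; exact Nat.eq_zero_of_zero_dvd hpM)
  obtain ⟨c, hc, α, hα, hprim, hx, hy⟩ := embedding_pair hζ hp hpM hSM hSN hmonic hdeg hΦp σ
  obtain ⟨c', hc', α', hα', hprim', hx', hy'⟩ :=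
    embedding_pair hζ hp hpM hSM hSN hmonic hdeg hΦp σ'
  rw [hy, hy'] at h
  have h1 : H64.tmul α c = H64.tmul α' c' := JN_injOn_triples hζ hpM hprim hprim' h
  obtain ⟨hcc, -⟩ := H64.factor_unique hp hM0 hc hc' hα hα' hprim h1
  rw [hx, hx', hcc]

end Pair

section Twist

variable {k : Type*} [Field k] {N : ℕ} [NeZero N]

/-- `twist η` as a `k`-algebra endomorphism of `k((t))`. -/
def twistAlg (η : kˣ) : LaurentSeries k →ₐ[k] LaurentSeries k :=
  { twist η with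
    commutes' := fun c => by
      change twist η (algebraMap k (LaurentSeries k) c) = algebraMap k (LaurentSeries k) c
      rw [algebraMap_laurentSeries_eq_single, ← HahnSeries.C_apply, twist_C] }

theorem twistAlg_apply (η : kˣ) (x : LaurentSeries k) : twistAlg η x = twist η x := rfl

theorem twist_J0 (η : kˣ) (hη : η ^ N = 1) : twist η (J0 (k := k) N) = J0 N := by
  rw [J0_eq_JJ, twist_JJ, hη, mul_one]

/-- `t ↦ η t` fixes `k(J(q))` when `η^N = 1`. -/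
theorem twist_F0 (η : kˣ) (hη : η ^ N = 1) (z : F0 (k := k) N) :
    twist η (z : LaurentSeries k) = z := by
  have h : (twistAlg η).comp (F0 (k := k) N).val = (F0 (k := k) N).val := by
    apply IntermediateField.adjoin_algHom_ext
    intro w hw
    rw [Set.mem_singleton_iff] at hw
    subst hw
    exact twist_J0 η hη
  exact DFunLike.congr_fun h z

/-- `twist η` as a `k(J(q))`-algebra endomorphism of `k((t))` (`η^N = 1`). -/
def twistF0 (η : kˣ) (hη : η ^ N = 1) :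
    LaurentSeries k →ₐ[F0 (k := k) N] LaurentSeries k :=
  { twist η with commutes' := fun z => twist_F0 η hη z }

theorem twistF0_apply (η : kˣ) (hη : η ^ N = 1) (x : LaurentSeries k) :
    twistF0 (N := N) η hη x = twist η x := rfl

/-- `twist η` fixes `k(J(q))(x)` pointwise if it fixes `x` (`η^N = 1`). -/
theorem twist_adjoin_simple (η : kˣ) (hη : η ^ N = 1) {x : LaurentSeries k}
    (hx : twist η x = x) (z : (F0 (k := k) N)⟮x⟯) :
    twist η (z : LaurentSeries k) = z := by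
  have h : (twistF0 (N := N) η hη).comp ((F0 (k := k) N)⟮x⟯).val = ((F0 (k := k) N)⟮x⟯).val := by
    apply IntermediateField.adjoin_algHom_ext
    intro w hw
    rw [Set.mem_singleton_iff] at hw
    subst hw
    exact hx
  exact DFunLike.congr_fun h z

/-- The orbit elements `J(ζ_p^(b' + i v) t^e)`, `i < p`, are pairwise distinct (`p ∤ v`). -/
theorem orbit_injOn {ζ : kˣ} (hζ : IsPrimitiveRoot ζ N) {p : ℕ} (hp : p.Prime) (hpN : p ∣ N)
    (v : ℕ) (hv : ¬ p ∣ v) (b' e : ℕ) (he : e ≠ 0) :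
    Set.InjOn (fun i : ℕ => JJ (k := k) (ζ ^ ((N / p) * (b' + i * v))) e)
      (Finset.range p : Set ℕ) := by
  intro i hi j hj h
  rw [Finset.coe_range, Set.mem_Iio] at hi hj
  obtain ⟨-, hξ⟩ := JJ_injective he he h
  obtain ⟨u, hu⟩ := hpN
  have hu0 : u ≠ 0 := fun h0 => NeZero.ne N (by rw [hu, h0, mul_zero])
  have hNp : N / p = u := by rw [hu]; exact Nat.mul_div_cancel_left u hp.pos
  rw [hNp, pow_eq_pow_iff_modEq, ← hζ.eq_orderOf] at hξ
  have h1 : u * (b' + i * v) ≡ u * (b' + j * v) [MOD u * p] := by rwa [hu, mul_comm p u] at hξ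
  have h2 : b' + i * v ≡ b' + j * v [MOD p] := Nat.ModEq.mul_left_cancel' hu0 h1
  have h3 : i * v ≡ j * v [MOD p] := Nat.ModEq.add_left_cancel' b' h2
  have hcop : Nat.gcd p v = 1 := (Nat.Prime.coprime_iff_not_dvd hp).2 hv
  have h4 : i ≡ j [MOD p] := Nat.ModEq.cancel_right_of_coprime hcop h3
  exact h4.eq_of_lt_of_lt hi hj

theorem twist_xM (ζ η : kˣ) (hη : η ^ N = 1) (m : ℕ) :
    twist η (xM (k := k) N ζ m) = xM N ζ m := by
  unfold xM
  rw [JN_mk, twist_JJ, Nat.div_one, pow_mul η N m, hη, one_pow, mul_one]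

end Twist

section DegreeSteps

variable {k : Type*} [Field k] {N : ℕ} [NeZero N]

/-- `Φ_p(X, x)` over `k(J)(x)` splits in `k((t))` with the roots `J_{α c₀}`, `c₀ = (M, 0, 1)`. -/
theorem splitsAs_nbr {ζ : kˣ} (hζ : IsPrimitiveRoot ζ N) {p M : ℕ} [NeZero p]
    (hp : p.Prime) (hpM : p * M ∣ N) {Φp : Polynomial ℤ[X]} (hmonic : Φp.Monic)
    (hdeg : Φp.natDegree = (triples p).card) (hΦp : RootsAt k p (ζ ^ (N / p)) Φp) :
    SplitsAs (Φp.map (evalZ (AdjoinSimple.gen (F0 (k := k) N) (xM N ζ M))))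
      (nbrSet N ζ p (M, 0, 1)) := by
  have hM0 : 0 < M := Nat.pos_of_ne_zero fun h0 =>
    NeZero.ne N (by rw [h0, mul_zero] at hpM; exact Nat.eq_zero_of_zero_dvd hpM)
  unfold SplitsAs
  rw [map_map_evalZ, AdjoinSimple.algebraMap_gen]
  exact map_evalZ_JN_eq_prod hζ hp hpM hmonic hdeg hΦp (base_mem_triples hM0)

/-- (C2 concrete) If `p ∤ M` and `J(q^(pM)) ∉ k(J, J(q^M))` then
`[k(J, J(q^M), J(q^(pM))) : k(J, J(q^M))] ≥ p + 1`. -/
theorem degree_step_coprime {ζ : kˣ} (hζ : IsPrimitiveRoot ζ N) {p M : ℕ} [NeZero p]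
    (hp : p.Prime) (hpM : p * M ∣ N) (hndvd : ¬ p ∣ M) {Φp : Polynomial ℤ[X]}
    (hmonic : Φp.Monic) (hdeg : Φp.natDegree = (triples p).card)
    (hΦp : RootsAt k p (ζ ^ (N / p)) Φp)
    (hcore : xM N ζ (p * M) ∉ (F0 (k := k) N)⟮xM N ζ M⟯) :
    p + 1 ≤ (minpoly (F0 (k := k) N)⟮xM N ζ M⟯ (xM N ζ (p * M))).natDegree := by
  have hN : N ≠ 0 := NeZero.ne N
  have hM0 : 0 < M := Nat.pos_of_ne_zero fun h0 =>
    hN (by rw [h0, mul_zero] at hpM; exact Nat.eq_zero_of_zero_dvd hpM)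
  have hpN : p ∣ N := (Dvd.intro _ rfl).trans hpM
  have hζN : ζ ^ N = 1 := hζ.pow_eq_one
  have hNp0 : N / p ≠ 0 := by
    obtain ⟨u, hu⟩ := hpN
    rw [hu, Nat.mul_div_cancel_left u hp.pos]
    exact fun h0 => hN (by rw [hu, h0, mul_zero])
  refine succ_le_natDegree_minpoly_of_orbit (E := (F0 (k := k) N)⟮xM N ζ M⟯)
    (Ψ := Φp.map (evalZ (AdjoinSimple.gen (F0 (k := k) N) (xM N ζ M))))
    (T := nbrSet N ζ p (M, 0, 1)) ?_ (splitsAs_nbr hζ hp hpM hmonic hdeg hΦp) ?_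
    (twist ζ) ?_ (twist_xM ζ ζ hζN _) p ?_
  · rintro ⟨z, hz⟩
    exact hcore (hz ▸ z.2)
  · exact mem_nbrSet.2 ⟨(p, 0, 1), base_mem_triples hp.pos, by rw [tmul_top_base]; rfl⟩
  · intro e
    exact twist_adjoin_simple ζ hζN (twist_xM ζ ζ hζN M) e
  · intro z hz hzy
    obtain ⟨α, hα, rfl⟩ := mem_nbrSet.1 hz
    have hαprim : IsPrimTriple p α.1 α.2.1 α.2.2 := (mem_triples hp.pos).1 hα
    obtain ⟨a', b', d'⟩ := α
    rcases (H64.isPrimTriple_prime_iff hp).1 hαprim with ⟨h1, h2, h3⟩ | ⟨h1, hb', h3⟩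
    · simp only at h1 h2 h3
      subst a' b' d'
      exact (hzy (by rw [tmul_top_base]; rfl)).elim
    · simp only at h1 hb' h3
      subst a' d'
      refine ⟨fun i => JJ (ζ ^ ((N / p) * (b' + i * M))) ((N / p) * M), ?_, ?_, ?_⟩
      · rw [H64.tmul_bot Nat.one_pos hb', JN_mk]
        refine JJ_congr ?_ (by rw [mul_one])
        congr 1
        rw [mul_one, zero_mul, add_zero, zero_add, mul_one]
      · intro i
        rw [twist_JJ]
        refine JJ_congr ?_ rfl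
        rw [← pow_add]
        congr 1
        ring
      · exact orbit_injOn hζ hp hpN M hndvd b' _ (mul_ne_zero hNp0 hM0.ne')

theorem cusp0_mem_triples {M : ℕ} (hM : 0 < M) : ((1, 0, M) : ℕ × ℕ × ℕ) ∈ triples M := by
  rw [mem_triples hM]
  exact ⟨one_mul M, hM, by simp⟩

/-- (C1 concrete) If `p ∣ M` and `Φ_M` is irreducible over `k(J)` then
`[k(J, J(q^M), J(q^(pM))) : k(J, J(q^M))] ≥ p`. -/
theorem degree_step_dvd {ζ : kˣ} (hζ : IsPrimitiveRoot ζ N) {p M : ℕ} [NeZero p]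
    (hp : p.Prime) (hpM : p * M ∣ N) (hdvd : p ∣ M) {ΦM ΦN Φp : Polynomial ℤ[X]}
    (hSM : SplitsAs (polyF (k := k) N ΦM) (conjSet N ζ M))
    (hSN : SplitsAs (polyF (k := k) N ΦN) (conjSet N ζ (p * M)))
    (hirrM : Irreducible (polyF (k := k) N ΦM))
    (hmonic : Φp.Monic) (hdeg : Φp.natDegree = (triples p).card)
    (hΦp : RootsAt k p (ζ ^ (N / p)) Φp) :
    p ≤ (minpoly (F0 (k := k) N)⟮xM N ζ M⟯ (xM N ζ (p * M))).natDegree := by
  have hN : N ≠ 0 := NeZero.ne N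
  have hM0 : 0 < M := Nat.pos_of_ne_zero fun h0 =>
    hN (by rw [h0, mul_zero] at hpM; exact Nat.eq_zero_of_zero_dvd hpM)
  have hpM0 : 0 < p * M := Nat.mul_pos hp.pos hM0
  have hpN : p ∣ N := (Dvd.intro _ rfl).trans hpM
  have hMN : M ∣ N := (Dvd.intro_left _ rfl).trans hpM
  have hζN : ζ ^ N = 1 := hζ.pow_eq_one
  obtain ⟨n₀, hn₀⟩ := hpM
  have hn₀0 : n₀ ≠ 0 := fun h0 => hN (by rw [hn₀, h0, mul_zero])
  have hNpM : N / (p * M) = n₀ := by rw [hn₀]; exact Nat.mul_div_cancel_left _ hpM0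
  have hNp : N / p = M * n₀ := by
    have : N = p * (M * n₀) := by rw [hn₀]; ring
    rw [this]; exact Nat.mul_div_cancel_left _ hp.pos
  have hNM : N / M = p * n₀ := by
    have : N = M * (p * n₀) := by rw [hn₀]; ring
    rw [this]; exact Nat.mul_div_cancel_left _ hM0
  have hηN : (ζ ^ M) ^ N = 1 := by rw [← pow_mul, mul_comm, pow_mul, hζN, one_pow]
  -- the elements
  have hxS : xM N ζ M ∈ conjSet (k := k) N ζ M := JN_mem_conjSet (base_mem_triples hM0)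
  have hyS : xM N ζ (p * M) ∈ conjSet (k := k) N ζ (p * M) :=
    JN_mem_conjSet (base_mem_triples hpM0)
  have hxi : IsIntegral (F0 (k := k) N) (xM N ζ M) := hSM.isIntegral hxS
  have hyi : IsIntegral (F0 (k := k) N) (xM N ζ (p * M)) := hSN.isIntegral hyS
  -- the cusp-0 conjugate and the embedding
  set x' : LaurentSeries k := JN N ζ (1, 0, M) with hx'
  have hx'S : x' ∈ conjSet (k := k) N ζ M := JN_mem_conjSet (cusp0_mem_triples hM0)
  have hmin : polyF (k := k) N ΦM = minpoly (F0 (k := k) N) (xM N ζ M) :=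
    minpoly.eq_of_irreducible_of_monic hirrM ((hSM.aeval_eq_zero_iff _).2 hxS) hSM.monic
  have hx'root : x' ∈ (minpoly (F0 (k := k) N) (xM N ζ M)).aroots (LaurentSeries k) := by
    rw [mem_aroots]
    exact ⟨minpoly.ne_zero hxi, by rw [← hmin]; exact (hSM.aeval_eq_zero_iff _).2 hx'S⟩
  set s : (F0 (k := k) N)⟮xM N ζ M⟯ →ₐ[F0 (k := k) N] LaurentSeries k :=
    (IntermediateField.algHomAdjoinIntegralEquiv (F0 (k := k) N) hxi).symm ⟨x', hx'root⟩ with hs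
  have hsgen : s (AdjoinSimple.gen (F0 (k := k) N) (xM N ζ M)) = x' :=
    IntermediateField.algHomAdjoinIntegralEquiv_symm_apply_gen (F0 (k := k) N) hxi ⟨x', hx'root⟩
  -- `twist (ζ^M)` fixes `x'`
  have htx' : twist (ζ ^ M) x' = x' := by
    rw [hx', JN_mk, twist_JJ]
    refine JJ_congr ?_ rfl
    rw [hNM, mul_one, ← pow_mul]
    have : M * (p * n₀) = N := by rw [hn₀]; ring
    rw [this, hζN, mul_one]
  refine le_natDegree_minpoly_of_embedding (F := F0 (k := k) N)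
    (E := (F0 (k := k) N)⟮xM N ζ M⟯) hyi.tower_top s
    (Ψ := Φp.map (evalZ (AdjoinSimple.gen (F0 (k := k) N) (xM N ζ M))))
    ?_ (T := nbrSet N ζ p (1, 0, M)) ?_ hSN hyS (twist (ζ ^ M)) ?_ p ?_
  · -- `Ψ(y) = 0`
    rw [aeval_def, eval₂_map]
    have : (algebraMap (F0 (k := k) N)⟮xM N ζ M⟯ (LaurentSeries k)).comp
        (evalZ (AdjoinSimple.gen (F0 (k := k) N) (xM N ζ M))) = evalZ (xM N ζ M) := by
      rw [comp_evalZ, AdjoinSimple.algebraMap_gen]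
    rw [this]
    have h := eval₂_xM (k := k) hζ hp (Dvd.intro n₀ hn₀.symm) hΦp
    exact h
  · -- `Ψ.map s = ∏ (X - J_{α c'})`
    rw [map_map_evalZ]
    have : (s : (F0 (k := k) N)⟮xM N ζ M⟯ →+* LaurentSeries k)
        (AdjoinSimple.gen (F0 (k := k) N) (xM N ζ M)) = x' := hsgen
    rw [this]
    exact map_evalZ_JN_eq_prod hζ hp (Dvd.intro n₀ hn₀.symm) hmonic hdeg hΦp
      (cusp0_mem_triples hM0)
  · -- `τ` fixes `s(E)`
    intro e
    have h : (twistF0 (N := N) (ζ ^ M) hηN).comp s = s := by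
      apply IntermediateField.adjoin_algHom_ext
      intro w hw
      rw [Set.mem_singleton_iff] at hw
      subst hw
      change twist (ζ ^ M) (s (AdjoinSimple.gen (F0 (k := k) N) (xM N ζ M))) =
        s (AdjoinSimple.gen (F0 (k := k) N) (xM N ζ M))
      rw [hsgen, htx']
    exact DFunLike.congr_fun h e
  · -- orbits
    intro z hzT hzS
    obtain ⟨α, hα, rfl⟩ := mem_nbrSet.1 hzT
    obtain ⟨g, hg, hgz⟩ := mem_conjSet.1 hzS
    obtain ⟨h1, h2⟩ := tmul_hermite hp hM0 (cusp0_mem_triples hM0) hα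
    obtain ⟨h1', h2'⟩ := triples_fst_mul hpM0 hg
    have hgα : g = H64.tmul α (1, 0, M) :=
      JN_injOn hζ (Dvd.intro n₀ hn₀.symm) h1' h1 h2' h2 hgz
    have hprim : H64.tmul α (1, 0, M) ∈ triples (p * M) := hgα ▸ hg
    have hαprim : IsPrimTriple p α.1 α.2.1 α.2.2 := (mem_triples hp.pos).1 hα
    obtain ⟨a', b', d'⟩ := α
    rcases (H64.isPrimTriple_prime_iff hp).1 hαprim with ⟨h1, h2, h3⟩ | ⟨h1, hb', h3⟩
    · simp only at h1 h2 h3
      subst a' b' d'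
      exact (((H64.tmul_top_mem_iff hp hM0 (cusp0_mem_triples hM0)).1 hprim) hdvd).elim
    · simp only at h1 hb' h3
      subst a' d'
      refine ⟨fun i => JJ (ζ ^ ((N / p) * (b' + i * 1))) (n₀ * 1), ?_, ?_, ?_⟩
      · rw [H64.tmul_bot hM0 hb', JN_mk, hNpM, hNp]
        refine JJ_congr ?_ rfl
        congr 1
        ring
      · intro i
        rw [twist_JJ]
        refine JJ_congr ?_ rfl
        rw [← pow_mul, ← pow_add, hNp]
        congr 1
        ring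
      · exact orbit_injOn hζ hp hpN 1 (fun h => hp.one_lt.ne' (Nat.dvd_one.1 h)) b' _
          (mul_ne_zero hn₀0 one_ne_zero)

end DegreeSteps

section Step

variable {k : Type*} [Field k] {N : ℕ} [NeZero N]

/-- **The concrete step over `k(J(q)) ⊆ k((t))`**: `Φ_M` irreducible ⇒ `Φ_{pM}` irreducible
(`p M ∣ N`, `ζ` a primitive `N`-th root of unity of `k`). -/
theorem step_polyF {ζ : kˣ} (hζ : IsPrimitiveRoot ζ N) {p M : ℕ} [NeZero p] [NeZero M]
    [NeZero (p * M)] (hp : p.Prime) (hpM : p * M ∣ N) {ΦM ΦN Φp : Polynomial ℤ[X]}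
    (hMmonic : ΦM.Monic) (hMdeg : ΦM.natDegree = (triples M).card)
    (hMroots : RootsAt k M (ζ ^ (N / M)) ΦM)
    (hNmonic : ΦN.Monic) (hNdeg : ΦN.natDegree = (triples (p * M)).card)
    (hNroots : RootsAt k (p * M) (ζ ^ (N / (p * M))) ΦN)
    (hpmonic : Φp.Monic) (hpdeg : Φp.natDegree = (triples p).card)
    (hproots : RootsAt k p (ζ ^ (N / p)) Φp)
    (hcore : ¬ p ∣ M → xM N ζ (p * M) ∉ (F0 (k := k) N)⟮xM N ζ M⟯)
    (hirr : Irreducible (polyF (k := k) N ΦM)) : Irreducible (polyF (k := k) N ΦN) := by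
  have hM0 : 0 < M := Nat.pos_of_ne_zero (NeZero.ne M)
  have hpM0 : 0 < p * M := Nat.mul_pos hp.pos hM0
  have hMN : M ∣ N := (Dvd.intro_left _ rfl).trans hpM
  have hSM := splitsAs_level hζ hMN hMmonic hMdeg hMroots
  have hSN := splitsAs_level hζ hpM hNmonic hNdeg hNroots
  have hxS : xM N ζ M ∈ conjSet (k := k) N ζ M := JN_mem_conjSet (base_mem_triples hM0)
  have hyS : xM N ζ (p * M) ∈ conjSet (k := k) N ζ (p * M) :=
    JN_mem_conjSet (base_mem_triples hpM0)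
  refine irreducible_step hSM hSN hirr hxS hyS
    (hfun_concrete hζ hp hpM hSM hSN hpmonic hpdeg hproots)
    (if p ∣ M then p else p + 1) ?_ ?_
  · rw [card_conjSet hζ hpM, card_conjSet hζ hMN, H64.card_triples_prime_mul hp hM0]
  · split_ifs with hdvd
    · exact degree_step_dvd hζ hp hpM hdvd hSM hSN hirr hpmonic hpdeg hproots
    · exact degree_step_coprime hζ hp hpM hdvd hpmonic hpdeg hproots (hcore hdvd)

end Step

end Fermat.Agent.S28.H43
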