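import Mathlib

/-!
# Derivations and separable algebraic extensions (S28, package W2b)

Let `L` be a field with a derivation `D`, `K` a subfield stable under `D` and `x ∈ L` separable
algebraic over `K`.  Then `D x ∈ K(x)` (explicitly `D x = - f^D(x) / f'(x)` for the minimal
polynomial `f` of `x`), hence `D` stabilises every intermediate field which is separable
algebraic over `K`; and `D` commutes with every `K`-embedding of such a field into `L`.

Also: `D` stabilises `k(S)` as soon as `D s ∈ k(S)` for all `s ∈ S`.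

Everything is valid in arbitrary characteristic (Mathlib only).
-/

set_option autoImplicit false

open Polynomial

namespace Fermat.Agent.S28.H47

section Abstract

variable {K L : Type*} [Field K] [Field L] [Algebra K L]
  (d : Derivation ℤ K K) (D : Derivation ℤ L L)
  (hdD : ∀ a : K, D (algebraMap K L a) = algebraMap K L (d a))

/-- The polynomial with coefficientwise derivative (w.r.t. `d`). -/
noncomputable def dmap (p : K[X]) : K[X] :=
  letI : Differential K := ⟨d⟩
  Differential.mapCoeffs p

include hdD in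
/-- Chain rule: `D (p(y)) = p^d(y) + p'(y) * D y`. -/
theorem apply_aeval (y : L) (p : K[X]) :
    D (aeval y p) = aeval y (dmap d p) + aeval y (derivative p) * D y := by
  let _ : Differential K := ⟨d⟩
  let _ : Differential L := ⟨D⟩
  have : DifferentialAlgebra K L := ⟨hdD⟩
  exact Differential.deriv_aeval_eq y p

include hdD in
/-- For a root `y` of a polynomial `p` over `K`: `p^d(y) + p'(y) * D y = 0`. -/
theorem aeval_dmap_add_eq_zero (y : L) (p : K[X]) (hy : aeval y p = 0) :
    aeval y (dmap d p) + aeval y (derivative p) * D y = 0 := by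
  rw [← apply_aeval d D hdD y p, hy, map_zero]

include hdD in
/-- Explicit formula for the derivative of a separable algebraic element. -/
theorem apply_eq_neg_div (x : L) (hx : IsSeparable K x) :
    D x = - aeval x (dmap d (minpoly K x)) / aeval x (derivative (minpoly K x)) := by
  have h0 := aeval_dmap_add_eq_zero d D hdD x (minpoly K x) (minpoly.aeval K x)
  have hne : aeval x (derivative (minpoly K x)) ≠ 0 :=
    Separable.aeval_derivative_ne_zero hx (minpoly.aeval K x)
  rw [eq_div_iff hne, mul_comm]
  exact eq_neg_of_add_eq_zero_right h0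

include hdD in
/-- `D x ∈ K(x)` for `x` separable algebraic over the `D`-stable subfield `K`. -/
theorem apply_mem_adjoin_simple (x : L) (hx : IsSeparable K x) :
    D x ∈ IntermediateField.adjoin K {x} := by
  rw [apply_eq_neg_div d D hdD x hx]
  have hmem : ∀ p : K[X], aeval x p ∈ IntermediateField.adjoin K {x} := fun p =>
    IntermediateField.algebra_adjoin_le_adjoin K {x}
      (Polynomial.aeval_mem_adjoin_singleton K x)
  exact div_mem (neg_mem (hmem _)) (hmem _)

include hdD in
/-- Two roots `x, y ∈ L` of the same separable polynomial and a ring homomorphism `σ` defined on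
a subring containing `x`, fixing `K`, with `σ x = y`: then `σ (D x) = D y`.  Here stated for an
abstract field `E` with embeddings `ι σ : E → L` over `K`, and an element `z` with `ι z = D (ι e)`. -/
theorem embedding_apply_eq {E : Type*} [Field E] [Algebra K E] (ι σ : E →ₐ[K] L)
    (e z : E) (he : IsSeparable K (ι e)) (hz : ι z = D (ι e)) :
    σ z = D (σ e) := by
  set p := minpoly K (ι e) with hp
  have hιinj : Function.Injective ι := ι.toRingHom.injective
  have hroot : aeval e p = 0 := by
    have h1 : ι (aeval e p) = 0 := by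
      rw [← Polynomial.aeval_algHom_apply, hp, minpoly.aeval]
    exact (map_eq_zero_iff ι hιinj).1 h1
  -- identity inside `E`, transported by `ι`
  have hE : aeval e (dmap d p) + aeval e (derivative p) * z = 0 := by
    apply hιinj
    rw [map_add, map_mul, map_zero, ← Polynomial.aeval_algHom_apply,
      ← Polynomial.aeval_algHom_apply, hz]
    exact aeval_dmap_add_eq_zero d D hdD (ι e) p (minpoly.aeval K (ι e))
  -- transport by `σ`
  have hσ : aeval (σ e) (dmap d p) + aeval (σ e) (derivative p) * σ z = 0 := by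
    have := congrArg σ hE
    rwa [map_add, map_mul, map_zero, ← Polynomial.aeval_algHom_apply,
      ← Polynomial.aeval_algHom_apply] at this
  have hrootσ : aeval (σ e) p = 0 := by
    rw [Polynomial.aeval_algHom_apply, hroot, map_zero]
  have hL := aeval_dmap_add_eq_zero d D hdD (σ e) p hrootσ
  have hne : aeval (σ e) (derivative p) ≠ 0 :=
    Separable.aeval_derivative_ne_zero he hrootσ
  have : aeval (σ e) (derivative p) * (σ z - D (σ e)) = 0 := by
    rw [mul_sub, sub_eq_zero]
    exact (add_left_cancel (hσ.trans hL.symm))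
  rcases mul_eq_zero.1 this with h | h
  · exact absurd h hne
  · exact sub_eq_zero.1 h

end Abstract

section IntermediateField

variable {k L : Type*} [Field k] [Field L] [Algebra k L] (D : Derivation k L L)

/-- If `D s ∈ k(S)` for all `s ∈ S` then `D` stabilises `k(S)`. -/
theorem apply_mem_adjoin (S : Set L)
    (hS : ∀ s ∈ S, D s ∈ IntermediateField.adjoin k S) :
    ∀ x ∈ IntermediateField.adjoin k S, D x ∈ IntermediateField.adjoin k S := by
  intro x hx
  induction hx using IntermediateField.adjoin_induction with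
  | mem x hx => exact hS x hx
  | algebraMap c => rw [D.map_algebraMap]; exact zero_mem _
  | add x y hx hy ihx ihy => rw [map_add]; exact add_mem ihx ihy
  | inv x hx ih =>
    rw [Derivation.leibniz_inv]
    exact mul_mem (neg_mem (pow_mem (inv_mem hx) 2)) ih
  | mul x y hx hy ihx ihy =>
    rw [Derivation.leibniz]
    exact add_mem (mul_mem hx ihy) (mul_mem hy ihx)

variable (K : IntermediateField k L)

/-- The derivation induced by `D` on a `D`-stable intermediate field. -/
noncomputable def restrictDeriv (hK : ∀ a ∈ K, D a ∈ K) : Derivation ℤ K K :=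
  Derivation.mk'
    { toFun := fun a => ⟨D a, hK a a.2⟩
      map_add' := fun a b => Subtype.ext (by simp)
      map_smul' := fun n a => Subtype.ext (by simp) }
    (fun a b => Subtype.ext (by simp [Derivation.leibniz]))

@[simp]
lemma coe_restrictDeriv (hK : ∀ a ∈ K, D a ∈ K) (a : K) :
    ((restrictDeriv D K hK a : K) : L) = D a := rfl

/-- `D x ∈ K(x)` for `x` separable algebraic over a `D`-stable intermediate field `K`. -/
theorem apply_mem_adjoin_simple' (hK : ∀ a ∈ K, D a ∈ K) (x : L) (hx : IsSeparable K x) :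
    D x ∈ IntermediateField.adjoin K {x} :=
  apply_mem_adjoin_simple (restrictDeriv D K hK) (D.restrictScalars ℤ) (fun _ => rfl) x hx

/-- `D` stabilises every intermediate field `E ⊇ K` whose elements are separable algebraic over
the `D`-stable field `K`. -/
theorem apply_mem_of_isSeparable (hK : ∀ a ∈ K, D a ∈ K) (E : IntermediateField k L)
    (hKE : K ≤ E) (x : L) (hxE : x ∈ E) (hx : IsSeparable K x) : D x ∈ E := by
  have h := apply_mem_adjoin_simple' D K hK x hx
  -- `K(x) ⊆ E` as subsets of `L`
  have hle : ∀ y ∈ IntermediateField.adjoin K {x}, y ∈ E := by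
    intro y hy
    induction hy using IntermediateField.adjoin_induction with
    | mem y hy => rw [Set.mem_singleton_iff] at hy; rw [hy]; exact hxE
    | algebraMap c => exact hKE c.2
    | add y z _ _ ihy ihz => exact add_mem ihy ihz
    | inv y _ ih => exact inv_mem ih
    | mul y z _ _ ihy ihz => exact mul_mem ihy ihz
  exact hle _ h

/-- `D` commutes with every `k`-embedding `σ : E → L` fixing `K` pointwise, where `E ⊇ K` is
separable algebraic over the `D`-stable field `K`. -/
theorem embedding_apply_deriv (hK : ∀ a ∈ K, D a ∈ K) (E : IntermediateField k L)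
    (hKE : K ≤ E) (hsep : ∀ x ∈ E, IsSeparable K x) (σ : E →ₐ[k] L)
    (hσ : ∀ (a : L) (ha : a ∈ K), σ ⟨a, hKE ha⟩ = a) (x : L) (hx : x ∈ E) :
    σ ⟨D x, apply_mem_of_isSeparable D K hK E hKE x hx (hsep x hx)⟩ = D (σ ⟨x, hx⟩) := by
  let _ : Algebra K E := (IntermediateField.inclusion hKE).toRingHom.toAlgebra
  let ι : E →ₐ[K] L :=
    { toRingHom := (algebraMap E L)
      commutes' := fun a => rfl }
  let σ' : E →ₐ[K] L :=
    { toRingHom := σ.toRingHom
      commutes' := fun a => hσ a.1 a.2 }
  have := embedding_apply_eq (restrictDeriv D K hK) (D.restrictScalars ℤ) (fun _ => rfl) ι σ'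
    ⟨x, hx⟩ ⟨D x, apply_mem_of_isSeparable D K hK E hKE x hx (hsep x hx)⟩ (hsep x hx) rfl
  exact this

end IntermediateField

section Theta

variable {k L : Type*} [Field k] [Field L] [Algebra k L] (θ : Derivation k L L) (J : L)

/-- The normalised derivation `(θ J)⁻¹ • θ` (so that `J ↦ 1`; it is `d/dJ` on `k(J)`). -/
noncomputable def normDeriv : Derivation k L L := (θ J)⁻¹ • θ

lemma normDeriv_apply (x : L) : normDeriv θ J x = θ x / θ J := by
  rw [normDeriv, Derivation.smul_apply, smul_eq_mul, div_eq_inv_mul]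

lemma normDeriv_self (hJ : θ J ≠ 0) : normDeriv θ J J = 1 := by
  rw [normDeriv_apply, div_self hJ]

/-- `k(J)` is stable under `x ↦ θ x / θ J`. -/
theorem normDeriv_mem_adjoin (hJ : θ J ≠ 0) :
    ∀ a ∈ IntermediateField.adjoin k {J}, normDeriv θ J a ∈ IntermediateField.adjoin k {J} :=
  apply_mem_adjoin (normDeriv θ J) {J} (fun s hs => by
    rw [Set.mem_singleton_iff] at hs
    rw [hs, normDeriv_self θ J hJ]
    exact one_mem _)

/-- A `k`-embedding fixing `J` fixes `k(J)` pointwise. -/
theorem embedding_fixes_adjoin (E : IntermediateField k L) (hJE : J ∈ E)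
    (hKE : IntermediateField.adjoin k {J} ≤ E) (σ : E →ₐ[k] L) (hσJ : σ ⟨J, hJE⟩ = J)
    (a : L) (ha : a ∈ IntermediateField.adjoin k {J}) : σ ⟨a, hKE ha⟩ = a := by
  induction ha using IntermediateField.adjoin_induction with
  | mem y hy =>
    rw [Set.mem_singleton_iff] at hy
    subst hy
    exact hσJ
  | algebraMap c => exact σ.commutes c
  | add y z hy hz ihy ihz =>
    have : (⟨y + z, hKE (add_mem hy hz)⟩ : E) = ⟨y, hKE hy⟩ + ⟨z, hKE hz⟩ := rfl
    rw [this, map_add, ihy, ihz]
  | inv y hy ih =>
    have : (⟨y⁻¹, hKE (inv_mem hy)⟩ : E) = (⟨y, hKE hy⟩ : E)⁻¹ := rfl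
    rw [this, map_inv₀, ih]
  | mul y z hy hz ihy ihz =>
    have : (⟨y * z, hKE (mul_mem hy hz)⟩ : E) = ⟨y, hKE hy⟩ * ⟨z, hKE hz⟩ := rfl
    rw [this, map_mul, ihy, ihz]

/-- **W2b (stability).**  If `E ⊇ k(J)` and `x ∈ E` is separable algebraic over `k(J)` then
`θ x / θ J ∈ E`. -/
theorem theta_div_mem (hJ : θ J ≠ 0) (E : IntermediateField k L)
    (hKE : IntermediateField.adjoin k {J} ≤ E) (x : L) (hxE : x ∈ E)
    (hx : IsSeparable (IntermediateField.adjoin k {J}) x) : θ x / θ J ∈ E := by
  rw [← normDeriv_apply]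
  exact apply_mem_of_isSeparable (normDeriv θ J) _ (normDeriv_mem_adjoin θ J hJ) E hKE x hxE hx

/-- **W2b (embeddings).**  If `E ⊇ k(J)` is separable algebraic over `k(J)` and `σ : E → L` is a
`k`-embedding with `σ J = J`, then `σ (θ x / θ J) = θ (σ x) / θ J` for all `x ∈ E`. -/
theorem embedding_theta_div (hJ : θ J ≠ 0) (E : IntermediateField k L) (hJE : J ∈ E)
    (hKE : IntermediateField.adjoin k {J} ≤ E)
    (hsep : ∀ x ∈ E, IsSeparable (IntermediateField.adjoin k {J}) x)
    (σ : E →ₐ[k] L) (hσJ : σ ⟨J, hJE⟩ = J) (x : L) (hx : x ∈ E) :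
    σ ⟨θ x / θ J, theta_div_mem θ J hJ E hKE x hx (hsep x hx)⟩ = θ (σ ⟨x, hx⟩) / θ J := by
  have h := embedding_apply_deriv (normDeriv θ J) _ (normDeriv_mem_adjoin θ J hJ) E hKE hsep σ
    (embedding_fixes_adjoin J E hJE hKE σ hσJ) x hx
  rw [← normDeriv_apply θ J (σ ⟨x, hx⟩), ← h]
  congr 1
  exact Subtype.ext (normDeriv_apply θ J x).symm

/-- Variant with `θ (σ x)` isolated: `θ (σ x) = σ (θ x / θ J) * θ J`. -/
theorem theta_embedding (hJ : θ J ≠ 0) (E : IntermediateField k L) (hJE : J ∈ E)
    (hKE : IntermediateField.adjoin k {J} ≤ E)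
    (hsep : ∀ x ∈ E, IsSeparable (IntermediateField.adjoin k {J}) x)
    (σ : E →ₐ[k] L) (hσJ : σ ⟨J, hJE⟩ = J) (x : L) (hx : x ∈ E) :
    θ (σ ⟨x, hx⟩) =
      σ ⟨θ x / θ J, theta_div_mem θ J hJ E hKE x hx (hsep x hx)⟩ * θ J := by
  rw [embedding_theta_div θ J hJ E hJE hKE hsep σ hσJ x hx, div_mul_cancel₀ _ hJ]

end Theta

end Fermat.Agent.S28.H47
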