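/-
helper71: S28 / concrete PRIME CORE on the `Defs`/`Interface` vocabulary:
`J(q^p) ∉ k(J)` for every field `k` in which `p ≥ 2` is invertible, given the W1c deliverable
`IsDeltaQuotPoly p P`.  Instantiates helper30's abstract core (`H30_PrimeCore`) with
helper17's formal identity (`H17_FormalIdentity`).
-/
import Mathlib
import Fermat.Prelude.Def_ModularCurve_X0ModL
import Fermat.Agent.S28.Defs
import Fermat.Agent.S28.Interface
import Fermat.Agent.S28.H16_Transfer
import Fermat.Agent.S28.H17_FormalIdentity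
import Fermat.Agent.S28.H30_PrimeCore

set_option autoImplicit false

noncomputable section

namespace Fermat.Agent.S28.H71

open ModularCurve HahnSeries Polynomial Fermat.Agent.S28

section Ring

variable (R : Type*) [CommRing R]

/-- the power series `∏ (1 - q^n)^24` over `R`. -/
def etaU : PowerSeries R := dedekindEtaUnit.map (Int.castRingHom R)

/-- the power series `∏ (1 - q^n)^(-24)` over `R`. -/
def etaUInv : PowerSeries R := dedekindEtaUnitInv.map (Int.castRingHom R)

theorem etaU_mul_etaUInv : etaU R * etaUInv R = 1 := by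
  rw [etaU, etaUInv, ← map_mul, dedekindEtaUnit_mul_inv, map_one]

theorem constantCoeff_etaU : PowerSeries.constantCoeff (etaU R) = 1 := by
  rw [etaU, ← PowerSeries.coeff_zero_eq_constantCoeff_apply, PowerSeries.coeff_map,
    PowerSeries.coeff_zero_eq_constantCoeff_apply, constantCoeff_dedekindEtaUnit, map_one]

theorem DeltaS_eq : DeltaS R = HahnSeries.single (1 : ℤ) 1 * HahnSeries.ofPowerSeries ℤ R (etaU R) :=
  rfl

theorem DeltaSInv_eq :
    DeltaSInv R = HahnSeries.single (-1 : ℤ) 1 * HahnSeries.ofPowerSeries ℤ R (etaUInv R) :=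
  rfl

/-- `Δ · Δ⁻¹ = 1` over any commutative ring. -/
theorem DeltaS_mul_DeltaSInv : DeltaS R * DeltaSInv R = 1 := by
  rw [DeltaS_eq, DeltaSInv_eq, mul_mul_mul_comm, HahnSeries.single_mul_single, ← map_mul,
    etaU_mul_etaUInv, map_one, mul_one, mul_one]
  rfl

theorem coeffMap_DeltaSInv {S : Type*} [CommRing S] (f : R →+* S) :
    coeffMap f (DeltaSInv R) = DeltaSInv S := by
  rw [DeltaSInv, map_mul, coeffMap_single, map_one, coeffMap_ofPowerSeries,
    ← RingHom.comp_apply (PowerSeries.map f) (PowerSeries.map (Int.castRingHom R)),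
    ← PowerSeries.map_comp, RingHom.ext_int (f.comp (Int.castRingHom R)) (Int.castRingHom S)]
  rfl

theorem coeffMap_DeltaQuot {S : Type*} [CommRing S] (f : R →+* S) (p : ℕ) [NeZero p] :
    coeffMap f (DeltaQuot R p) = DeltaQuot S p := by
  rw [DeltaQuot, map_mul, coeffMap_qExpand, H17.coeffMap_DeltaS, coeffMap_DeltaSInv, DeltaQuot]

/-- the coefficient of `q^1` in `Δ` is `1`. -/
theorem DeltaS_coeff_one : (DeltaS R).coeff 1 = 1 := by
  rw [DeltaS_eq]
  have h := HahnSeries.coeff_single_mul_add (r := (1 : R))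
    (x := HahnSeries.ofPowerSeries ℤ R (etaU R)) (a := (0 : ℤ)) (b := (1 : ℤ))
  rw [zero_add] at h
  rw [h, one_mul]
  have h0 : ((0 : ℕ) : ℤ) = 0 := rfl
  rw [← h0, HahnSeries.ofPowerSeries_apply_coeff, PowerSeries.coeff_zero_eq_constantCoeff_apply,
    constantCoeff_etaU]

/-- `Δ` has no coefficients below `q^1`. -/
theorem DeltaS_coeff_of_lt {n : ℤ} (hn : n < 1) : (DeltaS R).coeff n = 0 := by
  rw [DeltaS_eq]
  have h := HahnSeries.coeff_single_mul_add (r := (1 : R))
    (x := HahnSeries.ofPowerSeries ℤ R (etaU R)) (a := n - 1) (b := (1 : ℤ))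
  rw [sub_add_cancel] at h
  rw [h, one_mul]
  exact ofPowerSeries_coeff_of_neg _ (by omega)

/-- the coefficient of `q^(-1)` in `j` is `1`. -/
theorem jqModC_coeff_neg_one : (jqModC R).coeff (-1) = 1 := by
  rw [jqModC]
  have h := HahnSeries.coeff_single_mul_add (r := (1 : R))
    (x := HahnSeries.ofPowerSeries ℤ R (jNum.map (Int.castRingHom R))) (a := (0 : ℤ))
    (b := (-1 : ℤ))
  rw [zero_add] at h
  rw [h, one_mul]
  have h0 : ((0 : ℕ) : ℤ) = 0 := rfl
  rw [← h0, HahnSeries.ofPowerSeries_apply_coeff, PowerSeries.coeff_map,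
    PowerSeries.coeff_zero_eq_constantCoeff_apply, constantCoeff_jNum, map_one]

end Ring

section Field

variable (k : Type*) [Field k]

theorem order_jqModC_neg : (jqModC k).order < 0 := by
  have h : (jqModC k).order ≤ -1 :=
    HahnSeries.order_le_of_coeff_ne_zero (by rw [jqModC_coeff_neg_one]; exact one_ne_zero)
  omega

theorem DeltaS_ne_zero : DeltaS k ≠ 0 := by
  intro h
  have := DeltaS_coeff_one k
  rw [h] at this
  simp at this

theorem order_DeltaS : (DeltaS k).order = 1 := by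
  apply le_antisymm
  · exact HahnSeries.order_le_of_coeff_ne_zero (by rw [DeltaS_coeff_one]; exact one_ne_zero)
  · rw [HahnSeries.le_order_iff_forall (DeltaS_ne_zero k)]
    intro j hj
    exact DeltaS_coeff_of_lt k hj

theorem DeltaSInv_eq_inv : DeltaSInv k = (DeltaS k)⁻¹ :=
  eq_inv_of_mul_eq_one_right (DeltaS_mul_DeltaSInv k)

theorem DeltaQuot_eq_div (p : ℕ) [NeZero p] :
    DeltaQuot k p = qExpand k p (DeltaS k) / DeltaS k := by
  rw [DeltaQuot, DeltaSInv_eq_inv, div_eq_mul_inv]

theorem order_qExpand_DeltaS (p : ℕ) [NeZero p] : (qExpand k p (DeltaS k)).order = p := by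
  have hne : qExpand k p (DeltaS k) ≠ 0 := fun h =>
    DeltaS_ne_zero k (qExpand_injective p (by rw [h, map_zero]))
  apply le_antisymm
  · apply HahnSeries.order_le_of_coeff_ne_zero
    have h := qExpand_coeff_mul p (DeltaS k) 1
    rw [mul_one] at h
    rw [h, DeltaS_coeff_one]
    exact one_ne_zero
  · rw [HahnSeries.le_order_iff_forall hne]
    intro j hj
    by_cases hd : (p : ℤ) ∣ j
    · obtain ⟨m, rfl⟩ := hd
      rw [qExpand_coeff_mul]
      apply DeltaS_coeff_of_lt
      have hp : (0 : ℤ) < p := by exact_mod_cast Nat.pos_of_ne_zero (NeZero.ne p)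
      by_contra hm
      have hm' : (1 : ℤ) ≤ m := not_lt.mp hm
      nlinarith
    · exact qExpand_coeff_of_not_dvd p _ hd

/-- `Δ(q^p)/Δ(q)` has positive order for `p ≥ 2`. -/
theorem order_DeltaQuot_pos (p : ℕ) [NeZero p] (hp2 : 2 ≤ p) :
    0 < (qExpand k p (DeltaS k) / DeltaS k).order := by
  have hne : qExpand k p (DeltaS k) ≠ 0 := fun h =>
    DeltaS_ne_zero k (qExpand_injective p (by rw [h, map_zero]))
  have hu : qExpand k p (DeltaS k) / DeltaS k ≠ 0 := div_ne_zero hne (DeltaS_ne_zero k)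
  have h := HahnSeries.order_mul hu (DeltaS_ne_zero k)
  rw [div_mul_cancel₀ _ (DeltaS_ne_zero k), order_qExpand_DeltaS, order_DeltaS] at h
  have : (2 : ℤ) ≤ p := by exact_mod_cast hp2
  omega

/-- helper30's `theta` is `thetaOp`. -/
theorem theta_eq_thetaOp (x : LaurentSeries k) : H30.theta x = thetaOp x := by
  ext n
  rw [H30.theta_coeff, thetaOp_coeff]

/-- helper17's formal identity in the shape of helper30's hypothesis `hrel`. -/
theorem hrel_jqModC :
    DeltaS k * jqModC k ^ 4 * (jqModC k - HahnSeries.C (1728 : k)) ^ 3 =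
      (H30.theta (jqModC k)) ^ 6 := by
  rw [theta_eq_thetaOp, ← H17.formal_identity k, map_ofNat]

/-- transfer of the W1c deliverable to `k`. -/
theorem eval₂_deltaQuot_of_isDeltaQuotPoly (p : ℕ) [NeZero p] {P : Polynomial ℤ[X]}
    (hP : IsDeltaQuotPoly p P) :
    P.eval₂ (evalJ (jqModC k)) ((p : LaurentSeries k) ^ 12 * DeltaQuot k p) = 0 := by
  have h := congrArg (coeffMap (Int.castRingHom k)) hP.2
  rw [H16.coeffMap_eval₂_evalJ, map_zero, coeffMap_jqModC, map_mul, map_pow, map_natCast,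
    coeffMap_DeltaQuot] at h
  exact h

/-- `evalJ J` factors through `k[J] = Algebra.adjoin k {J}`. -/
theorem isIntegral_adjoin_of_eval₂_evalJ (J v : LaurentSeries k) {P : Polynomial ℤ[X]}
    (hPm : P.Monic) (hP : P.eval₂ (evalJ J) v = 0) :
    IsIntegral (Algebra.adjoin k {J}) v := by
  let g : ℤ[X] →+* Algebra.adjoin k {J} :=
    (Polynomial.aeval (R := ℤ)
      (⟨J, Algebra.subset_adjoin (Set.mem_singleton J)⟩ : Algebra.adjoin k {J})).toRingHom
  have hcomp : evalJ J = (algebraMap (Algebra.adjoin k {J}) (LaurentSeries k)).comp g := by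
    refine Polynomial.ringHom_ext' (Subsingleton.elim _ _) ?_
    simp [evalJ, g]
  refine ⟨P.map g, hPm.map g, ?_⟩
  rw [Polynomial.eval₂_map, ← hcomp]
  exact hP

/-- `Δ(q^p)/Δ(q)` is integral over `k[J]` when `p` is invertible in `k`. -/
theorem isIntegral_DeltaQuot (p : ℕ) [NeZero p] (hpk : (p : k) ≠ 0) {P : Polynomial ℤ[X]}
    (hP : IsDeltaQuotPoly p P) :
    IsIntegral (Algebra.adjoin k {jqModC k}) (qExpand k p (DeltaS k) / DeltaS k) := by
  have hv := isIntegral_adjoin_of_eval₂_evalJ k (jqModC k) _ hP.1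
    (eval₂_deltaQuot_of_isDeltaQuotPoly k p hP)
  rw [DeltaQuot_eq_div] at hv
  set u := qExpand k p (DeltaS k) / DeltaS k with hu
  set A := Algebra.adjoin k {jqModC k} with hA
  have hc : ((p : k) ^ 12) ≠ 0 := pow_ne_zero _ hpk
  have hcast : (p : LaurentSeries k) ^ 12 = algebraMap k (LaurentSeries k) ((p : k) ^ 12) := by
    rw [map_pow, map_natCast]
  have hu' : u = algebraMap A (LaurentSeries k) (algebraMap k A (((p : k) ^ 12)⁻¹)) *
      ((p : LaurentSeries k) ^ 12 * u) := by
    rw [← IsScalarTower.algebraMap_apply k A (LaurentSeries k), hcast, ← mul_assoc, ← map_mul,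
      inv_mul_cancel₀ hc, map_one, one_mul]
  rw [hu']
  exact IsIntegral.mul isIntegral_algebraMap hv

/-- **Concrete prime core**: `J(q^p) ∉ k(J)` for `p ≥ 2` invertible in `k`, given W1c. -/
theorem prime_core (p : ℕ) [NeZero p] (hp2 : 2 ≤ p) (hpk : (p : k) ≠ 0)
    (P : Polynomial ℤ[X]) (hP : IsDeltaQuotPoly p P) :
    qExpand k p (jqModC k) ∉ IntermediateField.adjoin k {jqModC k} :=
  H30.qExpand_not_mem_adjoin_of_isIntegral p hpk (1728 : k) (order_jqModC_neg k)
    (hrel_jqModC k) (order_DeltaQuot_pos k p hp2) (isIntegral_DeltaQuot k p hpk hP)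

theorem prime_core' (p : ℕ) [NeZero p] (hp2 : 2 ≤ p) (hpk : (p : k) ≠ 0)
    (hP : ∃ P : Polynomial ℤ[X], IsDeltaQuotPoly p P) :
    qExpand k p (jqModC k) ∉ IntermediateField.adjoin k {jqModC k} := by
  obtain ⟨P, hP⟩ := hP
  exact prime_core k p hp2 hpk P hP

/-- polynomial form of the prime core. -/
theorem prime_core_poly (p : ℕ) [NeZero p] (hp2 : 2 ≤ p) (hpk : (p : k) ≠ 0)
    (P : Polynomial ℤ[X]) (hP : IsDeltaQuotPoly p P) :
    ¬ ∃ A B : k[X], aeval (jqModC k) B ≠ 0 ∧
      aeval (jqModC k) B * qExpand k p (jqModC k) = aeval (jqModC k) A := by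
  rintro ⟨A, B, hB, h⟩
  refine prime_core k p hp2 hpk P hP ?_
  rw [IntermediateField.mem_adjoin_simple_iff]
  exact ⟨A, B, by rw [eq_div_iff hB, mul_comm, h]⟩

end Field

end Fermat.Agent.S28.H71
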