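import Mathlib
import Fermat.Agent.S28.H59_PrimeStep
import Fermat.Agent.S28.H71_PrimeCoreInst

/-!
S28 (Igusa), package W2c (helper59): the general prime step with all inputs in their FINAL
shapes (`HasModPoly`, `IsDeltaQuotPoly`), i.e. depending only on the W1b and W1c deliverables.
-/

set_option autoImplicit false

noncomputable section

namespace Fermat.Agent.S28.H59

open ModularCurve HahnSeries Polynomial IntermediateField

/-- **General prime step, final form.**  `k` a field containing a primitive `N`-th root of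
unity `ζ`, `p` a prime with `p ∤ M`, `p M ∣ N`, `p ≠ 0` in `k`.  Then
`j(t^(e p M)) ∉ k(j(t^e), j(t^(e M)))`. -/
theorem prime_step_final (k : Type) [Field k] {p M N : ℕ} [NeZero p] [NeZero M]
    (hp : p.Prime) (hpM : ¬ p ∣ M) (hN : p * M ∣ N) (hN0 : N ≠ 0)
    (ζ : kˣ) (hζ : IsPrimitiveRoot ζ N) (hpk : (p : k) ≠ 0)
    (hmodM : HasModPoly M) (hmodp : HasModPoly p)
    (hdelta : ∃ P : Polynomial ℤ[X], IsDeltaQuotPoly p P)
    (e : ℕ) [NeZero e] :
    qExpand k (e * (p * M)) (jqModC k) ∉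
      IntermediateField.adjoin k {qExpand k e (jqModC k), qExpand k (e * M) (jqModC k)} := by
  obtain ⟨DM, hDM⟩ := hmodM
  obtain ⟨Dp, hDp⟩ := hmodp
  have hMN : M ∣ N := (Dvd.intro_left p rfl).trans hN
  have hpN : p ∣ N := (Dvd.intro M rfl).trans hN
  have hζM : IsPrimitiveRoot (ζ ^ (N / M)) M :=
    hζ.pow (Nat.pos_of_ne_zero hN0) (Nat.div_mul_cancel hMN).symm
  have hζp : IsPrimitiveRoot (ζ ^ (N / p)) p :=
    hζ.pow (Nat.pos_of_ne_zero hN0) (Nat.div_mul_cancel hpN).symm
  have hMpos : 0 < M := Nat.pos_of_ne_zero (NeZero.ne M)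
  exact prime_step hp hpM DM.monic
    (DM.natDegree_eq.trans (H64.card_triples M hMpos).symm) Dp.monic
    (Dp.natDegree_eq.trans (H64.card_triples p hp.pos).symm) hζM hζp
    (hDM k _ hζM) (hDp k _ hζp) (H71.prime_core' k p hp.two_le hpk hdelta) e

/-- The same over an arbitrary model `K` of `k(j(t^e))`, in the shape of
`H50.exists_conj_of_not_mem`. -/
theorem prime_step_final_range (k : Type) [Field k] {p M N : ℕ} [NeZero p] [NeZero M]
    (hp : p.Prime) (hpM : ¬ p ∣ M) (hN : p * M ∣ N) (hN0 : N ≠ 0)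
    (ζ : kˣ) (hζ : IsPrimitiveRoot ζ N) (hpk : (p : k) ≠ 0)
    (hmodM : HasModPoly M) (hmodp : HasModPoly p)
    (hdelta : ∃ P : Polynomial ℤ[X], IsDeltaQuotPoly p P)
    (e : ℕ) [NeZero e]
    (K : Type*) [Field K] [Algebra k K] [Algebra K (LaurentSeries k)]
    [IsScalarTower k K (LaurentSeries k)]
    (hK : ∀ c : K, algebraMap K (LaurentSeries k) c ∈
      IntermediateField.adjoin k {qExpand k e (jqModC k)}) :
    qExpand k (e * (p * M)) (jqModC k) ∉
      (algebraMap ↥(IntermediateField.adjoin K {qExpand k (e * M) (jqModC k)})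
        (LaurentSeries k)).range := by
  obtain ⟨DM, hDM⟩ := hmodM
  obtain ⟨Dp, hDp⟩ := hmodp
  have hMN : M ∣ N := (Dvd.intro_left p rfl).trans hN
  have hpN : p ∣ N := (Dvd.intro M rfl).trans hN
  have hζM : IsPrimitiveRoot (ζ ^ (N / M)) M :=
    hζ.pow (Nat.pos_of_ne_zero hN0) (Nat.div_mul_cancel hMN).symm
  have hζp : IsPrimitiveRoot (ζ ^ (N / p)) p :=
    hζ.pow (Nat.pos_of_ne_zero hN0) (Nat.div_mul_cancel hpN).symm
  have hMpos : 0 < M := Nat.pos_of_ne_zero (NeZero.ne M)
  exact prime_step_range hp hpM DM.monic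
    (DM.natDegree_eq.trans (H64.card_triples M hMpos).symm) Dp.monic
    (Dp.natDegree_eq.trans (H64.card_triples p hp.pos).symm) hζM hζp
    (hDM k _ hζM) (hDp k _ hζp) (H71.prime_core' k p hp.two_le hpk hdelta) e K hK

end Fermat.Agent.S28.H59
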