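/-
helper61 — S28 / W3-final, abstract core.

Assembly of helper98's unramified-DVR step (`H98_UnramClosure`), helper69's contraction step
(`H69_Contract`) and the tensor step (`H61_Tensor`):

`P` an integrally closed domain (`= Z[s]`), `O = P_(ℓ)` a DVR, `F ⊇ P` a field generated over
`Frac P` by a root `θ` of a monic `Φ : O[X]` whose reduction along `lam : O → 𝔽(T)` stays
irreducible over `K(T)`.  Then for the integral closure `A` of `P` in `F`, `A ⊗[Z] K` is a domain.
-/
import Mathlib
import Fermat.Agent.S28.H98_UnramClosure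
import Fermat.Agent.S28.H69_Contract
import Fermat.Agent.S28.H61_Tensor

set_option autoImplicit false

namespace Fermat.Agent.S28.H61

open TensorProduct Polynomial IsLocalRing

section KernelLemma

variable {R S : Type*} [CommRing R] [CommRing S] (f : R →+* S) (g : R[X])

theorem adjoinRoot_map_mk' (p : R[X]) :
    AdjoinRoot.map f g (g.map f) dvd_rfl (AdjoinRoot.mk g p) = AdjoinRoot.mk (g.map f) (p.map f) := by
  induction p using Polynomial.induction_on' with
  | add p q hp hq => simp only [map_add, Polynomial.map_add, hp, hq]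
  | monomial n a =>
    rw [← Polynomial.C_mul_X_pow_eq_monomial]
    simp only [map_mul, map_pow, Polynomial.map_mul, Polynomial.map_pow, Polynomial.map_C,
      Polynomial.map_X, AdjoinRoot.mk_C, AdjoinRoot.mk_X, AdjoinRoot.map_of, AdjoinRoot.map_root]

/-- The kernel of `R[X]/(g) → S[X]/(g)` is generated by the kernel of `R → S`
(`g` monic, `S` nontrivial), in the principal case `ker f = (ϖ)`. -/
theorem exists_eq_mul_of_adjoinRoot_map_eq_zero [Nontrivial S] (hg : g.Monic) (ϖ : R)
    (hker : ∀ r : R, f r = 0 → ∃ r', r = ϖ * r')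
    (b : AdjoinRoot g) (hb : AdjoinRoot.map f g (g.map f) dvd_rfl b = 0) :
    ∃ b' : AdjoinRoot g, b = AdjoinRoot.of g ϖ * b' := by
  classical
  have : Nontrivial R := f.domain_nontrivial
  obtain ⟨q, rfl⟩ := AdjoinRoot.mk_surjective b
  set p : R[X] := q %ₘ g with hp
  have hmk : AdjoinRoot.mk g q = AdjoinRoot.mk g p := by
    rw [AdjoinRoot.mk_eq_mk, hp, Polynomial.modByMonic_eq_sub_mul_div q g, sub_sub_cancel]
    exact dvd_mul_right _ _
  have hdeg : p.degree < g.degree := Polynomial.degree_modByMonic_lt q hg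
  rw [hmk, adjoinRoot_map_mk', AdjoinRoot.mk_eq_zero] at hb
  have hp0 : p.map f = 0 := by
    by_contra h0
    refine (hg.map f).not_dvd_of_degree_lt h0 ?_ hb
    rw [hg.degree_map]
    exact lt_of_le_of_lt (Polynomial.degree_map_le) hdeg
  have hcoeff : ∀ n, ∃ r', p.coeff n = ϖ * r' := fun n => hker _ (by
    have := congrArg (fun Q : S[X] => Q.coeff n) hp0
    simpa [Polynomial.coeff_map] using this)
  choose c hc using hcoeff
  refine ⟨AdjoinRoot.mk g (∑ n ∈ p.support, Polynomial.monomial n (c n)), ?_⟩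
  rw [hmk, ← AdjoinRoot.mk_C (f := g) ϖ, ← map_mul]
  congr 1
  conv_lhs => rw [p.as_sum_support]
  rw [Finset.mul_sum]
  refine Finset.sum_congr rfl fun n _ => ?_
  rw [hc n, Polynomial.C_mul_monomial]

end KernelLemma

section Core

universe uK

variable {Z P O F 𝔽 : Type*} {K : Type uK}
  [CommRing Z] [Field 𝔽] [Algebra Z 𝔽] [Field K] [Algebra Z K] [Algebra 𝔽 K] [IsScalarTower Z 𝔽 K]
  [CommRing P] [IsDomain P] [IsIntegrallyClosed P] [Algebra Z P]
  [CommRing O] [IsDomain O] [IsDiscreteValuationRing O] [Algebra P O]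
  [Field F] [Algebra Z F] [Algebra P F] [IsScalarTower Z P F] [FaithfulSMul P F]
  [Algebra O F] [IsScalarTower P O F]

omit [IsIntegrallyClosed P] [IsDiscreteValuationRing O] [IsDomain P] in
/-- `O → F` is injective when `O` is a localisation of `P ⊆ F`. -/
theorem algebraMap_injective_of_isLocalization (M : Submonoid P) [IsLocalization M O] :
    Function.Injective (algebraMap O F) := by
  rw [injective_iff_map_eq_zero]
  intro o ho
  obtain ⟨⟨a, c⟩, hac⟩ := IsLocalization.surj M o
  have h1 : algebraMap P F a = 0 := by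
    rw [IsScalarTower.algebraMap_apply P O F, ← hac, map_mul, ho, zero_mul]
  have ha : a = 0 := FaithfulSMul.algebraMap_injective P F (by rw [h1, map_zero])
  rw [ha, map_zero] at hac
  have hc : algebraMap P O (c : P) ≠ 0 := by
    intro h
    have h2 : algebraMap P F (c : P) = 0 := by
      rw [IsScalarTower.algebraMap_apply P O F, h, map_zero]
    have hc0 : (c : P) = 0 := FaithfulSMul.algebraMap_injective P F (by rw [h2, map_zero])
    have hu : IsUnit (algebraMap P O (c : P)) := IsLocalization.map_units O c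
    rw [hc0, map_zero] at hu
    exact not_isUnit_zero hu
  exact (mul_eq_zero.mp hac).resolve_right hc

omit [IsIntegrallyClosed P] [IsDomain P] [Algebra P O] [IsScalarTower P O F] [FaithfulSMul P F]
  [Algebra P F] [Algebra O F] in
/-- Irreducibility over `K(T)` of the reduction along `lam` gives irreducibility over the residue
field of `O`. -/
theorem irreducible_map_residue (Φ : O[X]) (hΦ : Φ.Monic)
    (lam : O →+* RatFunc 𝔽) (hlam : ∀ o, lam o = 0 ↔ o ∈ maximalIdeal O)
    (hirr : Irreducible ((Φ.map lam).map (ratFuncMap 𝔽 K))) :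
    Irreducible (Φ.map (residue O)) := by
  let lam' : ResidueField O →+* RatFunc 𝔽 :=
    Ideal.Quotient.lift (maximalIdeal O) lam (fun o ho => (hlam o).mpr ho)
  have hfac : lam = lam'.comp (residue O) := by
    ext o
    rfl
  have h1 : Irreducible ((Φ.map (residue O)).map ((ratFuncMap 𝔽 K).comp lam')) := by
    rw [Polynomial.map_map, RingHom.comp_assoc, ← hfac, ← Polynomial.map_map]
    exact hirr
  exact (hΦ.map _).irreducible_of_irreducible_map _ _ h1

omit [IsIntegrallyClosed P] [IsDomain P] in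
/-- Integral elements of `F` over `O` lie in `O[θ]` (when `F = Frac(P)(θ)`). -/
theorem mem_adjoin_of_isIntegral_of_gen (M : Submonoid P) [IsLocalization M O]
    (Φ : O[X]) (hΦ : Φ.Monic) (hres : Irreducible (Φ.map (residue O)))
    (θ : F) (hθ : aeval θ Φ = 0)
    (hgen : ∀ x : F, ∃ c : P, c ≠ 0 ∧ algebraMap P F c * x ∈ Algebra.adjoin P {θ})
    (x : F) (hx : IsIntegral O x) : x ∈ Algebra.adjoin O {θ} := by
  have hOF : Function.Injective (algebraMap O F) := algebraMap_injective_of_isLocalization M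
  let E := FractionRing O
  let algEF : Algebra E F := (IsFractionRing.lift hOF).toAlgebra
  have towOEF : IsScalarTower O E F :=
    IsScalarTower.of_algebraMap_eq fun x => (IsFractionRing.lift_algebraMap hOF x).symm
  have hPEF : ∀ c : P, algebraMap E F (algebraMap O E (algebraMap P O c)) = algebraMap P F c := by
    intro c
    rw [← IsScalarTower.algebraMap_apply O E F, ← IsScalarTower.algebraMap_apply P O F]
  refine H98.mem_adjoin_of_isIntegral (K := E) hΦ hres θ hθ hx ?_
  obtain ⟨c, hc0, hc⟩ := hgen x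
  rw [Algebra.adjoin_singleton_eq_range_aeval] at hc
  obtain ⟨G, hG⟩ := hc
  have hcF : algebraMap P F c ≠ 0 := by
    intro h
    exact hc0 (FaithfulSMul.algebraMap_injective P F (by rw [h, map_zero]))
  have hy : algebraMap P F c * x ∈ Algebra.adjoin E {θ} := by
    rw [Algebra.adjoin_singleton_eq_range_aeval]
    refine ⟨(G.map (algebraMap P O)).map (algebraMap O E), ?_⟩
    have hG' : (aeval θ) G = algebraMap P F c * x := hG
    rw [← hG', AlgHom.toRingHom_eq_coe, RingHom.coe_coe, aeval_map_algebraMap,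
      aeval_map_algebraMap]
  have hx' : x = algebraMap E F (algebraMap O E (algebraMap P O c))⁻¹ * (algebraMap P F c * x) := by
    rw [map_inv₀, hPEF, inv_mul_cancel_left₀ hcF]
  rw [hx']
  exact Subalgebra.mul_mem _ (Subalgebra.algebraMap_mem _ _) hy

/-- The residue homomorphism `O[θ] ≃ O[X]/(Φ) → 𝔽(T)[X]/(Φ̄)`. -/
noncomputable def residueHom {Φ : O[X]} (hΦ : Φ.Monic) (hres : Irreducible (Φ.map (residue O)))
    (hOF : Function.Injective (algebraMap O F)) (θ : F) (hθ : aeval θ Φ = 0)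
    (lam : O →+* RatFunc 𝔽) : Algebra.adjoin O {θ} →+* AdjoinRoot (Φ.map lam) :=
  (AdjoinRoot.map lam Φ (Φ.map lam) dvd_rfl).comp
    ((H98.adjoinEquiv hΦ hres hOF θ hθ).symm : _ →+* AdjoinRoot Φ)

omit [IsIntegrallyClosed P] [IsDomain P] [Algebra P O] [IsScalarTower P O F] [FaithfulSMul P F]
  [Algebra P F] [Algebra Z F] [IsScalarTower Z P F] [Algebra Z P] in
theorem residueHom_algebraMap {Φ : O[X]} (hΦ : Φ.Monic) (hres : Irreducible (Φ.map (residue O)))
    (hOF : Function.Injective (algebraMap O F)) (θ : F) (hθ : aeval θ Φ = 0)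
    (lam : O →+* RatFunc 𝔽) (o : O) (x : Algebra.adjoin O {θ}) (hx : (x : F) = algebraMap O F o) :
    residueHom hΦ hres hOF θ hθ lam x = AdjoinRoot.of (Φ.map lam) (lam o) := by
  have h1 : (H98.adjoinEquiv hΦ hres hOF θ hθ).symm x = AdjoinRoot.of Φ o := by
    apply (H98.adjoinEquiv hΦ hres hOF θ hθ).injective
    rw [AlgEquiv.apply_symm_apply]
    apply Subtype.ext
    rw [hx, H98.coe_adjoinEquiv, H98.evalRoot_of]
  show AdjoinRoot.map lam Φ (Φ.map lam) dvd_rfl
    ((H98.adjoinEquiv hΦ hres hOF θ hθ).symm x) = _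
  rw [h1, AdjoinRoot.map_of]

/-- **W3, abstract core.** -/
theorem isDomain_tensor_chart
    (hsurj : Function.Surjective (algebraMap Z 𝔽)) (ℓ : Z) (hℓ : algebraMap Z 𝔽 ℓ = 0)
    (hprime : Prime (algebraMap Z P ℓ))
    [hI : (Ideal.span {algebraMap Z P ℓ}).IsPrime]
    [IsLocalization.AtPrime O (Ideal.span {algebraMap Z P ℓ})]
    (Φ : O[X]) (hΦ : Φ.Monic) (θ : F) (hθ : aeval θ Φ = 0)
    (hgen : ∀ x : F, ∃ c : P, c ≠ 0 ∧ algebraMap P F c * x ∈ Algebra.adjoin P {θ})
    (lam : O →+* RatFunc 𝔽) (hlam : ∀ o, lam o = 0 ↔ o ∈ maximalIdeal O)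
    (hlamZ : ∀ z : Z, lam (algebraMap P O (algebraMap Z P z)) =
      algebraMap 𝔽[X] (RatFunc 𝔽) (C (algebraMap Z 𝔽 z)))
    (hirr : Irreducible ((Φ.map lam).map (ratFuncMap 𝔽 K)))
    (A : Subalgebra Z F) (hA : ∀ x, x ∈ A ↔ IsIntegral P x) :
    IsDomain (A ⊗[Z] K) := by
  classical
  set ϖP : P := algebraMap Z P ℓ with hϖP
  have hOF : Function.Injective (algebraMap O F) :=
    algebraMap_injective_of_isLocalization (Ideal.span {ϖP}).primeCompl
  have hres : Irreducible (Φ.map (residue O)) := irreducible_map_residue Φ hΦ lam hlam hirr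
  let e := H98.adjoinEquiv hΦ hres hOF θ hθ
  have he : ∀ b : AdjoinRoot Φ, (e b : F) = H98.evalRoot Φ θ hθ b :=
    fun b => H98.coe_adjoinEquiv hΦ hres hOF θ hθ b
  have hAB : ∀ a : A, (a : F) ∈ Algebra.adjoin O {θ} := fun a =>
    mem_adjoin_of_isIntegral_of_gen (Ideal.span {ϖP}).primeCompl Φ hΦ hres θ hθ hgen _
      (((hA _).mp a.2).tower_top)
  let ι : A →+* Algebra.adjoin O {θ} :=
    (A.val : A →+* F).codRestrict (Algebra.adjoin O {θ}) hAB
  have hι : ∀ a : A, ((ι a : Algebra.adjoin O {θ}) : F) = (a : F) := fun _ => rfl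
  let ψ₀ : A →+* AdjoinRoot (Φ.map lam) := (residueHom hΦ hres hOF θ hθ lam).comp ι
  have hψ₀def : ∀ a : A, ψ₀ a =
      AdjoinRoot.map lam Φ (Φ.map lam) dvd_rfl (e.symm (ι a)) := fun _ => rfl
  -- the uniformizer
  set ϖO : O := algebraMap P O ϖP with hϖO
  have hmaxO : maximalIdeal O = Ideal.span {ϖO} := by
    rw [← IsLocalization.AtPrime.map_eq_maximalIdeal (Ideal.span {ϖP}) O, Ideal.map_span,
      Set.image_singleton]
  have hkerlam : ∀ o : O, lam o = 0 → ∃ o', o = ϖO * o' := by
    intro o ho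
    have := (hlam o).mp ho
    rw [hmaxO, Ideal.mem_span_singleton] at this
    exact this
  refine isDomain_tensor_of_adjoinRoot_ratFunc hsurj ℓ hℓ (Φ.map lam) (hΦ.map lam) hirr ψ₀ ?_ ?_
  · -- compatibility on constants
    intro z
    show residueHom hΦ hres hOF θ hθ lam (ι (algebraMap Z A z)) = _
    rw [residueHom_algebraMap hΦ hres hOF θ hθ lam (algebraMap P O (algebraMap Z P z)) _ (by
      rw [hι, ← IsScalarTower.algebraMap_apply P O F, ← IsScalarTower.algebraMap_apply Z P F]
      rfl), hlamZ]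
  · -- kernel
    intro a ha
    rw [hψ₀def] at ha
    obtain ⟨b', hb'⟩ := exists_eq_mul_of_adjoinRoot_map_eq_zero lam Φ hΦ ϖO hkerlam _ ha
    -- `a = ϖ * y` in `F` with `y ∈ B`
    set y : F := H98.evalRoot Φ θ hθ b' with hy
    have hay : (a : F) = algebraMap P F ϖP * y := by
      have h2 : (e (e.symm (ι a)) : F) = (a : F) := by rw [AlgEquiv.apply_symm_apply, hι]
      rw [← h2, he, hb', map_mul, H98.evalRoot_of, hϖO, ← IsScalarTower.algebraMap_apply P O F]
    have hyint : IsIntegral O y := by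
      have hθint : IsIntegral O θ := ⟨Φ, hΦ, hθ⟩
      have hle : Algebra.adjoin O {θ} ≤ integralClosure O F :=
        Algebra.adjoin_le (Set.singleton_subset_iff.mpr hθint)
      have : y ∈ Algebra.adjoin O {θ} := by
        rw [← H98.range_evalRoot Φ θ hθ]
        exact ⟨b', rfl⟩
      exact hle this
    have hyP : IsIntegral P y :=
      H69.isIntegral_of_mul_eq (O := O) hprime ((hA _).mp a.2) hyint hay
    refine ⟨⟨y, (hA y).mpr hyP⟩, Subtype.ext ?_⟩
    rw [hay]
    show algebraMap P F ϖP * y = ℓ • y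
    rw [hϖP, ← IsScalarTower.algebraMap_apply Z P F, Algebra.smul_def]

/-- Two ring homs out of `A` and `K` agreeing on `Z`, into a nontrivial ring, show that
`A ⊗[Z] K` is nontrivial. -/
theorem nontrivial_tensor_of_ringHoms {Z A K Ω : Type*} [CommRing Z] [CommRing A] [Algebra Z A]
    [CommRing K] [Algebra Z K] [CommRing Ω] [Nontrivial Ω]
    (ψ : A →+* Ω) (κ : K →+* Ω) (h : ∀ z, ψ (algebraMap Z A z) = κ (algebraMap Z K z)) :
    Nontrivial (A ⊗[Z] K) := by
  let algZ : Algebra Z Ω := (κ.comp (algebraMap Z K)).toAlgebra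
  let ψ' : A →ₐ[Z] Ω := { ψ with commutes' := fun z => h z }
  let κ' : K →ₐ[Z] Ω := { κ with commutes' := fun _ => rfl }
  exact (Algebra.TensorProduct.productMap ψ' κ').toRingHom.domain_nontrivial

omit [IsIntegrallyClosed P] [IsDomain P] in
/-- **W3, abstract core, nontriviality form** (for the overlap chart): any `Z`-subalgebra of `F`
all of whose elements are integral over `O`. -/
theorem nontrivial_tensor_chart
    (M : Submonoid P) [IsLocalization M O]
    (Φ : O[X]) (hΦ : Φ.Monic) (θ : F) (hθ : aeval θ Φ = 0)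
    (hgen : ∀ x : F, ∃ c : P, c ≠ 0 ∧ algebraMap P F c * x ∈ Algebra.adjoin P {θ})
    (lam : O →+* RatFunc 𝔽) (hlam : ∀ o, lam o = 0 ↔ o ∈ maximalIdeal O)
    (hlamZ : ∀ z : Z, lam (algebraMap P O (algebraMap Z P z)) =
      algebraMap 𝔽[X] (RatFunc 𝔽) (C (algebraMap Z 𝔽 z)))
    (hirr : Irreducible ((Φ.map lam).map (ratFuncMap 𝔽 K)))
    (A : Subalgebra Z F) (hA : ∀ x ∈ A, IsIntegral O x) :
    Nontrivial (A ⊗[Z] K) := by
  classical
  have hOF : Function.Injective (algebraMap O F) := algebraMap_injective_of_isLocalization M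
  have hres : Irreducible (Φ.map (residue O)) := irreducible_map_residue Φ hΦ lam hlam hirr
  have hAB : ∀ a : A, (a : F) ∈ Algebra.adjoin O {θ} := fun a =>
    mem_adjoin_of_isIntegral_of_gen M Φ hΦ hres θ hθ hgen _ (hA _ a.2)
  let ι : A →+* Algebra.adjoin O {θ} :=
    (A.val : A →+* F).codRestrict (Algebra.adjoin O {θ}) hAB
  have hι : ∀ a : A, ((ι a : Algebra.adjoin O {θ}) : F) = (a : F) := fun _ => rfl
  have : Fact (Irreducible ((Φ.map lam).map (ratFuncMap 𝔽 K))) := ⟨hirr⟩
  let Ω := AdjoinRoot ((Φ.map lam).map (ratFuncMap 𝔽 K))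
  let ψ : A →+* Ω := (AdjoinRoot.map (ratFuncMap 𝔽 K) (Φ.map lam) _ dvd_rfl).comp
    ((residueHom hΦ hres hOF θ hθ lam).comp ι)
  let κ : K →+* Ω := (AdjoinRoot.of _).comp ((algebraMap K[X] (RatFunc K)).comp C)
  refine nontrivial_tensor_of_ringHoms ψ κ fun z => ?_
  show AdjoinRoot.map (ratFuncMap 𝔽 K) (Φ.map lam) _ dvd_rfl
    (residueHom hΦ hres hOF θ hθ lam (ι (algebraMap Z A z))) = _
  rw [residueHom_algebraMap hΦ hres hOF θ hθ lam (algebraMap P O (algebraMap Z P z)) _ (by
      rw [hι, ← IsScalarTower.algebraMap_apply P O F, ← IsScalarTower.algebraMap_apply Z P F]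
      rfl), hlamZ, AdjoinRoot.map_of, ratFuncMap_algebraMap, Polynomial.map_C,
    ← IsScalarTower.algebraMap_apply Z 𝔽 K]
  rfl

end Core

end Fermat.Agent.S28.H61
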