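import Mathlib

/-!
# The Gauss valuation ring `R[X]_(ϖ)` (helper92, S28 / W3b-gauss, Mathlib only)

`R` a noetherian domain, `ϖ : R` a prime element. The ideal `(ϖ) = span {C ϖ}` of `R[X]` is
prime and the localisation `O` of `R[X]` at it is a discrete valuation ring with uniformiser `ϖ`.
We record `R[X] ∩ ϖ O = ϖ R[X]`, that `X` is a unit of `O`, and the residue maps `O → E`
induced by ring homs `R[X] → E` with kernel `(ϖ)`.

Everything is stated for an arbitrary `O` with `[IsLocalization.AtPrime O (gaussIdeal ϖ)]`.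
-/

set_option autoImplicit false

open Polynomial IsLocalRing

namespace Fermat.Agent.S28.H92

section Ideal

variable {R : Type*} [CommRing R]

/-- The ideal `(ϖ)` of `R[X]`. -/
noncomputable abbrev gaussIdeal (ϖ : R) : Ideal R[X] := Ideal.span {C ϖ}

theorem mem_gaussIdeal_iff_dvd {ϖ : R} {g : R[X]} : g ∈ gaussIdeal ϖ ↔ C ϖ ∣ g :=
  Ideal.mem_span_singleton

theorem mem_gaussIdeal_iff {ϖ : R} {g : R[X]} : g ∈ gaussIdeal ϖ ↔ ∀ n, ϖ ∣ g.coeff n := by
  rw [mem_gaussIdeal_iff_dvd, C_dvd_iff_dvd_coeff]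

theorem C_mem_gaussIdeal (ϖ : R) : C ϖ ∈ gaussIdeal ϖ :=
  Ideal.mem_span_singleton_self _

theorem gaussIdeal_isPrime [IsDomain R] {ϖ : R} (hϖ : Prime ϖ) : (gaussIdeal ϖ).IsPrime := by
  rw [gaussIdeal, Ideal.span_singleton_prime (by simpa using hϖ.ne_zero)]
  exact prime_C_iff.mpr hϖ

theorem X_notMem_gaussIdeal [Nontrivial R] {ϖ : R} (hϖ : ¬ IsUnit ϖ) :
    (X : R[X]) ∉ gaussIdeal ϖ := by
  rw [mem_gaussIdeal_iff]
  intro h
  have := h 1
  rw [coeff_X_one] at this
  exact hϖ (isUnit_of_dvd_one this)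

end Ideal

section Localization

variable {R : Type*} [CommRing R] [IsDomain R] {ϖ : R}
  (O : Type*) [CommRing O] [Algebra R[X] O]
  [hp : (gaussIdeal ϖ).IsPrime] [hO : IsLocalization.AtPrime O (gaussIdeal ϖ)]

include hO in
theorem gauss_isDomain : IsDomain O :=
  IsLocalization.isDomain_of_le_nonZeroDivisors (M := (gaussIdeal ϖ).primeCompl) O
    (Ideal.primeCompl_le_nonZeroDivisors _)

include hO in
omit [IsDomain R] in
theorem gauss_isNoetherianRing [IsNoetherianRing R] : IsNoetherianRing O :=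
  IsLocalization.isNoetherianRing (gaussIdeal ϖ).primeCompl O inferInstance

include hO in
omit [IsDomain R] in
theorem gauss_isLocalRing : IsLocalRing O := IsLocalization.AtPrime.isLocalRing O (gaussIdeal ϖ)

include hO in
theorem gauss_algebraMap_injective : Function.Injective (algebraMap R[X] O) :=
  IsLocalization.injective O (Ideal.primeCompl_le_nonZeroDivisors (gaussIdeal ϖ))

include hO in
omit [IsDomain R] in
/-- `g ∈ R[X]` lies in the maximal ideal of `O` iff `ϖ ∣ g` in `R[X]`. -/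
theorem algebraMap_mem_maximalIdeal_iff [IsLocalRing O] {g : R[X]} :
    algebraMap R[X] O g ∈ maximalIdeal O ↔ C ϖ ∣ g := by
  rw [IsLocalization.AtPrime.to_map_mem_maximal_iff O (gaussIdeal ϖ) g, mem_gaussIdeal_iff_dvd]

include hO in
omit [IsDomain R] in
theorem isUnit_algebraMap_iff {g : R[X]} : IsUnit (algebraMap R[X] O g) ↔ ¬ C ϖ ∣ g := by
  rw [IsLocalization.AtPrime.isUnit_to_map_iff O (gaussIdeal ϖ) g, Ideal.mem_primeCompl_iff,
    mem_gaussIdeal_iff_dvd]

include hO in
omit [IsDomain R] in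
theorem maximalIdeal_eq_span [IsLocalRing O] :
    maximalIdeal O = Ideal.span {algebraMap R[X] O (C ϖ)} := by
  rw [← IsLocalization.AtPrime.map_eq_maximalIdeal (gaussIdeal ϖ) O, gaussIdeal, Ideal.map_span,
    Set.image_singleton]

include hO in
omit [IsDomain R] in
theorem mem_maximalIdeal_iff [IsLocalRing O] {o : O} :
    o ∈ maximalIdeal O ↔ algebraMap R[X] O (C ϖ) ∣ o := by
  rw [maximalIdeal_eq_span (ϖ := ϖ) O, Ideal.mem_span_singleton]

include hO in
theorem algebraMap_C_ne_zero (hϖ : ϖ ≠ 0) : algebraMap R[X] O (C ϖ) ≠ 0 := by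
  rw [Ne, ← map_zero (algebraMap R[X] O), (gauss_algebraMap_injective (ϖ := ϖ) O).eq_iff]
  simpa using hϖ

include hO in
omit [IsDomain R] in
theorem isUnit_algebraMap_X (hϖ : ¬ IsUnit ϖ) : IsUnit (algebraMap R[X] O X) := by
  have : Nontrivial R := ⟨⟨ϖ, 1, fun h => hϖ (h ▸ isUnit_one)⟩⟩
  rw [IsLocalization.AtPrime.isUnit_to_map_iff O (gaussIdeal ϖ)]
  exact X_notMem_gaussIdeal hϖ

include hO in
/-- `O` is a discrete valuation ring. -/
theorem gauss_isDiscreteValuationRing [IsNoetherianRing R] (hϖ : ϖ ≠ 0) :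
    letI := gauss_isDomain (ϖ := ϖ) O
    IsDiscreteValuationRing O := by
  let _ := gauss_isDomain (ϖ := ϖ) O
  let _ := gauss_isLocalRing (ϖ := ϖ) O
  have := gauss_isNoetherianRing (ϖ := ϖ) O
  have hmax := maximalIdeal_eq_span (ϖ := ϖ) O
  have hnf : ¬ IsField O := by
    intro hF
    have h0 : maximalIdeal O = ⊥ := IsLocalRing.isField_iff_maximalIdeal_eq.mp hF
    have : algebraMap R[X] O (C ϖ) ∈ maximalIdeal O := by
      rw [hmax]; exact Ideal.mem_span_singleton_self _
    rw [h0, Ideal.mem_bot] at this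
    exact algebraMap_C_ne_zero O hϖ this
  have hprinc : (maximalIdeal O).IsPrincipal := by
    rw [hmax]; exact ⟨⟨_, rfl⟩⟩
  exact ((IsDiscreteValuationRing.TFAE O hnf).out 4 0).mp hprinc

include hO in
theorem irreducible_algebraMap_C [IsNoetherianRing R] (hϖ : ϖ ≠ 0) :
    letI := gauss_isDomain (ϖ := ϖ) O
    Irreducible (algebraMap R[X] O (C ϖ)) := by
  let _ := gauss_isDomain (ϖ := ϖ) O
  let _ := gauss_isLocalRing (ϖ := ϖ) O
  have := gauss_isDiscreteValuationRing O hϖ
  rw [IsDiscreteValuationRing.irreducible_iff_uniformizer]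
  exact maximalIdeal_eq_span (ϖ := ϖ) O

include hO in
/-- `R[X] ∩ ϖ O = ϖ R[X]`. -/
theorem mem_range_of_mul_mem_range (hϖ : ϖ ≠ 0) (o : O)
    (h : algebraMap R[X] O (C ϖ) * o ∈ (algebraMap R[X] O).range) :
    o ∈ (algebraMap R[X] O).range := by
  let _ := gauss_isDomain (ϖ := ϖ) O
  let _ := gauss_isLocalRing (ϖ := ϖ) O
  obtain ⟨g, hg⟩ := h
  have hmem : algebraMap R[X] O g ∈ maximalIdeal O := by
    rw [mem_maximalIdeal_iff (ϖ := ϖ) O, hg]; exact dvd_mul_right _ _
  obtain ⟨g', rfl⟩ := (algebraMap_mem_maximalIdeal_iff (ϖ := ϖ) O).mp hmem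
  refine ⟨g', ?_⟩
  rw [map_mul] at hg
  exact mul_left_cancel₀ (algebraMap_C_ne_zero O hϖ) hg

include hO in
theorem mem_range_of_pow_mul_mem_range (hϖ : ϖ ≠ 0) (n : ℕ) (o : O)
    (h : algebraMap R[X] O (C ϖ) ^ n * o ∈ (algebraMap R[X] O).range) :
    o ∈ (algebraMap R[X] O).range := by
  induction n with
  | zero => simpa using h
  | succ n ih =>
    apply ih
    apply mem_range_of_mul_mem_range O hϖ
    rwa [← mul_assoc, ← pow_succ']

/-! ### Residue maps -/

variable {E : Type*} [Field E] (φ : R[X] →+* E) (hφ : ∀ g, φ g = 0 ↔ C ϖ ∣ g)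

omit [IsDomain R] in
theorem isUnit_of_primeCompl {φ : R[X] →+* E} (hφ : ∀ g, φ g = 0 ↔ C ϖ ∣ g)
    (y : (gaussIdeal ϖ).primeCompl) : IsUnit (φ y) := by
  rw [isUnit_iff_ne_zero, Ne, hφ, ← mem_gaussIdeal_iff_dvd]
  exact y.2

/-- The ring hom `O → E` induced by `φ : R[X] → E` with kernel `(ϖ)`. -/
noncomputable def residueLift : O →+* E :=
  IsLocalization.lift (M := (gaussIdeal ϖ).primeCompl) (S := O) (g := φ)
    (isUnit_of_primeCompl hφ)

omit [IsDomain R] in
@[simp] theorem residueLift_algebraMap (g : R[X]) :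
    residueLift O φ hφ (algebraMap R[X] O g) = φ g :=
  IsLocalization.lift_eq _ _

omit [IsDomain R] in
theorem residueLift_comp : (residueLift O φ hφ).comp (algebraMap R[X] O) = φ :=
  RingHom.ext (residueLift_algebraMap O φ hφ)

omit [IsDomain R] in
theorem residueLift_eq_zero_iff [IsLocalRing O] (o : O) :
    residueLift O φ hφ o = 0 ↔ o ∈ maximalIdeal O := by
  obtain ⟨a, s, rfl⟩ := IsLocalization.exists_mk'_eq (gaussIdeal ϖ).primeCompl o
  rw [residueLift, IsLocalization.lift_mk', IsLocalization.AtPrime.mk'_mem_maximal_iff O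
    (gaussIdeal ϖ) a s, mem_gaussIdeal_iff_dvd, ← hφ]
  exact Units.mul_left_eq_zero _

omit [IsDomain R] in
theorem ker_residueLift [IsLocalRing O] :
    RingHom.ker (residueLift O φ hφ) = maximalIdeal O :=
  Ideal.ext fun o => by rw [RingHom.mem_ker, residueLift_eq_zero_iff]

end Localization

/-! ### The embedding of `O` in a field containing a transcendental element -/

section ToField

variable {R : Type*} [CommRing R] [IsDomain R] (ϖ : R)
  (O : Type*) [CommRing O] [Algebra R[X] O]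
  [hp : (gaussIdeal ϖ).IsPrime] [hO : IsLocalization.AtPrime O (gaussIdeal ϖ)]
  {F : Type*} [Field F] [Algebra R F] (s : F) (hs : Transcendental R s)

omit [IsDomain R] in
theorem isUnit_aeval_of_primeCompl {ϖ : R} [(gaussIdeal ϖ).IsPrime] {s : F} (hs : Transcendental R s)
    (y : (gaussIdeal ϖ).primeCompl) : IsUnit ((aeval s : R[X] →ₐ[R] F).toRingHom y) := by
  rw [isUnit_iff_ne_zero]
  intro h
  have h0 : (y : R[X]) = 0 := transcendental_iff_injective.mp hs (by simpa using h)
  exact y.2 (h0 ▸ Ideal.zero_mem _)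

/-- The ring hom `O → F` extending `X ↦ s`, for `s` transcendental over `R`. -/
noncomputable def toField : O →+* F :=
  IsLocalization.lift (M := (gaussIdeal ϖ).primeCompl) (S := O)
    (g := (aeval s : R[X] →ₐ[R] F).toRingHom) (isUnit_aeval_of_primeCompl hs)

omit [IsDomain R] in
@[simp] theorem toField_algebraMap (g : R[X]) :
    toField ϖ O s hs (algebraMap R[X] O g) = aeval s g :=
  IsLocalization.lift_eq _ _

omit [IsDomain R] in
theorem toField_comp :
    (toField ϖ O s hs).comp (algebraMap R[X] O) = (aeval s : R[X] →ₐ[R] F).toRingHom :=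
  RingHom.ext (toField_algebraMap ϖ O s hs)

omit [IsDomain R] in
theorem toField_injective : Function.Injective (toField ϖ O s hs) := by
  rw [toField, IsLocalization.lift_injective_iff]
  intro x y
  rw [(IsLocalization.injective O (M := (gaussIdeal ϖ).primeCompl) ?_).eq_iff]
  · exact (transcendental_iff_injective.mp hs).eq_iff.symm
  · intro a ha
    rw [mem_nonZeroDivisors_iff_right]
    intro b hb
    have hinj := transcendental_iff_injective.mp hs
    apply hinj
    have ha0 : aeval s a ≠ 0 := fun h =>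
      ha (by rw [hinj (a₁ := a) (a₂ := 0) (by simpa using h)]; exact Ideal.zero_mem _)
    rw [map_zero]
    have : aeval s (b * a) = 0 := by rw [hb, map_zero]
    rw [map_mul] at this
    exact (mul_eq_zero.mp this).resolve_right ha0

end ToField

/-! ### The two standard residue maps to `RatFunc k` -/

section StdResidue

variable {R : Type*} [CommRing R] {ϖ : R} {k : Type*} [Field k] (f : R →+* k)

/-- `R[X] → k[X] → k(X)`, `X ↦ X`. -/
noncomputable def phiFin : R[X] →+* RatFunc k :=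
  (algebraMap k[X] (RatFunc k)).comp (mapRingHom f)

/-- `R[X] → k[X] → k(X)`, `X ↦ X⁻¹`. -/
noncomputable def phiInv : R[X] →+* RatFunc k :=
  (eval₂RingHom (algebraMap k (RatFunc k)) (RatFunc.X)⁻¹).comp (mapRingHom f)

@[simp] theorem phiFin_X : phiFin f X = RatFunc.X := by
  simp [phiFin, RatFunc.algebraMap_X]

@[simp] theorem phiFin_C (r : R) : phiFin f (C r) = algebraMap k (RatFunc k) (f r) := by
  simp [phiFin, RatFunc.algebraMap_C]

@[simp] theorem phiInv_X : phiInv f X = (RatFunc.X)⁻¹ := by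
  simp [phiInv]

@[simp] theorem phiInv_C (r : R) : phiInv f (C r) = algebraMap k (RatFunc k) (f r) := by
  simp [phiInv]

theorem map_eq_zero_iff_C_dvd (hf : ∀ r, f r = 0 ↔ ϖ ∣ r) (g : R[X]) :
    g.map f = 0 ↔ C ϖ ∣ g := by
  rw [C_dvd_iff_dvd_coeff, Polynomial.ext_iff]
  simp only [coeff_map, coeff_zero, hf]

theorem phiFin_eq_zero_iff (hf : ∀ r, f r = 0 ↔ ϖ ∣ r) (g : R[X]) :
    phiFin f g = 0 ↔ C ϖ ∣ g := by
  rw [phiFin, RingHom.comp_apply, coe_mapRingHom,
    map_eq_zero_iff _ (RatFunc.algebraMap_injective k), map_eq_zero_iff_C_dvd f hf]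

theorem eval₂_X_inv_injective :
    Function.Injective (eval₂RingHom (algebraMap k (RatFunc k)) (RatFunc.X)⁻¹) := by
  have h : Transcendental k ((RatFunc.X : RatFunc k)⁻¹) := fun h =>
    RatFunc.transcendental_X (IsAlgebraic.inv_iff.mp h)
  exact transcendental_iff_injective.mp h

theorem phiInv_eq_zero_iff (hf : ∀ r, f r = 0 ↔ ϖ ∣ r) (g : R[X]) :
    phiInv f g = 0 ↔ C ϖ ∣ g := by
  rw [phiInv, RingHom.comp_apply, coe_mapRingHom,
    map_eq_zero_iff _ eval₂_X_inv_injective, map_eq_zero_iff_C_dvd f hf]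

end StdResidue

end Fermat.Agent.S28.H92
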