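import Mathlib
import Fermat.Prelude.Def_ModularCurve_IgusaScheme
import Fermat.Agent.S28.H92_Gauss

/-!
# `ℤ_(ℓ) = GaloisRep.ratLocalizedAt ℓ` is a DVR; `j` is transcendental (helper92, S28 / W3b-gauss)
-/

set_option autoImplicit false

open Polynomial IsLocalRing ModularCurve ModularCurve.IgusaScheme

noncomputable section

namespace Fermat.Agent.S28.H92

section RatLoc

variable (ℓ : ℕ) [hℓ : Fact ℓ.Prime]

set_option quotPrecheck false in
local notation "ℤℓ" => ↥(GaloisRep.ratLocalizedAt ℓ)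

omit hℓ in
theorem mem_ratLocalizedAt_iff {q : ℚ} :
    q ∈ GaloisRep.ratLocalizedAt ℓ ↔ q.den.Coprime ℓ := Iff.rfl

theorem inv_intCast_mem_ratLocalizedAt {n : ℤ} (hn : ¬ (ℓ : ℤ) ∣ n) :
    ((n : ℚ))⁻¹ ∈ GaloisRep.ratLocalizedAt ℓ := by
  rw [mem_ratLocalizedAt_iff, Rat.inv_intCast_den]
  split_ifs with h0
  · exact Nat.coprime_one_left _
  · refine Nat.Coprime.symm ((Nat.Prime.coprime_iff_not_dvd hℓ.out).mpr ?_)
    rwa [← Int.natCast_dvd]

instance spanPrime : (Ideal.span {(ℓ : ℤ)}).IsPrime := by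
  rw [Ideal.span_singleton_prime (by exact_mod_cast hℓ.out.ne_zero)]
  exact Nat.prime_iff_prime_int.mp hℓ.out

omit hℓ in
theorem coe_algebraMap_int (n : ℤ) : ((algebraMap ℤ ℤℓ n : ℤℓ) : ℚ) = n := by
  simp

instance isLocalization_ratLoc : IsLocalization.AtPrime ℤℓ (Ideal.span {(ℓ : ℤ)}) := by
  refine (isLocalization_iff _ _).mpr ⟨?_, ?_, ?_⟩
  · rintro ⟨n, hn⟩
    have hn' : ¬ (ℓ : ℤ) ∣ n := by
      rwa [Ideal.mem_primeCompl_iff, Ideal.mem_span_singleton] at hn
    have hn0 : (n : ℚ) ≠ 0 := by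
      intro h
      apply hn'
      rw [Int.cast_eq_zero.mp h]
      exact dvd_zero _
    refine IsUnit.of_mul_eq_one ⟨(n : ℚ)⁻¹, inv_intCast_mem_ratLocalizedAt ℓ hn'⟩ (Subtype.ext ?_)
    simp [mul_inv_cancel₀ hn0]
  · intro z
    have hden : ¬ (ℓ : ℤ) ∣ ((z : ℚ).den : ℤ) := by
      rw [Int.natCast_dvd_natCast]
      intro h
      have hc : (z : ℚ).den.Coprime ℓ := z.2
      exact hℓ.out.one_lt.ne' (Nat.Coprime.eq_one_of_dvd hc.symm h)
    refine ⟨((z : ℚ).num, ⟨((z : ℚ).den : ℤ), ?_⟩), Subtype.ext ?_⟩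
    · rwa [Ideal.mem_primeCompl_iff, Ideal.mem_span_singleton]
    · simp [Rat.mul_den_eq_num]
  · intro x y h
    refine ⟨1, ?_⟩
    have := congrArg (Subtype.val) h
    simp only [coe_algebraMap_int] at this
    simp [Int.cast_injective this]

instance isDiscreteValuationRing_ratLoc : IsDiscreteValuationRing ℤℓ :=
  IsLocalization.AtPrime.isDiscreteValuationRing_of_dedekind_domain ℤ
    (P := Ideal.span {(ℓ : ℤ)}) (by simpa using hℓ.out.ne_zero) ℤℓ

instance isFractionRing_ratLoc : IsFractionRing ℤℓ ℚ :=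
  IsFractionRing.isFractionRing_of_isDomain_of_isLocalization
    (Ideal.span {(ℓ : ℤ)}).primeCompl ℤℓ ℚ

theorem maximalIdeal_ratLoc : maximalIdeal ℤℓ = Ideal.span {(ℓ : ℤℓ)} := by
  rw [← IsLocalization.AtPrime.map_eq_maximalIdeal (Ideal.span {(ℓ : ℤ)}) ℤℓ, Ideal.map_span,
    Set.image_singleton]
  simp

theorem irreducible_ell : Irreducible (ℓ : ℤℓ) :=
  (IsDiscreteValuationRing.irreducible_iff_uniformizer _).mpr (maximalIdeal_ratLoc ℓ)

theorem prime_ell : Prime (ℓ : ℤℓ) := (irreducible_ell ℓ).prime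

theorem ell_ne_zero : (ℓ : ℤℓ) ≠ 0 := (prime_ell ℓ).ne_zero

theorem not_isUnit_ell : ¬ IsUnit (ℓ : ℤℓ) := (prime_ell ℓ).not_unit

theorem isMaximal_span_ell : (Ideal.span {(ℓ : ℤℓ)}).IsMaximal := by
  rw [← maximalIdeal_ratLoc]; exact maximalIdeal.isMaximal _

/-- An algebra map from `ℤ_(ℓ)` to a field of characteristic `ℓ` has kernel `(ℓ)`. -/
theorem ringHom_eq_zero_iff {K : Type*} [Field K] [CharP K ℓ] (f : ℤℓ →+* K) (r : ℤℓ) :
    f r = 0 ↔ (ℓ : ℤℓ) ∣ r := by
  have hker : RingHom.ker f = maximalIdeal ℤℓ := by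
    refine le_antisymm (IsLocalRing.le_maximalIdeal (RingHom.ker_ne_top f)) ?_
    rw [maximalIdeal_ratLoc, Ideal.span_singleton_le_iff_mem, RingHom.mem_ker, map_natCast]
    exact CharP.cast_eq_zero K ℓ
  rw [← RingHom.mem_ker, hker, maximalIdeal_ratLoc, Ideal.mem_span_singleton]

theorem algebraMap_eq_zero_iff (K : Type*) [Field K] [CharP K ℓ] [Algebra ℤℓ K] (r : ℤℓ) :
    algebraMap ℤℓ K r = 0 ↔ (ℓ : ℤℓ) ∣ r := ringHom_eq_zero_iff ℓ _ r

/-- Ring homs out of `ℤ_(ℓ)` are unique. -/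
instance subsingleton_ringHom (S : Type*) [CommRing S] : Subsingleton (ℤℓ →+* S) :=
  ⟨fun f g => IsLocalization.ringHom_ext (Ideal.span {(ℓ : ℤ)}).primeCompl
    (Subsingleton.elim _ _)⟩

instance gaussIdeal_isPrime_ratLoc : (gaussIdeal (ℓ : ℤℓ)).IsPrime :=
  gaussIdeal_isPrime (prime_ell ℓ)

end RatLoc

/-! ### Transcendence of `j` -/

section Transcendence

theorem coeff_aeval_jq (p : ℚ[X]) :
    (aeval jq p).coeff (-(p.natDegree : ℤ)) = p.leadingCoeff := by
  rw [aeval_eq_sum_range, HahnSeries.coeff_sum, Finset.sum_eq_single_of_mem p.natDegree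
    (Finset.mem_range.mpr (Nat.lt_succ_self _))]
  · rw [Algebra.smul_def, algebraMap_apply_eq_single, HahnSeries.coeff_single_zero_mul,
      coeff_jq_pow_self, mul_one, leadingCoeff]
  · intro i hi hne
    have hi' : i < p.natDegree := lt_of_le_of_ne (Nat.lt_succ_iff.mp (Finset.mem_range.mp hi)) hne
    have h0 : (jq ^ i).coeff (-(p.natDegree : ℤ)) = 0 :=
      coeff_jq_pow_of_lt (neg_lt_neg (by exact_mod_cast hi'))
    rw [Algebra.smul_def, algebraMap_apply_eq_single, HahnSeries.coeff_single_zero_mul, h0,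
      mul_zero]

theorem transcendental_jq : Transcendental ℚ jq := by
  rw [transcendental_iff]
  intro p hp
  by_contra hne
  have := coeff_aeval_jq p
  rw [hp, HahnSeries.coeff_zero] at this
  exact hne (leadingCoeff_eq_zero.mp this.symm)

end Transcendence

section JFull

variable (N : ℕ) [NeZero N] (ℓ : ℕ) [hℓ : Fact ℓ.Prime]

set_option quotPrecheck false in
local notation "ℤℓ" => ↥(GaloisRep.ratLocalizedAt ℓ)

set_option quotPrecheck false in
local notation "F" => ↥(modularFunctionFieldFull N)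

omit hℓ in
theorem algebraMap_ratLoc_injective : Function.Injective (algebraMap ℤℓ ℚ) :=
  Subtype.val_injective

theorem coe_aeval_jFull (p : ℤℓ[X]) :
    ((aeval (jFull N) p : F) : LaurentSeries ℚ) = aeval jq (p.map (algebraMap ℤℓ ℚ)) := by
  have h1 : ((aeval (jFull N) p : F) : LaurentSeries ℚ) =
      eval₂ ((algebraMap F (LaurentSeries ℚ)).comp (algebraMap ℤℓ F))
        (algebraMap F (LaurentSeries ℚ) (jFull N)) p := by
    rw [aeval_def, ← Polynomial.hom_eval₂]; rfl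
  rw [h1, aeval_def, eval₂_map]
  congr 1
  exact Subsingleton.elim _ _

theorem transcendental_jFull : Transcendental ℤℓ (jFull N) := by
  rw [transcendental_iff]
  intro p hp
  have h := coe_aeval_jFull N ℓ p
  rw [hp] at h
  have h2 : p.map (algebraMap ℤℓ ℚ) = 0 :=
    (transcendental_iff.mp transcendental_jq) _ h.symm
  exact (Polynomial.map_eq_zero_iff (algebraMap_ratLoc_injective ℓ)).mp h2

theorem transcendental_jFull_inv : Transcendental ℤℓ (jFull N)⁻¹ := fun h =>
  transcendental_jFull N ℓ (IsAlgebraic.inv_iff.mp h)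

theorem aeval_jFull_injective :
    Function.Injective (aeval (R := ℤℓ) (jFull N)) :=
  transcendental_iff_injective.mp (transcendental_jFull N ℓ)

theorem aeval_jFull_inv_injective :
    Function.Injective (aeval (R := ℤℓ) (jFull N)⁻¹) :=
  transcendental_iff_injective.mp (transcendental_jFull_inv N ℓ)

end JFull

end Fermat.Agent.S28.H92
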