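/-
helper61 — S28 / W3-final: the chart algebras of the Igusa scheme stay domains after `⊗ K`.

Instantiation of `H61_ChartCore` at `Z = ℤ_(ℓ)`, `P = ℤ_(ℓ)[X]` acting on
`F = modularFunctionFieldFull N` through `X ↦ s` (`s = j` or `s = 1/j`), `O` the Gauss localisation
(helper92), `θ = j_N` (helper69).  The remaining inputs are the generation statement `HGen`
(from W5) and `IrredCharL` (from W2).
-/
import Mathlib
import Fermat.Prelude.Def_ModularCurve_IgusaScheme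
import Fermat.Agent.S28.Interface
import Fermat.Agent.S28.H16_Wrapper
import Fermat.Agent.S28.H16_Assembly
import Fermat.Agent.S28.H61_ChartCore
import Fermat.Agent.S28.H69_ChartSetup
import Fermat.Agent.S28.H92_Gauss
import Fermat.Agent.S28.H92_RatLoc

set_option autoImplicit false
set_option linter.style.haveILetI false

open Polynomial TensorProduct ModularCurve ModularCurve.IgusaScheme IsLocalRing

noncomputable section

namespace Fermat.Agent.S28.H61

variable (N : ℕ) [NeZero N] (ℓ : ℕ) [hℓ : Fact ℓ.Prime]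

set_option quotPrecheck false in
local notation "ℤℓ" => ↥(GaloisRep.ratLocalizedAt ℓ)
set_option quotPrecheck false in
local notation "F" => ↥(modularFunctionFieldFull N)

/-- The residue field `ℤ_(ℓ)/(ℓ)`. -/
abbrev Fl : Type := ℤℓ ⧸ Ideal.span {((ℓ : ℕ) : ℤℓ)}

instance instFieldFl : Field (Fl ℓ) :=
  haveI := H92.isMaximal_span_ell ℓ
  Ideal.Quotient.field _

/-- The Gauss localisation `ℤ_(ℓ)[X]_(ℓ)`. -/
abbrev OG : Type := Localization.AtPrime (H92.gaussIdeal ((ℓ : ℕ) : ℤℓ))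

instance instIsDomainOG : IsDomain (OG ℓ) := H92.gauss_isDomain (ϖ := ((ℓ : ℕ) : ℤℓ)) (OG ℓ)

instance instDVROG : IsDiscreteValuationRing (OG ℓ) :=
  H92.gauss_isDiscreteValuationRing (OG ℓ) (H92.ell_ne_zero ℓ)

/-- The generation statement for the chart with parameter `s` (to be supplied from W5). -/
def HGen (s : F) : Prop :=
  ∀ x : F, ∃ c : ℤℓ[X], c ≠ 0 ∧ ∃ g : ℤℓ[X][X],
    aeval s c * x = eval₂ (aeval (R := ℤℓ) s).toRingHom (H69.jNFull N) g

section Generic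

variable {N ℓ}
variable (K : Type) [Field K] [CharP K ℓ] [Algebra ↥(GaloisRep.ratLocalizedAt ℓ) K]

/-- `K` as an algebra over the residue field. -/
@[instance_reducible] def algFlK : Algebra (Fl ℓ) K :=
  (Ideal.Quotient.lift (Ideal.span {((ℓ : ℕ) : ℤℓ)}) (algebraMap ℤℓ K) (fun a ha => by
    rw [Ideal.mem_span_singleton] at ha
    exact (H92.algebraMap_eq_zero_iff ℓ K a).mpr ha)).toAlgebra

theorem isScalarTower_FlK :
    letI := algFlK (ℓ := ℓ) K
    IsScalarTower ℤℓ (Fl ℓ) K :=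
  letI := algFlK (ℓ := ℓ) K
  IsScalarTower.of_algebraMap_eq fun _ => rfl

omit hℓ in
/-- `ℤ_(ℓ) → ℤ_(ℓ)/(ℓ)` has kernel `(ℓ)`. -/
theorem algebraMap_Fl_eq_zero_iff (r : ℤℓ) :
    algebraMap ℤℓ (Fl ℓ) r = 0 ↔ ((ℓ : ℕ) : ℤℓ) ∣ r := by
  rw [Ideal.Quotient.algebraMap_eq, Ideal.Quotient.eq_zero_iff_mem, Ideal.mem_span_singleton]

/-- **One chart.**  `s` the chart parameter, `u : O` the element of the Gauss localisation mapping
to `j`, `φE` the residue map on polynomials (`phiFin` or `phiInv`). -/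
theorem isDomain_chartAlg_tensor_aux (s : F) (hs : Transcendental ℤℓ s)
    (u : OG ℓ) (hu : H92.toField ((ℓ : ℕ) : ℤℓ) (OG ℓ) s hs u = jFull N)
    (φE : ℤℓ[X] →+* RatFunc (Fl ℓ)) (hφE : ∀ g, φE g = 0 ↔ C ((ℓ : ℕ) : ℤℓ) ∣ g)
    (hφEC : ∀ z : ℤℓ, φE (C z) = algebraMap (Fl ℓ)[X] (RatFunc (Fl ℓ)) (C (algebraMap ℤℓ (Fl ℓ) z)))
    (hφu : H92.residueLift (OG ℓ) φE hφE u = RatFunc.X)
    (hgen : HGen N ℓ s) (D : ModularPolynomialData N) (hirr : IrredCharL ℓ D.Φ) :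
    IsDomain (↥(chartAlg N ℓ {s}) ⊗[ℤℓ] K) ∧
      ∀ A' : Subalgebra ℤℓ F,
        (∀ x ∈ A', (H92.toField ((ℓ : ℕ) : ℤℓ) (OG ℓ) s hs).IsIntegralElem x) →
          Nontrivial (↥A' ⊗[ℤℓ] K) := by
  classical
  set ℓZ : ℤℓ := ((ℓ : ℕ) : ℤℓ) with hℓZ
  letI algPF : Algebra ℤℓ[X] F := (aeval (R := ℤℓ) s).toRingHom.toAlgebra
  letI algOF : Algebra (OG ℓ) F := (H92.toField ℓZ (OG ℓ) s hs).toAlgebra
  haveI towPOF : IsScalarTower ℤℓ[X] (OG ℓ) F :=
    IsScalarTower.of_algebraMap_eq fun p => (H92.toField_algebraMap ℓZ (OG ℓ) s hs p).symm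
  haveI towZPF : IsScalarTower ℤℓ ℤℓ[X] F :=
    IsScalarTower.of_algebraMap_eq fun z => (aeval_C s z).symm
  haveI faith : FaithfulSMul ℤℓ[X] F :=
    (faithfulSMul_iff_algebraMap_injective ℤℓ[X] F).mpr (transcendental_iff_injective.mp hs)
  letI := algFlK (ℓ := ℓ) K
  haveI := isScalarTower_FlK (ℓ := ℓ) K
  have hℓ0 : algebraMap ℤℓ (Fl ℓ) ℓZ = 0 := (algebraMap_Fl_eq_zero_iff ℓZ).mpr dvd_rfl
  have hCeq : algebraMap ℤℓ ℤℓ[X] ℓZ = C ℓZ := rfl
  have hprime : Prime (algebraMap ℤℓ ℤℓ[X] ℓZ) := by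
    rw [hCeq]; exact prime_C_iff.mpr (H92.prime_ell ℓ)
  -- the polynomial over `O`
  let φ : ℤ[X] →+* OG ℓ := eval₂RingHom (Int.castRingHom (OG ℓ)) u
  have hφX : φ X = u := by simp [φ]
  have hθ : aeval (H69.jNFull N) (D.Φ.map φ) = 0 :=
    H69.aeval_jNFull_map_eq_zero N D φ (by rw [hφX]; exact hu)
  -- generation
  have hgen' : ∀ x : F, ∃ c : ℤℓ[X], c ≠ 0 ∧
      algebraMap ℤℓ[X] F c * x ∈ Algebra.adjoin ℤℓ[X] {H69.jNFull N} := by
    intro x
    obtain ⟨c, hc0, g, hg⟩ := hgen x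
    refine ⟨c, hc0, ?_⟩
    have : algebraMap ℤℓ[X] F c * x = aeval (H69.jNFull N) g := by
      rw [aeval_def]
      exact hg
    rw [this]
    exact Polynomial.aeval_mem_adjoin_singleton _ _
  -- the residue map
  let lam : OG ℓ →+* RatFunc (Fl ℓ) := H92.residueLift (OG ℓ) φE hφE
  have hlam : ∀ o, lam o = 0 ↔ o ∈ maximalIdeal (OG ℓ) :=
    fun o => H92.residueLift_eq_zero_iff (OG ℓ) φE hφE o
  have hlamZ : ∀ z : ℤℓ, lam (algebraMap ℤℓ[X] (OG ℓ) (algebraMap ℤℓ ℤℓ[X] z)) =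
      algebraMap (Fl ℓ)[X] (RatFunc (Fl ℓ)) (C (algebraMap ℤℓ (Fl ℓ) z)) := by
    intro z
    show H92.residueLift (OG ℓ) φE hφE (algebraMap ℤℓ[X] (OG ℓ) (C z)) = _
    rw [H92.residueLift_algebraMap, hφEC]
  have hred : (D.Φ.map φ).map lam = redModPoly (Fl ℓ) D.Φ := by
    rw [Polynomial.map_map, redModPoly]
    congr 1
    refine Polynomial.ringHom_ext' (Subsingleton.elim _ _) ?_
    rw [RingHom.comp_apply, hφX, RingHom.comp_apply, coe_mapRingHom, Polynomial.map_X,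
      RatFunc.algebraMap_X]
    exact hφu
  have hirr' : Irreducible (((D.Φ.map φ).map lam).map (ratFuncMap (Fl ℓ) K)) := by
    rw [hred, H16.redModPoly_map]
    exact hirr K
  haveI hI : (Ideal.span {algebraMap ℤℓ ℤℓ[X] ℓZ}).IsPrime := H92.gaussIdeal_isPrime_ratLoc ℓ
  haveI hLoc : IsLocalization.AtPrime (OG ℓ) (Ideal.span {algebraMap ℤℓ ℤℓ[X] ℓZ}) :=
    (inferInstance : IsLocalization.AtPrime (OG ℓ) (H92.gaussIdeal ℓZ))
  refine ⟨isDomain_tensor_chart (Z := ℤℓ) (P := ℤℓ[X]) (O := OG ℓ) (𝔽 := Fl ℓ) (K := K)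
    Ideal.Quotient.mk_surjective ℓZ hℓ0 hprime (D.Φ.map φ) (D.monic.map φ) (H69.jNFull N) hθ hgen'
    lam hlam hlamZ hirr' (chartAlg N ℓ {s}) (fun x => H69.mem_chartAlg_singleton_iff N ℓ s x), ?_⟩
  intro A' hA'
  exact nontrivial_tensor_chart (Z := ℤℓ) (P := ℤℓ[X]) (O := OG ℓ) (𝔽 := Fl ℓ) (K := K)
    (H92.gaussIdeal ℓZ).primeCompl (D.Φ.map φ) (D.monic.map φ) (H69.jNFull N) hθ hgen'
    lam hlam hlamZ hirr' A' hA'

/-- Integrality over a subalgebra contained in the range of `O → F` gives integrality over `O`. -/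
theorem isIntegral_of_subalgebra_le_range {R O' F' : Type*} [CommRing R] [CommRing O']
    [CommRing F'] [Algebra R F'] [Algebra O' F'] (S : Subalgebra R F')
    (hS : ∀ y ∈ S, y ∈ (algebraMap O' F').range) {x : F'} (hx : IsIntegral S x) :
    IsIntegral O' x := by
  obtain ⟨p, hmonic, hp⟩ := hx
  have hlift : p.map (algebraMap S F') ∈ Polynomial.lifts (algebraMap O' F') := by
    rw [Polynomial.lifts_iff_coeff_lifts]
    intro n
    rw [coeff_map]
    exact hS _ (p.coeff n).2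
  obtain ⟨q, hq, -, hqmonic⟩ :=
    Polynomial.lifts_and_natDegree_eq_and_monic hlift (hmonic.map _)
  refine ⟨q, hqmonic, ?_⟩
  rw [← eval_map, hq, eval_map]
  exact hp

/-- The finite chart. -/
theorem isDomain_chartAlgFin_tensor (hgen : HGen N ℓ (jFull N)) (D : ModularPolynomialData N)
    (hirr : IrredCharL ℓ D.Φ) : IsDomain (↥(chartAlgFin N ℓ) ⊗[ℤℓ] K) := by
  have hf := algebraMap_Fl_eq_zero_iff (ℓ := ℓ)
  refine (isDomain_chartAlg_tensor_aux K (jFull N) (H92.transcendental_jFull N ℓ)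
    (algebraMap ℤℓ[X] (OG ℓ) X) ?_ (H92.phiFin (algebraMap ℤℓ (Fl ℓ)))
    (H92.phiFin_eq_zero_iff _ hf) ?_ ?_ hgen D hirr).1
  · rw [H92.toField_algebraMap, aeval_X]
  · intro z
    rw [H92.phiFin_C, RatFunc.algebraMap_C, RatFunc.algebraMap_eq_C]
  · rw [H92.residueLift_algebraMap, H92.phiFin_X]

/-- The chart at infinity. -/
theorem isDomain_chartAlgInf_tensor (hgen : HGen N ℓ (jFull N)⁻¹) (D : ModularPolynomialData N)
    (hirr : IrredCharL ℓ D.Φ) : IsDomain (↥(chartAlgInf N ℓ) ⊗[ℤℓ] K) := by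
  have hf := algebraMap_Fl_eq_zero_iff (ℓ := ℓ)
  have hX : IsUnit (algebraMap ℤℓ[X] (OG ℓ) X) :=
    H92.isUnit_algebraMap_X (OG ℓ) (H92.not_isUnit_ell ℓ)
  refine (isDomain_chartAlg_tensor_aux K (jFull N)⁻¹ (H92.transcendental_jFull_inv N ℓ)
    ((hX.unit⁻¹ : (OG ℓ)ˣ) : OG ℓ) ?_ (H92.phiInv (algebraMap ℤℓ (Fl ℓ)))
    (H92.phiInv_eq_zero_iff _ hf) ?_ ?_ hgen D hirr).1
  · rw [map_units_inv, IsUnit.unit_spec, H92.toField_algebraMap, aeval_X, inv_inv]
  · intro z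
    rw [H92.phiInv_C, RatFunc.algebraMap_C, RatFunc.algebraMap_eq_C]
  · rw [map_units_inv, IsUnit.unit_spec, H92.residueLift_algebraMap, H92.phiInv_X, inv_inv]

/-- The overlap chart is nonzero after `⊗ K`. -/
theorem nontrivial_chartAlgMid_tensor (hgen : HGen N ℓ (jFull N)) (D : ModularPolynomialData N)
    (hirr : IrredCharL ℓ D.Φ) : Nontrivial (↥(chartAlgMid N ℓ) ⊗[ℤℓ] K) := by
  have hf := algebraMap_Fl_eq_zero_iff (ℓ := ℓ)
  have hX : IsUnit (algebraMap ℤℓ[X] (OG ℓ) X) :=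
    H92.isUnit_algebraMap_X (OG ℓ) (H92.not_isUnit_ell ℓ)
  have haux := (isDomain_chartAlg_tensor_aux K (jFull N) (H92.transcendental_jFull N ℓ)
    (algebraMap ℤℓ[X] (OG ℓ) X) (by rw [H92.toField_algebraMap, aeval_X])
    (H92.phiFin (algebraMap ℤℓ (Fl ℓ))) (H92.phiFin_eq_zero_iff _ hf)
    (fun z => by rw [H92.phiFin_C, RatFunc.algebraMap_C, RatFunc.algebraMap_eq_C])
    (by rw [H92.residueLift_algebraMap, H92.phiFin_X]) hgen D hirr).2
  refine haux (chartAlgMid N ℓ) ?_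
  intro x hx
  set ι := H92.toField ((ℓ : ℕ) : ℤℓ) (OG ℓ) (jFull N) (H92.transcendental_jFull N ℓ) with hι
  letI algOF : Algebra (OG ℓ) F := ι.toAlgebra
  -- the generators of the coefficient ring lie in the range of `O → F`
  have hrange : ∀ y ∈ Algebra.adjoin ℤℓ ({jFull N, (jFull N)⁻¹} : Set F),
      y ∈ (algebraMap (OG ℓ) F).range := by
    intro y hy
    induction hy using Algebra.adjoin_induction with
    | mem y hy =>
      rcases hy with rfl | hy
      · exact ⟨algebraMap ℤℓ[X] (OG ℓ) X, by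
          show ι _ = _
          rw [hι, H92.toField_algebraMap, aeval_X]⟩
      · rw [Set.mem_singleton_iff] at hy
        subst hy
        exact ⟨((hX.unit⁻¹ : (OG ℓ)ˣ) : OG ℓ), by
          show ι _ = _
          rw [map_units_inv, IsUnit.unit_spec, hι, H92.toField_algebraMap, aeval_X]⟩
    | algebraMap z =>
      exact ⟨algebraMap ℤℓ[X] (OG ℓ) (C z), by
        show ι _ = _
        rw [hι, H92.toField_algebraMap, aeval_C]⟩
    | add y z _ _ hy hz => exact Subring.add_mem _ hy hz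
    | mul y z _ _ hy hz => exact Subring.mul_mem _ hy hz
  exact isIntegral_of_subalgebra_le_range (O' := OG ℓ) _ hrange ((mem_chartAlg_iff N ℓ).mp hx)

/-- **W3-final**: the three chart statements consumed by `H33.isIntegral_pullback_igusaTo_of_charts`
(`= H16.ChartsOK N ℓ K`), from the generation statements (W5) and `IrredCharL` (W2). -/
theorem chartsOK (hgenFin : HGen N ℓ (jFull N)) (hgenInf : HGen N ℓ (jFull N)⁻¹)
    (D : ModularPolynomialData N) (hirr : IrredCharL ℓ D.Φ) : H16.ChartsOK N ℓ K :=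
  ⟨isDomain_chartAlgFin_tensor K hgenFin D hirr, isDomain_chartAlgInf_tensor K hgenInf D hirr,
    nontrivial_chartAlgMid_tensor K hgenFin D hirr⟩

end Generic

end Fermat.Agent.S28.H61
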