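/-
helper61 — S28 / W3-final, hypothesis-free form: `ChartsOK N ℓ K` from `IrredCharL` alone
(generation input from helper40's `functionFieldGeneration` through helper69's `H69_Hgen`).
-/
import Mathlib
import Fermat.Agent.S28.H61_Charts
import Fermat.Agent.S28.H69_Hgen
import Fermat.Agent.S28.H40_Degree

set_option autoImplicit false

open Polynomial TensorProduct ModularCurve ModularCurve.IgusaScheme

noncomputable section

namespace Fermat.Agent.S28.H61

variable (N : ℕ) [NeZero N] (ℓ : ℕ) [hℓ : Fact ℓ.Prime]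
variable (K : Type) [Field K] [CharP K ℓ] [Algebra ↥(GaloisRep.ratLocalizedAt ℓ) K]

omit hℓ in
theorem hGen_jFull (D : ModularPolynomialData N) : HGen N ℓ (jFull N) :=
  fun x => H69.exists_gen_frac_jFull N ℓ D (H40.functionFieldGeneration N) x

omit hℓ in
theorem hGen_jFull_inv (D : ModularPolynomialData N) : HGen N ℓ (jFull N)⁻¹ :=
  fun x => H69.exists_gen_frac_jFull_inv N ℓ D (H40.functionFieldGeneration N) x

/-- **W3-final, hypothesis-free.** -/
theorem chartsOK_of_irredCharL (D : ModularPolynomialData N) (hirr : IrredCharL ℓ D.Φ) :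
    H16.ChartsOK N ℓ K :=
  chartsOK K (hGen_jFull N ℓ D) (hGen_jFull_inv N ℓ D) D hirr

/-- The same in the `hW3` shape of `H16.result_of_packages`. -/
theorem hW3 : ∀ D : ModularPolynomialData N, IrredCharL ℓ D.Φ → H16.ChartsOK N ℓ K :=
  fun D hirr => chartsOK_of_irredCharL N ℓ K D hirr

end Fermat.Agent.S28.H61
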