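import Mathlib

/-!
# S28 / W2c : the general prime step, abstract form

Vocabulary-neutral (Mathlib only).  Intended instantiation:
`A = k[J]`, `K = k(J)`, `E = k(J, j(q^M))`, `Ω = k((t))`, `pos x := 0 < order x`,
`σ` = the `ψ(M)` embeddings of `E` into `k((t))` (induction hypothesis),
`u = Δ(q^{pM}) / Δ(q^M)`.
-/

set_option autoImplicit false

open scoped BigOperators

namespace Fermat.Agent.S28.H71

section NormCore

variable {A K E Ω : Type*} [CommRing A] [IsDomain A] [IsIntegrallyClosed A]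
  [Field K] [Algebra A K] [IsFractionRing A K]
  [Field E] [Algebra K E] [FiniteDimensional K E] [Algebra.IsSeparable K E]
  [Algebra A E] [IsScalarTower A K E]
  [Field Ω] [Algebra K Ω] [Algebra A Ω] [IsScalarTower A K Ω]

omit [IsIntegrallyClosed A] [IsDomain A] [IsFractionRing A K] [Algebra A E] [IsScalarTower A K E]
  [Algebra A Ω] [IsScalarTower A K Ω] [Algebra A K] [CommRing A] in
/-- If a finite family of `K`-embeddings `E → Ω` is injective and has `finrank K E` members,
then the norm is the product over the family (no algebraic closedness of `Ω` needed). -/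
theorem algebraMap_norm_eq_prod {ι : Type*} [Fintype ι] (σ : ι → (E →ₐ[K] Ω))
    (hσ : Function.Injective σ) (hcard : Fintype.card ι = Module.finrank K E) (u : E) :
    algebraMap K Ω (Algebra.norm K u) = ∏ i, σ i u := by
  classical
  let Ω' := AlgebraicClosure Ω
  let j : Ω →ₐ[K] Ω' := IsScalarTower.toAlgHom K Ω Ω'
  have hj : Function.Injective j := (algebraMap Ω Ω').injective
  let τ : ι → (E →ₐ[K] Ω') := fun i => j.comp (σ i)
  have hτ : Function.Injective τ := by
    intro i i' h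
    apply hσ
    ext z
    apply hj
    exact DFunLike.congr_fun h z
  have hc : Fintype.card (E →ₐ[K] Ω') = Module.finrank K E := AlgHom.card K E Ω'
  have hτb : Function.Bijective τ := by
    rw [Fintype.bijective_iff_injective_and_card]
    exact ⟨hτ, by rw [hcard, hc]⟩
  have h1 : algebraMap K Ω' (Algebra.norm K u) = ∏ φ : E →ₐ[K] Ω', φ u :=
    Algebra.norm_eq_prod_embeddings K Ω' u
  have h2 : ∏ φ : E →ₐ[K] Ω', φ u = ∏ i, τ i u :=
    (Fintype.prod_bijective τ hτb (fun i => τ i u) (fun φ => φ u) (fun _ => rfl)).symm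
  have h3 : ∏ i, τ i u = j (∏ i, σ i u) := by
    rw [map_prod]
    rfl
  apply hj
  rw [← h3, ← h2, ← h1]
  exact (j.commutes _)

omit [IsDomain A] in
/-- **Norm core.**  A nonzero element of `E`, integral over `A`, cannot have all its conjugates
"of positive order". -/
theorem norm_core (pos : Ω → Prop) (pos_mul : ∀ a b, pos a → pos b → pos (a * b))
    (not_pos : ∀ a : A, a ≠ 0 → ¬ pos (algebraMap A Ω a))
    {ι : Type*} [Fintype ι] (σ : ι → (E →ₐ[K] Ω)) (hσ : Function.Injective σ)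
    (hcard : Fintype.card ι = Module.finrank K E)
    (u : E) (hu : u ≠ 0) (hint : IsIntegral A u) (hpos : ∀ i, pos (σ i u)) : False := by
  classical
  have hn_int : IsIntegral A (Algebra.norm K u) := Algebra.isIntegral_norm K hint
  obtain ⟨a, ha⟩ := IsIntegrallyClosed.isIntegral_iff.mp hn_int
  have hn_ne : Algebra.norm K u ≠ 0 := by
    rw [Ne, Algebra.norm_eq_zero_iff]
    exact hu
  have ha_ne : a ≠ 0 := by
    rintro rfl
    rw [map_zero] at ha
    exact hn_ne ha.symm
  have hprod : algebraMap A Ω a = ∏ i, σ i u := by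
    rw [← algebraMap_norm_eq_prod σ hσ hcard u, ← ha, ← IsScalarTower.algebraMap_apply]
  have hne : (Finset.univ : Finset ι).Nonempty := by
    rw [Finset.univ_nonempty_iff, ← Fintype.card_pos_iff, hcard]
    exact Module.finrank_pos
  have : pos (∏ i, σ i u) :=
    Finset.prod_induction_nonempty (fun i => σ i u) pos pos_mul hne (fun i _ => hpos i)
  rw [← hprod] at this
  exact not_pos a ha_ne this

end NormCore

section UnitFormula

variable {K E Ω : Type*} [Field K] [Field E] [Algebra K E] [Field Ω] [Algebra K Ω]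

/-- The candidate unit `u = Δ(s^p)/Δ(s)` written inside `E` through the logarithmic-derivative
identity `Δ · j⁴ (j - c)³ = (θ j)⁶`. -/
noncomputable def unitOf (dE : E → E) (c r : K) (x y : E) : E :=
  (dE y / dE x) ^ 6 * x ^ 4 * (x - algebraMap K E c) ^ 3 /
    (algebraMap K E r ^ 6 * y ^ 4 * (y - algebraMap K E c) ^ 3)

/-- **Unit formula.**  If an embedding `τ : E → Ω` intertwines `dE` with `D / D J`, and the
images of `x`, `y` satisfy the `Δ`-identities with exponents `e`, `r * e`, then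
`τ (unitOf …) = Δ₂ / Δ₁`. -/
theorem map_unitOf (τ : E →ₐ[K] Ω) (D : Ω → Ω) (Jω : Ω) (dE : E → E)
    (hd : ∀ z, τ (dE z) * D Jω = D (τ z)) (hDJ : D Jω ≠ 0)
    (c r : K) (x y : E) (Δ₁ Δ₂ e : Ω)
    (hr : algebraMap K Ω r ≠ 0) (he : e ≠ 0) (hΔ₁ : Δ₁ ≠ 0)
    (hx0 : τ x ≠ 0) (hxc : τ x - algebraMap K Ω c ≠ 0)
    (hy0 : τ y ≠ 0) (hyc : τ y - algebraMap K Ω c ≠ 0)
    (h1 : Δ₁ * (τ x) ^ 4 * (τ x - algebraMap K Ω c) ^ 3 * e ^ 6 = (D (τ x)) ^ 6)
    (h2 : Δ₂ * (τ y) ^ 4 * (τ y - algebraMap K Ω c) ^ 3 * (algebraMap K Ω r * e) ^ 6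
      = (D (τ y)) ^ 6) :
    τ (unitOf dE c r x y) = Δ₂ / Δ₁ := by
  have hDx : D (τ x) ≠ 0 := by
    intro h
    rw [h, zero_pow (by norm_num)] at h1
    have : Δ₁ * (τ x) ^ 4 * (τ x - algebraMap K Ω c) ^ 3 * e ^ 6 ≠ 0 := by
      have := pow_ne_zero 4 hx0
      have := pow_ne_zero 3 hxc
      have := pow_ne_zero 6 he
      positivity
    exact this h1
  have hdx : τ (dE x) = D (τ x) / D Jω := by
    rw [eq_div_iff hDJ]; exact hd x
  have hdy : τ (dE y) = D (τ y) / D Jω := by
    rw [eq_div_iff hDJ]; exact hd y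
  have hdx_ne : τ (dE x) ≠ 0 := by
    rw [hdx]; exact div_ne_zero hDx hDJ
  unfold unitOf
  simp only [map_div₀, map_mul, map_pow, map_sub, AlgHom.commutes]
  rw [hdx, hdy]
  have hX4 := pow_ne_zero 4 hx0
  have hX3 := pow_ne_zero 3 hxc
  have hY4 := pow_ne_zero 4 hy0
  have hY3 := pow_ne_zero 3 hyc
  have hr6 := pow_ne_zero 6 hr
  have he6 := pow_ne_zero 6 he
  have hDx6 := pow_ne_zero 6 hDx
  rw [div_eq_div_iff (by positivity) hΔ₁]
  rw [div_div_div_cancel_right₀ hDJ, div_pow, ← h1, ← h2]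
  field_simp

end UnitFormula

section PrimeStep

variable {A K E Ω : Type*} [CommRing A] [IsDomain A] [IsIntegrallyClosed A]
  [Field K] [Algebra A K] [IsFractionRing A K]
  [Field E] [Algebra K E] [FiniteDimensional K E] [Algebra.IsSeparable K E]
  [Algebra A E] [IsScalarTower A K E]
  [Field Ω] [Algebra K Ω] [Algebra A Ω] [IsScalarTower A K Ω]

omit [IsDomain A] in
/-- **General prime step (abstract form).**

`E/K` finite separable, all of whose `K`-embeddings `σ i` land in `Ω`; `dE` is the derivation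
`D / D J` on `E`, commuting with all `σ i`.  If `x y : E` have conjugates satisfying the
`Δ`-identities (with exponents `e i` and `r * e i`), the quotient `Δ₂ i₀ / Δ₁ i₀` is integral
over `A` for one `i₀`, and all quotients `Δ₂ i / Δ₁ i` have "positive order", we get a
contradiction.  (So: `y` cannot lie in `E`.) -/
theorem prime_step (pos : Ω → Prop) (pos_mul : ∀ a b, pos a → pos b → pos (a * b))
    (not_pos : ∀ a : A, a ≠ 0 → ¬ pos (algebraMap A Ω a))
    {ι : Type*} [Fintype ι] (σ : ι → (E →ₐ[K] Ω)) (hσ : Function.Injective σ)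
    (hcard : Fintype.card ι = Module.finrank K E)
    (D : Ω → Ω) (Jω : Ω) (dE : E → E)
    (hd : ∀ i z, σ i (dE z) * D Jω = D (σ i z)) (hDJ : D Jω ≠ 0)
    (c r : K) (x y : E) (Δ₁ Δ₂ e : ι → Ω)
    (hr : algebraMap K Ω r ≠ 0) (he : ∀ i, e i ≠ 0)
    (hΔ₁ : ∀ i, Δ₁ i ≠ 0) (hΔ₂ : ∀ i, Δ₂ i ≠ 0)
    (hx0 : x ≠ 0) (hxc : x ≠ algebraMap K E c) (hy0 : y ≠ 0) (hyc : y ≠ algebraMap K E c)
    (h1 : ∀ i, Δ₁ i * (σ i x) ^ 4 * (σ i x - algebraMap K Ω c) ^ 3 * (e i) ^ 6
      = (D (σ i x)) ^ 6)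
    (h2 : ∀ i, Δ₂ i * (σ i y) ^ 4 * (σ i y - algebraMap K Ω c) ^ 3
      * (algebraMap K Ω r * e i) ^ 6 = (D (σ i y)) ^ 6)
    (i₀ : ι) (hint : IsIntegral A (Δ₂ i₀ / Δ₁ i₀))
    (hpos : ∀ i, pos (Δ₂ i / Δ₁ i)) : False := by
  have hmap : ∀ i, σ i (unitOf dE c r x y) = Δ₂ i / Δ₁ i := by
    intro i
    have hinj : Function.Injective (σ i) := (σ i).toRingHom.injective
    refine map_unitOf (σ i) D Jω dE (hd i) hDJ c r x y (Δ₁ i) (Δ₂ i) (e i) hr (he i) (hΔ₁ i)
      ?_ ?_ ?_ ?_ (h1 i) (h2 i)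
    · exact fun h => hx0 (hinj (by rw [h, map_zero]))
    · intro h
      apply hxc
      apply hinj
      rw [AlgHom.commutes]
      exact sub_eq_zero.mp h
    · exact fun h => hy0 (hinj (by rw [h, map_zero]))
    · intro h
      apply hyc
      apply hinj
      rw [AlgHom.commutes]
      exact sub_eq_zero.mp h
  refine norm_core (A := A) pos pos_mul not_pos σ hσ hcard (unitOf dE c r x y) ?_ ?_ ?_
  · intro h
    have := hmap i₀
    rw [h, map_zero] at this
    exact div_ne_zero (hΔ₂ i₀) (hΔ₁ i₀) this.symm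
  · have hinj : Function.Injective ((σ i₀).restrictScalars A) := (σ i₀).toRingHom.injective
    rw [← isIntegral_algHom_iff ((σ i₀).restrictScalars A) hinj]
    show IsIntegral A (σ i₀ (unitOf dE c r x y))
    rw [hmap i₀]
    exact hint
  · intro i
    rw [hmap i]
    exact hpos i

end PrimeStep

end Fermat.Agent.S28.H71
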