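import Mathlib
import Fermat.Agent.S28.H92_Gauss
import Fermat.Agent.S28.H61_Tensor
import Fermat.Agent.S28.Interface

/-!
# Pushing `Φ ∈ ℤ[Y][X]` to the Gauss DVR and reducing it (helper92, S28 / W3)

`O = R[X]_(ϖ)`. Two ring homs `ℤ[Y] → O`: `pushFin` (`Y ↦ X`) and `pushInv` (`Y ↦ X⁻¹`).
Composed with the residue maps `residueLift (phiFin f)` resp. `residueLift (phiInv f)` and the
coefficient extension `𝔽(T) → K(T)` they both give the standard map `ℤ[Y] → K(T)`, so the
reduction of the pushed polynomial is `redModPoly K Φ` in both charts.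
-/

set_option autoImplicit false

open Polynomial IsLocalRing

namespace Fermat.Agent.S28.H92

section Push

variable (R : Type*) [CommRing R] {ϖ : R}
  (O : Type*) [CommRing O] [Algebra R[X] O]
  [hp : (gaussIdeal ϖ).IsPrime] [hO : IsLocalization.AtPrime O (gaussIdeal ϖ)]

/-- `ℤ[Y] → O`, `Y ↦ X`. -/
noncomputable def pushFin : ℤ[X] →+* O :=
  (algebraMap R[X] O).comp (mapRingHom (Int.castRingHom R))

variable {R} in
/-- `ℤ[Y] → O`, `Y ↦ X⁻¹`. -/
noncomputable def pushInv (hϖ : ¬ IsUnit ϖ) : ℤ[X] →+* O :=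
  eval₂RingHom (Int.castRingHom O) (↑((isUnit_algebraMap_X (ϖ := ϖ) O hϖ).unit⁻¹) : O)

omit hp hO in
@[simp] theorem pushFin_X : pushFin R O X = algebraMap R[X] O X := by
  simp [pushFin]

variable {R} in
@[simp] theorem pushInv_X (hϖ : ¬ IsUnit ϖ) :
    pushInv O hϖ X = (↑((isUnit_algebraMap_X (ϖ := ϖ) O hϖ).unit⁻¹) : O) := by
  simp [pushInv]

variable {R} in
theorem pushInv_X_mul (hϖ : ¬ IsUnit ϖ) : pushInv O hϖ X * algebraMap R[X] O X = 1 := by
  rw [pushInv_X]
  exact (isUnit_algebraMap_X (ϖ := ϖ) O hϖ).val_inv_mul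

variable {R} in
/-- A ring hom from `O` to a field sends `pushInv X` to the inverse of the image of `X`. -/
theorem map_pushInv_X {E : Type*} [Field E] (g : O →+* E) (hϖ : ¬ IsUnit ϖ) :
    g (pushInv O hϖ X) = (g (algebraMap R[X] O X))⁻¹ := by
  have h := congrArg g (pushInv_X_mul O hϖ)
  rw [map_mul, map_one] at h
  exact eq_inv_of_mul_eq_one_left h

/-! ### Compatibility with `toField` -/

variable {R}
variable {F : Type*} [Field F] [Algebra R F] (s : F) (hs : Transcendental R s)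

theorem toField_pushFin_X : toField ϖ O s hs (pushFin R O X) = s := by
  rw [pushFin_X, toField_algebraMap, aeval_X]

theorem toField_pushInv_X (hϖ : ¬ IsUnit ϖ) : toField ϖ O s hs (pushInv O hϖ X) = s⁻¹ := by
  rw [map_pushInv_X, toField_algebraMap, aeval_X]

end Push

section Reduce

variable {R : Type*} [CommRing R] {ϖ : R}
  (O : Type*) [CommRing O] [Algebra R[X] O]
  [hp : (gaussIdeal ϖ).IsPrime] [hO : IsLocalization.AtPrime O (gaussIdeal ϖ)]
  {𝔽 : Type*} [Field 𝔽] (f : R →+* 𝔽) (hf : ∀ r, f r = 0 ↔ ϖ ∣ r)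
  (K : Type*) [Field K] [Algebra 𝔽 K]

/-- The residue map of the finite chart. -/
noncomputable def lamFin : O →+* RatFunc 𝔽 := residueLift O (phiFin f) (phiFin_eq_zero_iff f hf)

/-- The residue map of the chart at infinity. -/
noncomputable def lamInv : O →+* RatFunc 𝔽 := residueLift O (phiInv f) (phiInv_eq_zero_iff f hf)

theorem lamFin_eq_zero_iff [IsLocalRing O] (o : O) : lamFin O f hf o = 0 ↔ o ∈ maximalIdeal O :=
  residueLift_eq_zero_iff O _ _ o

theorem lamInv_eq_zero_iff [IsLocalRing O] (o : O) : lamInv O f hf o = 0 ↔ o ∈ maximalIdeal O :=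
  residueLift_eq_zero_iff O _ _ o

theorem lamFin_C (r : R) : lamFin O f hf (algebraMap R[X] O (C r)) =
    algebraMap 𝔽[X] (RatFunc 𝔽) (C (f r)) := by
  rw [lamFin, residueLift_algebraMap, phiFin_C, RatFunc.algebraMap_C, RatFunc.algebraMap_eq_C]

theorem lamInv_C (r : R) : lamInv O f hf (algebraMap R[X] O (C r)) =
    algebraMap 𝔽[X] (RatFunc 𝔽) (C (f r)) := by
  rw [lamInv, residueLift_algebraMap, phiInv_C, RatFunc.algebraMap_C, RatFunc.algebraMap_eq_C]

theorem ratFuncMap_X : H61.ratFuncMap 𝔽 K RatFunc.X = RatFunc.X := by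
  rw [← RatFunc.algebraMap_X, H61.ratFuncMap_algebraMap, Polynomial.map_X, RatFunc.algebraMap_X]

/-- The standard map `ℤ[Y] → K(T)`. -/
noncomputable def stdHom : ℤ[X] →+* RatFunc K :=
  (algebraMap K[X] (RatFunc K)).comp (Polynomial.mapRingHom (Int.castRingHom K))

omit [Algebra 𝔽 K] in
theorem redModPoly_eq (Φ : Polynomial ℤ[X]) : redModPoly K Φ = Φ.map (stdHom K) := rfl

theorem comp_pushFin :
    ((H61.ratFuncMap 𝔽 K).comp (lamFin O f hf)).comp (pushFin R O) = stdHom K := by
  refine Polynomial.ringHom_ext' (RingHom.ext_int _ _) ?_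
  simp only [RingHom.comp_apply, pushFin_X, lamFin, residueLift_algebraMap, phiFin_X,
    ratFuncMap_X, stdHom, coe_mapRingHom, Polynomial.map_X, RatFunc.algebraMap_X]

theorem comp_pushInv (hϖ : ¬ IsUnit ϖ) :
    ((H61.ratFuncMap 𝔽 K).comp (lamInv O f hf)).comp (pushInv O hϖ) = stdHom K := by
  refine Polynomial.ringHom_ext' (RingHom.ext_int _ _) ?_
  simp only [RingHom.comp_apply, map_pushInv_X, lamInv, residueLift_algebraMap, phiInv_X,
    map_inv₀, inv_inv, ratFuncMap_X, stdHom, coe_mapRingHom, Polynomial.map_X,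
    RatFunc.algebraMap_X]

/-- Finite chart: the reduction of the pushed polynomial is `redModPoly K Φ`. -/
theorem map_pushFin_reduce (Φ : Polynomial ℤ[X]) :
    ((Φ.map (pushFin R O)).map (lamFin O f hf)).map (H61.ratFuncMap 𝔽 K) = redModPoly K Φ := by
  rw [Polynomial.map_map, Polynomial.map_map, comp_pushFin, redModPoly_eq]

/-- Chart at infinity: the reduction of the pushed polynomial is `redModPoly K Φ`. -/
theorem map_pushInv_reduce (hϖ : ¬ IsUnit ϖ) (Φ : Polynomial ℤ[X]) :
    ((Φ.map (pushInv O hϖ)).map (lamInv O f hf)).map (H61.ratFuncMap 𝔽 K) = redModPoly K Φ := by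
  rw [Polynomial.map_map, Polynomial.map_map, comp_pushInv, redModPoly_eq]

end Reduce

end Fermat.Agent.S28.H92
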