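import Mathlib
import Fermat.Agent.S28.H61_ChartCore
import Fermat.Agent.S28.H69_ChartSetup
import Fermat.Agent.S28.H69_Hgen
import Fermat.Agent.S28.H92_RatLoc
import Fermat.Agent.S28.H92_Reduce

/-!
# The two chart algebras tensored with `K` are domains (helper92, S28 / W3 instantiation, hedge)
-/

set_option autoImplicit false
set_option linter.style.haveILetI false

open Polynomial IsLocalRing ModularCurve ModularCurve.IgusaScheme TensorProduct IntermediateField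

noncomputable section

namespace Fermat.Agent.S28.H92

section Chart

variable (N : ℕ) [NeZero N] (ℓ : ℕ) [hℓ : Fact ℓ.Prime]

set_option quotPrecheck false in
local notation "ℤℓ" => ↥(GaloisRep.ratLocalizedAt ℓ)

set_option quotPrecheck false in
local notation "F" => ↥(modularFunctionFieldFull N)

/-- The residue field of `ℤ_(ℓ)`. -/
abbrev Fl : Type := ResidueField ℤℓ

/-- The Gauss DVR `ℤ_(ℓ)[X]_(ℓ)`. -/
abbrev OGauss : Type := Localization.AtPrime (gaussIdeal ((ℓ : ℕ) : ℤℓ))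

theorem residue_eq_zero_iff (r : ℤℓ) : algebraMap ℤℓ (Fl ℓ) r = 0 ↔ ((ℓ : ℕ) : ℤℓ) ∣ r := by
  rw [ResidueField.algebraMap_eq, IsLocalRing.residue_eq_zero_iff, maximalIdeal_ratLoc,
    Ideal.mem_span_singleton]

variable (K : Type) [Field K] [CharP K ℓ] [Algebra ↥(GaloisRep.ratLocalizedAt ℓ) K]

/-- `K` as an algebra over the residue field of `ℤ_(ℓ)`. -/
@[instance_reducible] def algFlK : Algebra (Fl ℓ) K :=
  (Ideal.Quotient.lift (maximalIdeal ℤℓ) (algebraMap ℤℓ K) (fun a ha => by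
    rw [algebraMap_eq_zero_iff ℓ K, ← Ideal.mem_span_singleton, ← maximalIdeal_ratLoc]
    exact ha)).toAlgebra

theorem isScalarTower_FlK :
    letI := algFlK ℓ K
    IsScalarTower ℤℓ (Fl ℓ) K := by
  let _ := algFlK ℓ K
  exact IsScalarTower.of_algebraMap_eq fun z => rfl

set_option maxHeartbeats 1000000 in
/-- The generic chart: `s` a generator of `ℚ(j)` which is transcendental over `ℤ_(ℓ)`, `push` a
ring hom `ℤ[Y] → O` whose image of `Y` acts on `F` as `j`, `lam` a residue map such that the pushed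
and reduced polynomial is `redModPoly K Φ`. -/
theorem isDomain_chart (s : F) (hs : Transcendental ℤℓ s)
    (hsQ : ℚ⟮(s : LaurentSeries ℚ)⟯ = ℚ⟮jq⟯)
    (D : ModularPolynomialData N) (hG : FunctionFieldGeneration N)
    (push : ℤ[X] →+* OGauss ℓ)
    (hpush : toField ((ℓ : ℕ) : ℤℓ) (OGauss ℓ) s hs (push X) = jFull N)
    (lam : OGauss ℓ →+* RatFunc (Fl ℓ))
    (hlam : ∀ o, lam o = 0 ↔ o ∈ maximalIdeal (OGauss ℓ))
    (hlamZ : ∀ z : ℤℓ, lam (algebraMap ℤℓ[X] (OGauss ℓ) (C z)) =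
      algebraMap (Fl ℓ)[X] (RatFunc (Fl ℓ)) (C (algebraMap ℤℓ (Fl ℓ) z)))
    (hred : letI := algFlK ℓ K
      ((D.Φ.map push).map lam).map (H61.ratFuncMap (Fl ℓ) K) = redModPoly K D.Φ)
    (hirr : Irreducible (redModPoly K D.Φ)) :
    IsDomain (↥(chartAlg N ℓ {s}) ⊗[ℤℓ] K) := by
  letI := algFlK ℓ K
  haveI := isScalarTower_FlK ℓ K
  letI algPF : Algebra ℤℓ[X] F := (aeval (R := ℤℓ) s).toRingHom.toAlgebra
  haveI towZPF : IsScalarTower ℤℓ ℤℓ[X] F := IsScalarTower.of_algebraMap_eq fun z => by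
    show algebraMap ℤℓ F z = aeval s (C z)
    rw [aeval_C]
  have hinj : Function.Injective (aeval (R := ℤℓ) s) := transcendental_iff_injective.mp hs
  haveI : FaithfulSMul ℤℓ[X] F := (faithfulSMul_iff_algebraMap_injective _ _).mpr hinj
  haveI : IsDomain (OGauss ℓ) := gauss_isDomain (ϖ := ((ℓ : ℕ) : ℤℓ)) (OGauss ℓ)
  haveI : IsDiscreteValuationRing (OGauss ℓ) :=
    gauss_isDiscreteValuationRing (ϖ := ((ℓ : ℕ) : ℤℓ)) (OGauss ℓ) (ell_ne_zero ℓ)
  letI algOF : Algebra (OGauss ℓ) F := (toField ((ℓ : ℕ) : ℤℓ) (OGauss ℓ) s hs).toAlgebra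
  haveI towPOF : IsScalarTower ℤℓ[X] (OGauss ℓ) F := IsScalarTower.of_algebraMap_eq fun p => by
    show aeval s p = toField ((ℓ : ℕ) : ℤℓ) (OGauss ℓ) s hs (algebraMap _ _ p)
    rw [toField_algebraMap]
  have hCalg : ∀ z : ℤℓ, algebraMap ℤℓ ℤℓ[X] z = C z := fun z => rfl
  have hprime : Prime (algebraMap ℤℓ ℤℓ[X] ((ℓ : ℕ) : ℤℓ)) := by
    rw [hCalg]; exact prime_C_iff.mpr (prime_ell ℓ)
  haveI hI : (Ideal.span {algebraMap ℤℓ ℤℓ[X] ((ℓ : ℕ) : ℤℓ)}).IsPrime :=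
    gaussIdeal_isPrime_ratLoc ℓ
  haveI hLoc : IsLocalization.AtPrime (OGauss ℓ)
      (Ideal.span {algebraMap ℤℓ ℤℓ[X] ((ℓ : ℕ) : ℤℓ)}) :=
    inferInstanceAs (IsLocalization.AtPrime (OGauss ℓ) (gaussIdeal ((ℓ : ℕ) : ℤℓ)))
  have hθ : aeval (H69.jNFull N) (D.Φ.map push) = 0 :=
    H69.aeval_jNFull_map_eq_zero N D push hpush
  have hgen : ∀ x : F, ∃ c : ℤℓ[X], c ≠ 0 ∧
      algebraMap ℤℓ[X] F c * x ∈ Algebra.adjoin ℤℓ[X] {H69.jNFull N} :=
    H69.exists_mul_mem_adjoin N ℓ D hG s hsQ (fun _ => rfl)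
  have hA : ∀ x : F, x ∈ chartAlg N ℓ {s} ↔ IsIntegral ℤℓ[X] x :=
    fun x => H69.mem_chartAlg_singleton_iff N ℓ s x
  refine H61.isDomain_tensor_chart (Z := ℤℓ) (P := ℤℓ[X]) (O := OGauss ℓ) (𝔽 := Fl ℓ)
    (K := K) IsLocalRing.residue_surjective ((ℓ : ℕ) : ℤℓ) ?_ hprime (D.Φ.map push)
    (D.monic.map push) (H69.jNFull N) hθ hgen lam hlam hlamZ ?_ (chartAlg N ℓ {s}) hA
  · rw [residue_eq_zero_iff]
  · rw [hred]; exact hirr

/-- The finite chart. -/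
theorem isDomain_chartAlgFin (D : ModularPolynomialData N) (hG : FunctionFieldGeneration N)
    (hirr : Irreducible (redModPoly K D.Φ)) :
    IsDomain (↥(chartAlgFin N ℓ) ⊗[ℤℓ] K) := by
  letI := algFlK ℓ K
  exact isDomain_chart N ℓ K (jFull N) (transcendental_jFull N ℓ) rfl D hG
    (pushFin ℤℓ (OGauss ℓ)) (toField_pushFin_X (OGauss ℓ) (jFull N) (transcendental_jFull N ℓ))
    (lamFin (OGauss ℓ) (algebraMap ℤℓ (Fl ℓ)) (residue_eq_zero_iff ℓ))
    (lamFin_eq_zero_iff (OGauss ℓ) _ _) (lamFin_C (OGauss ℓ) _ _)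
    (map_pushFin_reduce (OGauss ℓ) _ _ K D.Φ) hirr

theorem adjoin_coe_jFull_inv :
    ℚ⟮(((jFull N)⁻¹ : F) : LaurentSeries ℚ)⟯ = ℚ⟮jq⟯ := by
  have h : (((jFull N)⁻¹ : F) : LaurentSeries ℚ) = jq⁻¹ := rfl
  rw [h]
  exact H69.adjoin_simple_inv_eq jq

/-- The chart at infinity. -/
theorem isDomain_chartAlgInf (D : ModularPolynomialData N) (hG : FunctionFieldGeneration N)
    (hirr : Irreducible (redModPoly K D.Φ)) :
    IsDomain (↥(chartAlgInf N ℓ) ⊗[ℤℓ] K) := by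
  letI := algFlK ℓ K
  exact isDomain_chart N ℓ K (jFull N)⁻¹ (transcendental_jFull_inv N ℓ)
    (adjoin_coe_jFull_inv N) D hG
    (pushInv (OGauss ℓ) (not_isUnit_ell ℓ))
    (by rw [toField_pushInv_X, inv_inv])
    (lamInv (OGauss ℓ) (algebraMap ℤℓ (Fl ℓ)) (residue_eq_zero_iff ℓ))
    (lamInv_eq_zero_iff (OGauss ℓ) _ _) (lamInv_C (OGauss ℓ) _ _)
    (map_pushInv_reduce (OGauss ℓ) _ _ K (not_isUnit_ell ℓ) D.Φ) hirr

end Chart

end Fermat.Agent.S28.H92
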