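import Mathlib
import Fermat.Agent.S28.H43_Step
import Fermat.Agent.S28.H16_RatFuncEmb
import Fermat.Agent.S28.H39_Laurent

/-!
# `RatFunc k ≃ k(J(t^N))` and irreducibility of `redModPoly` (helper92, adapter (3) of #1347)
-/

set_option autoImplicit false

noncomputable section

namespace Fermat.Agent.S28.H92

open ModularCurve Polynomial IntermediateField Fermat.Agent.S28

section General

variable {k : Type*} [Field k] (x : LaurentSeries k)
  (hx : Function.Injective (Polynomial.aeval (R := k) x))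

theorem ratFuncToLaurent_mem (r : RatFunc k) : H16.ratFuncToLaurent x hx r ∈ k⟮x⟯ := by
  induction r using RatFunc.induction_on with
  | f p q hq =>
    rw [map_div₀, H16.ratFuncToLaurent_algebraMap, H16.ratFuncToLaurent_algebraMap]
    have hmem : ∀ P : k[X], Polynomial.aeval x P ∈ k⟮x⟯ := fun P =>
      IntermediateField.algebra_adjoin_le_adjoin k {x} (aeval_mem_adjoin_singleton k x)
    exact div_mem (hmem p) (hmem q)

theorem exists_ratFuncToLaurent_eq {y : LaurentSeries k} (hy : y ∈ k⟮x⟯) :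
    ∃ r : RatFunc k, H16.ratFuncToLaurent x hx r = y := by
  obtain ⟨p, q, rfl⟩ := (mem_adjoin_simple_iff k y).mp hy
  refine ⟨algebraMap k[X] (RatFunc k) p / algebraMap k[X] (RatFunc k) q, ?_⟩
  rw [map_div₀, H16.ratFuncToLaurent_algebraMap, H16.ratFuncToLaurent_algebraMap]

/-- The ring isomorphism `k(X) ≃ k(x)` for `x` transcendental. -/
def ratFuncEquivAdjoin : RatFunc k ≃+* ↥(k⟮x⟯) :=
  RingEquiv.ofBijective
    ((H16.ratFuncToLaurent x hx).codRestrict (k⟮x⟯).toSubring (ratFuncToLaurent_mem x hx))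
    ⟨fun a b h => H16.ratFuncToLaurent_injective x hx (congrArg Subtype.val h),
      fun y => by
        obtain ⟨r, hr⟩ := exists_ratFuncToLaurent_eq x hx y.2
        exact ⟨r, Subtype.ext hr⟩⟩

@[simp] theorem coe_ratFuncEquivAdjoin (r : RatFunc k) :
    ((ratFuncEquivAdjoin x hx r : ↥(k⟮x⟯)) : LaurentSeries k) = H16.ratFuncToLaurent x hx r := rfl

theorem subtype_comp_ratFuncEquivAdjoin :
    (algebraMap ↥(k⟮x⟯) (LaurentSeries k)).comp (ratFuncEquivAdjoin x hx : RatFunc k →+* ↥(k⟮x⟯))
      = H16.ratFuncToLaurent x hx := rfl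

end General

section Concrete

variable (k : Type*) [Field k] (N : ℕ) [NeZero N]

theorem order_J0_neg : (H43.J0 (k := k) N).order < 0 := by
  rw [H43.J0, H39.order_qExpand, H39.order_jqModC]
  have : (0 : ℤ) < N := by exact_mod_cast Nat.pos_of_ne_zero (NeZero.ne N)
  linarith

theorem aeval_J0_injective :
    Function.Injective (Polynomial.aeval (R := k) (H43.J0 (k := k) N)) :=
  H39.aeval_injective_of_order_neg (order_J0_neg k N)

/-- `RatFunc k ≃ k(J(t^N))`, `X ↦ J(t^N)`. -/
def ratFuncEquivF0 : RatFunc k ≃+* ↥(H43.F0 (k := k) N) :=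
  ratFuncEquivAdjoin (H43.J0 (k := k) N) (aeval_J0_injective k N)

theorem polyF_eq_map (Φ : Polynomial ℤ[X]) :
    H43.polyF (k := k) N Φ =
      (redModPoly k Φ).map (ratFuncEquivF0 k N : RatFunc k →+* ↥(H43.F0 (k := k) N)) := by
  apply Polynomial.map_injective (algebraMap ↥(H43.F0 (k := k) N) (LaurentSeries k))
    (algebraMap ↥(H43.F0 (k := k) N) (LaurentSeries k)).injective
  rw [H43.polyF_map, Polynomial.map_map]
  have h : (algebraMap ↥(H43.F0 (k := k) N) (LaurentSeries k)).comp
      (ratFuncEquivF0 k N : RatFunc k →+* ↥(H43.F0 (k := k) N)) =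
      H16.ratFuncToLaurent (H43.J0 (k := k) N) (aeval_J0_injective k N) := rfl
  rw [h, H16.redModPoly_map_ratFuncToLaurent, H43.evalJ_eq_evalZ]

/-- Adapter (3) of #1347. -/
theorem irreducible_redModPoly_iff (Φ : Polynomial ℤ[X]) :
    Irreducible (redModPoly k Φ) ↔ Irreducible (H43.polyF (k := k) N Φ) := by
  rw [polyF_eq_map]
  exact (MulEquiv.irreducible_iff (Polynomial.mapEquiv (ratFuncEquivF0 k N)).toMulEquiv).symm

end Concrete

end Fermat.Agent.S28.H92
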