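import Mathlib
import Fermat.Agent.S24.H15_JConj
import Fermat.Agent.S24.H6_KeyA
import Fermat.Agent.S24.H24_Group
import Fermat.Agent.S20.H78_Index
import Fermat.Agent.S28.Defs
import Fermat.Agent.S28.H64_Triples

/-!
# S28 / W1b hedge, part 1 (helper98): the analytic product identity indexed by primitive triples

KEY-a of S24 on the coset space `XN m = SL(2,ℤ) ⧸ Γ₀(m)` with the landed conjugates `H15.JX m m`
gives a monic `P ∈ ℂ[Y][X]` with `P(J τ, X) = ∏_{x : XN m} (X - JX x τ)`. Each `JX x` is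
`J ∘ aff a b d` for a primitive triple `(a,b,d)` of determinant `m` (Hermite normal form), the
assignment is injective and both sides have `ψ(m)` elements, hence the product can be re-indexed by
`triples m`.
-/

set_option autoImplicit false

noncomputable section

namespace Fermat.Agent.S28.H98

open UpperHalfPlane MatrixGroups Matrix Polynomial
open Fermat.Agent.S24 Fermat.Agent.S28

/-- `τ ↦ J ((a τ + b) / d)` for a triple `(a,b,d)` (junk `0` unless `0 < a` and `0 < d`). -/
def JAff (t : ℕ × ℕ × ℕ) : ℍ → ℂ :=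
  if h : 0 < t.1 ∧ 0 < t.2.2 then fun τ => H28.J (H15.aff t.1 t.2.1 t.2.2 h.1 h.2 τ) else 0

theorem JAff_apply (a b d : ℕ) (ha : 0 < a) (hd : 0 < d) (τ : ℍ) :
    JAff (a, b, d) τ = H28.J (H15.aff a b d ha hd τ) := by
  unfold JAff
  rw [dif_pos ⟨ha, hd⟩]

/-- Primitivity of the Hermite normal form of `diag(M,1) γ`. -/
theorem gcd_eq_one_of_hermite (M : ℕ) (γ γ' : SL(2, ℤ)) (a b d : ℕ)
    (h : !![(M : ℤ), 0; 0, 1] * (γ : Matrix (Fin 2) (Fin 2) ℤ) =
        (γ' : Matrix (Fin 2) (Fin 2) ℤ) * !![(a : ℤ), (b : ℤ); 0, (d : ℤ)]) :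
    Nat.gcd a (Nat.gcd b d) = 1 := by
  set g : ℕ := Nat.gcd a (Nat.gcd b d) with hg
  have hga : (g : ℤ) ∣ a := by exact_mod_cast Nat.gcd_dvd_left a _
  have hgb : (g : ℤ) ∣ b := by
    exact_mod_cast (Nat.gcd_dvd_right a _).trans (Nat.gcd_dvd_left b d)
  have hgd : (g : ℤ) ∣ d := by
    exact_mod_cast (Nat.gcd_dvd_right a _).trans (Nat.gcd_dvd_right b d)
  have h10 := congr_fun (congr_fun h 1) 0
  have h11 := congr_fun (congr_fun h 1) 1
  simp [Matrix.mul_apply, Fin.sum_univ_two] at h10 h11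
  -- second row of `diag(M,1) γ` is the second row of `γ`
  have hr : (g : ℤ) ∣ γ 1 0 := by
    rw [h10]
    exact Dvd.dvd.mul_left hga _
  have hs : (g : ℤ) ∣ γ 1 1 := by
    rw [h11]
    exact dvd_add (Dvd.dvd.mul_left hgb _) (Dvd.dvd.mul_left hgd _)
  have hdet : γ 0 0 * γ 1 1 - γ 0 1 * γ 1 0 = 1 := by
    have := γ.det_coe
    rw [Matrix.det_fin_two] at this
    exact this
  have h1 : (g : ℤ) ∣ 1 := by
    rw [← hdet]
    exact dvd_sub (Dvd.dvd.mul_left hs _) (Dvd.dvd.mul_left hr _)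
  have : g ∣ 1 := by exact_mod_cast h1
  exact Nat.dvd_one.mp this

/-- Every conjugate `JX x` is `J ∘ aff a b d` for a primitive triple. -/
theorem exists_triple (m : ℕ) (hm : 0 < m) (x : H24.XN m) :
    ∃ t ∈ triples m, H15.JX m m hm (dvd_refl m) x = JAff t := by
  induction x using QuotientGroup.induction_on with
  | H γ =>
    obtain ⟨γ', a, b, d, had, hbd, h⟩ := H15.exists_hermite m hm γ⁻¹
    have ha : 0 < a := by
      rcases Nat.eq_zero_or_pos a with h0 | h0
      · rw [h0, zero_mul] at had; omega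
      · exact h0
    have hd : 0 < d := by omega
    refine ⟨(a, b, d), (mem_triples hm).mpr ⟨had, hbd, gcd_eq_one_of_hermite m γ⁻¹ γ' a b d h⟩, ?_⟩
    funext τ
    rw [H15.JX_mk, H15.Jconj_apply, JAff_apply a b d ha hd]
    exact H15.conj_eq H28.J H28.J_smul m hm γ⁻¹ γ' a b d ha hd h τ

/-- The triple attached to a coset. -/
def tripleOf (m : ℕ) (hm : 0 < m) (x : H24.XN m) : ℕ × ℕ × ℕ :=
  (exists_triple m hm x).choose

theorem tripleOf_mem (m : ℕ) (hm : 0 < m) (x : H24.XN m) : tripleOf m hm x ∈ triples m :=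
  (exists_triple m hm x).choose_spec.1

theorem JX_eq_JAff (m : ℕ) (hm : 0 < m) (x : H24.XN m) :
    H15.JX m m hm (dvd_refl m) x = JAff (tripleOf m hm x) :=
  (exists_triple m hm x).choose_spec.2

theorem tripleOf_injective (m : ℕ) (hm : 0 < m) : Function.Injective (tripleOf m hm) := by
  intro x y hxy
  apply H15.JX_injective m hm
  rw [JX_eq_JAff, JX_eq_JAff, hxy]

theorem card_XN (m : ℕ) [NeZero m] : Fintype.card (H24.XN m) = (triples m).card := by
  rw [H64.card_triples m (NeZero.pos m), ← S20.H78.card_quotient_Gamma0 m, Nat.card_eq_fintype_card]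

/-- Re-indexing a product over the cosets as a product over the primitive triples. -/
theorem prod_XN_eq_prod_triples (m : ℕ) [NeZero m] {M : Type*} [CommMonoid M]
    (F : (ℕ × ℕ × ℕ) → M) :
    ∏ x : H24.XN m, F (tripleOf m (NeZero.pos m) x) = ∏ t ∈ triples m, F t := by
  have hm := NeZero.pos m
  have himg : Finset.univ.image (tripleOf m hm) = triples m := by
    apply Finset.eq_of_subset_of_card_le
    · intro t ht
      obtain ⟨x, -, rfl⟩ := Finset.mem_image.mp ht
      exact tripleOf_mem m hm x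
    · rw [Finset.card_image_of_injective _ (tripleOf_injective m hm), Finset.card_univ, card_XN]
  rw [← himg, Finset.prod_image (fun x _ y _ h => tripleOf_injective m hm h)]

/-- **Analytic product identity indexed by triples** (W1b (A)). -/
theorem exists_modPolyC (m : ℕ) [NeZero m] :
    ∃ P : Polynomial (Polynomial ℂ), P.Monic ∧ P.natDegree = (triples m).card ∧
      ∀ τ : ℍ, P.map (Polynomial.evalRingHom (H28.J τ)) =
        ∏ t ∈ triples m, (Polynomial.X - Polynomial.C (JAff t τ)) := by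
  have hm := NeZero.pos m
  obtain ⟨C, M, -, hCM⟩ := H15.exists_uniform_bound (H15.JX m m hm (dvd_refl m))
    (fun x => H15.isGrow_JX m m hm (dvd_refl m) x) (fun _ => (1 : SL(2, ℤ)))
  obtain ⟨P, hmonic, hdeg, -, hP⟩ := H6.exists_charpoly_of_conjugates' H28.J (fun _ => rfl)
    (H15.JX m m hm (dvd_refl m)) (fun x => H15.JX_mdiff m m hm (dvd_refl m) x)
    (fun γ x τ => H15.JX_smul m m hm (dvd_refl m) γ x τ) M C
    (fun x τ hτ => by simpa using hCM x τ hτ)
  refine ⟨P, hmonic, by rw [hdeg, card_XN], fun τ => ?_⟩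
  rw [hP τ, ← prod_XN_eq_prod_triples m (fun t => (Polynomial.X - Polynomial.C (JAff t τ)))]
  refine Finset.prod_congr rfl fun x _ => ?_
  rw [JX_eq_JAff m hm x]

end Fermat.Agent.S28.H98
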