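import Mathlib
import Fermat.Prelude.Def_ModularCurve_X0ModL
import Fermat.Agent.S28.Defs
import Fermat.Agent.S28.Interface

/-!
# S28 / W1d: transfer of the W1 statements along ring homomorphisms (helper98)

`coeffMap f` commutes with everything in `Defs`/`Interface`; `RootsAt` is functorial in the
coefficient ring and descends along injective ring homomorphisms; the cyclotomic ring
`ℤ[X]/(Φ_m)` maps to every domain with a primitive `m`-th root of unity, injectively in
characteristic zero. Final: `RootsAt ℂ m ζ₀ Φ` for one primitive root `ζ₀` gives `RootsAt k m ζ Φ`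
for every field `k` and every primitive `m`-th root `ζ` of `k`.
-/

set_option autoImplicit false

noncomputable section

namespace Fermat.Agent.S28.H98

open ModularCurve HahnSeries Polynomial Fermat.Agent.S28

variable {R S : Type*} [CommRing R] [CommRing S]

theorem coeffMap_injective (f : R →+* S) (hf : Function.Injective f) :
    Function.Injective (coeffMap f) := by
  intro x y h
  ext k
  apply hf
  have := congrArg (fun z => z.coeff k) h
  simpa using this

theorem coeffMap_twist (f : R →+* S) (ξ : Rˣ) (x : LaurentSeries R) :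
    coeffMap f (twist ξ x) = twist (Units.map (f : R →* S) ξ) (coeffMap f x) := by
  ext n
  simp only [coeffMap_coeff, twist_coeff, map_mul]
  congr 1
  rw [← map_zpow]
  rfl

theorem coeffMap_subst (f : R →+* S) (ξ : Rˣ) (e : ℕ) [NeZero e] (x : LaurentSeries R) :
    coeffMap f (subst ξ e x) = subst (Units.map (f : R →* S) ξ) e (coeffMap f x) := by
  rw [subst_apply, subst_apply, coeffMap_qExpand, coeffMap_twist]

theorem coeffMap_Jconj (f : R →+* S) (ξ : Rˣ) (e : ℕ) [NeZero e] :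
    coeffMap f (Jconj R ξ e) = Jconj S (Units.map (f : R →* S) ξ) e := by
  rw [Jconj, Jconj, coeffMap_subst, coeffMap_jqModC]

theorem coeffMap_thetaOp (f : R →+* S) (x : LaurentSeries R) :
    coeffMap f (thetaOp x) = thetaOp (coeffMap f x) := by
  ext n
  simp

theorem coeffMap_comp_evalJ (f : R →+* S) (x : LaurentSeries R) :
    (coeffMap f).comp (evalJ x) = evalJ (coeffMap f x) := by
  apply Polynomial.ringHom_ext
  · intro a
    simp [evalJ]
  · simp [evalJ]

theorem coeffMap_eval₂_evalJ (f : R →+* S) (Φ : Polynomial ℤ[X]) (x y : LaurentSeries R) :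
    coeffMap f (Φ.eval₂ (evalJ x) y) = Φ.eval₂ (evalJ (coeffMap f x)) (coeffMap f y) := by
  rw [Polynomial.hom_eval₂, coeffMap_comp_evalJ]

/-! ### Functoriality of `RootsAt` -/

theorem rootsAt_map (f : R →+* S) {m : ℕ} [NeZero m] {ζ : Rˣ} {Φ : Polynomial ℤ[X]}
    (h : RootsAt R m ζ Φ) : RootsAt S m (Units.map (f : R →* S) ζ) Φ := by
  intro a b d habd hne
  have h1 := congrArg (coeffMap f) (h a b d habd hne)
  rw [map_zero, coeffMap_eval₂_evalJ, coeffMap_qExpand, coeffMap_jqModC, coeffMap_Jconj,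
    map_pow] at h1
  exact h1

theorem rootsAt_of_injective (f : R →+* S) (hf : Function.Injective f) {m : ℕ} [NeZero m]
    {ζ : Rˣ} {Φ : Polynomial ℤ[X]} (h : RootsAt S m (Units.map (f : R →* S) ζ) Φ) :
    RootsAt R m ζ Φ := by
  intro a b d habd hne
  apply coeffMap_injective f hf
  rw [map_zero, coeffMap_eval₂_evalJ, coeffMap_qExpand, coeffMap_jqModC, coeffMap_Jconj,
    map_pow]
  exact h a b d habd hne

/-! ### `Δ`, `1/Δ`, `Δ(q^p)/Δ(q)` -/

theorem coeffMap_DeltaS (f : R →+* S) : coeffMap f (DeltaS R) = DeltaS S := by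
  rw [DeltaS, DeltaS, map_mul, coeffMap_single, map_one, coeffMap_ofPowerSeries,
    ← RingHom.comp_apply (PowerSeries.map f) (PowerSeries.map (Int.castRingHom R)),
    ← PowerSeries.map_comp, RingHom.ext_int (f.comp (Int.castRingHom R)) (Int.castRingHom S)]

theorem coeffMap_DeltaSInv (f : R →+* S) : coeffMap f (DeltaSInv R) = DeltaSInv S := by
  rw [DeltaSInv, DeltaSInv, map_mul, coeffMap_single, map_one, coeffMap_ofPowerSeries,
    ← RingHom.comp_apply (PowerSeries.map f) (PowerSeries.map (Int.castRingHom R)),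
    ← PowerSeries.map_comp, RingHom.ext_int (f.comp (Int.castRingHom R)) (Int.castRingHom S)]

theorem coeffMap_DeltaQuot (f : R →+* S) (p : ℕ) [NeZero p] :
    coeffMap f (DeltaQuot R p) = DeltaQuot S p := by
  rw [DeltaQuot, DeltaQuot, map_mul, coeffMap_qExpand, coeffMap_DeltaS, coeffMap_DeltaSInv]

/-- A `Δ`-quotient polynomial over `ℤ` kills `p^12 Δ(q^p)/Δ(q)` over every ring. -/
theorem IsDeltaQuotPoly.eval₂_eq_zero {p : ℕ} [NeZero p] {P : Polynomial ℤ[X]}
    (h : IsDeltaQuotPoly p P) (R : Type*) [CommRing R] :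
    P.eval₂ (evalJ (jqModC R)) ((p : LaurentSeries R) ^ 12 * DeltaQuot R p) = 0 := by
  have h1 := congrArg (coeffMap (Int.castRingHom R)) h.2
  rw [map_zero, coeffMap_eval₂_evalJ, coeffMap_jqModC, map_mul, map_pow, map_natCast,
    coeffMap_DeltaQuot] at h1
  exact h1

/-! ### The cyclotomic ring `ℤ[X]/(Φ_m)` -/

/-- `ℤ[ζ_m] = ℤ[X]/(Φ_m)`. -/
abbrev CycloRing (m : ℕ) : Type := AdjoinRoot (cyclotomic m ℤ)

theorem cycloRoot_pow (m : ℕ) : (AdjoinRoot.root (cyclotomic m ℤ)) ^ m = 1 := by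
  obtain ⟨g, hg⟩ := cyclotomic.dvd_X_pow_sub_one m ℤ
  have h1 : AdjoinRoot.mk (cyclotomic m ℤ) (X ^ m - 1) = 0 := by
    rw [hg, map_mul, AdjoinRoot.mk_self, zero_mul]
  rw [map_sub, map_pow, AdjoinRoot.mk_X, map_one, sub_eq_zero] at h1
  exact h1

/-- The canonical root of unity of `ℤ[ζ_m]` as a unit. -/
def cycloUnit (m : ℕ) [NeZero m] : (CycloRing m)ˣ :=
  Units.ofPowEqOne _ m (cycloRoot_pow m) (NeZero.ne m)

@[simp] theorem coe_cycloUnit (m : ℕ) [NeZero m] :
    ((cycloUnit m : (CycloRing m)ˣ) : CycloRing m) = AdjoinRoot.root (cyclotomic m ℤ) := rfl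

section Hom

variable {k : Type*} [CommRing k] [IsDomain k] {m : ℕ} [NeZero m]

/-- `ℤ[ζ_m] → k`, `ζ_m ↦ ζ`, for a primitive `m`-th root of unity `ζ` of a domain `k`. -/
def cycloHom (ζ : k) (hζ : IsPrimitiveRoot ζ m) : CycloRing m →+* k :=
  AdjoinRoot.lift (Int.castRingHom k) ζ (by
    rw [Polynomial.eval₂_eq_eval_map, map_cyclotomic]
    exact hζ.isRoot_cyclotomic (NeZero.pos m))

@[simp] theorem cycloHom_root (ζ : k) (hζ : IsPrimitiveRoot ζ m) :
    cycloHom ζ hζ (AdjoinRoot.root (cyclotomic m ℤ)) = ζ := by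
  simp [cycloHom]

theorem cycloHom_mk (ζ : k) (hζ : IsPrimitiveRoot ζ m) (g : ℤ[X]) :
    cycloHom ζ hζ (AdjoinRoot.mk (cyclotomic m ℤ) g) = aeval ζ g := by
  simp [cycloHom, aeval_def]

theorem units_map_cycloHom (ζ : kˣ) (hζ : IsPrimitiveRoot (ζ : k) m) :
    Units.map (cycloHom (ζ : k) hζ : CycloRing m →* k) (cycloUnit m) = ζ := by
  ext
  simp

end Hom

/-- In characteristic zero `ℤ[ζ_m] → K` is injective (`Φ_m` is the minimal polynomial). -/
theorem cycloHom_injective {K : Type*} [Field K] [CharZero K] {m : ℕ} [NeZero m] (ζ : K)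
    (hζ : IsPrimitiveRoot ζ m) : Function.Injective (cycloHom ζ hζ) := by
  rw [injective_iff_map_eq_zero]
  intro x hx
  obtain ⟨g, rfl⟩ := AdjoinRoot.mk_surjective x
  rw [cycloHom_mk] at hx
  rw [AdjoinRoot.mk_eq_zero, cyclotomic_eq_minpoly hζ (NeZero.pos m)]
  exact minpoly.isIntegrallyClosed_dvd (hζ.isIntegral (NeZero.pos m)) hx

/-! ### The final transfer theorem (W1d) -/

/-- **W1d.** If all formal conjugates are roots of `Φ` over ONE characteristic-zero field with
one primitive `m`-th root of unity (e.g. `ℂ`, `exp (2πi/m)`), they are roots over every field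
with a primitive `m`-th root of unity. -/
theorem rootsAt_of_charZero {K₀ : Type*} [Field K₀] [CharZero K₀] (m : ℕ) [NeZero m]
    (Φ : Polynomial ℤ[X]) (ζ₀ : K₀ˣ) (hζ₀ : IsPrimitiveRoot ζ₀ m) (h : RootsAt K₀ m ζ₀ Φ)
    (k : Type*) [Field k] (ζ : kˣ) (hζ : IsPrimitiveRoot ζ m) : RootsAt k m ζ Φ := by
  have hζ₀' : IsPrimitiveRoot (ζ₀ : K₀) m := IsPrimitiveRoot.coe_units_iff.mpr hζ₀
  have hζ' : IsPrimitiveRoot (ζ : k) m := IsPrimitiveRoot.coe_units_iff.mpr hζ
  have h1 : RootsAt (CycloRing m) m (cycloUnit m) Φ := by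
    apply rootsAt_of_injective (cycloHom (ζ₀ : K₀) hζ₀') (cycloHom_injective _ hζ₀')
    rw [units_map_cycloHom]
    exact h
  have h2 := rootsAt_map (cycloHom (ζ : k) hζ') h1
  rwa [units_map_cycloHom] at h2

/-- The `ℂ`-form consumed by `HasModPoly`. -/
theorem rootsAt_of_complex (m : ℕ) [NeZero m] (Φ : Polynomial ℤ[X]) (ζ₀ : ℂˣ)
    (hζ₀ : IsPrimitiveRoot ζ₀ m) (h : RootsAt ℂ m ζ₀ Φ) :
    ∀ (k : Type) [Field k] (ζ : kˣ), IsPrimitiveRoot ζ m → RootsAt k m ζ Φ :=
  fun k _ ζ hζ => rootsAt_of_charZero m Φ ζ₀ hζ₀ h k ζ hζ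

/-- `HasModPoly m` from the prelude data plus the complex statement. -/
theorem hasModPoly_of_complex (m : ℕ) [NeZero m] (D : ModularPolynomialData m) (ζ₀ : ℂˣ)
    (hζ₀ : IsPrimitiveRoot ζ₀ m) (h : RootsAt ℂ m ζ₀ D.Φ) : HasModPoly m :=
  ⟨D, rootsAt_of_complex m D.Φ ζ₀ hζ₀ h⟩

end Fermat.Agent.S28.H98
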