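import Mathlib

/-!
# Unramified simple extensions of a DVR (helper98, S28 pre-work, vocabulary neutral)

`O` a discrete valuation ring, `f : O[X]` monic whose reduction modulo the maximal ideal is
irreducible over the residue field. Then `AdjoinRoot f = O[X]/(f)` is a discrete valuation ring
whose maximal ideal is generated by the maximal ideal of `O`; in particular it is integrally
closed, and its residue ring `O[X]/(f) / 𝔪` is the field `κ[X]/(f̄)`.
-/

set_option autoImplicit false

open Polynomial IsLocalRing

namespace Fermat.Agent.S28.H98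

variable {O : Type*} [CommRing O] [IsDomain O] [IsDiscreteValuationRing O]

theorem irreducible_of_irreducible_map_residue {f : O[X]} (hf : f.Monic)
    (hirr : Irreducible (f.map (residue O))) : Irreducible f :=
  hf.irreducible_of_irreducible_map (residue O) f hirr

theorem isDomain_adjoinRoot {f : O[X]} (hf : f.Monic)
    (hirr : Irreducible (f.map (residue O))) : IsDomain (AdjoinRoot f) :=
  AdjoinRoot.isDomain_of_prime (irreducible_of_irreducible_map_residue hf hirr).prime

/-- The extended maximal ideal is maximal in `O[X]/(f)`. -/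
theorem isMaximal_map_maximalIdeal {f : O[X]}
    (hirr : Irreducible (f.map (residue O))) :
    ((maximalIdeal O).map (AdjoinRoot.of f)).IsMaximal := by
  have hmax : (Ideal.span ({f.map (Ideal.Quotient.mk (maximalIdeal O))} :
      Set (O ⧸ maximalIdeal O)[X])).IsMaximal := by
    have hirr' : Irreducible (f.map (Ideal.Quotient.mk (maximalIdeal O))) := hirr
    let _ : Field (O ⧸ maximalIdeal O) := Ideal.Quotient.field _
    exact PrincipalIdealRing.isMaximal_of_irreducible hirr'
  have e := AdjoinRoot.quotAdjoinRootEquivQuotPolynomialQuot (maximalIdeal O) f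
  rw [Ideal.Quotient.maximal_ideal_iff_isField_quotient] at hmax ⊢
  exact e.toMulEquiv.isField hmax

/-- Every maximal ideal of `O[X]/(f)` is the extended maximal ideal. -/
theorem eq_map_maximalIdeal_of_isMaximal {f : O[X]} (hf : f.Monic)
    (hirr : Irreducible (f.map (residue O))) (M : Ideal (AdjoinRoot f)) (hM : M.IsMaximal) :
    M = (maximalIdeal O).map (AdjoinRoot.of f) := by
  have : Module.Finite O (AdjoinRoot f) := hf.finite_adjoinRoot
  have : Algebra.IsIntegral O (AdjoinRoot f) := inferInstance
  have h1 : (M.comap (algebraMap O (AdjoinRoot f))).IsMaximal :=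
    Ideal.isMaximal_comap_of_isIntegral_of_isMaximal M
  have h2 : M.comap (algebraMap O (AdjoinRoot f)) = maximalIdeal O :=
    IsLocalRing.eq_maximalIdeal h1
  have h3 : (maximalIdeal O).map (AdjoinRoot.of f) ≤ M := by
    rw [Ideal.map_le_iff_le_comap, ← h2]
    exact le_of_eq rfl
  exact ((isMaximal_map_maximalIdeal hirr).eq_of_le hM.ne_top h3).symm

theorem isLocalRing_adjoinRoot {f : O[X]} (hf : f.Monic)
    (hirr : Irreducible (f.map (residue O))) : IsLocalRing (AdjoinRoot f) := by
  have := isDomain_adjoinRoot hf hirr
  exact IsLocalRing.of_unique_max_ideal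
    ⟨_, isMaximal_map_maximalIdeal hirr,
      fun M hM => eq_map_maximalIdeal_of_isMaximal hf hirr M hM⟩

theorem maximalIdeal_adjoinRoot {f : O[X]} (hf : f.Monic)
    (hirr : Irreducible (f.map (residue O))) :
    letI := isLocalRing_adjoinRoot hf hirr
    maximalIdeal (AdjoinRoot f) = (maximalIdeal O).map (AdjoinRoot.of f) := by
  let _ := isLocalRing_adjoinRoot hf hirr
  exact eq_map_maximalIdeal_of_isMaximal hf hirr _ (maximalIdeal.isMaximal _)

theorem isNoetherianRing_adjoinRoot {f : O[X]} (hf : f.Monic) :
    IsNoetherianRing (AdjoinRoot f) := by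
  have : Module.Finite O (AdjoinRoot f) := hf.finite_adjoinRoot
  exact IsNoetherianRing.of_finite O (AdjoinRoot f)

/-- **Main theorem**: `O[X]/(f)` is a DVR when `f` is monic with irreducible reduction. -/
theorem isDiscreteValuationRing_adjoinRoot {f : O[X]} (hf : f.Monic)
    (hirr : Irreducible (f.map (residue O))) :
    letI := isDomain_adjoinRoot hf hirr
    IsDiscreteValuationRing (AdjoinRoot f) := by
  letI := isDomain_adjoinRoot hf hirr
  letI := isLocalRing_adjoinRoot hf hirr
  have := isNoetherianRing_adjoinRoot hf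
  have hmax := maximalIdeal_adjoinRoot hf hirr
  obtain ⟨ϖ, hϖ⟩ := IsDiscreteValuationRing.exists_irreducible O
  have hspan : maximalIdeal O = Ideal.span {ϖ} := hϖ.maximalIdeal_eq
  have hdeg : f.degree ≠ 0 := by
    intro h0
    have : (f.map (residue O)).degree = 0 := by rw [hf.degree_map]; exact h0
    exact hirr.not_isUnit (Polynomial.isUnit_iff_degree_eq_zero.mpr this)
  have hinj : Function.Injective (AdjoinRoot.of f) := AdjoinRoot.of.injective_of_degree_ne_zero hdeg
  have hnf : ¬ IsField (AdjoinRoot f) := by
    intro hF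
    have h0 : maximalIdeal (AdjoinRoot f) = ⊥ := IsLocalRing.isField_iff_maximalIdeal_eq.mp hF
    have : AdjoinRoot.of f ϖ ∈ maximalIdeal (AdjoinRoot f) := by
      rw [hmax]
      exact Ideal.mem_map_of_mem _ (by rw [hspan]; exact Ideal.mem_span_singleton_self ϖ)
    rw [h0, Ideal.mem_bot] at this
    exact hϖ.ne_zero (hinj (by rw [this, map_zero]))
  have hprinc : (maximalIdeal (AdjoinRoot f)).IsPrincipal := by
    rw [hmax, hspan, Ideal.map_span, Set.image_singleton]
    exact ⟨⟨_, rfl⟩⟩
  exact ((IsDiscreteValuationRing.TFAE (AdjoinRoot f) hnf).out 4 0).mp hprinc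

end Fermat.Agent.S28.H98
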